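import Fermat.Agent.S14C.SI.Plan

/-!
# S14C / SI : existence of the Kummer extension `F(y^{1/p})`  ([SI-K], `SIPlan.KummerExists`)

`N := AdjoinRoot (X ^ p - C y)` is a number field, Galois of degree `p` over `F`, and
`θ := AdjoinRoot.root _` satisfies `θ ^ p = y`.
-/

set_option autoImplicit false

namespace Fermat.Agent.S14C.KummerExists

open IsDedekindDomain NumberField Polynomial Fermat.Agent.S14C.SIDefs

/-- [SI-K] existence of the Kummer extension `F(y^{1/p})` as a number field, Galois of
degree `p` over `F`. -/
theorem kummerExists : Fermat.Agent.S14C.SIPlan.KummerExists := by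
  intro F _ _ p hp ζ hζ y hy
  have H : Irreducible (X ^ p - C y : F[X]) := X_pow_sub_C_irreducible_of_prime hp.out hy
  have : Fact (Irreducible (X ^ p - C y : F[X])) := ⟨H⟩
  have hprim : (primitiveRoots p F).Nonempty :=
    ⟨ζ, (mem_primitiveRoots hp.out.pos).mpr hζ⟩
  have hsplit : IsSplittingField F (AdjoinRoot (X ^ p - C y : F[X])) (X ^ p - C y) :=
    isSplittingField_AdjoinRoot_X_pow_sub_C hprim H
  have : FiniteDimensional F (AdjoinRoot (X ^ p - C y : F[X])) :=
    Polynomial.IsSplittingField.finiteDimensional _ (X ^ p - C y : F[X])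
  have : NumberField (AdjoinRoot (X ^ p - C y : F[X])) := NumberField.of_module_finite F _
  refine ⟨AdjoinRoot (X ^ p - C y : F[X]), inferInstance, inferInstance, inferInstance,
    isGalois_of_isSplittingField_X_pow_sub_C hprim H _, AdjoinRoot.root _,
    finrank_of_isSplittingField_X_pow_sub_C hprim H _, ?_⟩
  exact root_X_pow_sub_C_pow p y

end Fermat.Agent.S14C.KummerExists
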