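import Fermat.Agent.S14C.SI.Defs

/-!
# S14C / SI : interface (Prop-valued blocks) for Claim B

Claim B (`SIPlan.claimB`): an `(S ∪ T)`-unit `y` which is locally a `p`-th power at every prime
of `S` is a `p`-th power.  The proof goes through the Kummer field `N = F(y^{1/p})`; this file
pins the facts about `N/F` that the assembly `claimB_core` consumes.  Every block is a `Prop`;
leaf owners prove `theorem <name> : <Name>Statement`, the assembly takes them as hypotheses.
-/

set_option autoImplicit false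

namespace Fermat.Agent.S14C.ClaimBPlan

open IsDedekindDomain NumberField Fermat.Agent.S14C.SIDefs

/-- `w` (prime of `N`) lies over `v` (prime of `F`). -/
def Over {F : Type} [Field F] [NumberField F] {N : Type} [Field N] [NumberField N] [Algebra F N]
    (w : Pl N) (v : Pl F) : Prop :=
  w.asIdeal.comap (algebraMap (𝓞 F) (𝓞 N)) = v.asIdeal

/-- `x : N` is nonzero and a unit at all primes of `N` not lying over `S`. -/
def IsSUnitAbove {F : Type} [Field F] [NumberField F] {N : Type} [Field N] [NumberField N]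
    [Algebra F N] (S : Finset (Pl F)) (x : N) : Prop :=
  x ≠ 0 ∧ ∀ (w : Pl N) (v : Pl F), Over w v → v ∉ S → ord w x = 0

/-- The image of a prime of `N` under an `F`-automorphism. -/
noncomputable def galPl {F : Type} [Field F] {N : Type} [Field N] [NumberField N] [Algebra F N]
    (σ : N ≃ₐ[F] N) (w : Pl N) : Pl N :=
  HeightOneSpectrum.equivOfRingEquiv (RingOfIntegers.mapRingEquiv σ.toRingEquiv) w

/-- [SI-Gal] Galois action on primes: compatibility with `ord`, with `Over`, transitivity,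
existence of primes above and below. -/
def GalStatement : Prop :=
  ∀ (F : Type) [Field F] [NumberField F] (N : Type) [Field N] [NumberField N] [Algebra F N],
    (∀ (σ : N ≃ₐ[F] N) (w : Pl N) (x : N), ord (galPl σ w) (σ x) = ord w x) ∧
    (∀ (σ : N ≃ₐ[F] N) (w : Pl N) (v : Pl F), Over w v → Over (galPl σ w) v) ∧
    (∀ (w : Pl N), ∃ v : Pl F, Over w v) ∧
    (∀ (v : Pl F), ∃ w : Pl N, Over w v) ∧
    (∀ (w : Pl N) (v v' : Pl F), Over w v → Over w v' → v = v') ∧
    (∀ (v : Pl F), {w : Pl N | Over w v}.Finite) ∧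
    (IsGalois F N → ∀ (w w' : Pl N) (v : Pl F), Over w v → Over w' v →
      ∃ σ : N ≃ₐ[F] N, galPl σ w = w')

/-- [SI-K-unr] `N = F(y^{1/p})` is unramified at `v ∤ p` when `p ∣ ord_v y`. -/
def KummerUnramifiedStatement : Prop :=
  ∀ (F : Type) [Field F] [NumberField F] (p : ℕ) [Fact p.Prime] (ζ : F)
    (N : Type) [Field N] [NumberField N] [Algebra F N] [IsGalois F N],
    IsPrimitiveRoot ζ p → Module.finrank F N = p →
    ∀ (y : F), (∀ b : F, b ^ p ≠ y) → ∀ (θ : N), θ ^ p = algebraMap F N y →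
    ∀ (v : Pl F), ¬ Above p v → (p : ℤ) ∣ ord v y →
    ∀ (w : Pl N), Over w v → ∀ c : F, ord w (algebraMap F N c) = ord v c

/-- [SI-K-ram] `N = F(y^{1/p})` is totally ramified at `v` when `p ∤ ord_v y`: ramification
index `p`, a unique prime above, trivial residue field extension. -/
def KummerRamifiedStatement : Prop :=
  ∀ (F : Type) [Field F] [NumberField F] (p : ℕ) [Fact p.Prime] (ζ : F)
    (N : Type) [Field N] [NumberField N] [Algebra F N] [IsGalois F N],
    IsPrimitiveRoot ζ p → Module.finrank F N = p →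
    ∀ (y : F), y ≠ 0 → ∀ (θ : N), θ ^ p = algebraMap F N y →
    ∀ (v : Pl F), ¬ (p : ℤ) ∣ ord v y →
    ∀ (w : Pl N), Over w v →
      (∀ c : F, ord w (algebraMap F N c) = p * ord v c) ∧
      (∀ w' : Pl N, Over w' v → w' = w) ∧
      (∀ x : N, x ≠ 0 → ord w x = 0 →
        ∃ b : F, b ≠ 0 ∧ ord v b = 0 ∧ CongMod w x (algebraMap F N b))

/-- [SI-K-split] (tame part + [SI-W] wild part) a prime at which `y` is locally a `p`-th power
splits completely in `N = F(y^{1/p})`. -/
def KummerSplitStatement : Prop :=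
  ∀ (F : Type) [Field F] [NumberField F] (p : ℕ) [Fact p.Prime] (ζ : F)
    (N : Type) [Field N] [NumberField N] [Algebra F N] [IsGalois F N],
    p ≠ 2 → IsPrimitiveRoot ζ p → Module.finrank F N = p →
    ∀ (y : F), y ≠ 0 → (∀ b : F, b ^ p ≠ y) → ∀ (θ : N), θ ^ p = algebraMap F N y →
    ∀ (v : Pl F), LocPow p ζ v y → Nat.card {w : Pl N // Over w v} = p

/-- [SI-HqU] Herbrand quotient of the `S`-units of a cyclic extension `N/F` of prime degree `p`
in which every prime of `S` splits completely, in packing form: `p * |Ĥ⁰| ≤ |H¹|`.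
`u` = `m` `S`-units of `F`, pairwise inequivalent modulo norms of `S`-units of `N`;
`hB` = among any `n + 1` norm-one `S`-units of `N` two are equivalent modulo `τ η / η`. -/
def SUnitHerbrandStatement : Prop :=
  ∀ (F : Type) [Field F] [NumberField F] (p : ℕ) [Fact p.Prime] (ζ : F)
    (N : Type) [Field N] [NumberField N] [Algebra F N] [IsGalois F N],
    p ≠ 2 → IsPrimitiveRoot ζ p → Module.finrank F N = p →
    ∀ (S : Finset (Pl F)) (τ : N ≃ₐ[F] N), τ ≠ 1 →
    (∀ s ∈ S, Nat.card {w : Pl N // Over w s} = p) →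
    ∀ (m n : ℕ) (u : Fin m → F), (∀ i, u i ≠ 0) →
    (∀ i, ∀ v : Pl F, v ∉ S → ord v (u i) = 0) →
    (∀ i j, i ≠ j → ¬ ∃ ε : N, IsSUnitAbove S ε ∧ Algebra.norm F ε = u i / u j) →
    (∀ ε : Fin (n + 1) → N, (∀ i, IsSUnitAbove S (ε i)) → (∀ i, Algebra.norm F (ε i) = 1) →
        ∃ i j, i ≠ j ∧ ∃ η : N, IsSUnitAbove S η ∧ ε i / ε j = τ η / η) →
    p * m ≤ n

end Fermat.Agent.S14C.ClaimBPlan
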