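import Mathlib

/-!
# S14C / SI : shared definitions for the algebraic second inequality (Chevalley, S-units only)

Conventions (binding for every `S14C/SI` leaf):
* number fields are `F : Type` (universe 0: Mathlib's Hilbert 90 is stated for `Type`);
* primes of `F` are `Pl F = HeightOneSpectrum (𝓞 F)`;
* `ord v x : ℤ` is the additive `v`-adic valuation of `x : F` (junk value `0` at `x = 0`);
* `sym p ζ v x : ZMod p` is the logarithm (base `ζ`) of the `p`-th power residue symbol of `x`
  at `v`: the `k` with `x ^ ((Nv - 1)/p) ≡ ζ ^ k mod v` (junk `0` if no such `k`);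
* `LocPow p ζ v y` : `y` is a `p`-th power locally at `v`, in congruence form
  `y / z ^ p ≡ 1 mod v ^ (p * ord_v(1 - ζ) + 1)` (the exponent is `1` when `v ∤ p`);
* S-units are Mathlib's `(S : Set (Pl F)).unit F : Subgroup Fˣ`.
-/

set_option autoImplicit false

namespace Fermat.Agent.S14C.SIDefs

open IsDedekindDomain NumberField

/-- Primes (finite places) of a number field. -/
abbrev Pl (F : Type) [Field F] [NumberField F] : Type := HeightOneSpectrum (𝓞 F)

variable {F : Type} [Field F] [NumberField F]

/-- Additive `v`-adic valuation of `x : F` (junk value `0` at `x = 0`). -/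
noncomputable def ord (v : Pl F) (x : F) : ℤ := - WithZero.log (v.valuation F x)

/-- Absolute norm of a prime. -/
noncomputable def nrm (v : Pl F) : ℕ := Ideal.absNorm v.asIdeal

/-- `v` lies above the rational prime `p`. -/
def Above (p : ℕ) (v : Pl F) : Prop := v.valuation F (p : F) < 1

/-- `x ≡ y mod v` (for `v`-integral `x, y`). -/
def CongMod (v : Pl F) (x y : F) : Prop := v.valuation F (x - y) < 1

/-- `x ≡ 1 mod v ^ n` (multiplicative congruence, `n ≥ 1`). -/
def CongOne (v : Pl F) (n : ℕ) (x : F) : Prop :=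
  v.valuation F (x - 1) ≤ WithZero.exp (-(n : ℤ))

/-- The local exponent `N_v = p * ord_v(1 - ζ) + 1` (`= 1` if `v ∤ p`). -/
noncomputable def locExp (p : ℕ) (ζ : F) (v : Pl F) : ℕ := p * (ord v (1 - ζ)).toNat + 1

/-- `y` is a `p`-th power locally at `v` (congruence form). -/
def LocPow (p : ℕ) (ζ : F) (v : Pl F) (y : F) : Prop :=
  ∃ z : F, z ≠ 0 ∧ CongOne v (locExp p ζ v) (y / z ^ p)

/-- Logarithm (base `ζ`) of the `p`-th power residue symbol of `x` at `v`:
the `k : ZMod p` with `x ^ ((Nv - 1) / p) ≡ ζ ^ k mod v`; junk value `0` if there is none.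
Meaningful when `v ∤ p` and `x` is a `v`-unit. -/
noncomputable def sym (p : ℕ) (ζ : F) (v : Pl F) (x : F) : ZMod p :=
  open Classical in
  if h : ∃ k : ZMod p, CongMod v (x ^ ((nrm v - 1) / p)) (ζ ^ k.val) then h.choose else 0

/-- The set of primes where a nonzero `x` is not a unit is finite. -/
theorem finite_ord_ne_zero (x : F) : {v : Pl F | ord v x ≠ 0}.Finite := by
  by_cases hx : x = 0
  · subst hx
    simp [ord]
  obtain ⟨a, b, hb, rfl⟩ := IsFractionRing.div_surjective (A := 𝓞 F) x
  have hb0 : b ≠ 0 := nonZeroDivisors.ne_zero hb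
  have ha0 : a ≠ 0 := by
    rintro rfl
    simp at hx
  have hfa : {v : Pl F | v.asIdeal ∣ Ideal.span {a}}.Finite :=
    Ideal.finite_factors (by simpa using ha0)
  have hfb : {v : Pl F | v.asIdeal ∣ Ideal.span {b}}.Finite :=
    Ideal.finite_factors (by simpa using hb0)
  refine (hfa.union hfb).subset ?_
  intro v hv
  by_contra hcon
  simp only [Set.mem_union, Set.mem_ofPred_eq, not_or] at hcon
  apply hv
  have h1 : v.valuation F (algebraMap (𝓞 F) F a) = 1 := by
    rw [HeightOneSpectrum.valuation_of_algebraMap]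
    by_contra h
    exact hcon.1 ((v.intValuation_lt_one_iff_dvd a).mp
      (lt_of_le_of_ne (v.intValuation_le_one a) h))
  have h2 : v.valuation F (algebraMap (𝓞 F) F b) = 1 := by
    rw [HeightOneSpectrum.valuation_of_algebraMap]
    by_contra h
    exact hcon.2 ((v.intValuation_lt_one_iff_dvd b).mp
      (lt_of_le_of_ne (v.intValuation_le_one b) h))
  simp [ord, map_div₀, h1, h2]

/-- The divisor of `x : F` as a finitely supported function on primes (`0` for `x = 0`). -/
noncomputable def divisor (x : F) : Pl F →₀ ℤ :=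
  Finsupp.ofSupportFinite (fun v => ord v x) (finite_ord_ne_zero x)

@[simp] theorem divisor_apply (x : F) (v : Pl F) : divisor x v = ord v x := rfl

/-- The symbol character of `a` on divisors: `D ↦ ∑_v D(v) • sym_v(a)`. -/
noncomputable def symChar (p : ℕ) (ζ : F) (a : F) (D : Pl F →₀ ℤ) : ZMod p :=
  D.sum fun v n => (n : ZMod p) * sym p ζ v a

end Fermat.Agent.S14C.SIDefs
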