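import Fermat.Agent.S14C.SI.Defs

/-!
# S14C / SI : weak approximation and class-group generators  ([SI-Ap], [SI-Cl])

* `exists_ord_eq`   : prescribed valuations at finitely many primes;
* `exists_congOne`  : multiplicative congruences at finitely many primes;
* `exists_classGenerators` : a finite set of primes, disjoint from a given finite set `S0`,
  whose classes generate the class group (in divisor form, with `S0`-unit multipliers).
-/

set_option autoImplicit false

namespace Fermat.Agent.S14C.Approx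

open IsDedekindDomain NumberField Fermat.Agent.S14C.SIDefs

variable {F : Type} [Field F] [NumberField F]

/-- Chinese remainder theorem in valuation form. -/
theorem exists_int_approx (Z : Finset (Pl F)) (e : Pl F → ℕ) (a : Pl F → 𝓞 F) :
    ∃ y : 𝓞 F, ∀ v ∈ Z, v.intValuation (y - a v) ≤ WithZero.exp (-(e v : ℤ)) := by
  obtain ⟨y, hy⟩ := IsDedekindDomain.exists_forall_sub_mem_ideal (s := Z)
    (fun v : Pl F => v.asIdeal) e (fun v _ => v.prime)
    (fun v _ w _ hvw h => hvw (HeightOneSpectrum.ext h)) (fun i => a i)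
  exact ⟨y, fun v hv => (v.intValuation_le_pow_iff_mem _ _).mpr (hy v hv)⟩

/-- Integral elements with prescribed (nonnegative) valuations at finitely many primes. -/
theorem exists_int_val (Z : Finset (Pl F)) (k : Pl F → ℕ) :
    ∃ y : 𝓞 F, y ≠ 0 ∧ ∀ v ∈ Z, v.intValuation y = WithZero.exp (-(k v : ℤ)) := by
  classical
  by_cases hZ : Z = ∅
  · exact ⟨1, one_ne_zero, by simp [hZ]⟩
  have hπ : ∀ v : Pl F, ∃ π : 𝓞 F, v.intValuation π = WithZero.exp (-1 : ℤ) :=
    fun v => v.intValuation_exists_uniformizer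
  choose π hπ using hπ
  obtain ⟨y, hy⟩ := exists_int_approx Z (fun v => k v + 1) (fun v => π v ^ k v)
  have key : ∀ v ∈ Z, v.intValuation y = WithZero.exp (-(k v : ℤ)) := by
    intro v hv
    have h1 : v.intValuation (π v ^ k v) = WithZero.exp (-(k v : ℤ)) := by
      rw [map_pow, hπ, ← WithZero.exp_nsmul]
      simp
    have h2 : v.intValuation (y - π v ^ k v) < v.intValuation (π v ^ k v) := by
      rw [h1]
      refine lt_of_le_of_lt (hy v hv) ?_
      rw [WithZero.exp_lt_exp]
      push_cast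
      omega
    rw [← h1]
    exact Valuation.map_eq_of_sub_lt _ h2
  refine ⟨y, ?_, key⟩
  obtain ⟨v, hv⟩ := Finset.nonempty_iff_ne_empty.mpr hZ
  rintro rfl
  have := key v hv
  rw [map_zero] at this
  exact WithZero.exp_ne_zero this.symm

/-- [SI-Ap] weak approximation, valuations. -/
theorem exists_ord_eq (Z : Finset (Pl F)) (n : Pl F → ℤ) :
    ∃ x : F, x ≠ 0 ∧ ∀ v ∈ Z, ord v x = n v := by
  obtain ⟨a, ha0, ha⟩ := exists_int_val Z (fun v => (n v).toNat)
  obtain ⟨b, hb0, hb⟩ := exists_int_val Z (fun v => (- n v).toNat)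
  refine ⟨algebraMap (𝓞 F) F a / algebraMap (𝓞 F) F b, ?_, ?_⟩
  · exact div_ne_zero (by simpa using ha0) (by simpa using hb0)
  · intro v hv
    simp only [ord, map_div₀, HeightOneSpectrum.valuation_of_algebraMap, ha v hv, hb v hv]
    rw [← WithZero.exp_sub, WithZero.log_exp]
    omega

/-- [SI-Ap] weak approximation, congruences. -/
theorem exists_congOne (Z : Finset (Pl F)) (N : Pl F → ℕ) (y : Pl F → F)
    (hy : ∀ v ∈ Z, y v ≠ 0) :
    ∃ x : F, x ≠ 0 ∧ ∀ v ∈ Z, CongOne v (N v) (x / y v) := by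
  classical
  by_cases hZ : Z = ∅
  · exact ⟨1, one_ne_zero, by simp [hZ]⟩
  -- a common denominator
  obtain ⟨d, hd⟩ := IsLocalization.exist_integer_multiples_of_finset (nonZeroDivisors (𝓞 F)) (Z.image y)
  have hd0 : (d : 𝓞 F) ≠ 0 := nonZeroDivisors.coe_ne_zero d
  have hd0' : algebraMap (𝓞 F) F (d : 𝓞 F) ≠ 0 := by simp
  have ha : ∀ v : Pl F, ∃ a : 𝓞 F, v ∈ Z → algebraMap (𝓞 F) F a = algebraMap (𝓞 F) F d * y v := by
    intro v
    by_cases hv : v ∈ Z
    · obtain ⟨a, ha⟩ := hd (y v) (Finset.mem_image_of_mem y hv)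
      exact ⟨a, fun _ => by rw [ha, Algebra.smul_def]⟩
    · exact ⟨1, fun h => absurd h hv⟩
  choose a ha using ha
  have ha0 : ∀ v ∈ Z, a v ≠ 0 := by
    intro v hv h0
    have := ha v hv
    rw [h0, map_zero] at this
    exact mul_ne_zero hd0' (hy v hv) this.symm
  obtain ⟨b, hb⟩ := exists_int_approx Z
    (fun v => N v + 1 + (- WithZero.log (v.intValuation (a v))).toNat) a
  -- the key estimate
  have key : ∀ v ∈ Z, v.intValuation (b - a v) ≤
      WithZero.exp (-((N v : ℤ) + 1)) * v.intValuation (a v) := by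
    intro v hv
    have hav : v.intValuation (a v) ≠ 0 := v.intValuation_ne_zero _ (ha0 v hv)
    have hle : WithZero.log (v.intValuation (a v)) ≤ 0 := by
      have h1 := v.intValuation_le_one (a v)
      rw [← WithZero.exp_log hav, ← WithZero.exp_zero, WithZero.exp_le_exp] at h1
      exact h1
    refine (hb v hv).trans (le_of_eq ?_)
    conv_rhs => rw [← WithZero.exp_log hav, ← WithZero.exp_add]
    congr 1
    push_cast
    rw [Int.toNat_of_nonneg (by omega)]
    ring
  have hb0 : b ≠ 0 := by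
    obtain ⟨v, hv⟩ := Finset.nonempty_iff_ne_empty.mpr hZ
    rintro rfl
    have hav : v.intValuation (a v) ≠ 0 := v.intValuation_ne_zero _ (ha0 v hv)
    have h1 := key v hv
    rw [zero_sub, Valuation.map_neg] at h1
    have h2 : WithZero.exp (-((N v : ℤ) + 1)) * v.intValuation (a v) <
        1 * v.intValuation (a v) := by
      refine mul_lt_mul_of_pos_right ?_ (zero_lt_iff.mpr hav)
      rw [← WithZero.exp_zero, WithZero.exp_lt_exp]
      omega
    rw [one_mul] at h2
    exact absurd (h1.trans_lt h2) (lt_irrefl _)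
  refine ⟨algebraMap (𝓞 F) F b / algebraMap (𝓞 F) F d, div_ne_zero (by simpa using hb0) hd0', ?_⟩
  intro v hv
  have hav : v.intValuation (a v) ≠ 0 := v.intValuation_ne_zero _ (ha0 v hv)
  have hyv := hy v hv
  have e1 : algebraMap (𝓞 F) F b / algebraMap (𝓞 F) F d / y v - 1 =
      algebraMap (𝓞 F) F (b - a v) / algebraMap (𝓞 F) F (a v) := by
    rw [map_sub, ha v hv]
    field_simp
  unfold CongOne
  rw [e1, map_div₀, HeightOneSpectrum.valuation_of_algebraMap,
    HeightOneSpectrum.valuation_of_algebraMap, div_le_iff₀ (zero_lt_iff.mpr hav)]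
  refine (key v hv).trans ?_
  refine mul_le_mul_of_nonneg_right ?_ zero_le
  rw [WithZero.exp_le_exp]
  omega

/-- The `count` of a principal fractional ideal is the `ord` of its generator. -/
theorem count_spanSingleton (v : Pl F) {x : F} (hx : x ≠ 0) :
    FractionalIdeal.count F v (FractionalIdeal.spanSingleton (nonZeroDivisors (𝓞 F)) x) =
      ord v x := by
  obtain ⟨a, b, hb, rfl⟩ := IsFractionRing.div_surjective (A := 𝓞 F) x
  have hb0 : b ≠ 0 := nonZeroDivisors.ne_zero hb
  have ha0 : a ≠ 0 := by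
    rintro rfl
    simp at hx
  have hI : FractionalIdeal.spanSingleton (nonZeroDivisors (𝓞 F))
      (algebraMap (𝓞 F) F a / algebraMap (𝓞 F) F b) =
      FractionalIdeal.spanSingleton (nonZeroDivisors (𝓞 F)) (algebraMap (𝓞 F) F b)⁻¹ *
        ((Ideal.span {a} : Ideal (𝓞 F)) : FractionalIdeal (nonZeroDivisors (𝓞 F)) F) := by
    rw [FractionalIdeal.coeIdeal_span_singleton, FractionalIdeal.spanSingleton_mul_spanSingleton,
      inv_mul_eq_div]
  have hne : FractionalIdeal.spanSingleton (nonZeroDivisors (𝓞 F))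
      (algebraMap (𝓞 F) F a / algebraMap (𝓞 F) F b) ≠ 0 := by
    rw [Ne, FractionalIdeal.spanSingleton_eq_zero_iff]
    exact hx
  rw [FractionalIdeal.count_well_defined F v hne hI]
  simp only [ord, map_div₀, HeightOneSpectrum.valuation_of_algebraMap,
    v.intValuation_if_neg ha0, v.intValuation_if_neg hb0]
  rw [← WithZero.exp_sub, WithZero.log_exp]
  ring

/-- [SI-Cl] generators of the class group outside a given finite set. -/
theorem exists_classGenerators (S0 : Finset (Pl F)) :
    ∃ S1 : Finset (Pl F), Disjoint S0 S1 ∧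
      ∀ D : Pl F →₀ ℤ, (∀ v ∈ S0, D v = 0) →
        ∃ x : F, x ≠ 0 ∧ (∀ v ∈ S0, ord v x = 0) ∧ ∀ v, v ∉ S1 → D v = ord v x := by
  classical
  have : Finite ((FractionalIdeal (nonZeroDivisors (𝓞 F)) F)ˣ ⧸
      (toPrincipalIdeal (𝓞 F) F).range) :=
    Finite.of_equiv _ (ClassGroup.equiv (R := 𝓞 F) F).toEquiv
  -- for each class a representative with count `0` on `S0`
  have hrep : ∀ q : (FractionalIdeal (nonZeroDivisors (𝓞 F)) F)ˣ ⧸
      (toPrincipalIdeal (𝓞 F) F).range,
      ∃ J : (FractionalIdeal (nonZeroDivisors (𝓞 F)) F)ˣ,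
        (QuotientGroup.mk J : (FractionalIdeal (nonZeroDivisors (𝓞 F)) F)ˣ ⧸
          (toPrincipalIdeal (𝓞 F) F).range) = q ∧
        ∀ v ∈ S0, FractionalIdeal.count F v (J : FractionalIdeal (nonZeroDivisors (𝓞 F)) F) = 0 := by
    intro q
    obtain ⟨I, rfl⟩ := QuotientGroup.mk_surjective q
    obtain ⟨x, hx0, hx⟩ := exists_ord_eq S0
      (fun v => - FractionalIdeal.count F v (I : FractionalIdeal (nonZeroDivisors (𝓞 F)) F))
    refine ⟨I * toPrincipalIdeal (𝓞 F) F (Units.mk0 x hx0), ?_, ?_⟩
    · rw [QuotientGroup.mk_mul,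
        (QuotientGroup.eq_one_iff (N := (toPrincipalIdeal (𝓞 F) F).range) _).mpr ⟨_, rfl⟩, mul_one]
    · intro v hv
      have hne : FractionalIdeal.spanSingleton (nonZeroDivisors (𝓞 F)) x ≠ 0 := by
        rw [Ne, FractionalIdeal.spanSingleton_eq_zero_iff]
        exact hx0
      rw [Units.val_mul, coe_toPrincipalIdeal, Units.val_mk0,
        FractionalIdeal.count_mul F v I.ne_zero hne, count_spanSingleton v hx0, hx v hv]
      ring
  choose J hJq hJ0 using hrep
  let _ := Fintype.ofFinite ((FractionalIdeal (nonZeroDivisors (𝓞 F)) F)ˣ ⧸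
      (toPrincipalIdeal (𝓞 F) F).range)
  have hfin : ∀ q, {v : Pl F | ¬ FractionalIdeal.count F v
      (J q : FractionalIdeal (nonZeroDivisors (𝓞 F)) F) = 0}.Finite :=
    fun q => Filter.eventually_cofinite.mp (FractionalIdeal.finite_factors _)
  refine ⟨Finset.univ.biUnion (fun q => (hfin q).toFinset), ?_, ?_⟩
  · rw [Finset.disjoint_left]
    intro v hv0 hv1
    simp only [Finset.mem_biUnion, Finset.mem_univ, true_and, Set.Finite.mem_toFinset,
      Set.mem_ofPred_eq] at hv1
    obtain ⟨q, hq⟩ := hv1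
    exact hq (hJ0 q v hv0)
  · intro D hD
    have hID0 : D.prod (fun v n => (v.asIdeal : FractionalIdeal (nonZeroDivisors (𝓞 F)) F) ^ n)
        ≠ 0 := by
      rw [Finsupp.prod]
      exact Finset.prod_ne_zero_iff.mpr
        (fun v _ => zpow_ne_zero _ (FractionalIdeal.coeIdeal_ne_zero.mpr v.ne_bot))
    have hcount : ∀ v : Pl F, FractionalIdeal.count F v
        (D.prod (fun v n => (v.asIdeal : FractionalIdeal (nonZeroDivisors (𝓞 F)) F) ^ n)) = D v :=
      fun v => FractionalIdeal.count_finsuppProd F v D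
    have hq := hJq (QuotientGroup.mk (Units.mk0 _ hID0))
    rw [QuotientGroup.eq] at hq
    obtain ⟨x, hx⟩ := hq
    have hx' : (J (QuotientGroup.mk (Units.mk0 _ hID0)) : FractionalIdeal (nonZeroDivisors (𝓞 F)) F) *
        FractionalIdeal.spanSingleton (nonZeroDivisors (𝓞 F)) (x : F) =
        D.prod (fun v n => (v.asIdeal : FractionalIdeal (nonZeroDivisors (𝓞 F)) F) ^ n) := by
      have h1 := congrArg (fun I : (FractionalIdeal (nonZeroDivisors (𝓞 F)) F)ˣ =>
        ((J (QuotientGroup.mk (Units.mk0 _ hID0)) * I :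
          (FractionalIdeal (nonZeroDivisors (𝓞 F)) F)ˣ) :
          FractionalIdeal (nonZeroDivisors (𝓞 F)) F)) hx
      simpa using h1
    have hne : FractionalIdeal.spanSingleton (nonZeroDivisors (𝓞 F)) (x : F) ≠ 0 := by
      rw [Ne, FractionalIdeal.spanSingleton_eq_zero_iff]
      exact x.ne_zero
    have hmain : ∀ v : Pl F, FractionalIdeal.count F v
        (J (QuotientGroup.mk (Units.mk0 _ hID0)) : FractionalIdeal (nonZeroDivisors (𝓞 F)) F) +
          ord v (x : F) = D v := by
      intro v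
      rw [← count_spanSingleton v x.ne_zero, ← FractionalIdeal.count_mul F v (Units.ne_zero _) hne,
        hx']
      exact hcount v
    refine ⟨x, x.ne_zero, ?_, ?_⟩
    · intro v hv
      have := hmain v
      rw [hJ0 _ v hv, hD v hv] at this
      omega
    · intro v hv
      have := hmain v
      simp only [Finset.mem_biUnion, Finset.mem_univ, true_and, Set.Finite.mem_toFinset,
        Set.mem_ofPred_eq, not_exists, not_not] at hv
      rw [hv] at this
      omega

end Fermat.Agent.S14C.Approx
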