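import Fermat.Agent.S14C.SI.Defs

/-!
# S14C / SI : basic API for `ord`, `Above`, `CongOne`, `LocPow`

Leaf `[SI-Ord]` of the algebraic second inequality (binding statements from the SI leaf table).
-/

set_option autoImplicit false

namespace Fermat.Agent.S14C.OrdBasic

open IsDedekindDomain NumberField Fermat.Agent.S14C.SIDefs

variable {F : Type} [Field F] [NumberField F] {p : ℕ} [Fact p.Prime] {ζ : F}

/-! ### `ord` -/

theorem val_ne_zero (v : Pl F) {x : F} (hx : x ≠ 0) : v.valuation F x ≠ 0 :=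
  (Valuation.ne_zero_iff _).mpr hx

theorem ord_mul (v : Pl F) {x y : F} (hx : x ≠ 0) (hy : y ≠ 0) :
    ord v (x * y) = ord v x + ord v y := by
  unfold ord
  rw [map_mul, WithZero.log_mul (val_ne_zero v hx) (val_ne_zero v hy)]
  ring

theorem ord_inv (v : Pl F) (x : F) : ord v x⁻¹ = - ord v x := by
  unfold ord
  rw [map_inv₀, WithZero.log_inv]

theorem ord_div (v : Pl F) {x y : F} (hx : x ≠ 0) (hy : y ≠ 0) :
    ord v (x / y) = ord v x - ord v y := by
  rw [div_eq_mul_inv, ord_mul v hx (inv_ne_zero hy), ord_inv]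
  ring

theorem ord_pow (v : Pl F) (x : F) (n : ℕ) : ord v (x ^ n) = n * ord v x := by
  unfold ord
  rw [map_pow, WithZero.log_pow]
  simp

theorem ord_one (v : Pl F) : ord v (1 : F) = 0 := by
  simp [ord]

theorem valuation_eq_exp_neg_ord (v : Pl F) {x : F} (hx : x ≠ 0) :
    v.valuation F x = WithZero.exp (- ord v x) := by
  unfold ord
  rw [neg_neg, WithZero.exp_log (val_ne_zero v hx)]

theorem ord_eq_zero_iff (v : Pl F) {x : F} (hx : x ≠ 0) :
    ord v x = 0 ↔ v.valuation F x = 1 := by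
  rw [valuation_eq_exp_neg_ord v hx, WithZero.exp_eq_one, neg_eq_zero]

theorem ord_nonneg_iff (v : Pl F) {x : F} (hx : x ≠ 0) :
    0 ≤ ord v x ↔ v.valuation F x ≤ 1 := by
  rw [valuation_eq_exp_neg_ord v hx, ← WithZero.exp_zero, WithZero.exp_le_exp]
  omega

theorem ord_pos_iff (v : Pl F) {x : F} (hx : x ≠ 0) :
    0 < ord v x ↔ v.valuation F x < 1 := by
  rw [valuation_eq_exp_neg_ord v hx, ← WithZero.exp_zero, WithZero.exp_lt_exp]
  omega

theorem le_ord_iff (v : Pl F) {x : F} (hx : x ≠ 0) (n : ℤ) :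
    n ≤ ord v x ↔ v.valuation F x ≤ WithZero.exp (-n) := by
  rw [valuation_eq_exp_neg_ord v hx, WithZero.exp_le_exp]
  omega

theorem ord_add_ge (v : Pl F) {x y : F} (hx : x ≠ 0) (hy : y ≠ 0) (hxy : x + y ≠ 0) :
    min (ord v x) (ord v y) ≤ ord v (x + y) := by
  rw [le_ord_iff v hxy]
  refine (Valuation.map_add _ x y).trans ?_
  rw [max_le_iff]
  constructor
  · rw [← le_ord_iff v hx]; exact min_le_left _ _
  · rw [← le_ord_iff v hy]; exact min_le_right _ _

theorem ord_algebraMap_nonneg (v : Pl F) (x : 𝓞 F) : 0 ≤ ord v (algebraMap (𝓞 F) F x) := by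
  by_cases hx : algebraMap (𝓞 F) F x = 0
  · rw [hx]; simp [ord]
  · rw [ord_nonneg_iff v hx]
    exact v.valuation_le_one x

theorem mem_unit_iff (S : Set (Pl F)) (x : Fˣ) :
    x ∈ S.unit F ↔ ∀ v, v ∉ S → ord v (x : F) = 0 := by
  have h : x ∈ S.unit F ↔ ∀ v, v ∉ S → (v : Pl F).valuation F (x : F) = 1 := Iff.rfl
  rw [h]
  refine forall_congr' fun v => imp_congr_right fun _ => ?_
  exact (ord_eq_zero_iff v x.ne_zero).symm

/-! ### `Above`, and the prime `1 - ζ` -/

theorem above_iff (v : Pl F) : Above p v ↔ (p : 𝓞 F) ∈ v.asIdeal := by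
  unfold Above
  have h : algebraMap (𝓞 F) F (p : 𝓞 F) = (p : F) := map_natCast _ p
  rw [← h]
  exact v.valuation_lt_one_iff_mem (K := F) (p : 𝓞 F)

theorem val_unit_eq_one (v : Pl F) (u : (𝓞 F)ˣ) :
    v.valuation F (algebraMap (𝓞 F) F (u : 𝓞 F)) = 1 := by
  rw [HeightOneSpectrum.valuation_eq_one_iff_notMem]
  intro hu
  exact v.isPrime.ne_top (Ideal.eq_top_of_isUnit_mem _ hu u.isUnit)

theorem val_natCast_eq (hζ : IsPrimitiveRoot ζ p) (v : Pl F) :
    v.valuation F (p : F) = v.valuation F (1 - ζ) ^ (p - 1) := by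
  have hpp : p.Prime := Fact.out
  have : NeZero p := ⟨hpp.ne_zero⟩
  have hp : p - 1 + 1 = p := Nat.succ_pred_eq_of_pos hpp.pos
  have hζ' : IsPrimitiveRoot ζ (p - 1 + 1) := by rw [hp]; exact hζ
  have h := IsPrimitiveRoot.prod_one_sub_pow_eq_order hζ'
  have h2 : (p : F) = ∏ k ∈ Finset.range (p - 1), (1 - ζ ^ (k + 1)) := by
    rw [h]
    exact_mod_cast hp.symm
  rw [h2, map_prod, Finset.prod_eq_pow_card (b := v.valuation F (1 - ζ)), Finset.card_range]
  intro k hk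
  have hk' : k + 1 < p := by
    have := Finset.mem_range.mp hk
    omega
  have hcop : (k + 1).Coprime p :=
    (Nat.Coprime.symm ((Nat.Prime.coprime_iff_not_dvd hpp).mpr
      (Nat.not_dvd_of_pos_of_lt (Nat.succ_pos k) hk')))
  obtain ⟨u, hu⟩ :=
    (hζ.toInteger_isPrimitiveRoot).associated_sub_one_pow_sub_one_of_coprime hcop
  have hu' : (ζ - 1) * algebraMap (𝓞 F) F (u : 𝓞 F) = ζ ^ (k + 1) - 1 := by
    have := congrArg (algebraMap (𝓞 F) F) hu
    simpa using this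
  rw [Valuation.map_sub_swap, ← hu', map_mul, val_unit_eq_one, mul_one, Valuation.map_sub_swap]

theorem natCast_ne_zero' : (p : F) ≠ 0 :=
  Nat.cast_ne_zero.mpr (Fact.out : p.Prime).ne_zero

theorem one_sub_zeta_ne_zero (hζ : IsPrimitiveRoot ζ p) : (1 - ζ : F) ≠ 0 := by
  intro h
  exact hζ.ne_one (Fact.out : p.Prime).one_lt (sub_eq_zero.mp h).symm

theorem ord_natCast_eq (hζ : IsPrimitiveRoot ζ p) (v : Pl F) :
    ord v (p : F) = (p - 1 : ℕ) * ord v (1 - ζ) := by
  rw [← ord_pow]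
  unfold ord
  rw [val_natCast_eq hζ v, map_pow]

theorem ord_one_sub_zeta_nonneg (hζ : IsPrimitiveRoot ζ p) (v : Pl F) :
    0 ≤ ord v (1 - ζ) := by
  have : NeZero p := ⟨(Fact.out : p.Prime).ne_zero⟩
  have h := ord_algebraMap_nonneg v (1 - hζ.toInteger)
  simpa using h

theorem above_iff_ord_pos (v : Pl F) : Above p v ↔ 0 < ord v (p : F) :=
  (ord_pos_iff v natCast_ne_zero').symm

theorem not_above_iff (hζ : IsPrimitiveRoot ζ p) (v : Pl F) :
    ¬ Above p v ↔ ord v (1 - ζ) = 0 := by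
  rw [above_iff_ord_pos, ord_natCast_eq hζ v]
  have h0 := ord_one_sub_zeta_nonneg hζ v
  have hp : (0 : ℤ) < ((p - 1 : ℕ) : ℤ) := by
    have := (Fact.out : p.Prime).one_lt
    exact_mod_cast Nat.sub_pos_of_lt this
  constructor
  · intro h
    by_contra hne
    exact h (mul_pos hp (lt_of_le_of_ne h0 (Ne.symm hne)))
  · intro h
    rw [h]
    simp

theorem ord_one_sub_zeta_pos (hζ : IsPrimitiveRoot ζ p) (v : Pl F) (hv : Above p v) :
    0 < ord v (1 - ζ) ∧ ord v (p : F) = (p - 1 : ℕ) * ord v (1 - ζ) := by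
  refine ⟨?_, ord_natCast_eq hζ v⟩
  have h0 := ord_one_sub_zeta_nonneg hζ v
  refine lt_of_le_of_ne h0 (Ne.symm ?_)
  intro h
  exact (not_above_iff hζ v).mpr h hv

/-! ### `CongOne` -/

theorem exp_neg_natCast_le_one (n : ℕ) :
    (WithZero.exp (-(n : ℤ)) : WithZero (Multiplicative ℤ)) ≤ 1 := by
  rw [← WithZero.exp_zero, WithZero.exp_le_exp]
  omega

theorem congOne_one (v : Pl F) (n : ℕ) : CongOne v n (1 : F) := by
  unfold CongOne
  simp

theorem congOne_mul (v : Pl F) (n : ℕ) {x y : F} (hx : CongOne v n x) (hy : CongOne v n y) :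
    CongOne v n (x * y) := by
  unfold CongOne at *
  have h : x * y - 1 = (x - 1) * (y - 1) + ((x - 1) + (y - 1)) := by ring
  rw [h]
  refine Valuation.map_add_le _ ?_ (Valuation.map_add_le _ hx hy)
  rw [map_mul]
  calc v.valuation F (x - 1) * v.valuation F (y - 1)
      ≤ WithZero.exp (-(n : ℤ)) * 1 :=
        mul_le_mul' hx (hy.trans (exp_neg_natCast_le_one n))
    _ = WithZero.exp (-(n : ℤ)) := mul_one _

theorem CongOne.val_eq_one (v : Pl F) {n : ℕ} (hn : 0 < n) {x : F} (hx : CongOne v n x) :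
    v.valuation F x = 1 := by
  unfold CongOne at hx
  have hlt : v.valuation F (x - 1) < 1 := by
    refine lt_of_le_of_lt hx ?_
    rw [← WithZero.exp_zero, WithZero.exp_lt_exp]
    omega
  have := Valuation.map_one_add_of_lt (v := v.valuation F) hlt
  simpa using this

theorem CongOne.ne_zero (v : Pl F) {n : ℕ} (hn : 0 < n) {x : F} (hx : CongOne v n x) :
    x ≠ 0 := by
  rintro rfl
  have := CongOne.val_eq_one v hn hx
  simp at this

theorem congOne_inv (v : Pl F) {n : ℕ} (hn : 0 < n) {x : F} (hx : CongOne v n x) :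
    CongOne v n x⁻¹ := by
  have h1 := CongOne.val_eq_one v hn hx
  have h0 := CongOne.ne_zero v hn hx
  unfold CongOne at *
  have h : x⁻¹ - 1 = (1 - x) * x⁻¹ := by
    field_simp
  rw [h, map_mul, map_inv₀, h1, inv_one, mul_one, Valuation.map_sub_swap]
  exact hx

theorem CongOne.ord_eq_zero (v : Pl F) {n : ℕ} (hn : 0 < n) {x : F} (hx : CongOne v n x) :
    ord v x = 0 :=
  (ord_eq_zero_iff v (CongOne.ne_zero v hn hx)).mpr (CongOne.val_eq_one v hn hx)

/-! ### `LocPow` -/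

theorem locExp_pos (p : ℕ) (ζ : F) (v : Pl F) : 0 < locExp p ζ v := by
  unfold locExp
  omega

theorem locPow_mul (v : Pl F) {x y : F} (hx : LocPow p ζ v x) (hy : LocPow p ζ v y) :
    LocPow p ζ v (x * y) := by
  obtain ⟨z, hz, hxz⟩ := hx
  obtain ⟨w, hw, hyw⟩ := hy
  refine ⟨z * w, mul_ne_zero hz hw, ?_⟩
  have h : x * y / (z * w) ^ p = (x / z ^ p) * (y / w ^ p) := by
    rw [mul_pow]
    field_simp
  rw [h]
  exact congOne_mul v _ hxz hyw

theorem locPow_inv (v : Pl F) {x : F} (hx : LocPow p ζ v x) : LocPow p ζ v x⁻¹ := by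
  obtain ⟨z, hz, hxz⟩ := hx
  refine ⟨z⁻¹, inv_ne_zero hz, ?_⟩
  have h : x⁻¹ / z⁻¹ ^ p = (x / z ^ p)⁻¹ := by
    rw [inv_pow, inv_div_inv, inv_div]
  rw [h]
  exact congOne_inv v (locExp_pos p ζ v) hxz

theorem locPow_pow (v : Pl F) {z : F} (hz : z ≠ 0) : LocPow p ζ v (z ^ p) := by
  refine ⟨z, hz, ?_⟩
  rw [div_self (pow_ne_zero p hz)]
  exact congOne_one v _

theorem LocPow.dvd_ord (v : Pl F) {x : F} (hx0 : x ≠ 0) (hx : LocPow p ζ v x) :
    (p : ℤ) ∣ ord v x := by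
  obtain ⟨z, hz, hxz⟩ := hx
  have h := CongOne.ord_eq_zero v (locExp_pos p ζ v) hxz
  rw [ord_div v hx0 (pow_ne_zero p hz), ord_pow] at h
  exact ⟨ord v z, by linarith⟩

end Fermat.Agent.S14C.OrdBasic
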