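import Fermat.Agent.S14C.SI.SUnit

/-!
# S14C / SI : leaf [SI-U] (c), (d)

* `units_rank_of_zeta` : a number field containing a primitive `p`-th root of unity, `p` odd, is
  totally complex.
* `card_sUnit_mod_pow` : `|E_S / E_S ^ p| = p ^ (r + |S|)`, `r` the number of complex places.

The group-theoretic core is `index_range_nsmul` : for a finitely generated abelian group `A`,
`[A : p A] = p ^ rank A * |A[p]|`.
-/

set_option autoImplicit false

namespace Fermat.Agent.S14C.SUnitCard

open IsDedekindDomain NumberField Fermat.Agent.S14C.SIDefs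

section General

/-- Transport of the range of multiplication by `n` along an isomorphism. -/
theorem map_range_nsmul {A A' : Type*} [AddCommGroup A] [AddCommGroup A'] (e : A ≃+ A') (n : ℕ) :
    (nsmulAddMonoidHom n : A →+ A).range.map (e : A →+ A') =
      (nsmulAddMonoidHom n : A' →+ A').range := by
  ext x
  simp only [AddSubgroup.mem_map, AddMonoidHom.mem_range, nsmulAddMonoidHom_apply]
  constructor
  · rintro ⟨_, ⟨a, rfl⟩, rfl⟩
    exact ⟨e a, by simp⟩
  · rintro ⟨b, rfl⟩
    exact ⟨n • e.symm b, ⟨e.symm b, rfl⟩, by simp⟩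

/-- Transport of the kernel of multiplication by `n` along an isomorphism. -/
theorem map_ker_nsmul {A A' : Type*} [AddCommGroup A] [AddCommGroup A'] (e : A ≃+ A') (n : ℕ) :
    (nsmulAddMonoidHom n : A →+ A).ker.map (e : A →+ A') =
      (nsmulAddMonoidHom n : A' →+ A').ker := by
  ext x
  simp only [AddSubgroup.mem_map, AddMonoidHom.mem_ker, nsmulAddMonoidHom_apply]
  constructor
  · rintro ⟨a, ha, rfl⟩
    change n • e a = 0
    rw [← map_nsmul, ha, map_zero]
  · intro hx
    refine ⟨e.symm x, ?_, by simp⟩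
    rw [← map_nsmul, hx, map_zero]

theorem index_range_nsmul_congr {A A' : Type*} [AddCommGroup A] [AddCommGroup A'] (e : A ≃+ A')
    (n : ℕ) : (nsmulAddMonoidHom n : A →+ A).range.index =
      (nsmulAddMonoidHom n : A' →+ A').range.index := by
  rw [← map_range_nsmul e n, AddSubgroup.index_map_equiv]

theorem card_ker_nsmul_congr {A A' : Type*} [AddCommGroup A] [AddCommGroup A'] (e : A ≃+ A')
    (n : ℕ) : Nat.card (nsmulAddMonoidHom n : A →+ A).ker =
      Nat.card (nsmulAddMonoidHom n : A' →+ A').ker := by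
  rw [← map_ker_nsmul e n]
  exact Nat.card_congr (e.addSubgroupMap _).toEquiv

/-- Finite group: the index of `n T` is the order of `T[n]`. -/
theorem index_range_nsmul_of_finite {T : Type*} [AddCommGroup T] [Finite T] (n : ℕ) :
    (nsmulAddMonoidHom n : T →+ T).range.index = Nat.card (nsmulAddMonoidHom n : T →+ T).ker := by
  have h1 := (nsmulAddMonoidHom n : T →+ T).range.card_mul_index
  have h2 := (nsmulAddMonoidHom n : T →+ T).ker.card_mul_index
  rw [AddSubgroup.index_ker] at h2
  have hpos : 0 < Nat.card (nsmulAddMonoidHom n : T →+ T).range := Nat.card_pos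
  have h3 : Nat.card (nsmulAddMonoidHom n : T →+ T).range *
      (nsmulAddMonoidHom n : T →+ T).range.index =
      Nat.card (nsmulAddMonoidHom n : T →+ T).range *
        Nat.card (nsmulAddMonoidHom n : T →+ T).ker := by
    rw [h1, mul_comm, h2]
  exact Nat.eq_of_mul_eq_mul_left hpos h3

theorem range_nsmul_int (n : ℕ) :
    (nsmulAddMonoidHom n : ℤ →+ ℤ).range = AddSubgroup.zmultiples (n : ℤ) := by
  ext x
  simp only [AddMonoidHom.mem_range, nsmulAddMonoidHom_apply, AddSubgroup.mem_zmultiples_iff]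
  constructor
  · rintro ⟨a, rfl⟩
    exact ⟨a, by simp [mul_comm]⟩
  · rintro ⟨a, rfl⟩
    exact ⟨a, by simp [mul_comm]⟩

theorem index_range_nsmul_pi (ι : Type*) [Fintype ι] (n : ℕ) :
    (nsmulAddMonoidHom n : (ι → ℤ) →+ (ι → ℤ)).range.index = n ^ Fintype.card ι := by
  have h : (nsmulAddMonoidHom n : (ι → ℤ) →+ (ι → ℤ)).range =
      AddSubgroup.pi Set.univ (fun _ : ι => (nsmulAddMonoidHom n : ℤ →+ ℤ).range) := by
    ext f
    simp only [AddMonoidHom.mem_range, nsmulAddMonoidHom_apply, AddSubgroup.mem_pi, Set.mem_univ,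
      forall_true_left]
    constructor
    · rintro ⟨g, rfl⟩ i
      exact ⟨g i, rfl⟩
    · intro h
      choose g hg using h
      exact ⟨g, funext hg⟩
  rw [h, AddSubgroup.index_pi]
  simp [range_nsmul_int, Int.index_zmultiples]

theorem range_nsmul_prod {B T : Type*} [AddCommGroup B] [AddCommGroup T] (n : ℕ) :
    (nsmulAddMonoidHom n : B × T →+ B × T).range =
      ((nsmulAddMonoidHom n : B →+ B).range).prod ((nsmulAddMonoidHom n : T →+ T).range) := by
  ext ⟨b, t⟩
  simp only [AddMonoidHom.mem_range, nsmulAddMonoidHom_apply, AddSubgroup.mem_prod, Prod.exists,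
    Prod.smul_mk, Prod.mk.injEq]
  constructor
  · rintro ⟨b', t', rfl, rfl⟩
    exact ⟨⟨b', rfl⟩, ⟨t', rfl⟩⟩
  · rintro ⟨⟨b', rfl⟩, ⟨t', rfl⟩⟩
    exact ⟨b', t', rfl, rfl⟩

theorem ker_nsmul_prod {B T : Type*} [AddCommGroup B] [AddCommGroup T] (n : ℕ) :
    (nsmulAddMonoidHom n : B × T →+ B × T).ker =
      ((nsmulAddMonoidHom n : B →+ B).ker).prod ((nsmulAddMonoidHom n : T →+ T).ker) := by
  ext ⟨b, t⟩
  simp only [AddMonoidHom.mem_ker, nsmulAddMonoidHom_apply, AddSubgroup.mem_prod,
    Prod.smul_mk, Prod.mk_eq_zero]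

theorem ker_nsmul_pi (ι : Type*) {n : ℕ} (hn : n ≠ 0) :
    (nsmulAddMonoidHom n : (ι → ℤ) →+ (ι → ℤ)).ker = ⊥ := by
  ext f
  simp only [AddMonoidHom.mem_ker, nsmulAddMonoidHom_apply, AddSubgroup.mem_bot]
  constructor
  · intro h
    funext i
    have := congrFun h i
    simpa [hn] using this
  · rintro rfl
    simp

/-- The rank of `B × T` with `T` finite is the rank of `B`. -/
theorem finrank_prod_of_finite (B T : Type*) [AddCommGroup B] [AddCommGroup T] [Finite T] :
    Module.finrank ℤ (B × T) = Module.finrank ℤ B := by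
  have hle : LinearMap.ker (LinearMap.fst ℤ B T) ≤ Submodule.torsion ℤ (B × T) := by
    rintro ⟨b, t⟩ hx
    rw [LinearMap.mem_ker, LinearMap.fst_apply] at hx
    rw [Submodule.mem_torsion_iff]
    have hc : (Nat.card T : ℤ) ≠ 0 := by
      exact_mod_cast (Nat.card_pos (α := T)).ne'
    refine ⟨⟨(Nat.card T : ℤ), mem_nonZeroDivisors_of_ne_zero hc⟩, ?_⟩
    change ((Nat.card T : ℤ)) • ((b, t) : B × T) = 0
    have hb : b = 0 := hx
    subst hb
    simp only [Prod.smul_mk, smul_zero, Prod.mk_eq_zero, true_and]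
    rw [natCast_zsmul]
    exact card_nsmul_eq_zero'
  rw [← finrank_quotient_eq_of_le_torsion hle]
  exact LinearEquiv.finrank_eq
    ((LinearMap.fst ℤ B T).quotKerEquivOfSurjective LinearMap.fst_surjective)

/-- **Core count.** For a finitely generated abelian group `A` and `n ≠ 0`:
`[A : n A] = n ^ rank A * |A[n]|`. -/
theorem index_range_nsmul (A : Type*) [AddCommGroup A] [Module.Finite ℤ A] {n : ℕ} (hn : n ≠ 0) :
    (nsmulAddMonoidHom n : A →+ A).range.index =
      n ^ Module.finrank ℤ A * Nat.card (nsmulAddMonoidHom n : A →+ A).ker := by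
  have : AddGroup.FG A := Module.Finite.iff_addGroup_fg.mp inferInstance
  obtain ⟨m, ι, fι, q, hq, e, ⟨f⟩⟩ := AddCommGroup.equiv_free_prod_directSum_zmod A
  have : ∀ i : ι, NeZero (q i ^ e i) := fun i => ⟨pow_ne_zero _ (hq i).ne_zero⟩
  have : Finite (DirectSum ι fun i => ZMod (q i ^ e i)) :=
    Finite.of_equiv _ DFinsupp.equivFunOnFintype.symm
  -- replace the free part by a function space
  let g : A ≃+ (Fin m → ℤ) × DirectSum ι fun i => ZMod (q i ^ e i) :=
    f.trans (AddEquiv.prodCongr Finsupp.addEquivFunOnFinite (AddEquiv.refl _))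
  have hrank : Module.finrank ℤ A = m := by
    rw [LinearEquiv.finrank_eq g.toIntLinearEquiv, finrank_prod_of_finite]
    simp
  rw [index_range_nsmul_congr g n, card_ker_nsmul_congr g n, range_nsmul_prod, ker_nsmul_prod,
    AddSubgroup.index_prod, index_range_nsmul_pi, index_range_nsmul_of_finite, ker_nsmul_pi _ hn,
    hrank, Fintype.card_fin]
  congr 1
  rw [Nat.card_congr (AddSubgroup.prodEquiv _ _).toEquiv, Nat.card_prod]
  simp

/-- Multiplicative form of the core count. -/
theorem card_quot_range_pow (G : Type*) [CommGroup G] [Module.Finite ℤ (Additive G)] {n : ℕ}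
    (hn : n ≠ 0) :
    Nat.card (G ⧸ (powMonoidHom n : G →* G).range) =
      n ^ Module.finrank ℤ (Additive G) * Nat.card (powMonoidHom n : G →* G).ker := by
  have h := index_range_nsmul (Additive G) hn
  have h1 : (nsmulAddMonoidHom n : Additive G →+ Additive G).range =
      Subgroup.toAddSubgroup (powMonoidHom n : G →* G).range := by
    ext x
    rfl
  rw [h1, Subgroup.index_toAddSubgroup] at h
  have h2 : Nat.card (nsmulAddMonoidHom n : Additive G →+ Additive G).ker =
      Nat.card (powMonoidHom n : G →* G).ker :=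
    Nat.card_congr
      { toFun := fun x => ⟨Additive.toMul x.1, x.2⟩
        invFun := fun x => ⟨Additive.ofMul x.1, x.2⟩
        left_inv := fun _ => rfl
        right_inv := fun _ => rfl }
  rw [h2] at h
  exact h

end General

variable {F : Type} [Field F] [NumberField F] {p : ℕ} [Fact p.Prime] {ζ : F}

/-- [SI-U] (c): `ζ_p ∈ F`, `p` odd: `F` is totally complex. -/
theorem units_rank_of_zeta (hp2 : p ≠ 2) (hζ : IsPrimitiveRoot ζ p) :
    NumberField.Units.rank F + 1 = NumberField.InfinitePlace.nrComplexPlaces F ∧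
      2 * NumberField.InfinitePlace.nrComplexPlaces F = Module.finrank ℚ F := by
  have hp : p.Prime := Fact.out
  have h0 := NumberField.InfinitePlace.IsPrimitiveRoot.nrRealPlaces_eq_zero_of_two_lt
    (lt_of_le_of_ne hp.two_le (Ne.symm hp2)) hζ
  have h1 := NumberField.InfinitePlace.card_eq_nrRealPlaces_add_nrComplexPlaces F
  have h2 := NumberField.InfinitePlace.card_add_two_mul_card_eq_rank F
  have h3 : 0 < Fintype.card (NumberField.InfinitePlace F) := Fintype.card_pos
  rw [NumberField.Units.rank]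
  omega

/-- The `p`-torsion of the `S`-units is the group of `p`-th roots of unity of `F`. -/
theorem card_ker_pow_sUnit (hζ : IsPrimitiveRoot ζ p) (S : Finset (Pl F)) :
    Nat.card (powMonoidHom p : (S : Set (Pl F)).unit F →* (S : Set (Pl F)).unit F).ker = p := by
  have hp : p.Prime := Fact.out
  have : NeZero p := ⟨hp.ne_zero⟩
  refine Eq.trans (Nat.card_congr (β := rootsOfUnity p F)
    { toFun := fun x => ⟨(x.1 : Fˣ), ?_⟩
      invFun := fun u => ⟨⟨u.1, ?_⟩, ?_⟩
      left_inv := fun _ => rfl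
      right_inv := fun _ => rfl }) hζ.card_rootsOfUnity
  · have hx := x.2
    rw [MonoidHom.mem_ker, powMonoidHom_apply] at hx
    rw [mem_rootsOfUnity]
    have := congrArg (fun y : (S : Set (Pl F)).unit F => (y : Fˣ)) hx
    simpa using this
  · intro v _
    have hu := (mem_rootsOfUnity _ _).mp u.2
    have h1 : (v.valuation F ((u.1 : Fˣ) : F)) ^ p = 1 := by
      rw [← map_pow, ← Units.val_pow_eq_pow_val, hu, Units.val_one, map_one]
    exact (pow_eq_one_iff.mp h1).resolve_right hp.ne_zero
  · rw [MonoidHom.mem_ker, powMonoidHom_apply]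
    apply Subtype.ext
    simpa using (mem_rootsOfUnity _ _).mp u.2

/-- [SI-U] (d): `|E_S / E_S^p| = p ^ (r + |S|)`. -/
theorem card_sUnit_mod_pow (hp2 : p ≠ 2) (hζ : IsPrimitiveRoot ζ p) (S : Finset (Pl F)) :
    Nat.card ((S : Set (Pl F)).unit F ⧸
        (powMonoidHom p : (S : Set (Pl F)).unit F →* (S : Set (Pl F)).unit F).range) =
      p ^ (NumberField.InfinitePlace.nrComplexPlaces F + S.card) := by
  have hp : p.Prime := Fact.out
  have := Fermat.Agent.S14C.SUnit.sUnit_finite S
  rw [card_quot_range_pow _ hp.ne_zero, card_ker_pow_sUnit hζ S,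
    Fermat.Agent.S14C.SUnit.sUnit_finrank S, ← (units_rank_of_zeta hp2 hζ).1, ← pow_succ]
  congr 1
  omega

end Fermat.Agent.S14C.SUnitCard
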