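import Fermat.Agent.S14C.SI.Defs

/-!
# S14C / SI : basic API of the `p`-th power residue symbol `sym p ζ v x`  (leaf [SI-Sym])

Everything is done in the finite residue field `𝓞 F ⧸ v.asIdeal` (of cardinality `nrm v`).
-/

set_option autoImplicit false
set_option linter.unusedSectionVars false

namespace Fermat.Agent.S14C.SymBasic

open IsDedekindDomain NumberField Fermat.Agent.S14C.SIDefs

variable {F : Type} [Field F] [NumberField F] {p : ℕ} [Fact p.Prime] {ζ : F}

/-! ### Congruences modulo `v` -/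

theorem congMod_refl (v : Pl F) (x : F) : CongMod v x x := by
  simp [CongMod]

theorem congMod_symm {v : Pl F} {x y : F} (h : CongMod v x y) : CongMod v y x := by
  unfold CongMod at *
  rwa [Valuation.map_sub_swap]

theorem congMod_trans {v : Pl F} {x y z : F} (h₁ : CongMod v x y) (h₂ : CongMod v y z) :
    CongMod v x z := by
  unfold CongMod at *
  have : x - z = (x - y) + (y - z) := by ring
  rw [this]
  exact lt_of_le_of_lt (Valuation.map_add _ _ _) (max_lt h₁ h₂)

theorem congMod_val_le_one {v : Pl F} {x y : F} (h : CongMod v x y)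
    (hx : v.valuation F x ≤ 1) : v.valuation F y ≤ 1 := by
  unfold CongMod at h
  have : y = x - (x - y) := by ring
  rw [this]
  exact le_trans (Valuation.map_sub _ _ _) (max_le hx h.le)

theorem congMod_val_eq_one {v : Pl F} {x y : F} (h : CongMod v x y)
    (hx : v.valuation F x = 1) : v.valuation F y = 1 := by
  unfold CongMod at h
  have : y = x - (x - y) := by ring
  rw [this, Valuation.map_sub_eq_of_lt_left _ (by rw [hx]; exact h), hx]

theorem congMod_mul {v : Pl F} {x x' y y' : F} (h₁ : CongMod v x x') (h₂ : CongMod v y y')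
    (hx : v.valuation F x ≤ 1) (hy : v.valuation F y' ≤ 1) : CongMod v (x * y) (x' * y') := by
  unfold CongMod at *
  have : x * y - x' * y' = x * (y - y') + (x - x') * y' := by ring
  rw [this]
  refine lt_of_le_of_lt (Valuation.map_add _ _ _) (max_lt ?_ ?_)
  · rw [map_mul]
    calc v.valuation F x * v.valuation F (y - y') ≤ 1 * v.valuation F (y - y') := by gcongr
      _ < 1 := by simpa using h₂
  · rw [map_mul]
    calc v.valuation F (x - x') * v.valuation F y' ≤ v.valuation F (x - x') * 1 := by gcongr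
      _ < 1 := by simpa using h₁

theorem congMod_pow {v : Pl F} {x y : F} (h : CongMod v x y) (hx : v.valuation F x ≤ 1)
    (n : ℕ) : CongMod v (x ^ n) (y ^ n) := by
  induction n with
  | zero => simpa using congMod_refl v 1
  | succ n ih =>
    rw [pow_succ, pow_succ]
    exact congMod_mul ih h (by simpa using pow_le_one₀ (by simp) hx) (congMod_val_le_one h hx)

/-- Integers: congruence mod `v` is equality in the residue field. -/
theorem congMod_int_iff (v : Pl F) (a b : 𝓞 F) :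
    CongMod v (algebraMap (𝓞 F) F a) (algebraMap (𝓞 F) F b) ↔
      Ideal.Quotient.mk v.asIdeal a = Ideal.Quotient.mk v.asIdeal b := by
  unfold CongMod
  rw [← map_sub, HeightOneSpectrum.valuation_lt_one_iff_mem, Ideal.Quotient.eq]

/-- Every `v`-integral element is congruent to an integer. -/
theorem exists_int_congMod (v : Pl F) {x : F} (hx : v.valuation F x ≤ 1) :
    ∃ a : 𝓞 F, CongMod v x (algebraMap (𝓞 F) F a) := by
  obtain ⟨a, ha⟩ := v.exists_valuation_sub_lt_of_integer hx 1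
  refine ⟨a, ?_⟩
  unfold CongMod
  rw [Valuation.map_sub_swap]
  simpa using ha

theorem val_eq_one_of_ord {v : Pl F} {x : F} (hx0 : x ≠ 0) (hx : ord v x = 0) :
    v.valuation F x = 1 := by
  unfold ord at hx
  have h0 : v.valuation F x ≠ 0 := (Valuation.ne_zero_iff _).mpr hx0
  have h1 : WithZero.log (v.valuation F x) = 0 := by omega
  rw [← WithZero.exp_log h0, h1]
  rfl

theorem ord_eq_zero_of_val {v : Pl F} {x : F} (hx : v.valuation F x = 1) : ord v x = 0 := by
  unfold ord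
  rw [hx]
  simp

/-! ### The residue field `𝓞 F ⧸ v` -/

/-- The residue ring at a prime is a field (local instance only). -/
@[instance_reducible]
noncomputable def kvField (v : Pl F) : Field (𝓞 F ⧸ v.asIdeal) :=
  haveI := v.isMaximal
  Ideal.Quotient.field v.asIdeal

attribute [local instance] kvField

theorem kv_finite (v : Pl F) : Finite (𝓞 F ⧸ v.asIdeal) :=
  Ideal.finiteQuotientOfFreeOfNeBot v.asIdeal v.ne_bot

attribute [local instance] kv_finite

theorem nrm_eq_card (v : Pl F) : nrm v = Nat.card (𝓞 F ⧸ v.asIdeal) := by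
  unfold nrm
  rw [Ideal.absNorm_apply, Submodule.cardQuot_apply]

theorem mk_ne_zero_iff (v : Pl F) (a : 𝓞 F) :
    Ideal.Quotient.mk v.asIdeal a ≠ 0 ↔ v.valuation F (algebraMap (𝓞 F) F a) = 1 := by
  rw [Ne, Ideal.Quotient.eq_zero_iff_mem, ← HeightOneSpectrum.valuation_lt_one_iff_mem (K := F)]
  constructor
  · intro h
    exact le_antisymm (v.valuation_le_one a) (not_lt.mp h)
  · intro h
    rw [h]
    exact lt_irrefl _

theorem mk_pow_nrm_sub_one (v : Pl F) (a : 𝓞 F) (ha : Ideal.Quotient.mk v.asIdeal a ≠ 0) :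
    (Ideal.Quotient.mk v.asIdeal a) ^ (nrm v - 1) = 1 := by
  classical
  let _ : Fintype (𝓞 F ⧸ v.asIdeal) := Fintype.ofFinite _
  rw [nrm_eq_card, Nat.card_eq_fintype_card]
  exact FiniteField.pow_card_sub_one_eq_one _ ha

theorem exists_int_zeta (hζ : IsPrimitiveRoot ζ p) :
    ∃ z : 𝓞 F, algebraMap (𝓞 F) F z = ζ ∧ IsPrimitiveRoot z p := by
  have hp : 0 < p := (Fact.out : p.Prime).pos
  refine ⟨⟨ζ, hζ.isIntegral hp⟩, rfl, ?_⟩
  exact IsPrimitiveRoot.of_map_of_injective (f := algebraMap (𝓞 F) F) hζ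
    (FaithfulSMul.algebraMap_injective (𝓞 F) F)

omit [Fact p.Prime] in
theorem natCast_notMem_of_not_above (v : Pl F) (hv : ¬ Above p v) : (p : 𝓞 F) ∉ v.asIdeal := by
  intro h
  apply hv
  unfold Above
  rw [← HeightOneSpectrum.valuation_lt_one_iff_mem (K := F)] at h
  simpa using h

theorem isPrimitiveRoot_mk (v : Pl F) (hv : ¬ Above p v) {z : 𝓞 F} (hz : IsPrimitiveRoot z p) :
    IsPrimitiveRoot (Ideal.Quotient.mk v.asIdeal z) p := by
  have hp : p.Prime := Fact.out
  have h1 : (Ideal.Quotient.mk v.asIdeal z) ^ p = 1 := by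
    rw [← map_pow, hz.pow_eq_one, map_one]
  have h2 : Ideal.Quotient.mk v.asIdeal z ≠ 1 := by
    intro h
    have h3 : ∑ i ∈ Finset.range p, z ^ i = 0 := hz.geom_sum_eq_zero hp.one_lt
    have h4 := congrArg (Ideal.Quotient.mk v.asIdeal) h3
    rw [map_sum] at h4
    simp only [map_pow, h, one_pow, Finset.sum_const, Finset.card_range, nsmul_eq_mul, mul_one,
      map_zero] at h4
    apply natCast_notMem_of_not_above v hv
    rw [← Ideal.Quotient.eq_zero_iff_mem]
    simpa using h4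
  have h3 := orderOf_eq_prime h1 h2
  rw [← h3]
  exact IsPrimitiveRoot.orderOf _

theorem val_zeta_eq_one (hζ : IsPrimitiveRoot ζ p) (v : Pl F) (hv : ¬ Above p v) :
    v.valuation F ζ = 1 := by
  obtain ⟨z, hz, hzp⟩ := exists_int_zeta hζ
  have h1 := isPrimitiveRoot_mk v hv hzp
  rw [← hz]
  exact (mk_ne_zero_iff v z).mp (h1.ne_zero (Fact.out : p.Prime).ne_zero)

/-! ### The symbol -/

theorem dvd_nrm_sub_one (hζ : IsPrimitiveRoot ζ p) (v : Pl F) (hv : ¬ Above p v) :
    p ∣ nrm v - 1 := by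
  obtain ⟨z, hz, hzp⟩ := exists_int_zeta hζ
  have h1 := isPrimitiveRoot_mk v hv hzp
  have h2 : Ideal.Quotient.mk v.asIdeal z ≠ 0 := h1.ne_zero (Fact.out : p.Prime).ne_zero
  exact h1.dvd_of_pow_eq_one _ (mk_pow_nrm_sub_one v z h2)

theorem one_lt_nrm (v : Pl F) : 1 < nrm v := by
  rw [nrm_eq_card]
  exact Finite.one_lt_card

theorem nrm_sub_one_div_pos (hζ : IsPrimitiveRoot ζ p) (v : Pl F) (hv : ¬ Above p v) :
    0 < (nrm v - 1) / p := by
  have h1 := dvd_nrm_sub_one hζ v hv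
  have h2 := one_lt_nrm v
  have hp : p.Prime := Fact.out
  exact Nat.div_pos (Nat.le_of_dvd (by omega) h1) hp.pos

theorem exists_pow_congMod (hζ : IsPrimitiveRoot ζ p) (v : Pl F) (hv : ¬ Above p v) {x : F}
    (hx : v.valuation F x = 1) :
    ∃ i < p, CongMod v (x ^ ((nrm v - 1) / p)) (ζ ^ i) := by
  obtain ⟨z, hz, hzp⟩ := exists_int_zeta hζ
  have h1 := isPrimitiveRoot_mk v hv hzp
  obtain ⟨a, ha⟩ := exists_int_congMod v hx.le
  have ha1 : v.valuation F (algebraMap (𝓞 F) F a) = 1 := congMod_val_eq_one ha hx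
  have ha0 : Ideal.Quotient.mk v.asIdeal a ≠ 0 := (mk_ne_zero_iff v a).mpr ha1
  have hdvd := dvd_nrm_sub_one hζ v hv
  have h2 : ((Ideal.Quotient.mk v.asIdeal a) ^ ((nrm v - 1) / p)) ^ p = 1 := by
    rw [← pow_mul, Nat.div_mul_cancel hdvd]
    exact mk_pow_nrm_sub_one v a ha0
  have : NeZero p := ⟨(Fact.out : p.Prime).ne_zero⟩
  obtain ⟨i, hi, hi2⟩ := h1.eq_pow_of_pow_eq_one h2
  refine ⟨i, hi, ?_⟩
  have h3 : CongMod v (algebraMap (𝓞 F) F (a ^ ((nrm v - 1) / p)))
      (algebraMap (𝓞 F) F (z ^ i)) := by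
    rw [congMod_int_iff, map_pow, map_pow, hi2]
  rw [map_pow, map_pow, hz] at h3
  exact congMod_trans (congMod_pow ha hx.le _) h3

theorem sym_spec (hζ : IsPrimitiveRoot ζ p) (v : Pl F) (hv : ¬ Above p v) {x : F} (hx : ord v x = 0)
    (hx0 : x ≠ 0) : CongMod v (x ^ ((nrm v - 1) / p)) (ζ ^ (sym p ζ v x).val) := by
  obtain ⟨i, hi, h⟩ := exists_pow_congMod hζ v hv (val_eq_one_of_ord hx0 hx)
  have hex : ∃ k : ZMod p, CongMod v (x ^ ((nrm v - 1) / p)) (ζ ^ k.val) :=
    ⟨(i : ZMod p), by rwa [ZMod.val_natCast_of_lt hi]⟩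
  unfold sym
  rw [dif_pos hex]
  exact hex.choose_spec

theorem sym_unique (hζ : IsPrimitiveRoot ζ p) (v : Pl F) (hv : ¬ Above p v) {x : F} {k : ZMod p}
    (h : CongMod v (x ^ ((nrm v - 1) / p)) (ζ ^ k.val)) : sym p ζ v x = k := by
  have hex : ∃ k : ZMod p, CongMod v (x ^ ((nrm v - 1) / p)) (ζ ^ k.val) := ⟨k, h⟩
  have h' : CongMod v (x ^ ((nrm v - 1) / p)) (ζ ^ (sym p ζ v x).val) := by
    unfold sym
    rw [dif_pos hex]
    exact hex.choose_spec
  have h2 := congMod_trans (congMod_symm h') h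
  obtain ⟨z, hz, hzp⟩ := exists_int_zeta hζ
  have h1 := isPrimitiveRoot_mk v hv hzp
  subst hz
  rw [← map_pow, ← map_pow, congMod_int_iff, map_pow, map_pow] at h2
  have := h1.pow_inj (ZMod.val_lt _) (ZMod.val_lt _) h2
  exact ZMod.val_injective p this

theorem sym_one (hζ : IsPrimitiveRoot ζ p) (v : Pl F) (hv : ¬ Above p v) :
    sym p ζ v (1 : F) = 0 := by
  apply sym_unique hζ v hv
  simpa using congMod_refl v 1

theorem zeta_pow_val_add (hζ : IsPrimitiveRoot ζ p) (a b : ZMod p) :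
    ζ ^ (a + b).val = ζ ^ a.val * ζ ^ b.val := by
  rw [← pow_add, ZMod.val_add, ← pow_eq_pow_mod _ hζ.pow_eq_one]

theorem sym_mul (hζ : IsPrimitiveRoot ζ p) (v : Pl F) (hv : ¬ Above p v) {x y : F} (hx0 : x ≠ 0)
    (hy0 : y ≠ 0) (hx : ord v x = 0) (hy : ord v y = 0) :
    sym p ζ v (x * y) = sym p ζ v x + sym p ζ v y := by
  apply sym_unique hζ v hv
  have h1 := sym_spec hζ v hv hx hx0
  have h2 := sym_spec hζ v hv hy hy0
  have hxv := val_eq_one_of_ord hx0 hx
  have hζv := val_zeta_eq_one hζ v hv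
  rw [mul_pow, zeta_pow_val_add hζ]
  refine congMod_mul h1 h2 ?_ ?_
  · rw [map_pow, hxv, one_pow]
  · rw [map_pow, hζv, one_pow]

theorem sym_inv (hζ : IsPrimitiveRoot ζ p) (v : Pl F) (hv : ¬ Above p v) {x : F} (hx0 : x ≠ 0)
    (hx : ord v x = 0) : sym p ζ v x⁻¹ = - sym p ζ v x := by
  have hxv := val_eq_one_of_ord hx0 hx
  have hxi : ord v x⁻¹ = 0 := ord_eq_zero_of_val (by rw [map_inv₀, hxv, inv_one])
  have h := sym_mul hζ v hv hx0 (inv_ne_zero hx0) hx hxi
  rw [mul_inv_cancel₀ hx0, sym_one hζ v hv] at h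
  exact eq_neg_of_add_eq_zero_right h.symm

theorem sym_pow (hζ : IsPrimitiveRoot ζ p) (v : Pl F) (hv : ¬ Above p v) {x : F} (hx0 : x ≠ 0)
    (hx : ord v x = 0) (n : ℕ) : sym p ζ v (x ^ n) = n * sym p ζ v x := by
  have hxv := val_eq_one_of_ord hx0 hx
  induction n with
  | zero => simpa using sym_one hζ v hv
  | succ n ih =>
    have hxn : ord v (x ^ n) = 0 := ord_eq_zero_of_val (by rw [map_pow, hxv, one_pow])
    rw [pow_succ, sym_mul hζ v hv (pow_ne_zero n hx0) hx0 hxn hx, ih]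
    push_cast
    ring

theorem sym_congr (hζ : IsPrimitiveRoot ζ p) (v : Pl F) (hv : ¬ Above p v) {x y : F} (hx0 : x ≠ 0)
    (hx : ord v x = 0) (hxy : CongMod v x y) : sym p ζ v x = sym p ζ v y := by
  have hxv := val_eq_one_of_ord hx0 hx
  refine (sym_unique hζ v hv ?_).symm
  exact congMod_trans (congMod_symm (congMod_pow hxy hxv.le _)) (sym_spec hζ v hv hx hx0)

/-- A generator of the multiplicative group of the residue field, lifted to `𝓞 F`. -/
theorem exists_generator (v : Pl F) :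
    ∃ g : 𝓞 F, Ideal.Quotient.mk v.asIdeal g ≠ 0 ∧
      (∀ n : ℕ, Ideal.Quotient.mk v.asIdeal g ^ n = 1 → nrm v - 1 ∣ n) ∧
      ∀ a : 𝓞 F, Ideal.Quotient.mk v.asIdeal a ≠ 0 →
        ∃ j : ℕ, Ideal.Quotient.mk v.asIdeal a = Ideal.Quotient.mk v.asIdeal g ^ j := by
  obtain ⟨u, hu⟩ := IsCyclic.exists_monoid_generator (α := (𝓞 F ⧸ v.asIdeal)ˣ)
  have hord : orderOf u = nrm v - 1 := by
    rw [orderOf_eq_card_of_forall_mem_powers hu, Nat.card_units, nrm_eq_card]
  obtain ⟨g, hg⟩ := Ideal.Quotient.mk_surjective (u : 𝓞 F ⧸ v.asIdeal)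
  refine ⟨g, ?_, ?_, ?_⟩
  · rw [hg]
    exact u.ne_zero
  · intro n hn
    rw [← hord]
    apply orderOf_dvd_of_pow_eq_one
    apply Units.ext
    rw [Units.val_pow_eq_pow_val, ← hg, hn]
    rfl
  · intro a ha
    obtain ⟨j, hj⟩ := hu (Units.mk0 _ ha)
    refine ⟨j, ?_⟩
    have := congrArg (fun w : (𝓞 F ⧸ v.asIdeal)ˣ => (w : 𝓞 F ⧸ v.asIdeal)) hj
    simp only [Units.val_pow_eq_pow_val, Units.val_mk0] at this
    rw [hg, this]

theorem sym_eq_zero_iff (hζ : IsPrimitiveRoot ζ p) (v : Pl F) (hv : ¬ Above p v) {x : F} (hx0 : x ≠ 0)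
    (hx : ord v x = 0) : sym p ζ v x = 0 ↔ ∃ b : F, CongMod v x (b ^ p) := by
  have hp : p.Prime := Fact.out
  have hxv := val_eq_one_of_ord hx0 hx
  have hdvd := dvd_nrm_sub_one hζ v hv
  have hm := nrm_sub_one_div_pos hζ v hv
  constructor
  · intro h0
    have h1 := sym_spec hζ v hv hx hx0
    rw [h0, ZMod.val_zero, pow_zero] at h1
    obtain ⟨a, ha⟩ := exists_int_congMod v hxv.le
    have ha1 := congMod_val_eq_one ha hxv
    have ha0 := (mk_ne_zero_iff v a).mpr ha1
    have h2 : Ideal.Quotient.mk v.asIdeal a ^ ((nrm v - 1) / p) = 1 := by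
      have h3 := congMod_trans (congMod_symm (congMod_pow ha hxv.le ((nrm v - 1) / p))) h1
      rw [← map_pow, ← map_one (algebraMap (𝓞 F) F), congMod_int_iff, map_pow, map_one] at h3
      exact h3
    obtain ⟨g, hg0, hgord, hgen⟩ := exists_generator v
    obtain ⟨j, hj⟩ := hgen a ha0
    rw [hj, ← pow_mul] at h2
    have h4 := hgord _ h2
    obtain ⟨j', rfl⟩ : p ∣ j := by
      obtain ⟨m, hm'⟩ := hdvd
      rw [hm', Nat.mul_div_cancel_left m hp.pos] at h4 hm
      exact (Nat.mul_dvd_mul_iff_right hm).mp h4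
    refine ⟨algebraMap (𝓞 F) F (g ^ j'), ?_⟩
    refine congMod_trans ha ?_
    rw [← map_pow, congMod_int_iff, hj, map_pow, map_pow, ← pow_mul, mul_comm]
  · rintro ⟨b, hb⟩
    apply sym_unique hζ v hv
    rw [ZMod.val_zero, pow_zero]
    have hbp : v.valuation F (b ^ p) = 1 := congMod_val_eq_one hb hxv
    have hbv : v.valuation F b = 1 := by
      rw [map_pow] at hbp
      exact (pow_eq_one_iff_left hp.ne_zero).mp hbp
    obtain ⟨c, hc⟩ := exists_int_congMod v hbv.le
    have hc1 := congMod_val_eq_one hc hbv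
    have hc0 := (mk_ne_zero_iff v c).mpr hc1
    have h1 : CongMod v (x ^ ((nrm v - 1) / p)) ((b ^ p) ^ ((nrm v - 1) / p)) :=
      congMod_pow hb hxv.le _
    rw [← pow_mul, Nat.mul_div_cancel' hdvd] at h1
    have h2 : CongMod v (b ^ (nrm v - 1)) ((algebraMap (𝓞 F) F c) ^ (nrm v - 1)) :=
      congMod_pow hc hbv.le _
    have h3 : CongMod v ((algebraMap (𝓞 F) F c) ^ (nrm v - 1)) 1 := by
      rw [← map_pow, ← map_one (algebraMap (𝓞 F) F), congMod_int_iff, map_pow, map_one]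
      exact mk_pow_nrm_sub_one v c hc0
    exact congMod_trans h1 (congMod_trans h2 h3)

/-- surjectivity: a non-residue unit exists -/
theorem exists_sym_eq (hζ : IsPrimitiveRoot ζ p) (v : Pl F) (hv : ¬ Above p v) (k : ZMod p) :
    ∃ x : F, x ≠ 0 ∧ ord v x = 0 ∧ sym p ζ v x = k := by
  have hp : p.Prime := Fact.out
  have hdvd := dvd_nrm_sub_one hζ v hv
  have hm := nrm_sub_one_div_pos hζ v hv
  obtain ⟨g, hg0, hgord, hgen⟩ := exists_generator v
  have hgv : v.valuation F (algebraMap (𝓞 F) F g) = 1 := (mk_ne_zero_iff v g).mp hg0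
  have hg00 : algebraMap (𝓞 F) F g ≠ 0 := (Valuation.ne_zero_iff _).mp (by rw [hgv]; exact one_ne_zero)
  have hgo : ord v (algebraMap (𝓞 F) F g) = 0 := ord_eq_zero_of_val hgv
  have hs : sym p ζ v (algebraMap (𝓞 F) F g) ≠ 0 := by
    intro h0
    have h1 := sym_spec hζ v hv hgo hg00
    rw [h0, ZMod.val_zero, pow_zero, ← map_pow, ← map_one (algebraMap (𝓞 F) F), congMod_int_iff,
      map_pow, map_one] at h1
    have h2 := hgord _ h1
    obtain ⟨m, hm'⟩ := hdvd
    rw [hm', Nat.mul_div_cancel_left m hp.pos] at h2 hm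
    have h3 := Nat.le_of_dvd hm h2
    have h4 := hp.two_le
    nlinarith
  refine ⟨(algebraMap (𝓞 F) F g) ^ (k * (sym p ζ v (algebraMap (𝓞 F) F g))⁻¹).val,
    pow_ne_zero _ hg00, ord_eq_zero_of_val (by rw [map_pow, hgv, one_pow]), ?_⟩
  rw [sym_pow hζ v hv hg00 hgo, ZMod.natCast_zmod_val, mul_assoc, inv_mul_cancel₀ hs, mul_one]

end Fermat.Agent.S14C.SymBasic
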