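import Fermat.Agent.S14C.SI.TopPlan
import Fermat.Agent.S14C.SI.OrdBasic
import Fermat.Agent.S14C.SI.SymBasic
import Fermat.Agent.S14C.SI.SUnitCard

/-!
# S14C / SI : [SI-1] + [SI-G1] selection of auxiliary primes

* `exists_family` : abstract selection lemma.  `G` a commutative group with `|G / G^p| = p^d`,
  `A ≤ G` with image of order `≤ p^e` in `G / G^p`, additive "characters" `χ q : G → ZMod p`
  (`q` good), and a selection hypothesis (every `u ∉ A·G^p` is detected by a good `q` outside any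
  finite set).  Then there is a finite set `T` of good `q`, `|T| + e = d`, with
  `G → (ZMod p)^T` onto.
* `auxPrimes` : `ZStepAStatement p → AuxPrimesStatement p`.
* `genPrimes` : `ZStepBStatement p → GenPrimesStatement p`.
-/

set_option autoImplicit false
set_option linter.unusedSectionVars false
set_option linter.style.haveILetI false

namespace Fermat.Agent.S14C.AuxPrimes

open IsDedekindDomain NumberField Fermat.Agent.S14C.SIDefs Fermat.Agent.S14C.SITop

section Abstract

variable {G : Type*} [CommGroup G] {Q : Type*} [DecidableEq Q] {p : ℕ} [Fact p.Prime]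

theorem chi_one {χ : G → ZMod p} (hmul : ∀ x y, χ (x * y) = χ x + χ y) : χ 1 = 0 := by
  have := hmul 1 1
  rw [mul_one] at this
  exact left_eq_add.mp this

theorem chi_pow {χ : G → ZMod p} (hmul : ∀ x y, χ (x * y) = χ x + χ y) (x : G) (n : ℕ) :
    χ (x ^ n) = (n : ZMod p) * χ x := by
  induction n with
  | zero => simpa using chi_one hmul
  | succ n ih => rw [pow_succ, hmul, ih]; push_cast; ring

theorem chi_inv {χ : G → ZMod p} (hmul : ∀ x y, χ (x * y) = χ x + χ y) (x : G) :
    χ x⁻¹ = - χ x := by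
  have := hmul x x⁻¹
  rw [mul_inv_cancel, chi_one hmul] at this
  exact eq_neg_of_add_eq_zero_right this.symm

theorem chi_pow_p {χ : G → ZMod p} (hmul : ∀ x y, χ (x * y) = χ x + χ y) (x : G) :
    χ (x ^ p) = 0 := by
  rw [chi_pow hmul, ZMod.natCast_self, zero_mul]

/-- Counting: if the common kernel of the `χ q`, `q ∈ T`, is contained in `A · G^p`, then
`|G / G^p| ≤ |image of A| · p^|T|`. -/
theorem card_le_of_ker_le (χ : Q → G → ZMod p) (T : Finset Q)
    (hmul : ∀ q ∈ T, ∀ x y, χ q (x * y) = χ q x + χ q y)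
    (A : Subgroup G) (e : ℕ)
    (hA : Nat.card (A.map (QuotientGroup.mk' (powMonoidHom p : G →* G).range)) ≤ p ^ e)
    (hfin : Finite (G ⧸ (powMonoidHom p : G →* G).range))
    (hker : ∀ u : G, (∀ q ∈ T, χ q u = 0) → u ∈ A ⊔ (powMonoidHom p : G →* G).range) :
    Nat.card (G ⧸ (powMonoidHom p : G →* G).range) ≤ p ^ e * p ^ T.card := by
  classical
  have hpp : p.Prime := Fact.out
  haveI : NeZero p := ⟨hpp.ne_zero⟩
  set N : Subgroup G := (powMonoidHom p : G →* G).range with hN
  letI := Fintype.ofFinite (G ⧸ N)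
  set Abar : Subgroup (G ⧸ N) := A.map (QuotientGroup.mk' N) with hAbar
  -- the evaluation map on representatives
  let Φ : G ⧸ N → (T → ZMod p) := fun x q => χ q.1 (Quotient.out x)
  have hfib : ∀ a ∈ (Finset.univ : Finset (G ⧸ N)).image Φ,
      ((Finset.univ : Finset (G ⧸ N)).filter fun x => Φ x = a).card ≤ Nat.card Abar := by
    intro a ha
    obtain ⟨x₀, -, hx₀⟩ := Finset.mem_image.mp ha
    have hfinA : (Abar : Set (G ⧸ N)).Finite := Set.toFinite _
    have hcardA : hfinA.toFinset.card = Nat.card Abar := by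
      rw [← Set.ncard_eq_toFinset_card _ hfinA]
      exact (Nat.card_coe_set_eq _).symm
    rw [← hcardA]
    refine Finset.card_le_card_of_injOn (fun x => x * x₀⁻¹) ?_ ?_
    · intro x hx
      simp only [Finset.coe_filter, Finset.mem_univ, true_and, Set.mem_ofPred_eq] at hx
      simp only [Set.Finite.coe_toFinset, SetLike.mem_coe]
      -- `x * x₀⁻¹` is the class of `out x * (out x₀)⁻¹`, which lies in `A ⊔ N`
      have hmem : Quotient.out x * (Quotient.out x₀)⁻¹ ∈ A ⊔ N := by
        apply hker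
        intro q hq
        rw [hmul q hq, chi_inv (hmul q hq)]
        have h1 := congrFun hx ⟨q, hq⟩
        have h2 := congrFun hx₀ ⟨q, hq⟩
        simp only [Φ] at h1 h2
        rw [h1, h2, add_neg_cancel]
      have hcls : x * x₀⁻¹ = QuotientGroup.mk' N (Quotient.out x * (Quotient.out x₀)⁻¹) := by
        rw [map_mul, map_inv]
        simp only [QuotientGroup.mk'_apply, QuotientGroup.out_eq']
      rw [hcls, hAbar]
      -- image of `A ⊔ N` equals image of `A`
      obtain ⟨y, hy, z, hz, hyz⟩ := Subgroup.mem_sup.mp hmem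
      refine ⟨y, hy, ?_⟩
      rw [← hyz, map_mul]
      have : QuotientGroup.mk' N z = 1 := (QuotientGroup.eq_one_iff z).mpr hz
      rw [this, mul_one]
    · intro x _ y _ hxy
      exact mul_right_cancel hxy
  have h1 := Finset.card_le_mul_card_image (Finset.univ : Finset (G ⧸ N)) (Nat.card Abar) hfib
  have h2 : ((Finset.univ : Finset (G ⧸ N)).image Φ).card ≤ p ^ T.card := by
    calc ((Finset.univ : Finset (G ⧸ N)).image Φ).card
        ≤ (Finset.univ : Finset (T → ZMod p)).card := Finset.card_le_univ _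
      _ = p ^ T.card := by
        rw [Finset.card_univ, Fintype.card_fun, ZMod.card, Fintype.card_coe]
  calc Nat.card (G ⧸ N) = (Finset.univ : Finset (G ⧸ N)).card := by
        rw [Nat.card_eq_fintype_card, Finset.card_univ]
    _ ≤ Nat.card Abar * ((Finset.univ : Finset (G ⧸ N)).image Φ).card := h1
    _ ≤ p ^ e * p ^ T.card := Nat.mul_le_mul hA h2

/-- The abstract selection lemma. -/
theorem exists_family (χ : Q → G → ZMod p) (good : Q → Prop)
    (hmul : ∀ q, good q → ∀ x y, χ q (x * y) = χ q x + χ q y)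
    (A : Subgroup G) (d e : ℕ) (hed : e ≤ d)
    (hcard : Nat.card (G ⧸ (powMonoidHom p : G →* G).range) = p ^ d)
    (hA : Nat.card (A.map (QuotientGroup.mk' (powMonoidHom p : G →* G).range)) ≤ p ^ e)
    (hsel : ∀ (T : Finset Q) (u : G), u ∉ A ⊔ (powMonoidHom p : G →* G).range →
        ∃ q, good q ∧ q ∉ T ∧ χ q u ≠ 0) :
    ∃ T : Finset Q, (∀ q ∈ T, good q) ∧ T.card + e = d ∧
      ∀ c : Q → ZMod p, ∃ u : G, ∀ q ∈ T, χ q u = c q := by
  have hpp : p.Prime := Fact.out
  haveI : NeZero p := ⟨hpp.ne_zero⟩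
  have hfin : Finite (G ⧸ (powMonoidHom p : G →* G).range) :=
    Nat.finite_of_card_ne_zero (by rw [hcard]; exact pow_ne_zero _ hpp.ne_zero)
  -- the inductive construction
  have key : ∀ n : ℕ, n + e ≤ d → ∃ T : Finset Q, (∀ q ∈ T, good q) ∧ T.card = n ∧
      ∀ c : Q → ZMod p, ∃ u : G, ∀ q ∈ T, χ q u = c q := by
    intro n
    induction n with
    | zero =>
      intro _
      exact ⟨∅, by simp, by simp, fun c => ⟨1, by simp⟩⟩
    | succ n ih =>
      intro hn
      obtain ⟨T, hgood, hTcard, hsurj⟩ := ih (by omega)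
      -- an element of the common kernel outside `A · G^p`
      have hex : ∃ u : G, (∀ q ∈ T, χ q u = 0) ∧
          u ∉ A ⊔ (powMonoidHom p : G →* G).range := by
        by_contra hcon
        push Not at hcon
        have hle := card_le_of_ker_le χ T (fun q hq => hmul q (hgood q hq)) A e hA hfin hcon
        rw [hcard, ← pow_add] at hle
        have := (Nat.pow_le_pow_iff_right hpp.one_lt).mp hle
        omega
      obtain ⟨u, hu0, huA⟩ := hex
      obtain ⟨q, hq, hqT, hqu⟩ := hsel T u huA
      refine ⟨insert q T, ?_, ?_, ?_⟩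
      · intro q' hq'
        rcases Finset.mem_insert.mp hq' with rfl | h
        · exact hq
        · exact hgood q' h
      · rw [Finset.card_insert_of_notMem hqT, hTcard]
      · intro c
        obtain ⟨u₀, hu₀⟩ := hsurj c
        set j : ZMod p := (c q - χ q u₀) / χ q u with hj
        refine ⟨u₀ * u ^ j.val, ?_⟩
        intro q' hq'
        rcases Finset.mem_insert.mp hq' with rfl | h
        · rw [hmul _ hq, chi_pow (hmul _ hq), ZMod.natCast_zmod_val, hj]
          field_simp
          ring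
        · rw [hmul q' (hgood q' h), chi_pow (hmul q' (hgood q' h)), hu0 q' h, mul_zero, add_zero,
            hu₀ q' h]
  obtain ⟨T, hgood, hTcard, hsurj⟩ := key (d - e) (by omega)
  exact ⟨T, hgood, by omega, hsurj⟩

end Abstract

section NF

open Fermat.Agent.S14C.OrdBasic Fermat.Agent.S14C.SymBasic

variable {F : Type} [Field F] [NumberField F] {p : ℕ} [Fact p.Prime] {ζ : F}

/-- The symbol at `q` as a function on the `S`-units. -/
noncomputable def chiS (p : ℕ) (ζ : F) (S : Finset (Pl F)) (q : Pl F)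
    (u : (S : Set (Pl F)).unit F) : ZMod p :=
  sym p ζ q ((u : Fˣ) : F)

theorem sUnit_ord (S : Finset (Pl F)) (u : (S : Set (Pl F)).unit F) {v : Pl F} (hv : v ∉ S) :
    ord v ((u : Fˣ) : F) = 0 :=
  (mem_unit_iff (S : Set (Pl F)) (u : Fˣ)).mp u.2 v (by simpa using hv)

theorem chiS_mul (hζ : IsPrimitiveRoot ζ p) (S : Finset (Pl F))
    (hS : ∀ v : Pl F, Above p v → v ∈ S) {q : Pl F} (hq : q ∉ S)
    (x y : (S : Set (Pl F)).unit F) :
    chiS p ζ S q (x * y) = chiS p ζ S q x + chiS p ζ S q y := by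
  unfold chiS
  rw [Subgroup.coe_mul, Units.val_mul]
  exact sym_mul hζ q (fun h => hq (hS q h)) (Units.ne_zero _) (Units.ne_zero _)
    (sUnit_ord S x hq) (sUnit_ord S y hq)

/-- An element of `F` which is a unit outside `S`, as an `S`-unit. -/
noncomputable def mkSUnit (S : Finset (Pl F)) (b : F) (hb0 : b ≠ 0)
    (hb : ∀ v : Pl F, v ∉ S → ord v b = 0) : (S : Set (Pl F)).unit F :=
  ⟨Units.mk0 b hb0, (mem_unit_iff _ _).mpr (by simpa using hb)⟩

@[simp] theorem coe_mkSUnit (S : Finset (Pl F)) (b : F) (hb0 : b ≠ 0)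
    (hb : ∀ v : Pl F, v ∉ S → ord v b = 0) : (((mkSUnit S b hb0 hb : (S : Set (Pl F)).unit F) : Fˣ) : F) = b :=
  rfl

theorem sUnit_ext (S : Finset (Pl F)) {x y : (S : Set (Pl F)).unit F}
    (h : ((x : Fˣ) : F) = ((y : Fˣ) : F)) : x = y :=
  Subtype.ext (Units.ext h)

theorem card_map_zpowers_le {G : Type*} [CommGroup G] (a : G) :
    Nat.card ((Subgroup.zpowers a).map
      (QuotientGroup.mk' (powMonoidHom p : G →* G).range)) ≤ p ^ 1 := by
  have hpp : p.Prime := Fact.out
  rw [MonoidHom.map_zpowers, Nat.card_zpowers, pow_one]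
  apply orderOf_le_of_pow_eq_one hpp.pos
  rw [← map_pow]
  exact (QuotientGroup.eq_one_iff _).mpr ⟨a, rfl⟩

theorem card_map_bot_le {G : Type*} [CommGroup G] :
    Nat.card ((⊥ : Subgroup G).map
      (QuotientGroup.mk' (powMonoidHom p : G →* G).range)) ≤ p ^ 0 := by
  rw [Subgroup.map_bot, Subgroup.card_bot, pow_zero]

/-- [SI-1] -/
theorem auxPrimes (hp2 : p ≠ 2) (hA : ZStepAStatement p) : AuxPrimesStatement p := by
  classical
  intro F _ _ ζ hζ a ha S hS haS
  have hpp : p.Prime := Fact.out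
  have ha0 : a ≠ 0 := by
    rintro rfl
    exact ha 0 (zero_pow hpp.ne_zero)
  set a' : (S : Set (Pl F)).unit F := mkSUnit S a ha0 haS with ha'
  have hr : 1 ≤ NumberField.InfinitePlace.nrComplexPlaces F + S.card := by
    have := (Fermat.Agent.S14C.SUnitCard.units_rank_of_zeta hp2 hζ).1
    omega
  obtain ⟨T, hgood, hTcard, hsurj⟩ := exists_family (p := p)
    (G := (S : Set (Pl F)).unit F) (Q := Pl F) (chiS p ζ S)
    (fun q => q ∉ S ∧ sym p ζ q a = 0)
    (fun q hq x y => chiS_mul hζ S hS hq.1 x y)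
    (Subgroup.zpowers a') (NumberField.InfinitePlace.nrComplexPlaces F + S.card) 1 hr
    (Fermat.Agent.S14C.SUnitCard.card_sUnit_mod_pow hp2 hζ S)
    (card_map_zpowers_le a')
    (by
      intro T u hu
      have hstep : ∀ (k : ℕ) (b : F), a ^ k * b ^ p ≠ ((u : Fˣ) : F) := by
        intro k b hkb
        apply hu
        have hb0 : b ≠ 0 := by
          rintro rfl
          rw [zero_pow hpp.ne_zero, mul_zero] at hkb
          exact Units.ne_zero _ hkb.symm
        have hb : ∀ v : Pl F, v ∉ S → ord v b = 0 := by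
          intro v hv
          have h1 : ord v (a ^ k * b ^ p) = 0 := by rw [hkb]; exact sUnit_ord S u hv
          rw [ord_mul v (pow_ne_zero _ ha0) (pow_ne_zero _ hb0), ord_pow, ord_pow, haS v hv,
            mul_zero, zero_add] at h1
          rcases mul_eq_zero.mp h1 with h | h
          · exact absurd (by exact_mod_cast h) hpp.ne_zero
          · exact h
        have hu' : u = a' ^ k * (mkSUnit S b hb0 hb) ^ p := by
          apply sUnit_ext
          simp [hkb, ha']
        rw [hu']
        exact Subgroup.mul_mem_sup (Subgroup.pow_mem _ (Subgroup.mem_zpowers a') k)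
          ⟨mkSUnit S b hb0 hb, rfl⟩
      obtain ⟨q, hqZ, hqp, hqa, hqu, -, hsa, hsu⟩ :=
        hA F ζ hζ a ((u : Fˣ) : F) ha hstep (S ∪ T)
      rw [Finset.mem_union, not_or] at hqZ
      exact ⟨q, ⟨hqZ.1, hsa⟩, hqZ.2, hsu⟩)
  refine ⟨T, ?_, fun q hq => (hgood q hq).2, hTcard, ?_⟩
  · rw [Finset.disjoint_left]
    intro q hqS hqT
    exact (hgood q hqT).1 hqS
  · intro c
    obtain ⟨u, hu⟩ := hsurj c
    exact ⟨((u : Fˣ) : F), Units.ne_zero _, fun v hv => sUnit_ord S u hv, hu⟩

/-- [SI-G1] -/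
theorem genPrimes (hp2 : p ≠ 2) (hB : ZStepBStatement p) : GenPrimesStatement p := by
  classical
  intro F _ _ ζ hζ η hη S hS
  have hpp : p.Prime := Fact.out
  obtain ⟨T, hgood, hTcard, hsurj⟩ := exists_family (p := p)
    (G := (S : Set (Pl F)).unit F) (Q := Pl F) (chiS p ζ S)
    (fun q => q ∉ S ∧ ord q η = 0 ∧ (nrm q).Prime ∧ sym p ζ q η ≠ 0)
    (fun q hq x y => chiS_mul hζ S hS hq.1 x y)
    ⊥ (NumberField.InfinitePlace.nrComplexPlaces F + S.card) 0 (Nat.zero_le _)
    (Fermat.Agent.S14C.SUnitCard.card_sUnit_mod_pow hp2 hζ S)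
    card_map_bot_le
    (by
      intro T u hu
      rw [bot_sup_eq] at hu
      have hstep : ∀ b : F, b ^ p ≠ ((u : Fˣ) : F) := by
        intro b hkb
        apply hu
        have hb0 : b ≠ 0 := by
          rintro rfl
          rw [zero_pow hpp.ne_zero] at hkb
          exact Units.ne_zero _ hkb.symm
        have hb : ∀ v : Pl F, v ∉ S → ord v b = 0 := by
          intro v hv
          have h1 : ord v (b ^ p) = 0 := by rw [hkb]; exact sUnit_ord S u hv
          rw [ord_pow] at h1
          rcases mul_eq_zero.mp h1 with h | h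
          · exact absurd (by exact_mod_cast h) hpp.ne_zero
          · exact h
        have hu' : u = (mkSUnit S b hb0 hb) ^ p := by
          apply sUnit_ext
          simp [hkb]
        rw [hu']
        exact ⟨mkSUnit S b hb0 hb, rfl⟩
      obtain ⟨q, hqZ, hqp, hqη, hqu, hprime, hsη, hsu⟩ :=
        hB F ζ hζ η ((u : Fˣ) : F) hη hstep (S ∪ T)
      rw [Finset.mem_union, not_or] at hqZ
      exact ⟨q, ⟨hqZ.1, hqη, hprime, hsη⟩, hqZ.2, hsu⟩)
  refine ⟨T, ?_, fun q hq => (hgood q hq).2, by simpa using hTcard, ?_⟩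
  · rw [Finset.disjoint_left]
    intro q hqS hqT
    exact (hgood q hqT).1 hqS
  · intro c
    obtain ⟨u, hu⟩ := hsurj c
    exact ⟨((u : Fˣ) : F), Units.ne_zero _, fun v hv => sUnit_ord S u hv, hu⟩

end NF

end Fermat.Agent.S14C.AuxPrimes
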