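import Fermat.Agent.S14C.SI.SUnitAbove
import Fermat.Agent.S14C.SI.SymBasic

/-!
# S14C / SI : Claim B (assembly)

An `(S ∪ T)`-unit `y` of `F ∋ ζ_p` which is locally a `p`-th power at every prime of `S` is a
`p`-th power, provided `𝓞_{F,S}` is principal (`hS`) and the power residue symbols at the primes
of `T` are independent on the `S`-units (`hT`).
-/

set_option autoImplicit false
set_option linter.unusedSectionVars false

namespace Fermat.Agent.S14C.ClaimB

open IsDedekindDomain NumberField Fermat.Agent.S14C.SIDefs Fermat.Agent.S14C.ClaimBPlan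
open Fermat.Agent.S14C.OrdBasic Fermat.Agent.S14C.SymBasic Fermat.Agent.S14C.SUnitAbove

variable {F : Type} [Field F] [NumberField F] {p : ℕ} [Fact p.Prime] {ζ : F}
variable {N : Type} [Field N] [NumberField N] [Algebra F N]

/-! ### Descent of an invariant divisor to `F` -/

/-- If all `σ x / x` are `S`-units then `ord · x` is constant on the primes over `v ∉ S`. -/
theorem ord_const_of_invariant (hGal : GalStatement) [IsGalois F N] {S : Finset (Pl F)} {x : N}
    (hx0 : x ≠ 0) (hx : ∀ σ : N ≃ₐ[F] N, IsSUnitAbove S (σ x / x)) (v : Pl F) (hv : v ∉ S)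
    (w w' : Pl N) (hw : Over w v) (hw' : Over w' v) : ord w x = ord w' x := by
  obtain ⟨hG1, -, -, -, -, -, hG7⟩ := hGal F N
  obtain ⟨σ, rfl⟩ := hG7 inferInstance w w' v hw hw'
  have h1 : ord (galPl σ w) (σ x) = ord w x := hG1 σ w x
  have h2 : ord (galPl σ w) (σ x / x) = 0 := (hx σ).2 _ v hw' hv
  have hσx : σ x ≠ 0 := by simpa using hx0
  rw [ord_div _ hσx hx0] at h2
  omega

theorem exists_descent (hGal : GalStatement) [IsGalois F N] (S T2 : Finset (Pl F))
    (hS : ∀ D : Pl F →₀ ℤ, ∃ x : F, x ≠ 0 ∧ ∀ v, v ∉ S → D v = ord v x)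
    (hunr : ∀ v : Pl F, v ∉ S → v ∉ T2 → ∀ w : Pl N, Over w v →
      ∀ c : F, ord w (algebraMap F N c) = ord v c)
    (hram : ∀ v ∈ T2, ∀ w : Pl N, Over w v →
      ∀ c : F, ord w (algebraMap F N c) = p * ord v c)
    {x : N} (hx0 : x ≠ 0) (hx : ∀ σ : N ≃ₐ[F] N, IsSUnitAbove S (σ x / x))
    (hxp : ∀ v ∈ T2, ∀ w : Pl N, Over w v → (p : ℤ) ∣ ord w x) :
    ∃ c : F, c ≠ 0 ∧ IsSUnitAbove S (x / algebraMap F N c) := by
  classical
  obtain ⟨-, -, hG3, hG4, hG5, -, -⟩ := hGal F N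
  choose wOf hwOf using hG4
  choose under hunder using hG3
  let f : Pl F → ℤ := fun v =>
    if v ∈ S then 0 else if v ∈ T2 then ord (wOf v) x / p else ord (wOf v) x
  have hfin : (Function.support f).Finite := by
    refine ((finite_ord_ne_zero x).image under).subset ?_
    intro v hv
    have hne : ord (wOf v) x ≠ 0 := by
      intro h0
      apply hv
      simp only [f]
      split_ifs <;> simp [h0]
    exact ⟨wOf v, hne, hG5 _ _ _ (hunder _) (hwOf v)⟩
  obtain ⟨c, hc0, hc⟩ := hS (Finsupp.ofSupportFinite f hfin)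
  have hc0' : algebraMap F N c ≠ 0 := by simpa using hc0
  refine ⟨c, hc0, div_ne_zero hx0 hc0', fun w v hwv hv => ?_⟩
  have hD : f v = ord v c := hc v hv
  have hconst : ord (wOf v) x = ord w x :=
    ord_const_of_invariant hGal hx0 hx v hv _ _ (hwOf v) hwv
  rw [ord_div w hx0 hc0']
  by_cases hvT : v ∈ T2
  · rw [hram v hvT w hwv c, ← hD]
    simp only [f, if_neg hv, if_pos hvT]
    rw [Int.mul_ediv_cancel' (hxp v hvT _ (hwOf v)), hconst, sub_self]
  · rw [hunr v hv hvT w hwv c, ← hD]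
    simp only [f, if_neg hv, if_neg hvT]
    rw [hconst, sub_self]

/-! ### The bound `|H¹| ≤ p ^ |T''|` (Hilbert 90 + ambiguous divisors) -/

theorem h1_bound (hGal : GalStatement) [IsGalois F N] (hdeg : Module.finrank F N = p)
    (S T2 : Finset (Pl F))
    (hS : ∀ D : Pl F →₀ ℤ, ∃ x : F, x ≠ 0 ∧ ∀ v, v ∉ S → D v = ord v x)
    (hunr : ∀ v : Pl F, v ∉ S → v ∉ T2 → ∀ w : Pl N, Over w v →
      ∀ c : F, ord w (algebraMap F N c) = ord v c)
    (hram : ∀ v ∈ T2, ∀ w : Pl N, Over w v →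
      ∀ c : F, ord w (algebraMap F N c) = p * ord v c)
    (hramU : ∀ v ∈ T2, ∀ w w' : Pl N, Over w v → Over w' v → w' = w)
    (τ : N ≃ₐ[F] N) (hτ : τ ≠ 1)
    (ε : Fin (p ^ T2.card + 1) → N) (hε : ∀ i, IsSUnitAbove S (ε i))
    (hnorm : ∀ i, Algebra.norm F (ε i) = 1) :
    ∃ i j, i ≠ j ∧ ∃ η : N, IsSUnitAbove S η ∧ ε i / ε j = τ η / η := by
  classical
  have hfd : FiniteDimensional F N := Module.finite_of_finrank_pos (by
    rw [hdeg]; exact (Fact.out : p.Prime).pos)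
  have hcard : Nat.card (N ≃ₐ[F] N) = p := by rw [IsGalois.card_aut_eq_finrank, hdeg]
  have hcyc : IsCyclic (N ≃ₐ[F] N) := isCyclic_of_prime_card hcard
  have hgen : ∀ σ : N ≃ₐ[F] N, σ ∈ Subgroup.zpowers τ := fun σ =>
    mem_zpowers_of_prime_card hcard hτ
  have hpow : ∀ σ : N ≃ₐ[F] N, ∃ k : ℕ, τ ^ k = σ := fun σ =>
    (Submonoid.mem_powers_iff σ τ).mp (mem_powers_of_prime_card hcard hτ)
  -- Hilbert 90
  have h90 : ∀ i, ∃ x : Nˣ, ε i = τ (x : N) / (x : N) := by
    intro i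
    obtain ⟨y, hy⟩ := groupCohomology.exists_div_of_norm_eq_one (K := F) (L := N) hgen (hnorm i)
    refine ⟨y⁻¹, ?_⟩
    rw [← hy]
    have h1 : τ ((y : Nˣ) : N) ≠ 0 := by simp
    have h2 : ((y : Nˣ) : N) ≠ 0 := y.ne_zero
    simp only [Units.val_inv_eq_inv_val, map_inv₀]
    field_simp
  choose x hx using h90
  obtain ⟨-, -, -, hG4, -, -, -⟩ := hGal F N
  choose wOf hwOf using hG4
  -- pigeonhole on the residues of the orders at the ramified primes
  let g : Fin (p ^ T2.card + 1) → (T2 → ZMod p) := fun i q =>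
    ((ord (wOf q.1) ((x i : Nˣ) : N) : ℤ) : ZMod p)
  have hcardlt : Fintype.card (T2 → ZMod p) < Fintype.card (Fin (p ^ T2.card + 1)) := by
    rw [Fintype.card_fun, ZMod.card, Fintype.card_coe, Fintype.card_fin]
    exact Nat.lt_succ_self _
  obtain ⟨i, j, hij, hg⟩ := Fintype.exists_ne_map_eq_of_card_lt g hcardlt
  refine ⟨i, j, hij, ?_⟩
  set X : N := (x i : N) / (x j : N) with hX
  have hX0 : X ≠ 0 := div_ne_zero (x i).ne_zero (x j).ne_zero
  have hτX : τ X / X = ε i / ε j := by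
    rw [hX, hx i, hx j, map_div₀]
    have h1 := (x i).ne_zero
    have h2 := (x j).ne_zero
    have h3 : τ ((x i : Nˣ) : N) ≠ 0 := by simp
    have h4 : τ ((x j : Nˣ) : N) ≠ 0 := by simp
    field_simp
  have hτXS : IsSUnitAbove S (τ X / X) := by
    rw [hτX]
    exact isSUnitAbove_div (hε i) (hε j)
  have hinv : ∀ σ : N ≃ₐ[F] N, IsSUnitAbove S (σ X / X) := by
    intro σ
    obtain ⟨k, rfl⟩ := hpow σ
    exact isSUnitAbove_pow_div hGal τ hX0 hτXS k
  have hXp : ∀ v ∈ T2, ∀ w : Pl N, Over w v → (p : ℤ) ∣ ord w X := by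
    intro v hv w hw
    have hw' : w = wOf v := hramU v hv _ _ (hwOf v) hw
    subst hw'
    rw [hX, ord_div _ (x i).ne_zero (x j).ne_zero]
    have := congrFun hg ⟨v, hv⟩
    simp only [g] at this
    have h2 := (ZMod.intCast_eq_intCast_iff_dvd_sub _ _ p).mp this
    have h3 : ord (wOf v) ((x i : Nˣ) : N) - ord (wOf v) ((x j : Nˣ) : N)
        = -(ord (wOf v) ((x j : Nˣ) : N) - ord (wOf v) ((x i : Nˣ) : N)) := by ring
    rw [h3]
    exact (dvd_neg).mpr h2
  obtain ⟨c, hc0, hc⟩ := exists_descent hGal S T2 hS hunr hram hX0 hinv hXp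
  refine ⟨X / algebraMap F N c, hc, ?_⟩
  have hc0' : algebraMap F N c ≠ 0 := by simpa using hc0
  have hτX0 : τ X ≠ 0 := by simpa using hX0
  rw [← hτX, map_div₀ τ X, AlgEquiv.commutes]
  field_simp

/-! ### The bound `|Ĥ⁰| ≥ p ^ |T''|` (norms are residues at totally ramified primes) -/

theorem valuation_lt_one_iff_ord_pos {K : Type} [Field K] [NumberField K] (w : Pl K) {z : K}
    (hz : z ≠ 0) : w.valuation K z < 1 ↔ 0 < ord w z := by
  rw [valuation_eq_exp_neg_ord w hz, ← WithZero.exp_zero, WithZero.exp_lt_exp]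
  omega

theorem valuation_prod_sub_pow_lt_one {K : Type} [Field K] [NumberField K] {ι : Type} (w : Pl K)
    (s : Finset ι) (a : ι → K) (b : K)
    (hb : w.valuation K b ≤ 1) (ha : ∀ i ∈ s, w.valuation K (a i - b) < 1) :
    w.valuation K (∏ i ∈ s, a i - b ^ s.card) < 1 := by
  classical
  induction s using Finset.induction_on with
  | empty => simp
  | insert i s hi ih =>
    have ih' := ih (fun j hj => ha j (Finset.mem_insert_of_mem hj))
    have hprod : w.valuation K (∏ j ∈ s, a j) ≤ 1 := by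
      have : ∏ j ∈ s, a j = (∏ j ∈ s, a j - b ^ s.card) + b ^ s.card := by ring
      rw [this]
      refine le_trans (Valuation.map_add _ _ _) (max_le ih'.le ?_)
      rw [map_pow]
      exact pow_le_one₀ zero_le hb
    rw [Finset.prod_insert hi, Finset.card_insert_of_notMem hi]
    have : a i * ∏ j ∈ s, a j - b ^ (s.card + 1)
        = (a i - b) * ∏ j ∈ s, a j + b * (∏ j ∈ s, a j - b ^ s.card) := by ring
    rw [this]
    refine lt_of_le_of_lt (Valuation.map_add _ _ _) (max_lt ?_ ?_)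
    · rw [map_mul]
      calc w.valuation K (a i - b) * w.valuation K (∏ j ∈ s, a j)
          ≤ w.valuation K (a i - b) * 1 := by gcongr
        _ < 1 := by rw [mul_one]; exact ha i (Finset.mem_insert_self i s)
    · rw [map_mul]
      calc w.valuation K b * w.valuation K (∏ j ∈ s, a j - b ^ s.card)
          ≤ 1 * w.valuation K (∏ j ∈ s, a j - b ^ s.card) := by gcongr
        _ < 1 := by rw [one_mul]; exact ih'

/-- The norm of a `w`-unit is a `p`-th power residue at a totally ramified prime `q`. -/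
theorem sym_norm_eq_zero (hGal : GalStatement) [IsGalois F N] (hζ : IsPrimitiveRoot ζ p)
    (hdeg : Module.finrank F N = p) (q : Pl F) (hq : ¬ Above p q)
    (hramq : ∀ w : Pl N, Over w q →
      (∀ c : F, ord w (algebraMap F N c) = p * ord q c) ∧
      (∀ w' : Pl N, Over w' q → w' = w) ∧
      (∀ x : N, x ≠ 0 → ord w x = 0 →
        ∃ b : F, b ≠ 0 ∧ ord q b = 0 ∧ CongMod w x (algebraMap F N b)))
    {ε : N} (hε0 : ε ≠ 0) (hεq : ∀ w : Pl N, Over w q → ord w ε = 0)
    (hn0 : ord q (Algebra.norm F ε) = 0) :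
    sym p ζ q (Algebra.norm F ε) = 0 := by
  classical
  have hppos : 0 < p := (Fact.out : p.Prime).pos
  have hfd : FiniteDimensional F N := Module.finite_of_finrank_pos (by rw [hdeg]; exact hppos)
  have hcard : Nat.card (N ≃ₐ[F] N) = p := by rw [IsGalois.card_aut_eq_finrank, hdeg]
  obtain ⟨hG1, hG2, -, hG4, -, -, -⟩ := hGal F N
  obtain ⟨w, hw⟩ := hG4 q
  obtain ⟨h1, h2, h3⟩ := hramq w hw
  obtain ⟨b, hb0, hbq, hcong⟩ := h3 ε hε0 (hεq w hw)
  have hnorm0 : Algebra.norm F ε ≠ 0 := Algebra.norm_ne_zero_iff.mpr hε0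
  refine (sym_eq_zero_iff hζ q hq hnorm0 hn0).mpr ⟨b, ?_⟩
  -- the congruence upstairs
  have hb0' : algebraMap F N b ≠ 0 := by simpa using hb0
  have hbw : w.valuation N (algebraMap F N b) ≤ 1 := by
    have : ord w (algebraMap F N b) = 0 := by rw [h1 b, hbq, mul_zero]
    exact ((ord_eq_zero_iff w hb0').mp this).le
  have hσ : ∀ σ : N ≃ₐ[F] N, σ ∈ (Finset.univ : Finset (N ≃ₐ[F] N)) →
      w.valuation N (σ ε - algebraMap F N b) < 1 := by
    intro σ _
    by_cases hz : ε - algebraMap F N b = 0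
    · rw [sub_eq_zero] at hz
      rw [hz, AlgEquiv.commutes, sub_self, map_zero]
      exact zero_lt_one
    · have hσz : σ ε - algebraMap F N b = σ (ε - algebraMap F N b) := by
        rw [map_sub, AlgEquiv.commutes]
      have hσz0 : σ (ε - algebraMap F N b) ≠ 0 := fun h0 =>
        hz ((map_eq_zero_iff σ σ.injective).mp h0)
      have hgw : galPl σ w = w := h2 _ (hG2 σ w q hw)
      rw [hσz, valuation_lt_one_iff_ord_pos w hσz0]
      have := hG1 σ w (ε - algebraMap F N b)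
      rw [hgw] at this
      rw [this]
      exact (valuation_lt_one_iff_ord_pos w hz).mp hcong
  have hup := valuation_prod_sub_pow_lt_one w Finset.univ (fun σ : N ≃ₐ[F] N => σ ε)
    (algebraMap F N b) hbw hσ
  have hcu : (Finset.univ : Finset (N ≃ₐ[F] N)).card = p := by
    rw [Finset.card_univ, ← Nat.card_eq_fintype_card, hcard]
  rw [hcu, ← Algebra.norm_eq_prod_automorphisms, ← map_pow, ← map_sub] at hup
  -- descend to `F`
  show q.valuation F (Algebra.norm F ε - b ^ p) < 1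
  by_cases hz' : Algebra.norm F ε - b ^ p = 0
  · rw [hz', map_zero]
    exact zero_lt_one
  · have hz'' : algebraMap F N (Algebra.norm F ε - b ^ p) ≠ 0 := fun h0 =>
      hz' ((map_eq_zero_iff _ (algebraMap F N).injective).mp h0)
    rw [valuation_lt_one_iff_ord_pos q hz']
    rw [valuation_lt_one_iff_ord_pos w hz'', h1] at hup
    by_contra hneg
    have hneg' : ord q (Algebra.norm F ε - b ^ p) ≤ 0 := not_lt.mp hneg
    have : (p : ℤ) * ord q (Algebra.norm F ε - b ^ p) ≤ 0 :=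
      mul_nonpos_of_nonneg_of_nonpos (by positivity) hneg'
    omega

theorem h0_bound (hGal : GalStatement) [IsGalois F N] (hζ : IsPrimitiveRoot ζ p)
    (hdeg : Module.finrank F N = p) (S T T2 : Finset (Pl F)) (hT2 : T2 ⊆ T)
    (hdisj : Disjoint S T) (hSp : ∀ v : Pl F, Above p v → v ∈ S)
    (hT : ∀ c : Pl F → ZMod p, ∃ u : F, u ≠ 0 ∧ (∀ v : Pl F, v ∉ S → ord v u = 0) ∧
        ∀ q ∈ T, sym p ζ q u = c q)
    (hram : ∀ v ∈ T2, ∀ w : Pl N, Over w v →
      (∀ c : F, ord w (algebraMap F N c) = p * ord v c) ∧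
      (∀ w' : Pl N, Over w' v → w' = w) ∧
      (∀ x : N, x ≠ 0 → ord w x = 0 →
        ∃ b : F, b ≠ 0 ∧ ord v b = 0 ∧ CongMod w x (algebraMap F N b))) :
    ∃ u : Fin (p ^ T2.card) → F, (∀ i, u i ≠ 0) ∧
      (∀ i, ∀ v : Pl F, v ∉ S → ord v (u i) = 0) ∧
      ∀ i j, i ≠ j → ¬ ∃ ε : N, IsSUnitAbove S ε ∧ Algebra.norm F ε = u i / u j := by
  classical
  have hcard : Fintype.card (T2 → ZMod p) = p ^ T2.card := by
    rw [Fintype.card_fun, ZMod.card, Fintype.card_coe]
  let e : Fin (p ^ T2.card) ≃ (T2 → ZMod p) := (Fintype.equivFinOfCardEq hcard).symm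
  have hex : ∀ c : T2 → ZMod p, ∃ u : F, u ≠ 0 ∧ (∀ v : Pl F, v ∉ S → ord v u = 0) ∧
      ∀ q : T2, sym p ζ q.1 u = c q := by
    intro c
    obtain ⟨u, h0, hS', hq⟩ := hT (fun q => if h : q ∈ T2 then c ⟨q, h⟩ else 0)
    refine ⟨u, h0, hS', fun q => ?_⟩
    rw [hq q.1 (hT2 q.2)]
    simp [q.2]
  choose u hu0 huS husym using hex
  refine ⟨fun i => u (e i), fun i => hu0 _, fun i => huS _, ?_⟩
  rintro i j hij ⟨ε, hεS, hεn⟩
  have hne : e i ≠ e j := fun h => hij (e.injective h)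
  obtain ⟨q, hq⟩ : ∃ q : T2, e i q ≠ e j q := Function.ne_iff.mp hne
  have hqS : q.1 ∉ S := Finset.disjoint_right.mp hdisj (hT2 q.2)
  have hqp : ¬ Above p q.1 := fun h => hqS (hSp _ h)
  have hord : ord q.1 (u (e i) / u (e j)) = 0 := by
    rw [ord_div _ (hu0 _) (hu0 _), huS _ _ hqS, huS _ _ hqS, sub_zero]
  have h1 := sym_norm_eq_zero hGal hζ hdeg q.1 hqp (hram q.1 q.2) hεS.1
    (fun w hw => hεS.2 w q.1 hw hqS) (by rw [hεn]; exact hord)
  rw [hεn, div_eq_mul_inv, sym_mul hζ _ hqp (hu0 _) (inv_ne_zero (hu0 _)) (huS _ _ hqS)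
    (by rw [ord_inv, huS _ _ hqS, neg_zero]), sym_inv hζ _ hqp (hu0 _) (huS _ _ hqS),
    husym, husym] at h1
  exact hq (sub_eq_zero.mp (by rw [sub_eq_add_neg]; exact h1))

/-! ### Claim B -/

/-- Claim B, given the Kummer field `N = F(y^{1/p})`: contradiction. -/
theorem claimB_core (hGal : GalStatement) (hUnr : KummerUnramifiedStatement)
    (hRam : KummerRamifiedStatement) (hSplit : KummerSplitStatement)
    (hHerb : SUnitHerbrandStatement) [IsGalois F N] (hp2 : p ≠ 2) (hζ : IsPrimitiveRoot ζ p)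
    (S T : Finset (Pl F)) (hdisj : Disjoint S T) (hSp : ∀ v : Pl F, Above p v → v ∈ S)
    (hS : ∀ D : Pl F →₀ ℤ, ∃ x : F, x ≠ 0 ∧ ∀ v, v ∉ S → D v = ord v x)
    (hT : ∀ c : Pl F → ZMod p, ∃ u : F, u ≠ 0 ∧ (∀ v : Pl F, v ∉ S → ord v u = 0) ∧
        ∀ q ∈ T, sym p ζ q u = c q)
    {y : F} (hy0 : y ≠ 0) (hy : ∀ b : F, b ^ p ≠ y)
    (hyST : ∀ v : Pl F, v ∉ S → v ∉ T → ord v y = 0)
    (hyloc : ∀ s ∈ S, LocPow p ζ s y)
    (hdeg : Module.finrank F N = p) (θ : N) (hθ : θ ^ p = algebraMap F N y) : False := by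
  classical
  have hpp : p.Prime := Fact.out
  set T2 : Finset (Pl F) := T.filter (fun q => ¬ (p : ℤ) ∣ ord q y) with hT2def
  have hT2T : T2 ⊆ T := Finset.filter_subset _ _
  have hunr : ∀ v : Pl F, v ∉ S → v ∉ T2 → ∀ w : Pl N, Over w v →
      ∀ c : F, ord w (algebraMap F N c) = ord v c := by
    intro v hvS hvT2 w hw c
    have hvp : ¬ Above p v := fun h => hvS (hSp v h)
    have hdvd : (p : ℤ) ∣ ord v y := by
      by_cases hvT : v ∈ T
      · by_contra hnd
        exact hvT2 (Finset.mem_filter.mpr ⟨hvT, hnd⟩)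
      · rw [hyST v hvS hvT]
        exact dvd_zero _
    exact hUnr F p ζ N hζ hdeg y hy θ hθ v hvp hdvd w hw c
  have hram : ∀ v ∈ T2, ∀ w : Pl N, Over w v →
      (∀ c : F, ord w (algebraMap F N c) = p * ord v c) ∧
      (∀ w' : Pl N, Over w' v → w' = w) ∧
      (∀ x : N, x ≠ 0 → ord w x = 0 →
        ∃ b : F, b ≠ 0 ∧ ord v b = 0 ∧ CongMod w x (algebraMap F N b)) := by
    intro v hv w hw
    exact hRam F p ζ N hζ hdeg y hy0 θ hθ v (Finset.mem_filter.mp hv).2 w hw
  have hsplit : ∀ s ∈ S, Nat.card {w : Pl N // Over w s} = p := fun s hs =>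
    hSplit F p ζ N hp2 hζ hdeg y hy0 hy θ hθ s (hyloc s hs)
  have hfd : FiniteDimensional F N := Module.finite_of_finrank_pos (by rw [hdeg]; exact hpp.pos)
  have hcard : Nat.card (N ≃ₐ[F] N) = p := by rw [IsGalois.card_aut_eq_finrank, hdeg]
  obtain ⟨τ, hτ⟩ : ∃ τ : N ≃ₐ[F] N, τ ≠ 1 := by
    have : Nontrivial (N ≃ₐ[F] N) :=
      Finite.one_lt_card_iff_nontrivial.mp (hcard ▸ hpp.one_lt)
    exact exists_ne 1
  obtain ⟨u, hu0, huS, hu⟩ := h0_bound hGal hζ hdeg S T T2 hT2T hdisj hSp hT hram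
  have hB : ∀ ε : Fin (p ^ T2.card + 1) → N, (∀ i, IsSUnitAbove S (ε i)) →
      (∀ i, Algebra.norm F (ε i) = 1) →
      ∃ i j, i ≠ j ∧ ∃ η : N, IsSUnitAbove S η ∧ ε i / ε j = τ η / η := fun ε hε hn =>
    h1_bound hGal hdeg S T2 hS hunr (fun v hv w hw => (hram v hv w hw).1)
      (fun v hv w w' hw hw' => (hram v hv w hw).2.1 w' hw') τ hτ ε hε hn
  have hfin := hHerb F p ζ N hp2 hζ hdeg S τ hτ hsplit (p ^ T2.card) (p ^ T2.card) u hu0 huS hu hB
  have hpk : 0 < p ^ T2.card := pow_pos hpp.pos _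
  have h2 : 2 ≤ p := hpp.two_le
  nlinarith

open Polynomial in
/-- **Claim B** from the Kummer-field blocks. -/
theorem claimB_of (hGal : GalStatement) (hUnr : KummerUnramifiedStatement)
    (hRam : KummerRamifiedStatement) (hSplit : KummerSplitStatement)
    (hHerb : SUnitHerbrandStatement) (hp2 : p ≠ 2) (hζ : IsPrimitiveRoot ζ p)
    (S T : Finset (Pl F)) (hdisj : Disjoint S T) (hSp : ∀ v : Pl F, Above p v → v ∈ S)
    (hS : ∀ D : Pl F →₀ ℤ, ∃ x : F, x ≠ 0 ∧ ∀ v, v ∉ S → D v = ord v x)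
    (hT : ∀ c : Pl F → ZMod p, ∃ u : F, u ≠ 0 ∧ (∀ v : Pl F, v ∉ S → ord v u = 0) ∧
        ∀ q ∈ T, sym p ζ q u = c q)
    {y : F} (hy0 : y ≠ 0) (hyST : ∀ v : Pl F, v ∉ S → v ∉ T → ord v y = 0)
    (hyloc : ∀ s ∈ S, LocPow p ζ s y) :
    ∃ w : F, w ^ p = y := by
  by_contra hcon
  have hy : ∀ b : F, b ^ p ≠ y := fun b hb => hcon ⟨b, hb⟩
  have hpp : p.Prime := Fact.out
  have hirr : Irreducible (X ^ p - C y : F[X]) := X_pow_sub_C_irreducible_of_prime hpp hy
  have := Fact.mk hirr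
  have hprim : (primitiveRoots p F).Nonempty := ⟨ζ, (mem_primitiveRoots hpp.pos).mpr hζ⟩
  have : IsSplittingField F (AdjoinRoot (X ^ p - C y : F[X])) (X ^ p - C y) :=
    isSplittingField_AdjoinRoot_X_pow_sub_C hprim hirr
  have : FiniteDimensional F (AdjoinRoot (X ^ p - C y : F[X])) :=
    IsSplittingField.finiteDimensional _ (X ^ p - C y)
  have : NumberField (AdjoinRoot (X ^ p - C y : F[X])) := NumberField.of_module_finite F _
  have : IsGalois F (AdjoinRoot (X ^ p - C y : F[X])) :=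
    isGalois_of_isSplittingField_X_pow_sub_C hprim hirr _
  have hdeg : Module.finrank F (AdjoinRoot (X ^ p - C y : F[X])) = p :=
    finrank_of_isSplittingField_X_pow_sub_C hprim hirr _
  exact claimB_core hGal hUnr hRam hSplit hHerb hp2 hζ S T hdisj hSp hS hT hy0 hy hyST hyloc
    hdeg (AdjoinRoot.root _) (root_X_pow_sub_C_pow p y)

end Fermat.Agent.S14C.ClaimB
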