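import Fermat.Agent.S14C.SI.TopPlan
import Fermat.Agent.S14C.SI.OrdBasic
import Fermat.Agent.S14C.SI.SUnitCard

/-!
# S14C / SI : the counting step (Step 3 of the algebraic second inequality)

From the `p`-rank of the `(S ∪ T)`-units, the local count (pigeonhole form) and Claim B we get
that the valuation map `E_{S ∪ T} → (ZMod p)^S` has a large image; consequences `SI_gen`
(`|T| = r + |S|`: the map is onto) and `SI_one` (`|T| + 1 = r + |S|`: image of index `≤ p`).
All inputs are explicit hypotheses.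
-/

set_option autoImplicit false

namespace Fermat.Agent.S14C.Count

open IsDedekindDomain NumberField Fermat.Agent.S14C.SIDefs Fermat.Agent.S14C.OrdBasic

variable {F : Type} [Field F] [NumberField F] {p : ℕ} [Fact p.Prime] {ζ : F}

open Classical in
/-- The `(S ∪ T)`-units. -/
noncomputable abbrev UST (S T : Finset (Pl F)) : Subgroup Fˣ :=
  ((S ∪ T : Finset (Pl F)) : Set (Pl F)).unit F

/-- The valuation map `E_{S ∪ T} → (ZMod p)^S`. -/
noncomputable def valS (p : ℕ) (S T : Finset (Pl F)) :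
    UST S T →* Multiplicative (S → ZMod p) where
  toFun u := Multiplicative.ofAdd fun s => ((ord s.1 ((u : Fˣ) : F) : ℤ) : ZMod p)
  map_one' := by
    ext s
    simp [ord_one]
  map_mul' u w := by
    ext s
    simp [ord_mul s.1 (u : Fˣ).ne_zero (w : Fˣ).ne_zero]

theorem valS_apply (S T : Finset (Pl F)) (u : UST S T) (s : S) :
    Multiplicative.toAdd (valS p S T u) s = ((ord s.1 ((u : Fˣ) : F) : ℤ) : ZMod p) := rfl

theorem pow_range_le_ker (S T : Finset (Pl F)) :
    (powMonoidHom p : UST S T →* UST S T).range ≤ (valS p S T).ker := by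
  rintro _ ⟨u, rfl⟩
  rw [MonoidHom.mem_ker]
  ext s
  simp only [powMonoidHom_apply, toAdd_one, Pi.zero_apply]
  rw [valS_apply]
  simp [ord_pow]

/-- The induced map on `E_{S ∪ T} / p`. -/
noncomputable def valSbar (p : ℕ) [Fact p.Prime] (S T : Finset (Pl F)) :
    UST S T ⧸ (powMonoidHom p : UST S T →* UST S T).range →* Multiplicative (S → ZMod p) :=
  QuotientGroup.lift _ (valS p S T) (pow_range_le_ker S T)

/-- The statement of Claim B for the pair `(S, T)`. -/
def ClaimBFor (p : ℕ) (ζ : F) (S T : Finset (Pl F)) : Prop :=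
  ∀ y : F, y ≠ 0 → (∀ v : Pl F, v ∉ S → v ∉ T → ord v y = 0) →
    (∀ s ∈ S, LocPow p ζ s y) → ∃ w : F, w ^ p = y

/-- The statement of the local count (pigeonhole form) for `S`. -/
def LocalCountFor (p : ℕ) (ζ : F) (S : Finset (Pl F)) : Prop :=
  ∀ {ι : Type} [Fintype ι] (y : ι → F), (∀ i, y i ≠ 0) →
    (∀ i, ∀ s ∈ S, (p : ℤ) ∣ ord s (y i)) →
    p ^ (S.card + Module.finrank ℚ F) < Fintype.card ι →
    ∃ i j, i ≠ j ∧ ∀ s ∈ S, LocPow p ζ s (y i / y j)

theorem mem_UST_iff (S T : Finset (Pl F)) (x : Fˣ) :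
    x ∈ UST S T ↔ ∀ v : Pl F, v ∉ S → v ∉ T → ord v (x : F) = 0 := by
  classical
  rw [UST, mem_unit_iff]
  constructor
  · intro h v hvS hvT
    exact h v (by simpa using ⟨hvS, hvT⟩)
  · intro h v hv
    have : v ∉ S ∧ v ∉ T := by simpa using hv
    exact h v this.1 this.2

/-- The kernel of the valuation map on `E_{S ∪ T}/p` is small. -/
theorem card_ker_le (S T : Finset (Pl F))
    [Finite (UST S T ⧸ (powMonoidHom p : UST S T →* UST S T).range)]
    (hL : LocalCountFor p ζ S) (hB : ClaimBFor p ζ S T) :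
    Nat.card (valSbar p S T).ker ≤ p ^ (S.card + Module.finrank ℚ F) := by
  classical
  by_contra hcon
  push Not at hcon
  have : Fintype (valSbar p S T).ker := Fintype.ofFinite _
  let y : (valSbar p S T).ker → F := fun i => (((Quotient.out i.1 : UST S T) : Fˣ) : F)
  have hy0 : ∀ i, y i ≠ 0 := fun i => Units.ne_zero _
  have hy : ∀ i, ∀ s ∈ S, (p : ℤ) ∣ ord s (y i) := by
    intro i s hs
    have h1 : valSbar p S T i.1 = 1 := i.2
    have h2 : valS p S T (Quotient.out i.1) = 1 := by
      rw [← h1]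
      conv_rhs => rw [← QuotientGroup.out_eq' i.1]
      rfl
    have h3 := congrFun (congrArg Multiplicative.toAdd h2) ⟨s, hs⟩
    rw [valS_apply] at h3
    exact (ZMod.intCast_zmod_eq_zero_iff_dvd _ _).mp h3
  obtain ⟨i, j, hij, hloc⟩ := hL y hy0 hy (by rwa [← Nat.card_eq_fintype_card])
  apply hij
  have hyu : ∀ k : (valSbar p S T).ker, ∀ v : Pl F, v ∉ S → v ∉ T → ord v (y k) = 0 :=
    fun k => (mem_UST_iff S T _).mp (Quotient.out k.1 : UST S T).2
  obtain ⟨w, hw⟩ := hB (y i / y j) (div_ne_zero (hy0 i) (hy0 j))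
    (fun v hvS hvT => by rw [ord_div v (hy0 i) (hy0 j), hyu i v hvS hvT, hyu j v hvS hvT, sub_zero])
    hloc
  have hw0 : w ≠ 0 := by
    rintro rfl
    rw [zero_pow (Fact.out : p.Prime).ne_zero] at hw
    exact div_ne_zero (hy0 i) (hy0 j) hw.symm
  have hwU : Units.mk0 w hw0 ∈ UST S T := by
    rw [mem_UST_iff]
    intro v hvS hvT
    have h1 : ord v (w ^ p) = 0 := by
      rw [hw, ord_div v (hy0 i) (hy0 j), hyu i v hvS hvT, hyu j v hvS hvT, sub_zero]
    rw [ord_pow] at h1
    have hp0 : (p : ℤ) ≠ 0 := by exact_mod_cast (Fact.out : p.Prime).ne_zero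
    rcases mul_eq_zero.mp h1 with h | h
    · exact absurd h hp0
    · exact h
  -- the classes of `out i` and `out j` agree
  have hcl : (i.1 : UST S T ⧸ (powMonoidHom p : UST S T →* UST S T).range) = j.1 := by
    rw [← QuotientGroup.out_eq' i.1, ← QuotientGroup.out_eq' j.1, eq_comm, QuotientGroup.eq]
    refine ⟨⟨Units.mk0 w hw0, hwU⟩, ?_⟩
    apply Subtype.ext
    apply Units.ext
    simp only [powMonoidHom_apply, Subgroup.coe_pow, Units.val_pow_eq_pow_val, Units.val_mk0,
      Subgroup.coe_mul, Subgroup.coe_inv, Units.val_mul, Units.val_inv_eq_inv_val]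
    rw [hw]
    simp only [y]
    field_simp
  exact Subtype.ext hcl

/-- Main counting inequality: the image of the valuation map is large. -/
theorem card_range_ge (S T : Finset (Pl F)) (r : ℕ)
    (hU : Nat.card (UST S T ⧸ (powMonoidHom p : UST S T →* UST S T).range) =
      p ^ (r + S.card + T.card))
    (hL : LocalCountFor p ζ S) (hB : ClaimBFor p ζ S T) :
    p ^ (r + S.card + T.card) ≤
      Nat.card (valSbar p S T).range * p ^ (S.card + Module.finrank ℚ F) := by
  have hp : p.Prime := Fact.out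
  have : Finite (UST S T ⧸ (powMonoidHom p : UST S T →* UST S T).range) :=
    Nat.finite_of_card_ne_zero (by rw [hU]; exact pow_ne_zero _ hp.ne_zero)
  have h1 := Subgroup.card_mul_index (valSbar p S T).ker
  rw [Subgroup.index_ker, hU] at h1
  rw [← h1, mul_comm]
  exact Nat.mul_le_mul_left _ (card_ker_le S T hL hB)

/-- Elements of the range of `valSbar` are valuation vectors of `(S ∪ T)`-units. -/
theorem exists_of_mem_range (S T : Finset (Pl F)) {n : Multiplicative (S → ZMod p)}
    (hn : n ∈ (valSbar p S T).range) :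
    ∃ u : F, u ≠ 0 ∧ (∀ v : Pl F, v ∉ S → v ∉ T → ord v u = 0) ∧
      ∀ s : S, ((ord s.1 u : ℤ) : ZMod p) = Multiplicative.toAdd n s := by
  obtain ⟨q, rfl⟩ := hn
  obtain ⟨u, rfl⟩ := QuotientGroup.mk_surjective q
  exact ⟨((u : Fˣ) : F), Units.ne_zero _, (mem_UST_iff S T _).mp u.2, fun s => rfl⟩

end Fermat.Agent.S14C.Count
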