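import Fermat.Agent.S14C.SI.TopPlan
import Fermat.Agent.S14C.SI.OrdBasic
import Fermat.Agent.S14C.SI.Approx

/-!
# S14C / SI : (G-alg) from the generating primes and SI' (generation form)

`S0 := Z ∪ {v ∣ p}`, `S := S0 ∪ S1` with `S1` class generators off `S0`
(`Approx.exists_classGenerators`), `T` from `GenPrimesStatement`, then `SIGenStatement`;
a prime which is not "good" is not in `T`.
-/

set_option autoImplicit false

namespace Fermat.Agent.S14C.GAlg

open IsDedekindDomain NumberField Fermat.Agent.S14C.SIDefs Fermat.Agent.S14C.SITop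

theorem gAlg {p : ℕ} [Fact p.Prime] (_hp2 : p ≠ 2) (hGen : GenPrimesStatement p)
    (hSI : SIGenStatement p) : GAlgStatement p := by
  classical
  intro F _ _ ζ hζ η hη Z D
  -- the primes above `p`
  set Sp : Finset (Pl F) := (finite_ord_ne_zero ((p : ℕ) : F)).toFinset with hSpdef
  have hSp_mem : ∀ v : Pl F, Above p v → v ∈ Sp := by
    intro v hv
    rw [hSpdef, Set.Finite.mem_toFinset]
    have := (OrdBasic.above_iff_ord_pos (p := p) v).mp hv
    exact ne_of_gt this
  set S0 : Finset (Pl F) := Z ∪ Sp with hS0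
  obtain ⟨S1, hdisj01, hS1⟩ := Approx.exists_classGenerators S0
  set S : Finset (Pl F) := S0 ∪ S1 with hSdef
  have hSp : ∀ v : Pl F, Above p v → v ∈ S := by
    intro v hv
    simp [hSdef, hS0, hSp_mem v hv]
  have hS : ∀ D' : Pl F →₀ ℤ, ∃ x : F, x ≠ 0 ∧ ∀ v, v ∉ S → D' v = ord v x := by
    intro D'
    obtain ⟨x, hx0, -, hx⟩ := hS1 (D'.filter (fun v => v ∉ S0)) (by
      intro v hv
      simp [hv])
    refine ⟨x, hx0, ?_⟩
    intro v hv
    have hv0 : v ∉ S0 := fun h => hv (by simp [hSdef, h])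
    have hv1 : v ∉ S1 := fun h => hv (by simp [hSdef, h])
    rw [← hx v hv1]
    simp [hv0]
  obtain ⟨T, hdisj, hgood, hcard, hT⟩ := hGen F ζ hζ η hη S hSp
  obtain ⟨x, hx0, hx⟩ := hSI F ζ hζ S T hdisj hSp hS hT hcard D
  refine ⟨x, hx0, ?_⟩
  intro v hbad
  apply hx v
  intro hvT
  apply hbad
  have hvS : v ∉ S := fun h => (Finset.disjoint_left.mp hdisj h) hvT
  refine ⟨fun hvZ => hvS (by simp [hSdef, hS0, hvZ]), fun hvp => hvS (hSp v hvp), ?_⟩
  exact hgood v hvT

end Fermat.Agent.S14C.GAlg
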