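import Fermat.Agent.S14C.SI.ClaimBPlan

/-!
# S14C / SI : [SI-Gal] Galois action on primes

Proof of `ClaimBPlan.GalStatement`: compatibility of `galPl` with `ord` and `Over`, existence of
primes above and below, uniqueness below, finiteness above, transitivity in the Galois case.
-/

set_option autoImplicit false
set_option linter.unusedSectionVars false
set_option linter.style.haveILetI false

namespace Fermat.Agent.S14C.GalPl

open IsDedekindDomain NumberField Fermat.Agent.S14C.SIDefs Fermat.Agent.S14C.ClaimBPlan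

variable {F : Type} [Field F] [NumberField F] {N : Type} [Field N] [NumberField N] [Algebra F N]

/-- The ideal of `galPl σ w` is the preimage of `w` under `σ⁻¹` (i.e. `σ(w)`). -/
theorem galPl_asIdeal (σ : N ≃ₐ[F] N) (w : Pl N) :
    (galPl σ w).asIdeal =
      w.asIdeal.comap (RingOfIntegers.mapRingEquiv σ.toRingEquiv).symm := rfl

theorem mem_galPl_pow_iff (σ : N ≃ₐ[F] N) (w : Pl N) (n : ℕ) (a : 𝓞 N) :
    RingOfIntegers.mapRingEquiv σ.toRingEquiv a ∈ (galPl σ w).asIdeal ^ n ↔ a ∈ w.asIdeal ^ n := by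
  rw [galPl_asIdeal, Ideal.comap_symm, ← Ideal.map_pow, ← Ideal.comap_symm, Ideal.mem_comap]
  simp

theorem intValuation_galPl (σ : N ≃ₐ[F] N) (w : Pl N) (a : 𝓞 N) :
    (galPl σ w).intValuation (RingOfIntegers.mapRingEquiv σ.toRingEquiv a) = w.intValuation a := by
  set e := RingOfIntegers.mapRingEquiv σ.toRingEquiv with he
  by_cases ha : a = 0
  · subst ha
    simp
  have hea : e a ≠ 0 := by
    intro h
    exact ha (by simpa using h)
  rw [HeightOneSpectrum.intValuation_eq_exp_neg_multiplicity _ ha,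
    HeightOneSpectrum.intValuation_eq_exp_neg_multiplicity _ hea]
  set n := multiplicity w.asIdeal (Ideal.span {a}) with hn
  set n' := multiplicity (galPl σ w).asIdeal (Ideal.span {e a}) with hn'
  have h1 : w.intValuation a ≤ WithZero.exp (-(n : ℤ)) := by
    rw [HeightOneSpectrum.intValuation_eq_exp_neg_multiplicity _ ha]
  have h2 : (galPl σ w).intValuation (e a) ≤ WithZero.exp (-(n' : ℤ)) := by
    rw [HeightOneSpectrum.intValuation_eq_exp_neg_multiplicity _ hea]
  rw [HeightOneSpectrum.intValuation_le_pow_iff_mem] at h1 h2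
  have h3 : e a ∈ (galPl σ w).asIdeal ^ n := (mem_galPl_pow_iff σ w n a).mpr h1
  have h4 : a ∈ w.asIdeal ^ n' := (mem_galPl_pow_iff σ w n' a).mp h2
  rw [← HeightOneSpectrum.intValuation_le_pow_iff_mem,
    HeightOneSpectrum.intValuation_eq_exp_neg_multiplicity _ hea, WithZero.exp_le_exp] at h3
  rw [← HeightOneSpectrum.intValuation_le_pow_iff_mem,
    HeightOneSpectrum.intValuation_eq_exp_neg_multiplicity _ ha, WithZero.exp_le_exp] at h4
  have : (n : ℤ) = n' := by omega
  rw [this]

theorem valuation_galPl (σ : N ≃ₐ[F] N) (w : Pl N) (x : N) :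
    (galPl σ w).valuation N (σ x) = w.valuation N x := by
  obtain ⟨a, b, hb, rfl⟩ := IsFractionRing.div_surjective (A := 𝓞 N) x
  have h : ∀ c : 𝓞 N, σ (algebraMap (𝓞 N) N c) =
      algebraMap (𝓞 N) N (RingOfIntegers.mapRingEquiv σ.toRingEquiv c) := fun c => rfl
  rw [map_div₀, map_div₀, map_div₀, h a, h b, HeightOneSpectrum.valuation_of_algebraMap,
    HeightOneSpectrum.valuation_of_algebraMap, HeightOneSpectrum.valuation_of_algebraMap,
    HeightOneSpectrum.valuation_of_algebraMap, intValuation_galPl, intValuation_galPl]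

theorem ord_galPl (σ : N ≃ₐ[F] N) (w : Pl N) (x : N) : ord (galPl σ w) (σ x) = ord w x := by
  unfold ord
  rw [valuation_galPl]

theorem over_galPl (σ : N ≃ₐ[F] N) (w : Pl N) (v : Pl F) (h : Over w v) : Over (galPl σ w) v := by
  unfold Over at h ⊢
  rw [← h, galPl_asIdeal]
  ext x
  simp only [Ideal.mem_comap]
  have : (RingOfIntegers.mapRingEquiv σ.toRingEquiv).symm (algebraMap (𝓞 F) (𝓞 N) x) =
      algebraMap (𝓞 F) (𝓞 N) x := by
    apply RingOfIntegers.ext
    rw [RingOfIntegers.mapRingEquiv_symm_apply]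
    change σ.symm (algebraMap F N (x : F)) = algebraMap F N (x : F)
    exact σ.symm.commutes _
  rw [this]

theorem algebraMap_int_injective :
    Function.Injective (algebraMap (𝓞 F) (𝓞 N)) :=
  FaithfulSMul.algebraMap_injective (𝓞 F) (𝓞 N)

theorem exists_below (w : Pl N) : ∃ v : Pl F, Over w v := by
  refine ⟨⟨w.asIdeal.comap (algebraMap (𝓞 F) (𝓞 N)), inferInstance, ?_⟩, rfl⟩
  intro h
  exact w.ne_bot (Ideal.eq_bot_of_comap_eq_bot h)

theorem exists_above (v : Pl F) : ∃ w : Pl N, Over w v := by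
  haveI := v.isMaximal
  obtain ⟨Q, hQ, hQv⟩ := Ideal.exists_ideal_over_maximal_of_isIntegral (S := 𝓞 N) v.asIdeal
    (by
      rw [(RingHom.injective_iff_ker_eq_bot _).mp (algebraMap_int_injective (F := F) (N := N))]
      exact bot_le)
  refine ⟨⟨Q, hQ.isPrime, ?_⟩, hQv⟩
  rintro rfl
  apply v.ne_bot
  rw [← hQv]
  exact (RingHom.injective_iff_ker_eq_bot _).mp (algebraMap_int_injective (F := F) (N := N))

theorem below_unique (w : Pl N) (v v' : Pl F) (h : Over w v) (h' : Over w v') : v = v' :=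
  HeightOneSpectrum.ext (h.symm.trans h')

theorem finite_above (v : Pl F) : {w : Pl N | Over w v}.Finite := by
  have hne : v.asIdeal.map (algebraMap (𝓞 F) (𝓞 N)) ≠ ⊥ := by
    rw [Ne, Ideal.map_eq_bot_iff_of_injective (algebraMap_int_injective (F := F) (N := N))]
    exact v.ne_bot
  refine (Ideal.finite_factors hne).subset ?_
  intro w hw
  simp only [Set.mem_ofPred_eq]
  rw [Ideal.dvd_iff_le, Ideal.map_le_iff_le_comap]
  exact (show w.asIdeal.comap (algebraMap (𝓞 F) (𝓞 N)) = v.asIdeal from hw).ge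

theorem exists_galPl_eq [IsGalois F N] (w w' : Pl N) (v : Pl F) (h : Over w v) (h' : Over w' v) :
    ∃ σ : N ≃ₐ[F] N, galPl σ w = w' := by
  have hw : w.asIdeal ∈ Ideal.primesOver v.asIdeal (𝓞 N) := ⟨w.isPrime, ⟨h.symm⟩⟩
  have hw' : w'.asIdeal ∈ Ideal.primesOver v.asIdeal (𝓞 N) := ⟨w'.isPrime, ⟨h'.symm⟩⟩
  obtain ⟨τ, hτ⟩ := Ideal.exists_comap_galRestrict_eq (𝓞 F) F N (𝓞 N) hw hw'
  refine ⟨τ.symm, ?_⟩
  apply HeightOneSpectrum.ext
  rw [galPl_asIdeal, ← hτ]
  ext x
  simp only [Ideal.mem_comap]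
  have : (RingOfIntegers.mapRingEquiv τ.symm.toRingEquiv).symm x =
      galRestrict (𝓞 F) F N (𝓞 N) τ x := by
    apply RingOfIntegers.ext
    rw [RingOfIntegers.mapRingEquiv_symm_apply]
    exact (algebraMap_galRestrict_apply (𝓞 F) τ x).symm
  rw [this]

/-- [SI-Gal] -/
theorem galStatement : GalStatement := by
  intro F _ _ N _ _ _
  exact ⟨ord_galPl, over_galPl, exists_below, exists_above, below_unique, finite_above,
    fun hG w w' v h h' => exists_galPl_eq w w' v h h'⟩

end Fermat.Agent.S14C.GalPl
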