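import Fermat.Agent.S14C.SI.ClaimBPlan

/-!
# S14C / SI, leaf [SI-K-ram] (B-owner file): total ramification in `N = F(y^{1/p})`

If `p ∤ ord_v y` then `N = F(θ)`, `θ ^ p = y`, is totally ramified at `v`: the ramification
index is `p`, there is a unique prime above `v`, and the residue field extension is trivial.

Everything follows from one ultrametric lemma (`map_sum_eq_sup`): a finite sum whose nonzero
terms have pairwise distinct valuations has valuation the sup of the valuations of its terms.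
-/

set_option autoImplicit false

namespace Fermat.Agent.S14C.KummerRamB

open IsDedekindDomain NumberField WithZero
open Fermat.Agent.S14C.SIDefs Fermat.Agent.S14C.ClaimBPlan

section ultrametric

/-- If the nonzero values `W (f i)` are pairwise distinct, the value of the sum is the sup. -/
theorem map_sum_eq_sup {R : Type*} [Ring R] {Γ₀ : Type*} [LinearOrderedCommGroupWithZero Γ₀]
    (W : Valuation R Γ₀) {ι : Type*} (s : Finset ι) (f : ι → R)
    (hd : ∀ i ∈ s, ∀ j ∈ s, i ≠ j → W (f i) ≠ 0 → W (f i) ≠ W (f j)) :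
    W (∑ i ∈ s, f i) = s.sup fun i => W (f i) := by
  classical
  by_cases h0 : ∀ i ∈ s, W (f i) = 0
  · have h1 : W (∑ i ∈ s, f i) = 0 :=
      le_antisymm (W.map_sum_le (fun i hi => (h0 i hi).le)) zero_le
    rw [h1]
    exact (le_antisymm (Finset.sup_le fun i hi => (h0 i hi).le) zero_le).symm
  · push Not at h0
    obtain ⟨i0, hi0, hi0'⟩ := h0
    obtain ⟨j, hj, hmax⟩ := s.exists_max_image (fun i => W (f i)) ⟨i0, hi0⟩
    have hj0 : W (f j) ≠ 0 := fun h => hi0' (le_antisymm (h ▸ hmax i0 hi0) zero_le)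
    have hlt : ∀ i ∈ s \ {j}, W (f i) < W (f j) := by
      intro i hi
      rw [Finset.mem_sdiff, Finset.mem_singleton] at hi
      exact lt_of_le_of_ne (hmax i hi.1) (fun h => hd j hj i hi.1 (Ne.symm hi.2) hj0 h.symm)
    rw [W.map_sum_eq_of_lt hj hlt]
    exact le_antisymm (Finset.le_sup (f := fun i => W (f i)) hj) (Finset.sup_le hmax)

end ultrametric

section ordApi

variable {F : Type} [Field F] [NumberField F]

theorem val_ne_zero (v : Pl F) {x : F} (hx : x ≠ 0) : v.valuation F x ≠ 0 :=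
  (Valuation.ne_zero_iff _).mpr hx

theorem val_eq_exp (v : Pl F) {x : F} (hx : x ≠ 0) : v.valuation F x = exp (- ord v x) := by
  unfold ord
  rw [neg_neg, exp_log (val_ne_zero v hx)]

theorem ord_mul' (v : Pl F) {x y : F} (hx : x ≠ 0) (hy : y ≠ 0) :
    ord v (x * y) = ord v x + ord v y := by
  unfold ord
  rw [map_mul, log_mul (val_ne_zero v hx) (val_ne_zero v hy)]
  ring

theorem ord_pow' (v : Pl F) (x : F) (n : ℕ) : ord v (x ^ n) = n * ord v x := by
  unfold ord
  rw [map_pow, log_pow]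
  simp

end ordApi

section main

variable {F : Type} [Field F] [NumberField F] {N : Type} [Field N] [NumberField N] [Algebra F N]

theorem exists_ram {v : Pl F} {w : Pl N} (h : Over w v) :
    ∃ e : ℕ, e ≠ 0 ∧ ∀ c : F, w.valuation N (algebraMap F N c) = v.valuation F c ^ e := by
  have : w.asIdeal.LiesOver v.asIdeal := ⟨h.symm⟩
  refine ⟨v.asIdeal.ramificationIdx' w.asIdeal, ?_, fun c => ?_⟩
  · exact Ideal.IsDedekindDomain.ramificationIdx'_ne_zero_of_liesOver w.asIdeal v.ne_bot
  · exact (HeightOneSpectrum.valuation_liesOver N v w c).symm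

/-- `ord w ∘ algebraMap = e * ord v`. -/
def RamBy (v : Pl F) (w : Pl N) (e : ℕ) : Prop :=
  ∀ c : F, c ≠ 0 → ord w (algebraMap F N c) = e * ord v c

theorem exists_ramBy {v : Pl F} {w : Pl N} (h : Over w v) : ∃ e : ℕ, e ≠ 0 ∧ RamBy v w e := by
  obtain ⟨e, he, hc⟩ := exists_ram h
  refine ⟨e, he, fun c _ => ?_⟩
  unfold ord
  rw [hc c, log_pow]
  simp

/-- Ultrametric independence: elements whose `ord w` are pairwise incongruent modulo `e`. -/
theorem val_sum_eq_sup {v : Pl F} {w : Pl N} {e : ℕ} (hr : RamBy v w e)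
    {ι : Type*} [Fintype ι] (t : ι → N) (ht : ∀ i, t i ≠ 0)
    (hd : ∀ i j, i ≠ j → ¬ (e : ℤ) ∣ ord w (t i) - ord w (t j)) (c : ι → F) :
    w.valuation N (∑ i, c i • t i) = Finset.univ.sup fun i => w.valuation N (c i • t i) := by
  refine map_sum_eq_sup _ _ _ ?_
  intro i _ j _ hij hi0 heq
  have hci : c i ≠ 0 := by
    rintro h
    apply hi0
    rw [h, zero_smul, map_zero]
  have hcj : c j ≠ 0 := by
    rintro h
    apply hi0
    rw [heq, h, zero_smul, map_zero]
  apply hd i j hij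
  have h1 : ord w (c i • t i) = ord w (c j • t j) := by
    unfold ord
    rw [heq]
  rw [Algebra.smul_def, Algebra.smul_def,
    ord_mul' _ ((map_ne_zero _).mpr hci) (ht i), ord_mul' _ ((map_ne_zero _).mpr hcj) (ht j),
    hr _ hci, hr _ hcj] at h1
  exact ⟨ord v (c j) - ord v (c i), by linarith⟩

theorem linearIndependent_of_ord {v : Pl F} {w : Pl N} {e : ℕ} (hr : RamBy v w e)
    {ι : Type*} [Fintype ι] (t : ι → N) (ht : ∀ i, t i ≠ 0)
    (hd : ∀ i j, i ≠ j → ¬ (e : ℤ) ∣ ord w (t i) - ord w (t j)) :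
    LinearIndependent F t := by
  rw [Fintype.linearIndependent_iff]
  intro c hc i
  have h1 := val_sum_eq_sup hr t ht hd c
  rw [hc, map_zero] at h1
  have h2 : w.valuation N (c i • t i) ≤ 0 :=
    h1 ▸ Finset.le_sup (f := fun i => w.valuation N (c i • t i)) (Finset.mem_univ i)
  have h3 : c i • t i = 0 := (Valuation.zero_iff _).mp (le_antisymm h2 (zero_le))
  exact (smul_eq_zero.mp h3).resolve_right (ht i)

variable {p : ℕ} [Fact p.Prime]

/-- The ramification index is `p`. -/
theorem ram_eq_p (hfin : Module.finrank F N = p) {y : F} (hy : y ≠ 0) {θ : N}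
    (hθ : θ ^ p = algebraMap F N y) {v : Pl F} (hv : ¬ (p : ℤ) ∣ ord v y) {w : Pl N} {e : ℕ}
    (he : e ≠ 0) (hr : RamBy v w e) : e = p := by
  have hp : p.Prime := Fact.out
  have h1 : (e : ℤ) * ord v y = p * ord w θ := by
    rw [← hr y hy, ← hθ, ord_pow']
  have h2 : (p : ℤ) ∣ e := by
    have : (p : ℤ) ∣ (e : ℤ) * ord v y := ⟨_, h1⟩
    exact ((Nat.prime_iff_prime_int.mp hp).dvd_or_dvd this).resolve_right hv
  have h3 : p ∣ e := Int.natCast_dvd_natCast.mp h2
  have h4 : p ≤ e := Nat.le_of_dvd (Nat.pos_of_ne_zero he) h3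
  by_contra hne
  have hlt : p < e := lt_of_le_of_ne h4 (Ne.symm hne)
  obtain ⟨π, hπ⟩ := w.valuation_exists_uniformizer N
  have hπ0 : π ≠ 0 := by
    intro h
    rw [h, map_zero] at hπ
    exact exp_ne_zero hπ.symm
  have hordπ : ord w π = 1 := by
    unfold ord
    rw [hπ]
    simp
  have hfd : Module.Finite F N := Module.finite_of_finrank_pos (by rw [hfin]; exact hp.pos)
  have hli : LinearIndependent F (fun i : Fin (p + 1) => π ^ (i : ℕ)) := by
    refine linearIndependent_of_ord hr _ (fun i => pow_ne_zero _ hπ0) ?_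
    intro i j hij hdvd
    rw [ord_pow', ord_pow', hordπ, mul_one, mul_one] at hdvd
    have h0 : ((i : ℕ) : ℤ) - (j : ℕ) = 0 := by
      apply Int.eq_zero_of_abs_lt_dvd hdvd
      have hi := i.2
      have hj := j.2
      rw [abs_lt]
      constructor <;> omega
    apply hij
    ext
    omega
  have hcard := hli.fintype_card_le_finrank
  rw [Fintype.card_fin, hfin] at hcard
  omega

theorem theta_facts {y : F} (hy : y ≠ 0) {θ : N}
    (hθ : θ ^ p = algebraMap F N y) {v : Pl F} (hv : ¬ (p : ℤ) ∣ ord v y) {w : Pl N}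
    (hr : RamBy v w p) :
    θ ≠ 0 ∧ ord w θ = ord v y ∧
    (∀ i j : Fin p, i ≠ j → ¬ ((p : ℕ) : ℤ) ∣ ord w (θ ^ (i : ℕ)) - ord w (θ ^ (j : ℕ))) := by
  have hp : p.Prime := Fact.out
  have hθ0 : θ ≠ 0 := by
    rintro rfl
    rw [zero_pow hp.ne_zero] at hθ
    exact hy ((map_eq_zero _).mp hθ.symm)
  have h1 : (p : ℤ) * ord v y = p * ord w θ := by
    rw [← hr y hy, ← hθ, ord_pow']
  have hm : ord w θ = ord v y := by
    have hp0 : (p : ℤ) ≠ 0 := by exact_mod_cast hp.ne_zero
    exact (mul_left_cancel₀ hp0 h1).symm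
  refine ⟨hθ0, hm, ?_⟩
  intro i j hij hdvd
  rw [ord_pow', ord_pow', hm, ← sub_mul] at hdvd
  have h2 : (p : ℤ) ∣ ((i : ℕ) : ℤ) - (j : ℕ) :=
    ((Nat.prime_iff_prime_int.mp hp).dvd_or_dvd hdvd).resolve_right hv
  have h0 : ((i : ℕ) : ℤ) - (j : ℕ) = 0 := by
    apply Int.eq_zero_of_abs_lt_dvd h2
    have hi := i.2
    have hj := j.2
    rw [abs_lt]
    constructor <;> omega
  apply hij
  ext
  omega

theorem exists_expansion (hfin : Module.finrank F N = p) {y : F} (hy : y ≠ 0) {θ : N}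
    (hθ : θ ^ p = algebraMap F N y) {v : Pl F} (hv : ¬ (p : ℤ) ∣ ord v y) {w : Pl N}
    (hr : RamBy v w p) (x : N) :
    ∃ c : Fin p → F, x = ∑ i, c i • θ ^ (i : ℕ) := by
  obtain ⟨hθ0, -, hd⟩ := theta_facts hy hθ hv hr
  have hli : LinearIndependent F (fun i : Fin p => θ ^ (i : ℕ)) :=
    linearIndependent_of_ord hr _ (fun i => pow_ne_zero _ hθ0) hd
  let b := basisOfLinearIndependentOfCardEqFinrank hli (by rw [Fintype.card_fin, hfin])
  refine ⟨fun i => b.repr x i, ?_⟩
  have h := b.sum_repr x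
  simpa [b] using h.symm

open scoped Classical in
theorem val_term {y : F} (hy : y ≠ 0) {θ : N}
    (hθ : θ ^ p = algebraMap F N y) {v : Pl F} (hv : ¬ (p : ℤ) ∣ ord v y) {w : Pl N}
    (hr : RamBy v w p) (c : F) (i : ℕ) :
    w.valuation N (c • θ ^ i) =
      if c = 0 then 0 else exp (-((p : ℤ) * ord v c + i * ord v y)) := by
  obtain ⟨hθ0, hm, -⟩ := theta_facts hy hθ hv hr
  split_ifs with hc
  · rw [hc, zero_smul, map_zero]
  · have hne : c • θ ^ i ≠ 0 := smul_ne_zero hc (pow_ne_zero _ hθ0)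
    rw [val_eq_exp w hne, Algebra.smul_def,
      ord_mul' w ((map_ne_zero _).mpr hc) (pow_ne_zero _ hθ0), hr c hc, ord_pow', hm]

/-- **[SI-K-ram]** -/
theorem kummerRamified : KummerRamifiedStatement := by
  intro F _ _ p _ ζ N _ _ _ _ hζ hfin y hy θ hθ v hv w hw
  have hp : p.Prime := Fact.out
  obtain ⟨e, he, hr⟩ := exists_ramBy hw
  have hr' : RamBy v w p := (ram_eq_p hfin hy hθ hv he hr) ▸ hr
  obtain ⟨hθ0, hm, hd⟩ := theta_facts hy hθ hv hr'
  refine ⟨?_, ?_, ?_⟩
  · intro c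
    by_cases hc : c = 0
    · subst hc
      simp [ord]
    · exact hr' c hc
  · intro w' hw'
    obtain ⟨e', he', hr2⟩ := exists_ramBy hw'
    have hr2' : RamBy v w' p := (ram_eq_p hfin hy hθ hv he' hr2) ▸ hr2
    obtain ⟨-, -, hd'⟩ := theta_facts hy hθ hv hr2'
    have hval : ∀ x : N, w'.valuation N x = w.valuation N x := by
      intro x
      obtain ⟨c, rfl⟩ := exists_expansion hfin hy hθ hv hr' x
      rw [val_sum_eq_sup hr' _ (fun i => pow_ne_zero _ hθ0) hd c,
        val_sum_eq_sup hr2' _ (fun i => pow_ne_zero _ hθ0) hd' c]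
      refine Finset.sup_congr rfl fun i _ => ?_
      rw [val_term hy hθ hv hr', val_term hy hθ hv hr2']
    apply HeightOneSpectrum.ext
    ext a
    rw [← HeightOneSpectrum.valuation_lt_one_iff_mem (K := N),
      ← HeightOneSpectrum.valuation_lt_one_iff_mem (K := N), hval]
  · intro x hx hordx
    obtain ⟨c, hxc⟩ := exists_expansion hfin hy hθ hv hr' x
    have hWx : w.valuation N x = 1 := by
      rw [val_eq_exp w hx, hordx]
      simp
    have hsup := val_sum_eq_sup hr' _ (fun i => pow_ne_zero _ hθ0) hd c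
    rw [← hxc, hWx] at hsup
    have hle : ∀ i, w.valuation N (c i • θ ^ (i : ℕ)) ≤ 1 := fun i =>
      hsup ▸ Finset.le_sup (f := fun i => w.valuation N (c i • θ ^ (i : ℕ))) (Finset.mem_univ i)
    have hkey : ∀ i : Fin p, w.valuation N (c i • θ ^ (i : ℕ)) = 1 →
        (i : ℕ) = 0 ∧ c i ≠ 0 ∧ ord v (c i) = 0 := by
      intro i hi
      rw [val_term hy hθ hv hr'] at hi
      split_ifs at hi with hc
      · exact absurd hi zero_ne_one
      · rw [exp_eq_one, neg_eq_zero] at hi
        have h2 : (p : ℤ) ∣ ((i : ℕ) : ℤ) * ord v y := ⟨- ord v (c i), by linarith⟩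
        have h3 : (p : ℤ) ∣ ((i : ℕ) : ℤ) :=
          ((Nat.prime_iff_prime_int.mp hp).dvd_or_dvd h2).resolve_right hv
        have h4 : (i : ℕ) = 0 :=
          Nat.eq_zero_of_dvd_of_lt (Int.natCast_dvd_natCast.mp h3) i.2
        refine ⟨h4, hc, ?_⟩
        rw [h4] at hi
        simp only [Nat.cast_zero, zero_mul, add_zero, mul_eq_zero] at hi
        exact hi.resolve_left (by exact_mod_cast hp.ne_zero)
    obtain ⟨j, -, hj⟩ := Finset.exists_mem_eq_sup Finset.univ
      ⟨(⟨0, hp.pos⟩ : Fin p), Finset.mem_univ _⟩ (fun i => w.valuation N (c i • θ ^ (i : ℕ)))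
    rw [← hsup] at hj
    obtain ⟨hj0, hcj, hordj⟩ := hkey j hj.symm
    refine ⟨c j, hcj, hordj, ?_⟩
    unfold CongMod
    have hxj : x - algebraMap F N (c j) = ∑ i ∈ Finset.univ.erase j, c i • θ ^ (i : ℕ) := by
      rw [hxc, ← Finset.add_sum_erase _ _ (Finset.mem_univ j), hj0, pow_zero, Algebra.smul_def,
        mul_one]
      ring
    rw [hxj]
    refine Valuation.map_sum_lt _ one_ne_zero fun i hi => ?_
    rw [Finset.mem_erase] at hi
    refine lt_of_le_of_ne (hle i) fun h => ?_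
    obtain ⟨hi0, -, -⟩ := hkey i h
    exact hi.1 (Fin.ext (by rw [hi0, hj0]))

end main

end Fermat.Agent.S14C.KummerRamB
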