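import Fermat.Agent.S14C.SI.ClaimBPlan

/-!
# S14C / SI : [SI-K-unr] a Kummer extension `F(y^{1/p})/F` is unramified at `v ∤ p` when
`p ∣ ord_v y`

General lemmas of independent use (other Kummer leaves may import them):
* `ord_algebraMap_eq_mul` : `ord_w ∘ algebraMap = e(w|v) * ord_v`;
* `ramificationIdx'_eq_card_inertia` : in a Galois extension `e(w|v) = #I(w)`;
* `valuation_one_sub_eq_one` : `1 - ξ` is a `v`-unit for a primitive `p`-th root `ξ`, `v ∤ p`.
-/

set_option autoImplicit false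

namespace Fermat.Agent.S14C.KummerUnr

open IsDedekindDomain NumberField Fermat.Agent.S14C.SIDefs Fermat.Agent.S14C.ClaimBPlan

variable {F : Type} [Field F] [NumberField F] {N : Type} [Field N] [NumberField N] [Algebra F N]

/-- `ord_w ∘ algebraMap = e(w|v) * ord_v`. -/
theorem ord_algebraMap_eq_mul (v : Pl F) (w : Pl N) (hw : Over w v) (c : F) :
    ord w (algebraMap F N c) = (v.asIdeal.ramificationIdx' w.asIdeal : ℤ) * ord v c := by
  have : w.asIdeal.LiesOver v.asIdeal := ⟨hw.symm⟩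
  have h := HeightOneSpectrum.valuation_liesOver N v w c
  unfold ord
  rw [← h, WithZero.log_pow]
  simp

/-- In a Galois extension of number fields the ramification index is the order of the inertia
group. -/
theorem ramificationIdx'_eq_card_inertia [IsGalois F N] (v : Pl F) (w : Pl N) (hw : Over w v) :
    v.asIdeal.ramificationIdx' w.asIdeal = Nat.card (w.asIdeal.inertia (N ≃ₐ[F] N)) := by
  have : w.asIdeal.LiesOver v.asIdeal := ⟨hw.symm⟩
  have : IsGaloisGroup (N ≃ₐ[F] N) (𝓞 F) (𝓞 N) :=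
    IsGaloisGroup.of_isFractionRing (N ≃ₐ[F] N) (𝓞 F) (𝓞 N) F N
  rw [Ideal.ramificationIdx'_eq_ramificationIdx v.asIdeal w.asIdeal v.ne_bot,
    ← Ideal.ramificationIdxIn_eq_ramificationIdx v.asIdeal w.asIdeal (N ≃ₐ[F] N)]
  exact (Ideal.card_inertia_eq_ramificationIdxIn v.asIdeal w.asIdeal).symm

/-- A root of unity has valuation one. -/
theorem valuation_eq_one_of_pow_eq_one (v : Pl F) {ξ : F} {n : ℕ} (hn : n ≠ 0) (hξ : ξ ^ n = 1) :
    v.valuation F ξ = 1 := by
  have h : v.valuation F ξ ^ n = 1 := by rw [← map_pow, hξ, map_one]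
  exact (pow_eq_one_iff_left hn).mp h

/-- `1 - ξ` is a `v`-unit for a primitive `p`-th root of unity `ξ` when `v ∤ p`. -/
theorem valuation_one_sub_eq_one {p : ℕ} [Fact p.Prime] {ξ : F} (hξ : IsPrimitiveRoot ξ p)
    (v : Pl F) (hv : ¬ Above p v) : v.valuation F (1 - ξ) = 1 := by
  have hp : p.Prime := Fact.out
  obtain ⟨n, rfl⟩ : ∃ n, p = n + 1 := ⟨p - 1, (Nat.succ_pred_eq_of_pos hp.pos).symm⟩
  have hone : v.valuation F ξ = 1 := valuation_eq_one_of_pow_eq_one v hp.ne_zero hξ.pow_eq_one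
  have hle : ∀ k : ℕ, v.valuation F (1 - ξ ^ k) ≤ 1 := by
    intro k
    refine (Valuation.map_sub _ _ _).trans ?_
    simp [hone]
  have hprod := hξ.prod_one_sub_pow_eq_order
  have hn1 : 1 ≤ n := by
    have := hp.two_le
    omega
  -- the factor `k = 0` is `1 - ξ`
  have hsplit : ∏ k ∈ Finset.range n, (1 - ξ ^ (k + 1)) =
      (1 - ξ) * ∏ k ∈ Finset.range (n - 1), (1 - ξ ^ (k + 1 + 1)) := by
    obtain ⟨m, rfl⟩ : ∃ m, n = m + 1 := ⟨n - 1, by omega⟩
    rw [Finset.prod_range_succ']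
    simp [mul_comm]
  have hval : v.valuation F ((n + 1 : ℕ) : F) ≤ v.valuation F (1 - ξ) := by
    have h1 : ((n + 1 : ℕ) : F) = (1 - ξ) * ∏ k ∈ Finset.range (n - 1), (1 - ξ ^ (k + 1 + 1)) := by
      rw [← hsplit, hprod]
      push_cast
      ring
    rw [h1, map_mul, map_prod]
    have h2 : ∏ k ∈ Finset.range (n - 1), v.valuation F (1 - ξ ^ (k + 1 + 1)) ≤ 1 :=
      Finset.prod_le_one' fun k _ => hle _
    calc v.valuation F (1 - ξ) * ∏ k ∈ Finset.range (n - 1), v.valuation F (1 - ξ ^ (k + 1 + 1))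
        ≤ v.valuation F (1 - ξ) * 1 := by gcongr
      _ = v.valuation F (1 - ξ) := mul_one _
  have hge : (1 : WithZero (Multiplicative ℤ)) ≤ v.valuation F ((n + 1 : ℕ) : F) := by
    unfold Above at hv
    exact not_lt.mp hv
  have h1 := hle 1
  rw [pow_one] at h1
  exact le_antisymm h1 (hge.trans hval)

/-- Core of [SI-K-unr]: an element of the inertia group of `w` fixes `θ`. -/
theorem inertia_fixes [IsGalois F N] {p : ℕ} [Fact p.Prime] {ζ : F} (hζ : IsPrimitiveRoot ζ p)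
    {y : F} (hy0 : y ≠ 0) {θ : N} (hθ : θ ^ p = algebraMap F N y)
    (v : Pl F) (hv : ¬ Above p v) (hdiv : (p : ℤ) ∣ ord v y) (w : Pl N) (hw : Over w v)
    (σ : N ≃ₐ[F] N) (hσ : σ ∈ w.asIdeal.inertia (N ≃ₐ[F] N)) : σ θ = θ := by
  have hp : p.Prime := Fact.out
  have hθ0 : θ ≠ 0 := by
    rintro rfl
    rw [zero_pow hp.ne_zero] at hθ
    exact hy0 ((map_eq_zero (algebraMap F N)).mp hθ.symm)
  have hζN : IsPrimitiveRoot (algebraMap F N ζ) p :=
    hζ.map_of_injective (algebraMap F N).injective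
  have hpow : (σ θ / θ) ^ p = 1 := by
    rw [div_pow, ← map_pow, hθ, AlgEquiv.commutes, div_self]
    rw [← hθ]
    exact pow_ne_zero _ hθ0
  have : NeZero p := ⟨hp.ne_zero⟩
  obtain ⟨k, hk, hkeq⟩ := hζN.eq_pow_of_pow_eq_one hpow
  by_cases hk1 : ζ ^ k = 1
  · have h1 : σ θ / θ = 1 := by rw [← hkeq, ← map_pow, hk1, map_one]
    exact (div_eq_one_iff_eq hθ0).mp h1
  exfalso
  have hk0 : k ≠ 0 := by
    rintro rfl
    exact hk1 (pow_zero _)
  have hcop : k.Coprime p := (Nat.coprime_of_lt_prime hk0 hk hp).symm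
  have hξ : IsPrimitiveRoot (ζ ^ k) p := hζ.pow_of_coprime k hcop
  have hunit : v.valuation F (1 - ζ ^ k) = 1 := valuation_one_sub_eq_one hξ v hv
  have hLO : w.asIdeal.LiesOver v.asIdeal := ⟨hw.symm⟩
  have hlies : ∀ c : F, v.valuation F c ^ v.asIdeal.ramificationIdx' w.asIdeal =
      w.valuation N (algebraMap F N c) := fun c => HeightOneSpectrum.valuation_liesOver N v w c
  -- the local uniformizer and `z` with `ord_v z = ord_v y / p`
  obtain ⟨m, hm⟩ := hdiv
  obtain ⟨π, hπ⟩ := v.valuation_exists_uniformizer F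
  have hzval : v.valuation F (π ^ m) = WithZero.exp (-m) := by
    rw [map_zpow₀, hπ, ← WithZero.exp_zsmul]
    simp
  have hyval : v.valuation F y = WithZero.exp (-((p : ℤ) * m)) := by
    have h0 : v.valuation F y ≠ 0 := (Valuation.ne_zero_iff _).mpr hy0
    rw [← WithZero.exp_log h0]
    congr 1
    unfold ord at hm
    omega
  have hy'val : v.valuation F (y / (π ^ m) ^ p) = 1 := by
    rw [map_div₀, map_pow, hzval, hyval, ← WithZero.exp_nsmul, ← WithZero.exp_sub]
    simp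
  have hθ'pow : (θ / algebraMap F N (π ^ m)) ^ p = algebraMap F N (y / (π ^ m) ^ p) := by
    rw [div_pow, hθ, map_div₀, map_pow]
  have hθ'val : w.valuation N (θ / algebraMap F N (π ^ m)) = 1 := by
    have h1 : w.valuation N (θ / algebraMap F N (π ^ m)) ^ p = 1 := by
      rw [← map_pow, hθ'pow, ← hlies, hy'val, one_pow]
    exact (pow_eq_one_iff_left hp.ne_zero).mp h1
  obtain ⟨n, ⟨d, hd⟩, hnd⟩ := w.exists_primeCompl_mul_eq_of_integer _ hθ'val.le
  have hdval : w.valuation N (algebraMap (𝓞 N) N d) = 1 := by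
    rw [HeightOneSpectrum.valuation_of_algebraMap]
    exact (w.intValuation_eq_one_iff_mem_primeCompl d).mpr hd
  have hnval : w.valuation N (algebraMap (𝓞 N) N n) = 1 := by
    rw [← hnd, map_mul, hθ'val, hdval, one_mul]
  have haval : w.valuation N (algebraMap (𝓞 N) N (σ • n - n)) < 1 :=
    (w.valuation_lt_one_iff_mem _).mpr (hσ n)
  have hbval : w.valuation N (algebraMap (𝓞 N) N (σ • d - d)) < 1 :=
    (w.valuation_lt_one_iff_mem _).mpr (hσ d)
  have hσn : σ (algebraMap (𝓞 N) N n) = algebraMap (𝓞 N) N (σ • n) :=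
    (algebraMap.coe_smul' σ n N).symm
  have hσd : σ (algebraMap (𝓞 N) N d) = algebraMap (𝓞 N) N (σ • d) :=
    (algebraMap.coe_smul' σ d N).symm
  have hσθ' : σ (θ / algebraMap F N (π ^ m)) =
      algebraMap F N (ζ ^ k) * (θ / algebraMap F N (π ^ m)) := by
    rw [map_div₀, AlgEquiv.commutes, map_pow, hkeq]
    field_simp
  have h1 : algebraMap F N (ζ ^ k) * (θ / algebraMap F N (π ^ m)) * algebraMap (𝓞 N) N (σ • d) =
      algebraMap (𝓞 N) N (σ • n) := by
    rw [← hσθ', ← hσd, ← map_mul, hnd, hσn]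
  have h2 : algebraMap F N (ζ ^ k) * algebraMap (𝓞 N) N n * algebraMap (𝓞 N) N (σ • d) =
      algebraMap (𝓞 N) N (σ • n) * algebraMap (𝓞 N) N d := by
    rw [← h1, ← hnd]
    ring
  have hkey : algebraMap F N (1 - ζ ^ k) * (algebraMap (𝓞 N) N n * algebraMap (𝓞 N) N d) =
      algebraMap F N (ζ ^ k) * algebraMap (𝓞 N) N n * algebraMap (𝓞 N) N (σ • d - d) -
        algebraMap (𝓞 N) N (σ • n - n) * algebraMap (𝓞 N) N d := by
    simp only [map_sub, map_one]
    linear_combination -h2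
  have hL : w.valuation N (algebraMap F N (1 - ζ ^ k) *
      (algebraMap (𝓞 N) N n * algebraMap (𝓞 N) N d)) = 1 := by
    rw [map_mul, map_mul, hnval, hdval, ← hlies, hunit, one_pow, one_mul, one_mul]
  have hZ : w.valuation N (algebraMap F N (ζ ^ k)) = 1 := by
    rw [← hlies, valuation_eq_one_of_pow_eq_one v hp.ne_zero hξ.pow_eq_one, one_pow]
  have hR : w.valuation N (algebraMap F N (ζ ^ k) * algebraMap (𝓞 N) N n *
      algebraMap (𝓞 N) N (σ • d - d) - algebraMap (𝓞 N) N (σ • n - n) * algebraMap (𝓞 N) N d) < 1 := by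
    apply Valuation.map_sub_lt
    · rw [map_mul, map_mul, hZ, hnval, one_mul, one_mul]
      exact hbval
    · rw [map_mul, hdval, mul_one]
      exact haval
  rw [← hkey, hL] at hR
  exact lt_irrefl _ hR

/-- [SI-K-unr] `N = F(y^{1/p})` is unramified at `v ∤ p` when `p ∣ ord_v y`. -/
theorem kummerUnramified : KummerUnramifiedStatement := by
  intro F _ _ p _ ζ N _ _ _ _ hζ hfin y hy θ hθ v hv hdiv w hw c
  have hp : p.Prime := Fact.out
  have hy0 : y ≠ 0 := by
    rintro rfl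
    exact hy 0 (zero_pow hp.ne_zero)
  have hfix : ∀ σ ∈ w.asIdeal.inertia (N ≃ₐ[F] N), σ θ = θ :=
    fun σ hσ => inertia_fixes hζ hy0 hθ v hv hdiv w hw σ hσ
  have hcard : Nat.card (w.asIdeal.inertia (N ≃ₐ[F] N)) = 1 := by
    have hG : Nat.card (N ≃ₐ[F] N) = p := by rw [IsGalois.card_aut_eq_finrank, hfin]
    have hdvd : Nat.card (w.asIdeal.inertia (N ≃ₐ[F] N)) ∣ p :=
      hG ▸ Subgroup.card_subgroup_dvd_card _
    rcases (Nat.dvd_prime hp).mp hdvd with h1 | h1
    · exact h1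
    · exfalso
      have htop : w.asIdeal.inertia (N ≃ₐ[F] N) = ⊤ :=
        (Subgroup.card_eq_iff_eq_top _).mp (h1.trans hG.symm)
      have hmem : θ ∈ Set.range (algebraMap F N) :=
        (IsGalois.mem_range_algebraMap_iff_fixed θ).mpr
          (fun σ => hfix σ (htop ▸ Subgroup.mem_top σ))
      obtain ⟨b, hb⟩ := hmem
      apply hy b
      apply (algebraMap F N).injective
      rw [map_pow, hb, hθ]
  rw [ord_algebraMap_eq_mul v w hw c, ramificationIdx'_eq_card_inertia v w hw, hcard]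
  simp

end Fermat.Agent.S14C.KummerUnr
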