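import Fermat.Agent.S14C.SI.Defs

/-!
# S14C / SI : the local class map (block [SI-L], uniform in the prime `v`)

For a prime `v` of a number field `F ∋ ζ_p` put `c = ord_v(1 - ζ)` (`= 0` iff `v ∤ p`) and
`N = p c + 1 = locExp p ζ v`.  The elements `y ∈ Fˣ` with `p ∣ ord_v y` fall into at most
`p * Nv ^ ((p - 1) c)` classes modulo `LocPow p ζ v`.

Proof: `G = (𝓞 F ⧸ v^N)ˣ`, `|G / G^p| = |G[p]|`, and `x^p ≡ 1 mod v^(p c + 1)` forces
`x ≡ ζ^i mod v^(c + 1)` for some `i < p`.
-/

set_option autoImplicit false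

namespace Fermat.Agent.S14C.LocalClass

open IsDedekindDomain NumberField Fermat.Agent.S14C.SIDefs

variable {F : Type} [Field F] [NumberField F]

/-! ### Finite groups -/

/-- `|G / G^p| = |G[p]|` for a finite commutative group. -/
theorem card_quot_pow_eq (G : Type) [CommGroup G] [Finite G] (p : ℕ) :
    Nat.card (G ⧸ (powMonoidHom p : G →* G).range) = Nat.card (powMonoidHom p : G →* G).ker := by
  have h1 := Subgroup.card_mul_index (powMonoidHom p : G →* G).ker
  have h2 := Subgroup.card_mul_index (powMonoidHom p : G →* G).range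
  rw [Subgroup.index_ker] at h1
  rw [← Subgroup.index_eq_card]
  have hpos : 0 < Nat.card (powMonoidHom p : G →* G).range := Nat.card_pos
  nlinarith [h1, h2]

/-! ### Valuation facts -/

/-- discreteness of `ℤᵐ⁰`. -/
theorem exp_le_of_exp_succ_lt {a : WithZero (Multiplicative ℤ)} {n : ℤ}
    (h : WithZero.exp (-(n + 1)) < a) : WithZero.exp (-n) ≤ a := by
  have ha : a ≠ 0 := by
    rintro rfl
    exact absurd h (not_lt.mpr zero_le)
  rw [← WithZero.exp_log ha] at h ⊢
  rw [WithZero.exp_lt_exp] at h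
  rw [WithZero.exp_le_exp]
  omega

theorem mem_pow_iff (v : Pl F) (a : 𝓞 F) (n : ℕ) :
    a ∈ v.asIdeal ^ n ↔ v.valuation F (algebraMap (𝓞 F) F a) ≤ WithZero.exp (-(n : ℤ)) := by
  rw [HeightOneSpectrum.valuation_of_algebraMap, HeightOneSpectrum.intValuation_le_pow_iff_mem]

omit [NumberField F] in
theorem pow_sub_one_eq_prod {p : ℕ} {ζ : F} (hp : 0 < p) (hζ : IsPrimitiveRoot ζ p) (x : F) :
    x ^ p - 1 = ∏ i ∈ Finset.range p, (x - ζ ^ i) := by
  classical
  have : NeZero p := ⟨hp.ne'⟩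
  have h := hζ.pow_sub_pow_eq_prod_sub_mul x 1 hp
  rw [one_pow] at h
  rw [h]
  have hroots : Polynomial.nthRootsFinset p (1 : F) = (Finset.range p).image (ζ ^ ·) := by
    ext y
    rw [Polynomial.mem_nthRootsFinset hp, Finset.mem_image]
    constructor
    · intro hy
      obtain ⟨i, hi, rfl⟩ := hζ.eq_pow_of_pow_eq_one hy
      exact ⟨i, Finset.mem_range.mpr hi, rfl⟩
    · rintro ⟨i, -, rfl⟩
      rw [← pow_mul, mul_comm, pow_mul, hζ.pow_eq_one, one_pow]
  rw [hroots, Finset.prod_image]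
  · simp
  · intro i hi j hj hij
    exact hζ.pow_inj (Finset.mem_range.mp hi) (Finset.mem_range.mp hj) hij

/-- If `x^p ≡ 1 mod v^(p c + 1)` then `x ≡ ζ^i mod v^(c + 1)` for some `i < p`. -/
theorem exists_close_root {p : ℕ} {ζ : F} (hp : 0 < p) (hζ : IsPrimitiveRoot ζ p) (v : Pl F) (c : ℕ)
    {x : F} (hx : v.valuation F (x ^ p - 1) ≤ WithZero.exp (-((p * c + 1 : ℕ) : ℤ))) :
    ∃ i ∈ Finset.range p, v.valuation F (x - ζ ^ i) ≤ WithZero.exp (-((c + 1 : ℕ) : ℤ)) := by
  by_contra hcon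
  push Not at hcon
  have hprod : x ^ p - 1 = ∏ i ∈ Finset.range p, (x - ζ ^ i) := pow_sub_one_eq_prod hp hζ x
  have hge : ∀ i ∈ Finset.range p, WithZero.exp (-(c : ℤ)) ≤ v.valuation F (x - ζ ^ i) := by
    intro i hi
    apply exp_le_of_exp_succ_lt
    have := hcon i hi
    push_cast at this
    exact this
  have h1 : WithZero.exp (-(c : ℤ)) ^ p ≤ v.valuation F (x ^ p - 1) := by
    rw [hprod, map_prod]
    calc WithZero.exp (-(c : ℤ)) ^ p = ∏ _i ∈ Finset.range p, WithZero.exp (-(c : ℤ)) := by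
          rw [Finset.prod_const, Finset.card_range]
      _ ≤ _ := Finset.prod_le_prod' hge
  have h2 : WithZero.exp (-(c : ℤ)) ^ p = WithZero.exp (-((p * c : ℕ) : ℤ)) := by
    rw [← WithZero.exp_nsmul]
    congr 1
    push_cast
    ring
  rw [h2] at h1
  have h3 := h1.trans hx
  rw [WithZero.exp_le_exp] at h3
  push_cast at h3
  omega

/-! ### The finite rings `𝓞 F ⧸ v^n` -/

/-- the finite ring `𝓞 F ⧸ v^n`. -/
abbrev QR (v : Pl F) (n : ℕ) : Type := 𝓞 F ⧸ v.asIdeal ^ n

instance instFiniteQR (v : Pl F) (n : ℕ) : Finite (QR v n) :=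
  Ideal.finiteQuotientOfFreeOfNeBot _ (pow_ne_zero n v.ne_bot)

theorem card_QR (v : Pl F) (n : ℕ) : Nat.card (QR v n) = nrm v ^ n := by
  rw [nrm, ← map_pow, Ideal.absNorm_apply, Submodule.cardQuot_apply]

theorem nrm_pos (v : Pl F) : 0 < nrm v := by
  have h := card_QR v 1
  rw [pow_one] at h
  rw [← h]
  exact Nat.card_pos

/-- the reduction map `𝓞 F ⧸ v^n → 𝓞 F ⧸ v^m` for `m ≤ n`. -/
noncomputable abbrev fac (v : Pl F) {m n : ℕ} (h : m ≤ n) : QR v n →+* QR v m :=
  Ideal.Quotient.factor (Ideal.pow_le_pow_right h)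

theorem card_ker_fac (v : Pl F) {m n : ℕ} (h : m ≤ n) :
    Nat.card {d : QR v n // fac v h d = 0} = nrm v ^ (n - m) := by
  have hsurj : Function.Surjective (fac v h) := Ideal.Quotient.factor_surjective _
  have h1 := AddSubgroup.card_mul_index (fac v h).toAddMonoidHom.ker
  rw [AddSubgroup.index_ker, card_QR] at h1
  have h2 : Nat.card (fac v h).toAddMonoidHom.range = nrm v ^ m := by
    rw [← card_QR v m]
    have : (fac v h).toAddMonoidHom.range = ⊤ := AddMonoidHom.range_eq_top.mpr hsurj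
    rw [this]
    exact Nat.card_congr (Equiv.Set.univ _)
  rw [h2] at h1
  have h3 : Nat.card {d : QR v n // fac v h d = 0} = Nat.card (fac v h).toAddMonoidHom.ker :=
    Nat.card_congr (Equiv.refl _)
  rw [h3]
  have h4 : nrm v ^ n = nrm v ^ (n - m) * nrm v ^ m := by
    rw [← pow_add, Nat.sub_add_cancel h]
  rw [h4] at h1
  exact Nat.eq_of_mul_eq_mul_right (pow_pos (nrm_pos v) m) h1

/-! ### Counting the `p`-torsion of `𝓞 F ⧸ v^(p c + 1)` -/

theorem card_torsion_le {p : ℕ} {ζ : F} (hp : 0 < p) (hζ : IsPrimitiveRoot ζ p) (v : Pl F)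
    (c : ℕ) :
    Nat.card {q : QR v (p * c + 1) // q ^ p = 1} ≤ p * nrm v ^ ((p - 1) * c) := by
  classical
  have : NeZero p := ⟨hp.ne'⟩
  have hle : c + 1 ≤ p * c + 1 := by
    have : c ≤ p * c := Nat.le_mul_of_pos_left c hp
    omega
  set ζ₀ : 𝓞 F := hζ.toInteger with hζ₀
  have hζ₀' : algebraMap (𝓞 F) F ζ₀ = ζ := hζ.coe_toInteger
  -- every torsion element reduces to a power of `ζ`
  have key : ∀ q : {q : QR v (p * c + 1) // q ^ p = 1}, ∃ i : Fin p,
      fac v hle q.1 = Ideal.Quotient.mk (v.asIdeal ^ (c + 1)) (ζ₀ ^ (i : ℕ)) := by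
    rintro ⟨q, hq⟩
    obtain ⟨x, rfl⟩ := Ideal.Quotient.mk_surjective q
    have hx : x ^ p - 1 ∈ v.asIdeal ^ (p * c + 1) := by
      rw [← Ideal.Quotient.eq_zero_iff_mem, map_sub, map_pow, map_one, hq, sub_self]
    rw [mem_pow_iff, map_sub, map_pow, map_one] at hx
    obtain ⟨i, hi, hxi⟩ := exists_close_root hp hζ v c hx
    refine ⟨⟨i, Finset.mem_range.mp hi⟩, ?_⟩
    rw [Ideal.Quotient.factor_mk, Ideal.Quotient.eq, mem_pow_iff, map_sub, map_pow, hζ₀']
    exact hxi
  choose ι hι using key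
  let K := {d : QR v (p * c + 1) // fac v hle d = 0}
  let f : {q : QR v (p * c + 1) // q ^ p = 1} → Fin p × K := fun q =>
    (ι q, ⟨q.1 - Ideal.Quotient.mk (v.asIdeal ^ (p * c + 1)) (ζ₀ ^ (ι q : ℕ)), by
      rw [map_sub, hι q, Ideal.Quotient.factor_mk, sub_self]⟩)
  have hf : Function.Injective f := by
    intro q q' h
    have h1 : ι q = ι q' := congrArg Prod.fst h
    have h2 := congrArg (fun z => (z.2 : QR v (p * c + 1))) h
    simp only [f] at h2
    rw [h1] at h2
    exact Subtype.ext (sub_left_injective h2)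
  have hK : Nat.card K = nrm v ^ ((p - 1) * c) := by
    rw [card_ker_fac v hle]
    congr 1
    have : p * c = (p - 1) * c + c := by
      rw [← Nat.succ_mul, Nat.succ_eq_add_one, Nat.sub_add_cancel hp]
    omega
  have hfin : Finite K := Subtype.finite
  calc Nat.card {q : QR v (p * c + 1) // q ^ p = 1} ≤ Nat.card (Fin p × K) :=
        Nat.card_le_card_of_injective f hf
    _ = p * nrm v ^ ((p - 1) * c) := by rw [Nat.card_prod, Nat.card_fin, hK]

/-! ### Reduction of `v`-units of `F` modulo `v^n` -/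

/-- an integral approximation of `u` modulo `v^n` (junk if `u` is not `v`-integral). -/
noncomputable def rep (v : Pl F) (n : ℕ) (u : F) : 𝓞 F :=
  open Classical in
  if h : v.valuation F u ≤ 1 then
    (v.exists_valuation_sub_lt_of_integer h
      (Units.mk0 (WithZero.exp (-(n : ℤ))) WithZero.exp_ne_zero)).choose
  else 0

theorem rep_spec (v : Pl F) (n : ℕ) {u : F} (h : v.valuation F u ≤ 1) :
    v.valuation F (algebraMap (𝓞 F) F (rep v n u) - u) < WithZero.exp (-(n : ℤ)) := by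
  rw [rep, dif_pos h]
  exact (v.exists_valuation_sub_lt_of_integer h
      (Units.mk0 (WithZero.exp (-(n : ℤ))) WithZero.exp_ne_zero)).choose_spec

theorem exp_neg_natCast_le_one (n : ℕ) : WithZero.exp (-(n : ℤ)) ≤ (1 : WithZero (Multiplicative ℤ)) := by
  rw [← WithZero.exp_zero, WithZero.exp_le_exp]
  omega

theorem valuation_rep (v : Pl F) (n : ℕ) {u : F} (h : v.valuation F u = 1) :
    v.valuation F (algebraMap (𝓞 F) F (rep v n u)) = 1 := by
  have h1 := rep_spec v n h.le
  have h2 : v.valuation F (algebraMap (𝓞 F) F (rep v n u) - u) < v.valuation F u := by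
    rw [h]
    refine lt_of_lt_of_le h1 ?_
    exact exp_neg_natCast_le_one n
  rw [Valuation.map_eq_of_sub_lt _ h2, h]

theorem rep_mul_rep_inv (v : Pl F) (n : ℕ) {u : F} (h : v.valuation F u = 1) :
    (Ideal.Quotient.mk (v.asIdeal ^ n) (rep v n u) : QR v n) *
      Ideal.Quotient.mk (v.asIdeal ^ n) (rep v n u⁻¹) = 1 := by
  have hu0 : u ≠ 0 := by
    rintro rfl
    simp at h
  have h' : v.valuation F u⁻¹ = 1 := by rw [map_inv₀, h, inv_one]
  have h1 := rep_spec v n h.le
  have h2 := rep_spec v n h'.le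
  rw [← map_mul, ← map_one (Ideal.Quotient.mk (v.asIdeal ^ n)), Ideal.Quotient.eq, mem_pow_iff,
    map_sub, map_mul, map_one]
  have key : algebraMap (𝓞 F) F (rep v n u) * algebraMap (𝓞 F) F (rep v n u⁻¹) - 1 =
      (algebraMap (𝓞 F) F (rep v n u) - u) * algebraMap (𝓞 F) F (rep v n u⁻¹) +
        u * (algebraMap (𝓞 F) F (rep v n u⁻¹) - u⁻¹) := by
    field_simp
    ring
  rw [key]
  apply Valuation.map_add_le
  · rw [map_mul]
    calc _ ≤ v.valuation F (algebraMap (𝓞 F) F (rep v n u) - u) * 1 :=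
          mul_le_mul_right (v.valuation_le_one _) _
      _ ≤ _ := by rw [mul_one]; exact h1.le
  · rw [map_mul, h, one_mul]
    exact h2.le

/-- the class of a `v`-unit `u` of `F` in `(𝓞 F ⧸ v^n)ˣ` (junk `1` if `u` is not a `v`-unit). -/
noncomputable def redUnit (v : Pl F) (n : ℕ) (u : F) : (QR v n)ˣ :=
  open Classical in
  if h : v.valuation F u = 1 then
    Units.mkOfMulEqOne (Ideal.Quotient.mk (v.asIdeal ^ n) (rep v n u))
      (Ideal.Quotient.mk (v.asIdeal ^ n) (rep v n u⁻¹)) (rep_mul_rep_inv v n h)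
  else 1

theorem redUnit_val (v : Pl F) (n : ℕ) {u : F} (h : v.valuation F u = 1) :
    ((redUnit v n u : (QR v n)ˣ) : QR v n) = Ideal.Quotient.mk (v.asIdeal ^ n) (rep v n u) := by
  rw [redUnit, dif_pos h]
  rfl

/-- equal classes modulo `p`-th powers give a multiplicative congruence. -/
theorem congOne_of_redUnit_eq (v : Pl F) {n : ℕ} (hn : 0 < n) {p : ℕ} (hp : 0 < p) {u u' : F}
    (hu : v.valuation F u = 1) (hu' : v.valuation F u' = 1)
    (h : (QuotientGroup.mk (redUnit v n u) :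
        (QR v n)ˣ ⧸ (powMonoidHom p : (QR v n)ˣ →* (QR v n)ˣ).range) =
      QuotientGroup.mk (redUnit v n u')) :
    ∃ b : F, b ≠ 0 ∧ CongOne v n (u / u' / b ^ p) := by
  have h1 := QuotientGroup.eq.mp h.symm
  obtain ⟨g, hg⟩ := h1
  have hg' : redUnit v n u = redUnit v n u' * g ^ p := by
    have : (powMonoidHom p : (QR v n)ˣ →* (QR v n)ˣ) g = g ^ p := rfl
    rw [← this, hg, mul_inv_cancel_left]
  obtain ⟨b₀, hb₀⟩ := Ideal.Quotient.mk_surjective (g : QR v n)
  have hQ : (Ideal.Quotient.mk (v.asIdeal ^ n) (rep v n u) : QR v n) =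
      Ideal.Quotient.mk (v.asIdeal ^ n) (rep v n u' * b₀ ^ p) := by
    rw [map_mul, map_pow, hb₀, ← redUnit_val v n hu, ← redUnit_val v n hu', hg']
    simp
  rw [Ideal.Quotient.eq, mem_pow_iff, map_sub, map_mul, map_pow] at hQ
  set a := algebraMap (𝓞 F) F (rep v n u) with ha
  set a' := algebraMap (𝓞 F) F (rep v n u') with ha'
  set b := algebraMap (𝓞 F) F b₀ with hb
  have hva : v.valuation F a = 1 := valuation_rep v n hu
  have hva' : v.valuation F a' = 1 := valuation_rep v n hu'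
  have hlt : WithZero.exp (-(n : ℤ)) < (1 : WithZero (Multiplicative ℤ)) := by
    rw [← WithZero.exp_zero, WithZero.exp_lt_exp]
    omega
  have hvb : v.valuation F (b ^ p) = 1 := by
    have h2 : v.valuation F (a' * b ^ p - a) < v.valuation F a := by
      rw [hva, Valuation.map_sub_swap]
      exact lt_of_le_of_lt hQ hlt
    have h3 := Valuation.map_eq_of_sub_lt _ h2
    rw [map_mul, hva', one_mul, hva] at h3
    exact h3
  have hb0 : b ≠ 0 := by
    rintro h0
    rw [h0, zero_pow hp.ne', map_zero] at hvb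
    exact zero_ne_one hvb
  have hu'0 : u' ≠ 0 := by
    rintro rfl
    simp at hu'
  refine ⟨b, hb0, ?_⟩
  have hbp0 : b ^ p ≠ 0 := pow_ne_zero p hb0
  have key : u / u' / b ^ p - 1 = (u - u' * b ^ p) / (u' * b ^ p) := by
    field_simp
  rw [CongOne, key, map_div₀, map_mul, hu', hvb, one_mul, div_one]
  have key2 : u - u' * b ^ p = (u - a) + ((a - a' * b ^ p) + (a' - u') * b ^ p) := by ring
  rw [key2]
  apply Valuation.map_add_le
  · rw [Valuation.map_sub_swap]
    exact (rep_spec v n hu.le).le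
  · apply Valuation.map_add_le
    · exact hQ
    · rw [map_mul, hvb, mul_one]
      exact (rep_spec v n hu'.le).le

/-! ### The local class map -/

theorem valuation_zpow_uniformizer (v : Pl F) {ϖ : F}
    (hϖ : v.valuation F ϖ = WithZero.exp (-1 : ℤ)) (n : ℤ) :
    v.valuation F (ϖ ^ n) = WithZero.exp (-n) := by
  rw [map_zpow₀, hϖ, ← WithZero.exp_zsmul]
  congr 1
  simp

theorem valuation_eq_exp_neg_ord' (v : Pl F) {y : F} (hy : y ≠ 0) :
    v.valuation F y = WithZero.exp (-ord v y) := by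
  rw [ord, neg_neg, WithZero.exp_log]
  exact (Valuation.ne_zero_iff _).mpr hy

/-- [SI-L], local part, uniform in `v`: the elements `y` with `p ∣ ord_v y` fall into at most
`p * Nv ^ ((p - 1) * ord_v(1 - ζ))` classes modulo `LocPow p ζ v`. -/
theorem exists_locClass {p : ℕ} [Fact p.Prime] {ζ : F} (hζ : IsPrimitiveRoot ζ p) (v : Pl F) :
    ∃ (C : Type) (_ : Fintype C) (cl : F → C),
      Fintype.card C ≤ p * nrm v ^ ((p - 1) * (ord v (1 - ζ)).toNat) ∧
      ∀ y y' : F, y ≠ 0 → y' ≠ 0 → (p : ℤ) ∣ ord v y → (p : ℤ) ∣ ord v y' →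
        cl y = cl y' → LocPow p ζ v (y / y') := by
  classical
  have hp : 0 < p := (Fact.out : p.Prime).pos
  set c : ℕ := (ord v (1 - ζ)).toNat with hc
  set N : ℕ := p * c + 1 with hN
  have hNpos : 0 < N := Nat.succ_pos _
  obtain ⟨ϖ, hϖ⟩ := v.valuation_exists_uniformizer F
  have hϖ0 : ϖ ≠ 0 := by
    rintro rfl
    rw [map_zero] at hϖ
    exact WithZero.exp_ne_zero hϖ.symm
  let G := (QR v N)ˣ
  let H : Subgroup G := (powMonoidHom p : G →* G).range
  let cl : F → G ⧸ H := fun y => QuotientGroup.mk (redUnit v N (y / ϖ ^ (ord v y)))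
  refine ⟨G ⧸ H, Fintype.ofFinite _, cl, ?_, ?_⟩
  · -- the count
    rw [Fintype.card_eq_nat_card, card_quot_pow_eq G p]
    refine le_trans ?_ (card_torsion_le hp hζ v c)
    let f : (powMonoidHom p : G →* G).ker → {q : QR v N // q ^ p = 1} := fun g =>
      ⟨((g : G) : QR v N), by
        have h := g.2
        rw [MonoidHom.mem_ker] at h
        have h' : ((g : G) ^ p : G) = 1 := h
        rw [← Units.val_pow_eq_pow_val, h', Units.val_one]⟩
    have hf : Function.Injective f := by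
      intro g g' h
      have h1 := congrArg Subtype.val h
      exact Subtype.ext (Units.ext h1)
    have hfin : Finite {q : QR v N // q ^ p = 1} := Subtype.finite
    exact Nat.card_le_card_of_injective f hf
  · -- the class property
    intro y y' hy hy' hdvd hdvd' hcl
    obtain ⟨k, hk⟩ := hdvd
    obtain ⟨k', hk'⟩ := hdvd'
    have hvu : ∀ z : F, z ≠ 0 → v.valuation F (z / ϖ ^ (ord v z)) = 1 := by
      intro z hz
      rw [map_div₀, valuation_zpow_uniformizer v hϖ, valuation_eq_exp_neg_ord' v hz]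
      exact div_self WithZero.exp_ne_zero
    obtain ⟨b, hb0, hb⟩ := congOne_of_redUnit_eq v hNpos hp (hvu y hy) (hvu y' hy') hcl
    have hA : ϖ ^ (ord v y) = (ϖ ^ k) ^ p := by
      rw [hk, mul_comm, zpow_mul, zpow_natCast]
    have hA' : ϖ ^ (ord v y') = (ϖ ^ k') ^ p := by
      rw [hk', mul_comm, zpow_mul, zpow_natCast]
    have hAk : ϖ ^ k ≠ 0 := zpow_ne_zero k hϖ0
    have hAk' : ϖ ^ k' ≠ 0 := zpow_ne_zero k' hϖ0
    refine ⟨b * (ϖ ^ k / ϖ ^ k'), mul_ne_zero hb0 (div_ne_zero hAk hAk'), ?_⟩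
    have hloc : locExp p ζ v = N := rfl
    rw [hloc]
    have key : ∀ A A' : F, A ≠ 0 → A' ≠ 0 →
        y / y' / (b * (A / A')) ^ p = y / A ^ p / (y' / A' ^ p) / b ^ p := by
      intro A A' hA0 hA0'
      field_simp
      rw [div_pow, div_mul_cancel₀ _ (pow_ne_zero p hA0'), mul_pow, mul_comm]
    rw [key _ _ hAk hAk', ← hA, ← hA']
    exact hb

end Fermat.Agent.S14C.LocalClass
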