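import Fermat.Agent.S14C.SI.Defs

/-!
# S14C / SI : Prop-valued interface for the top of the algebraic second inequality

Every block is a `Prop` depending on the prime `p` only; leaf owners prove
`theorem <name> {p : ℕ} [Fact p.Prime] (hp2 : p ≠ 2) (…other blocks as hypotheses…) : <Name> p`.
The statements are those of the SI leaf table, quantified over all number fields `F : Type`
containing a primitive `p`-th root of unity `ζ`.
-/

set_option autoImplicit false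

namespace Fermat.Agent.S14C.SITop

open IsDedekindDomain NumberField Fermat.Agent.S14C.SIDefs

/-- [SI-Z] symbol form of the zeta-pole lemma (Z): if `u` is not a `p`-th power there is a
degree-one prime `Q ∤ p`, outside any given finite set, at which `u` is a unit and not a
`p`-th power residue. -/
def ZStatement (p : ℕ) : Prop :=
  ∀ (F : Type) [Field F] [NumberField F] (ζ : F), IsPrimitiveRoot ζ p →
    ∀ u : F, (∀ b : F, b ^ p ≠ u) → ∀ Z : Finset (Pl F),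
      ∃ Q : Pl F, Q ∉ Z ∧ ¬ Above p Q ∧ ord Q u = 0 ∧ (nrm Q).Prime ∧ sym p ζ Q u ≠ 0

/-- [SI-Kum] the Kummer field `M = F(c^{1/p})` (a number field in universe `0`, Galois of
degree `p` over `F`, with `σ θ = ζ θ`) together with the Kummer lemma `F ∩ M^p = ⟨c⟩ F^p`. -/
def KummerStatement (p : ℕ) : Prop :=
  ∀ (F : Type) [Field F] [NumberField F] (ζ : F), IsPrimitiveRoot ζ p →
    ∀ c : F, (∀ b : F, b ^ p ≠ c) →
    ∃ (M : Type) (_ : Field M) (_ : NumberField M) (_ : Algebra F M) (θ : M) (σ : M ≃ₐ[F] M),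
      IsGalois F M ∧ Module.finrank F M = p ∧ θ ^ p = algebraMap F M c ∧
      σ θ = algebraMap F M ζ * θ ∧
      ∀ x : F, (∃ m : M, m ^ p = algebraMap F M x) → ∃ (k : ℕ) (f : F), x = c ^ k * f ^ p

/-- [SI-Z2a] two-element (Z)-step, split form: for `u ∉ ⟨a⟩ F^p` there is a degree-one prime at
which `a` is a `p`-th power residue and `u` is not. -/
def ZStepAStatement (p : ℕ) : Prop :=
  ∀ (F : Type) [Field F] [NumberField F] (ζ : F), IsPrimitiveRoot ζ p →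
    ∀ a u : F, (∀ b : F, b ^ p ≠ a) → (∀ (k : ℕ) (b : F), a ^ k * b ^ p ≠ u) →
    ∀ Z : Finset (Pl F),
      ∃ q : Pl F, q ∉ Z ∧ ¬ Above p q ∧ ord q a = 0 ∧ ord q u = 0 ∧ (nrm q).Prime ∧
        sym p ζ q a = 0 ∧ sym p ζ q u ≠ 0

/-- [SI-Z2b] two-element (Z)-step, non-split form: for `η, u ∉ F^p` there is a degree-one prime
at which neither `η` nor `u` is a `p`-th power residue. -/
def ZStepBStatement (p : ℕ) : Prop :=
  ∀ (F : Type) [Field F] [NumberField F] (ζ : F), IsPrimitiveRoot ζ p →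
    ∀ η u : F, (∀ b : F, b ^ p ≠ η) → (∀ b : F, b ^ p ≠ u) →
    ∀ Z : Finset (Pl F),
      ∃ q : Pl F, q ∉ Z ∧ ¬ Above p q ∧ ord q η = 0 ∧ ord q u = 0 ∧ (nrm q).Prime ∧
        sym p ζ q η ≠ 0 ∧ sym p ζ q u ≠ 0

/-- [SI-1] auxiliary primes, split form (for the X-space bound): `T` of size `r + |S| - 1`,
disjoint from `S`, all `q ∈ T` split in `F(a^{1/p})`, the `S`-units surject onto `(ZMod p)^T`. -/
def AuxPrimesStatement (p : ℕ) : Prop :=
  ∀ (F : Type) [Field F] [NumberField F] (ζ : F), IsPrimitiveRoot ζ p →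
    ∀ a : F, (∀ b : F, b ^ p ≠ a) → ∀ S : Finset (Pl F), (∀ v : Pl F, Above p v → v ∈ S) →
    (∀ v : Pl F, v ∉ S → ord v a = 0) →
    ∃ T : Finset (Pl F), Disjoint S T ∧ (∀ q ∈ T, sym p ζ q a = 0) ∧
      T.card + 1 = NumberField.InfinitePlace.nrComplexPlaces F + S.card ∧
      ∀ c : Pl F → ZMod p, ∃ u : F, u ≠ 0 ∧ (∀ v : Pl F, v ∉ S → ord v u = 0) ∧
        ∀ q ∈ T, sym p ζ q u = c q

/-- [SI-G1] generating primes, non-split form (for (G-alg)): `T` of size `r + |S|`, disjoint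
from `S`, all `q ∈ T` of degree one with `η` a non-residue unit, the `S`-units surject onto
`(ZMod p)^T`. -/
def GenPrimesStatement (p : ℕ) : Prop :=
  ∀ (F : Type) [Field F] [NumberField F] (ζ : F), IsPrimitiveRoot ζ p →
    ∀ η : F, (∀ b : F, b ^ p ≠ η) → ∀ S : Finset (Pl F), (∀ v : Pl F, Above p v → v ∈ S) →
    ∃ T : Finset (Pl F), Disjoint S T ∧
      (∀ q ∈ T, ord q η = 0 ∧ (nrm q).Prime ∧ sym p ζ q η ≠ 0) ∧
      T.card = NumberField.InfinitePlace.nrComplexPlaces F + S.card ∧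
      ∀ c : Pl F → ZMod p, ∃ u : F, u ≠ 0 ∧ (∀ v : Pl F, v ∉ S → ord v u = 0) ∧
        ∀ q ∈ T, sym p ζ q u = c q

/-- [SI-L] local count, pigeonhole form. -/
def LocalCountStatement (p : ℕ) : Prop :=
  ∀ (F : Type) [Field F] [NumberField F] (ζ : F), IsPrimitiveRoot ζ p →
    ∀ (S : Finset (Pl F)) (ι : Type) [Fintype ι] (y : ι → F), (∀ i, y i ≠ 0) →
    (∀ i, ∀ s ∈ S, (p : ℤ) ∣ ord s (y i)) →
    p ^ (S.card + Module.finrank ℚ F) < Fintype.card ι →
    ∃ i j, i ≠ j ∧ ∀ s ∈ S, LocPow p ζ s (y i / y j)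

/-- [SI-B] Claim B: an `(S ∪ T)`-unit which is locally a `p`-th power at every prime of `S` is a
`p`-th power (`S ⊇ {v ∣ p}` generates the class group, the `S`-units surject onto
`(ZMod p)^T`). -/
def ClaimBStatement (p : ℕ) : Prop :=
  ∀ (F : Type) [Field F] [NumberField F] (ζ : F), IsPrimitiveRoot ζ p →
    ∀ S T : Finset (Pl F), Disjoint S T → (∀ v : Pl F, Above p v → v ∈ S) →
    (∀ D : Pl F →₀ ℤ, ∃ x : F, x ≠ 0 ∧ ∀ v, v ∉ S → D v = ord v x) →
    (∀ c : Pl F → ZMod p, ∃ u : F, u ≠ 0 ∧ (∀ v : Pl F, v ∉ S → ord v u = 0) ∧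
        ∀ q ∈ T, sym p ζ q u = c q) →
    ∀ y : F, y ≠ 0 → (∀ v : Pl F, v ∉ S → v ∉ T → ord v y = 0) →
    (∀ s ∈ S, LocPow p ζ s y) → ∃ w : F, w ^ p = y

/-- SI' (generation form, `|T| = r + |S|`): every divisor is, modulo `p` and modulo divisors
supported on `T`, principal. -/
def SIGenStatement (p : ℕ) : Prop :=
  ∀ (F : Type) [Field F] [NumberField F] (ζ : F), IsPrimitiveRoot ζ p →
    ∀ S T : Finset (Pl F), Disjoint S T → (∀ v : Pl F, Above p v → v ∈ S) →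
    (∀ D : Pl F →₀ ℤ, ∃ x : F, x ≠ 0 ∧ ∀ v, v ∉ S → D v = ord v x) →
    (∀ c : Pl F → ZMod p, ∃ u : F, u ≠ 0 ∧ (∀ v : Pl F, v ∉ S → ord v u = 0) ∧
        ∀ q ∈ T, sym p ζ q u = c q) →
    T.card = NumberField.InfinitePlace.nrComplexPlaces F + S.card →
    ∀ D : Pl F →₀ ℤ, ∃ x : F, x ≠ 0 ∧ ∀ v : Pl F, v ∉ T → (p : ℤ) ∣ D v - ord v x

/-- SI' (`|T| = r + |S| - 1`): the divisors modulo `p`, `T` and principal divisors form a group
of order at most `p`. -/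
def SIOneStatement (p : ℕ) : Prop :=
  ∀ (F : Type) [Field F] [NumberField F] (ζ : F), IsPrimitiveRoot ζ p →
    ∀ S T : Finset (Pl F), Disjoint S T → (∀ v : Pl F, Above p v → v ∈ S) →
    (∀ D : Pl F →₀ ℤ, ∃ x : F, x ≠ 0 ∧ ∀ v, v ∉ S → D v = ord v x) →
    (∀ c : Pl F → ZMod p, ∃ u : F, u ≠ 0 ∧ (∀ v : Pl F, v ∉ S → ord v u = 0) ∧
        ∀ q ∈ T, sym p ζ q u = c q) →
    T.card + 1 = NumberField.InfinitePlace.nrComplexPlaces F + S.card →
    ∀ D₁ D₂ : Pl F →₀ ℤ, ∃ c₁ c₂ : ℤ, (¬ (p : ℤ) ∣ c₁ ∨ ¬ (p : ℤ) ∣ c₂) ∧ ∃ x : F, x ≠ 0 ∧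
      ∀ v : Pl F, v ∉ T → (p : ℤ) ∣ c₁ * D₁ v + c₂ * D₂ v - ord v x

/-- (G-alg): every divisor is, modulo `p` and principal divisors, supported on the degree-one
primes (outside any finite set `Z`, not above `p`) at which `η` is a non-residue unit. -/
def GAlgStatement (p : ℕ) : Prop :=
  ∀ (F : Type) [Field F] [NumberField F] (ζ : F), IsPrimitiveRoot ζ p →
    ∀ η : F, (∀ b : F, b ^ p ≠ η) → ∀ (Z : Finset (Pl F)) (D : Pl F →₀ ℤ),
    ∃ x : F, x ≠ 0 ∧ ∀ v : Pl F,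
      ¬ (v ∉ Z ∧ ¬ Above p v ∧ ord v η = 0 ∧ (nrm v).Prime ∧ sym p ζ v η ≠ 0) →
        (p : ℤ) ∣ D v - ord v x

end Fermat.Agent.S14C.SITop
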