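/-
S14C / SI, leaf [SI-L] (owner: helper94; B-owner helper22): the local count, pigeonhole form.

For every prime `v` the classes of `{y ∈ Fˣ : p ∣ ord_v y}` modulo "local `p`-th powers at `v`"
(`LocPow p ζ v`) number at most `p * Nv ^ ((p - 1) * ord_v (1 - ζ))`; the product over a finite
set `S` of primes is at most `p ^ (|S| + [F : ℚ])`.  Hence among more than `p ^ (|S| + [F : ℚ])`
such elements two have a quotient which is a local `p`-th power at every `v ∈ S`.
-/
import Mathlib
import Fermat.Agent.S14C.SI.Defs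
import Fermat.Agent.S14C.SI.LocalClass
import Fermat.Agent.S14C.SI.TopPlan

set_option autoImplicit false

namespace Fermat.Agent.S14C.LocalCount

open IsDedekindDomain NumberField Fermat.Agent.S14C.SIDefs

variable {F : Type} [Field F] [NumberField F] {p : ℕ} [Fact p.Prime] {ζ : F}

/-- `(1 - ζ) ^ (p - 1)` divides `p` in any commutative domain with a primitive `p`-th root of
unity `ζ`. -/
theorem one_sub_pow_dvd_prime {R : Type*} [CommRing R] [IsDomain R] {ζ : R}
    (hζ : IsPrimitiveRoot ζ p) : (1 - ζ) ^ (p - 1) ∣ (p : R) := by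
  have hp : p.Prime := Fact.out
  have hpos : 0 < p := hp.pos
  have h1 : (p : R) = ∏ μ ∈ primitiveRoots p R, (1 - μ) := by
    have h := Polynomial.cyclotomic_eq_prod_X_sub_primitiveRoots (K := R) hζ
    have h2 := congrArg (Polynomial.eval 1) h
    rw [Polynomial.eval_one_cyclotomic_prime, Polynomial.eval_prod] at h2
    simpa using h2
  have hcard : (primitiveRoots p R).card = p - 1 := by
    rw [hζ.card_primitiveRoots, Nat.totient_prime hp]
  rw [h1, ← hcard, ← Finset.prod_const]
  refine Finset.prod_dvd_prod_of_dvd _ _ fun μ hμ => ?_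
  have hμ' : IsPrimitiveRoot μ p := (mem_primitiveRoots hpos).mp hμ
  obtain ⟨i, -, rfl⟩ := hζ.eq_pow_of_pow_eq_one hμ'.pow_eq_one
  exact one_sub_dvd_one_sub_pow ζ i

/-- (LB) The product over a finite set of primes of `Nv ^ ((p - 1) * ord_v (1 - ζ))` is at most
`p ^ [F : ℚ]`. -/
theorem prod_nrm_pow_le (hζ : IsPrimitiveRoot ζ p) (S : Finset (Pl F)) :
    ∏ v ∈ S, nrm v ^ ((p - 1) * (ord v (1 - ζ)).toNat) ≤ p ^ Module.finrank ℚ F := by
  classical
  have hp : p.Prime := Fact.out
  haveI : NeZero p := ⟨hp.ne_zero⟩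
  have hζ' : IsPrimitiveRoot hζ.toInteger p := hζ.toInteger_isPrimitiveRoot
  have hne : (1 - hζ.toInteger : 𝓞 F) ≠ 0 := sub_ne_zero.mpr (hζ'.ne_one hp.one_lt).symm
  have hcoe : algebraMap (𝓞 F) F (1 - hζ.toInteger) = 1 - ζ := by
    rw [map_sub, map_one]
    rfl
  -- `1 - ζ ∈ v ^ ord_v (1 - ζ)`
  have hmem : ∀ v : Pl F, (1 - hζ.toInteger : 𝓞 F) ∈ v.asIdeal ^ (ord v (1 - ζ)).toNat := by
    intro v
    rw [← HeightOneSpectrum.intValuation_le_pow_iff_mem]
    have hv0 : v.intValuation (1 - hζ.toInteger) ≠ 0 := v.intValuation_ne_zero _ hne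
    have hord : ord v (1 - ζ) = - WithZero.log (v.intValuation (1 - hζ.toInteger)) := by
      rw [ord, ← hcoe, HeightOneSpectrum.valuation_of_algebraMap]
    have hle : WithZero.log (v.intValuation (1 - hζ.toInteger)) ≤ 0 := by
      rw [WithZero.log_le_iff_le_exp hv0, WithZero.exp_zero]
      exact v.intValuation_le_one _
    rw [hord, Int.toNat_of_nonneg (by omega), neg_neg, WithZero.exp_log hv0]
  have hdvd : ∀ v ∈ S,
      v.asIdeal ^ ((p - 1) * (ord v (1 - ζ)).toNat) ∣ Ideal.span {(p : 𝓞 F)} := by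
    intro v _
    rw [Ideal.dvd_span_singleton]
    obtain ⟨w, hw⟩ := one_sub_pow_dvd_prime (p := p) hζ'
    rw [hw, mul_comm (p - 1), pow_mul]
    exact Ideal.mul_mem_right _ _ (Ideal.pow_mem_pow (hmem v) _)
  have hcop : (S : Set (Pl F)).Pairwise
      (Function.onFun IsCoprime fun v : Pl F => v.asIdeal ^ ((p - 1) * (ord v (1 - ζ)).toNat)) := by
    intro v _ w _ hvw
    apply IsCoprime.pow
    rw [Ideal.isCoprime_iff_sup_eq]
    exact Ideal.IsMaximal.coprime_of_ne v.isMaximal w.isMaximal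
      (fun h => hvw (HeightOneSpectrum.ext h))
  have hprod := Finset.prod_dvd_of_coprime hcop hdvd
  have hnorm := map_dvd (Ideal.absNorm (S := 𝓞 F)) hprod
  rw [map_prod, Ideal.absNorm_span_natCast, RingOfIntegers.rank] at hnorm
  simp only [map_pow] at hnorm
  exact Nat.le_of_dvd (pow_pos hp.pos _) hnorm

/-- The local class statement (LC): a finite set of classes at `v`, of cardinality at most
`p * Nv ^ ((p - 1) * ord_v (1 - ζ))`, which detects local `p`-th powers among the elements whose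
order at `v` is divisible by `p`. -/
def LocClass (p : ℕ) (ζ : F) (v : Pl F) : Prop :=
  ∃ (C : Type) (_ : Fintype C) (cl : F → C),
    Fintype.card C ≤ p * nrm v ^ ((p - 1) * (ord v (1 - ζ)).toNat) ∧
    ∀ y y' : F, y ≠ 0 → y' ≠ 0 → (p : ℤ) ∣ ord v y → (p : ℤ) ∣ ord v y' → cl y = cl y' →
      LocPow p ζ v (y / y')

/-- Assembly: the pigeonhole statement from the local class statement at every prime. -/
theorem localCount_of_locClass (hζ : IsPrimitiveRoot ζ p) (hLC : ∀ v : Pl F, LocClass p ζ v)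
    (S : Finset (Pl F)) {ι : Type} [Fintype ι] (y : ι → F) (hy0 : ∀ i, y i ≠ 0)
    (hy : ∀ i, ∀ s ∈ S, (p : ℤ) ∣ ord s (y i))
    (hcard : p ^ (S.card + Module.finrank ℚ F) < Fintype.card ι) :
    ∃ i j, i ≠ j ∧ ∀ s ∈ S, LocPow p ζ s (y i / y j) := by
  classical
  choose C hC cl hCcard hcl using hLC
  letI : ∀ v : Pl F, Fintype (C v) := hC
  let f : ι → (∀ s : S, C s.1) := fun i s => cl s.1 (y i)
  have hle : Fintype.card (∀ s : S, C s.1) ≤ p ^ (S.card + Module.finrank ℚ F) := by
    rw [Fintype.card_pi]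
    calc ∏ s : S, Fintype.card (C s.1)
        ≤ ∏ s : S, p * nrm s.1 ^ ((p - 1) * (ord s.1 (1 - ζ)).toNat) :=
          Finset.prod_le_prod' fun s _ => hCcard s.1
      _ = ∏ s ∈ S, p * nrm s ^ ((p - 1) * (ord s (1 - ζ)).toNat) :=
          Finset.prod_coe_sort S fun s => p * nrm s ^ ((p - 1) * (ord s (1 - ζ)).toNat)
      _ = p ^ S.card * ∏ s ∈ S, nrm s ^ ((p - 1) * (ord s (1 - ζ)).toNat) := by
          rw [Finset.prod_mul_distrib, Finset.prod_const]
      _ ≤ p ^ S.card * p ^ Module.finrank ℚ F :=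
          Nat.mul_le_mul_left _ (prod_nrm_pow_le hζ S)
      _ = p ^ (S.card + Module.finrank ℚ F) := (pow_add _ _ _).symm
  obtain ⟨i, j, hij, hfij⟩ := Fintype.exists_ne_map_eq_of_card_lt f (lt_of_le_of_lt hle hcard)
  refine ⟨i, j, hij, fun s hs => ?_⟩
  exact hcl s (y i) (y j) (hy0 i) (hy0 j) (hy i s hs) (hy j s hs) (congrFun hfij ⟨s, hs⟩)

/-- The local class statement holds at every prime (helper22's `LocalClass.exists_locClass`). -/
theorem locClass (hζ : IsPrimitiveRoot ζ p) (v : Pl F) : LocClass p ζ v :=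
  Fermat.Agent.S14C.LocalClass.exists_locClass hζ v

/-- **[SI-L] local count, pigeonhole form**: among more than `p ^ (|S| + [F : ℚ])` nonzero
elements whose orders at all `s ∈ S` are divisible by `p`, two have a quotient which is a local
`p`-th power at every `s ∈ S`. -/
theorem localCount_pigeonhole (hp2 : p ≠ 2) (hζ : IsPrimitiveRoot ζ p) (S : Finset (Pl F))
    {ι : Type} [Fintype ι] (y : ι → F) (hy0 : ∀ i, y i ≠ 0)
    (hy : ∀ i, ∀ s ∈ S, (p : ℤ) ∣ ord s (y i))
    (hcard : p ^ (S.card + Module.finrank ℚ F) < Fintype.card ι) :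
    ∃ i j, i ≠ j ∧ ∀ s ∈ S, LocPow p ζ s (y i / y j) :=
  have _ := hp2
  localCount_of_locClass hζ (fun v => locClass hζ v) S y hy0 hy hcard

/-- [SI-L] in the form of the interface `SITop.LocalCountStatement` (no hypothesis on `p`
beyond primality is needed). -/
theorem localCountStatement' : Fermat.Agent.S14C.SITop.LocalCountStatement p := by
  intro F _ _ ζ hζ S ι _ y hy0 hy hcard
  exact localCount_of_locClass hζ (fun v => locClass hζ v) S y hy0 hy hcard

/-- [SI-L] in the form of the interface `SITop.LocalCountStatement`, with the conventional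
`hp2` binder of `SI/TopPlan.lean`. -/
theorem localCountStatement (hp2 : p ≠ 2) : Fermat.Agent.S14C.SITop.LocalCountStatement p :=
  have _ := hp2
  localCountStatement'

end Fermat.Agent.S14C.LocalCount
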