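import Fermat.Agent.S14C.SI.TopPlan
import Fermat.Agent.S14C.SI.OrdBasic
import Fermat.Agent.S14C.SI.SUnitCard

/-!
# S14C / SI : the count (Step 3) -- `SIGenStatement` from Claim B and the local count

`E' := (S ∪ T)`-units, `φ : E' → (S → ZMod p)`, `y ↦ (ord_s y mod p)`.  Then
`|E'/E'^p| = p^(r + s + t)`, `[ker φ : E'^p] ≤ p^(s + [F:ℚ])` (pigeonhole + Claim B), so with
`t = r + s` and `[F:ℚ] = 2r` the map `φ` is onto; hence every divisor is, modulo `p` and `T`,
principal.
-/

set_option autoImplicit false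

namespace Fermat.Agent.S14C.SIGen

open IsDedekindDomain NumberField Fermat.Agent.S14C.SIDefs Fermat.Agent.S14C.SITop

variable {p : ℕ} [Fact p.Prime]

theorem siGen (hp2 : p ≠ 2) (hB : ClaimBStatement p) (hL : LocalCountStatement p) :
    SIGenStatement p := by
  classical
  intro F _ _ ζ hζ S T hdisj hSp hS hT hcard D
  have hp : p.Prime := Fact.out
  set U : Finset (Pl F) := S ∪ T with hU
  set E : Subgroup Fˣ := ((U : Finset (Pl F)) : Set (Pl F)).unit F with hE
  have hEmem : ∀ x : E, ∀ v : Pl F, v ∉ S → v ∉ T → ord v (((x : Fˣ) : F)) = 0 := by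
    intro x v hvS hvT
    refine (OrdBasic.mem_unit_iff _ (x : Fˣ)).mp x.2 v ?_
    simp [hU, hvS, hvT]
  -- the valuation-mod-p homomorphism
  let φ : E →* Multiplicative (S → ZMod p) :=
    { toFun := fun y => Multiplicative.ofAdd
        (fun s : S => ((ord s.1 (((y : Fˣ) : F)) : ℤ) : ZMod p))
      map_one' := by
        apply Multiplicative.toAdd.injective
        funext s
        simp [OrdBasic.ord_one]
      map_mul' := by
        intro a b
        apply Multiplicative.toAdd.injective
        funext s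
        have h := OrdBasic.ord_mul s.1 (Units.ne_zero (a : Fˣ)) (Units.ne_zero (b : Fˣ))
        simp [h] }
  have hφ : ∀ (y : E) (s : S), Multiplicative.toAdd (φ y) s =
      ((ord s.1 (((y : Fˣ) : F)) : ℤ) : ZMod p) := fun y s => rfl
  set P : Subgroup E := (powMonoidHom p : E →* E).range with hP
  have hPker : P ≤ φ.ker := by
    rintro _ ⟨y, rfl⟩
    rw [MonoidHom.mem_ker]
    apply Multiplicative.toAdd.injective
    funext s
    rw [hφ]
    simp only [powMonoidHom_apply, Subgroup.coe_pow, Units.val_pow_eq_pow_val, toAdd_one,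
      Pi.zero_apply]
    rw [OrdBasic.ord_pow]
    push_cast
    simp
  -- counting
  have h1 : P.index = p ^ (NumberField.InfinitePlace.nrComplexPlaces F + U.card) := by
    rw [Subgroup.index_eq_card]
    exact SUnitCard.card_sUnit_mod_pow hp2 hζ U
  have hUcard : U.card = S.card + T.card := Finset.card_union_of_disjoint hdisj
  have h2 : P.relIndex φ.ker * φ.ker.index = P.index := Subgroup.relIndex_mul_index hPker
  have h3 : φ.ker.index = Nat.card φ.range := Subgroup.index_ker φ
  have htarget : Nat.card (Multiplicative (S → ZMod p)) = p ^ S.card := by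
    have : NeZero p := ⟨hp.ne_zero⟩
    rw [Nat.card_eq_fintype_card]
    simp [Fintype.card_multiplicative, ZMod.card]
  have h4 : Nat.card φ.range ≤ p ^ S.card := by
    rw [← htarget]
    exact Subgroup.card_le_card_group _
  have hfin := (SUnitCard.units_rank_of_zeta (F := F) hp2 hζ).2
  have h5 : P.relIndex φ.ker ≤ p ^ (S.card + Module.finrank ℚ F) := by
    by_contra hlt
    rw [not_le] at hlt
    have hne : P.relIndex φ.ker ≠ 0 := by
      intro h0
      rw [h0] at hlt
      exact absurd hlt (Nat.not_lt_zero _)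
    have hcardQ : Nat.card (φ.ker ⧸ P.subgroupOf φ.ker) = P.relIndex φ.ker := rfl
    have : Finite (φ.ker ⧸ P.subgroupOf φ.ker) := Nat.finite_of_card_ne_zero (hcardQ ▸ hne)
    let _ : Fintype (φ.ker ⧸ P.subgroupOf φ.ker) := Fintype.ofFinite _
    let y : (φ.ker ⧸ P.subgroupOf φ.ker) → F := fun i =>
      ((((Quotient.out i : φ.ker) : E) : Fˣ) : F)
    have hy0 : ∀ i, y i ≠ 0 := fun i => Units.ne_zero _
    have hydvd : ∀ i, ∀ s ∈ S, (p : ℤ) ∣ ord s (y i) := by
      intro i s hs
      have hk : φ ((Quotient.out i : φ.ker) : E) = 1 := (Quotient.out i : φ.ker).2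
      have hk' := congrArg (fun f : Multiplicative (S → ZMod p) => Multiplicative.toAdd f ⟨s, hs⟩) hk
      simp only [hφ, toAdd_one, Pi.zero_apply] at hk'
      exact (ZMod.intCast_zmod_eq_zero_iff_dvd _ p).mp hk'
    have hcard' : p ^ (S.card + Module.finrank ℚ F) <
        Fintype.card (φ.ker ⧸ P.subgroupOf φ.ker) := by
      rw [← Nat.card_eq_fintype_card, hcardQ]
      exact hlt
    obtain ⟨i, j, hij, hloc⟩ := hL F ζ hζ S _ y hy0 hydvd hcard'
    apply hij
    -- the quotient `out i / out j`
    set a : φ.ker := Quotient.out i with ha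
    set b : φ.ker := Quotient.out j with hb
    have hz : y i / y j = ((((a / b : φ.ker) : E) : Fˣ) : F) := by
      simp [y, ha, hb, Units.val_div_eq_div_val]
    have hz0 : y i / y j ≠ 0 := div_ne_zero (hy0 i) (hy0 j)
    have hzST : ∀ v : Pl F, v ∉ S → v ∉ T → ord v (y i / y j) = 0 := by
      intro v hvS hvT
      rw [hz]
      exact hEmem _ v hvS hvT
    obtain ⟨w, hw⟩ := hB F ζ hζ S T hdisj hSp hS hT (y i / y j) hz0 hzST hloc
    have hw0 : w ≠ 0 := by
      rintro rfl
      rw [zero_pow hp.ne_zero] at hw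
      exact hz0 hw.symm
    have hwE : Units.mk0 w hw0 ∈ E := by
      rw [hE, OrdBasic.mem_unit_iff]
      intro v hv
      have hvS : v ∉ S := fun h => hv (by simp [hU, h])
      have hvT : v ∉ T := fun h => hv (by simp [hU, h])
      have h0 := hzST v hvS hvT
      rw [← hw, OrdBasic.ord_pow] at h0
      have hp0 : (p : ℤ) ≠ 0 := by exact_mod_cast hp.ne_zero
      simpa using (mul_eq_zero.mp h0).resolve_left hp0
    have hmemP : ((a / b : φ.ker) : E) ∈ P := by
      refine ⟨⟨Units.mk0 w hw0, hwE⟩, ?_⟩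
      apply Subtype.ext
      apply Units.ext
      simp only [powMonoidHom_apply, Subgroup.coe_pow, Units.val_pow_eq_pow_val, Units.val_mk0]
      rw [hw, hz]
    have hab : (a : φ.ker ⧸ P.subgroupOf φ.ker) = (b : φ.ker ⧸ P.subgroupOf φ.ker) := by
      rw [QuotientGroup.eq_iff_div_mem]
      exact hmemP
    calc i = ((Quotient.out i : φ.ker) : φ.ker ⧸ P.subgroupOf φ.ker) :=
            (QuotientGroup.out_eq' i).symm
      _ = ((Quotient.out j : φ.ker) : φ.ker ⧸ P.subgroupOf φ.ker) := hab
      _ = j := QuotientGroup.out_eq' j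
  -- surjectivity of φ
  have hsurj : φ.range = ⊤ := by
    apply Subgroup.eq_top_of_le_card
    rw [htarget]
    have h6 : p ^ (NumberField.InfinitePlace.nrComplexPlaces F + U.card) =
        P.relIndex φ.ker * Nat.card φ.range := by rw [← h1, ← h2, h3]
    have h7 : p ^ (NumberField.InfinitePlace.nrComplexPlaces F + U.card) ≤
        p ^ (S.card + Module.finrank ℚ F) * Nat.card φ.range := by
      rw [h6]
      exact Nat.mul_le_mul_right _ h5
    have h8 : NumberField.InfinitePlace.nrComplexPlaces F + U.card =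
        (S.card + Module.finrank ℚ F) + S.card := by
      rw [hUcard, hcard, ← hfin]
      ring
    rw [h8, pow_add] at h7
    exact Nat.le_of_mul_le_mul_left h7 (pow_pos hp.pos _)
  -- conclusion
  obtain ⟨x0, hx00, hx0⟩ := hS D
  obtain ⟨y, hy⟩ : ∃ y : E, φ y = Multiplicative.ofAdd
      (fun s : S => (((D s.1 - ord s.1 x0 : ℤ)) : ZMod p)) := by
    have : Multiplicative.ofAdd (fun s : S => (((D s.1 - ord s.1 x0 : ℤ)) : ZMod p)) ∈ φ.range := by
      rw [hsurj]; exact Subgroup.mem_top _
    exact this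
  refine ⟨x0 * ((y : Fˣ) : F), mul_ne_zero hx00 (Units.ne_zero _), ?_⟩
  intro v hvT
  rw [OrdBasic.ord_mul v hx00 (Units.ne_zero _)]
  by_cases hvS : v ∈ S
  · have h := congrArg (fun f : Multiplicative (S → ZMod p) => Multiplicative.toAdd f ⟨v, hvS⟩) hy
    simp only [hφ, toAdd_ofAdd] at h
    rw [← ZMod.intCast_zmod_eq_zero_iff_dvd]
    push_cast
    push_cast at h
    rw [h]
    ring
  · rw [hx0 v hvS, hEmem y v hvS hvT]
    simp

end Fermat.Agent.S14C.SIGen
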