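import Fermat.Agent.S14C.SI.ClaimBPlan

/-!
# S14C / SI : leaf [SI-K-split] (= [SI-W]) — complete splitting of locally-`p`-th-power primes

`N = F(y^{1/p})`, `ζ_p ∈ F`, `y` not a `p`-th power in `F`.  If `y` is a `p`-th power locally at
the prime `v` of `F` in the congruence sense `LocPow p ζ v y`
(`y / z ^ p ≡ 1 mod v ^ (p * ord_v (1 - ζ) + 1)`), then `v` splits completely in `N`.

The proof is valuation-theoretic and uniform in `v` (tame and wild primes are not separated,
and `p = 2` is allowed in the core statement `wildSplit`):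
with `t = θ / z` one has `t ^ p - 1 = ∏ (t - ζ ^ i)` of `w`-value `< w(1 - ζ) ^ p`, so some
factor `t - ζ ^ i` has `w`-value `< w(1 - ζ)`.  An automorphism `σ` with `σ θ = ζ ^ j θ`,
`0 < j < p`, which fixes `w` would give `w (ζ ^ j - 1) < w (1 - ζ)`, which is absurd.  Hence the
decomposition group of `w` is trivial, and the fundamental identity gives `p` primes above `v`.
-/

set_option autoImplicit false

namespace Fermat.Agent.S14C.WildSplit

open Polynomial IsDedekindDomain NumberField Fermat.Agent.S14C.SIDefs Fermat.Agent.S14C.ClaimBPlan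

section Core

variable {N : Type*} [Field N] {Γ₀ : Type*} [LinearOrderedCommGroupWithZero Γ₀]

/-- `∏_{i<p} (t - ζ^i) = t^p - 1` for a primitive `p`-th root of unity `ζ`. -/
theorem prod_sub_zeta_pow {p : ℕ} (hp : 0 < p) {ζ : N} (hζ : IsPrimitiveRoot ζ p) (t : N) :
    ∏ i ∈ Finset.range p, (t - ζ ^ i) = t ^ p - 1 := by
  have h1 : ((nthRoots p (1 : N)).map (fun a => X - C a)).prod = X ^ p - C (1 : N) :=
    prod_multiset_X_sub_C_of_monic_of_roots_card_eq (monic_X_pow_sub_C 1 hp.ne')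
      (by rw [natDegree_X_pow_sub_C, ← nthRoots]; exact hζ.card_nthRoots_one)
  rw [hζ.nthRoots_eq (one_pow p)] at h1
  have h2 := congrArg (Polynomial.eval t) h1
  rw [Polynomial.eval_multiset_prod, Multiset.map_map, Multiset.map_map] at h2
  simp only [Function.comp_apply, mul_one, eval_sub, eval_X, eval_C, eval_pow] at h2
  rw [← h2]
  rfl

/-- A root of unity has valuation `1`. -/
theorem map_zeta_eq_one (V : Valuation N Γ₀) {p : ℕ} (hp : 0 < p) {ζ : N}
    (hζ : IsPrimitiveRoot ζ p) : V ζ = 1 := by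
  have h : V ζ ^ p = 1 := by rw [← map_pow, hζ.pow_eq_one, map_one]
  exact (pow_eq_one_iff_of_nonneg zero_le hp.ne').mp h

/-- `V (1 - ζ ^ k) ≤ V (1 - ζ)`. -/
theorem map_one_sub_zeta_pow_le (V : Valuation N Γ₀) {p : ℕ} (hp : 0 < p) {ζ : N}
    (hζ : IsPrimitiveRoot ζ p) (k : ℕ) : V (1 - ζ ^ k) ≤ V (1 - ζ) := by
  have h1 : 1 - ζ ^ k = (∑ i ∈ Finset.range k, ζ ^ i) * (1 - ζ) := by
    have := geom_sum_mul ζ k
    linear_combination this
  have h2 : V (∑ i ∈ Finset.range k, ζ ^ i) ≤ 1 := by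
    apply Valuation.map_sum_le
    intro i _
    rw [map_pow, map_zeta_eq_one V hp hζ, one_pow]
  rw [h1, map_mul]
  exact mul_le_of_le_one_left' h2

/-- `V (1 - ζ ^ k) = V (1 - ζ)` when `0 < k < p`, `p` prime. -/
theorem map_one_sub_zeta_pow_eq (V : Valuation N Γ₀) {p : ℕ} (hp : p.Prime) {ζ : N}
    (hζ : IsPrimitiveRoot ζ p) {k : ℕ} (hk0 : 0 < k) (hkp : k < p) :
    V (1 - ζ ^ k) = V (1 - ζ) := by
  refine le_antisymm (map_one_sub_zeta_pow_le V hp.pos hζ k) ?_
  have hcop : Nat.Coprime k p :=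
    Nat.coprime_comm.mp ((Nat.Prime.coprime_iff_not_dvd hp).mpr (Nat.not_dvd_of_pos_of_lt hk0 hkp))
  have hζk : IsPrimitiveRoot (ζ ^ k) p := hζ.pow_of_coprime k hcop
  have : NeZero p := ⟨hp.ne_zero⟩
  obtain ⟨l, -, hl⟩ := hζk.eq_pow_of_pow_eq_one hζ.pow_eq_one
  have := map_one_sub_zeta_pow_le V hp.pos hζk l
  rwa [hl] at this

/-- If `V (t ^ p - 1) < V (1 - ζ) ^ p` then `V (t - ζ ^ i) < V (1 - ζ)` for some `i < p`. -/
theorem exists_map_sub_zeta_pow_lt (V : Valuation N Γ₀) {p : ℕ} (hp : 0 < p) {ζ : N}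
    (hζ : IsPrimitiveRoot ζ p) (t : N) (h : V (t ^ p - 1) < V (1 - ζ) ^ p) :
    ∃ i, i < p ∧ V (t - ζ ^ i) < V (1 - ζ) := by
  by_contra hcon
  push Not at hcon
  have h1 : ∏ _i ∈ Finset.range p, V (1 - ζ) ≤ ∏ i ∈ Finset.range p, V (t - ζ ^ i) :=
    Finset.prod_le_prod' fun i hi => hcon i (Finset.mem_range.mp hi)
  rw [Finset.prod_const, Finset.card_range, ← map_prod, prod_sub_zeta_pow hp hζ] at h1
  exact absurd h (not_lt.mpr h1)

end Core

section Inv

variable {R : Type*} [CommRing R] [IsDedekindDomain R] {K : Type*} [Field K] [Algebra R K]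
  [IsFractionRing R K]

theorem intValuation_equiv_le (v : HeightOneSpectrum R) (e : R ≃+* R)
    (he : ∀ a, a ∈ v.asIdeal → e a ∈ v.asIdeal) (a : R) :
    v.intValuation (e a) ≤ v.intValuation a := by
  rcases eq_or_ne a 0 with rfl | ha
  · simp
  rw [v.intValuation_eq_exp_neg_multiplicity ha, v.intValuation_le_pow_iff_mem]
  have h1 : a ∈ v.asIdeal ^ multiplicity v.asIdeal (Ideal.span {a}) := by
    rw [← v.intValuation_le_pow_iff_mem, v.intValuation_eq_exp_neg_multiplicity ha]
  have h2 : e a ∈ Ideal.map (e : R →+* R)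
      (v.asIdeal ^ multiplicity v.asIdeal (Ideal.span {a})) :=
    Ideal.mem_map_of_mem _ h1
  rw [Ideal.map_pow] at h2
  refine Ideal.pow_right_mono ?_ _ h2
  rw [Ideal.map_le_iff_le_comap]
  exact fun x hx => he x hx

theorem intValuation_equiv_eq (v : HeightOneSpectrum R) (e : R ≃+* R)
    (he : ∀ a, e a ∈ v.asIdeal ↔ a ∈ v.asIdeal) (a : R) :
    v.intValuation (e a) = v.intValuation a := by
  refine le_antisymm (intValuation_equiv_le v e (fun x hx => (he x).mpr hx) a) ?_
  have := intValuation_equiv_le v e.symm (fun x hx => by rw [← he]; simpa using hx) (e a)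
  simpa using this

/-- A field automorphism stabilising the prime `v` preserves the `v`-adic valuation. -/
theorem valuation_equiv_eq (v : HeightOneSpectrum R) (e : R ≃+* R) (σ : K →+* K)
    (hσ : ∀ a, σ (algebraMap R K a) = algebraMap R K (e a))
    (he : ∀ a, e a ∈ v.asIdeal ↔ a ∈ v.asIdeal) (x : K) :
    v.valuation K (σ x) = v.valuation K x := by
  obtain ⟨a, b, -, rfl⟩ := IsFractionRing.div_surjective (A := R) x
  rw [map_div₀, map_div₀, map_div₀, hσ, hσ]
  simp only [HeightOneSpectrum.valuation_of_algebraMap, intValuation_equiv_eq v e he]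

end Inv

section NF

open scoped Pointwise

variable {F : Type} [Field F] [NumberField F] {N : Type} [Field N] [NumberField N] [Algebra F N]

omit [NumberField F] in
/-- An `F`-automorphism of `N` stabilising the prime `w` preserves the `w`-adic valuation. -/
theorem valuation_algEquiv_eq (w : Pl N) (σ : N ≃ₐ[F] N) (h : σ • w.asIdeal = w.asIdeal)
    (x : N) : w.valuation N (σ x) = w.valuation N x := by
  refine valuation_equiv_eq w (MulSemiringAction.toRingEquiv (N ≃ₐ[F] N) (𝓞 N) σ)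
    ((σ : N ≃+* N) : N →+* N) (fun a => rfl) (fun a => ?_) x
  have := Ideal.smul_mem_pointwise_smul_iff (a := σ) (S := w.asIdeal) (x := a)
  rw [h] at this
  exact this

/-- The `v`-adic valuation of `1 - ζ` in terms of the exponent used in `locExp`. -/
theorem valuation_one_sub_zeta (p : ℕ) [Fact p.Prime] {ζ : F} (hζ : IsPrimitiveRoot ζ p)
    (v : Pl F) :
    v.valuation F (1 - ζ) = WithZero.exp (-((ord v (1 - ζ)).toNat : ℤ)) := by
  have hp := (Fact.out : p.Prime)
  have hne : (1 : F) - ζ ≠ 0 := sub_ne_zero.mpr (hζ.ne_one hp.one_lt).symm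
  have hval0 : v.valuation F (1 - ζ) ≠ 0 := (Valuation.ne_zero_iff _).mpr hne
  have hint : IsIntegral ℤ (1 - ζ) := isIntegral_one.sub (hζ.isIntegral hp.pos)
  have hle : v.valuation F (1 - ζ) ≤ 1 := v.valuation_le_one (⟨1 - ζ, hint⟩ : 𝓞 F)
  have hord : 0 ≤ ord v (1 - ζ) := by
    unfold ord
    rw [neg_nonneg, ← WithZero.log_one, WithZero.log_le_log hval0 one_ne_zero]
    exact hle
  rw [Int.toNat_of_nonneg hord]
  unfold ord
  rw [neg_neg, WithZero.exp_log hval0]

/-- Core of the splitting statement: an automorphism moving `θ` cannot stabilise a prime above a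
prime `v` at which `y = θ ^ p` is locally a `p`-th power. -/
theorem smul_ne_of_locPow {p : ℕ} [Fact p.Prime] {ζ : F} (hζ : IsPrimitiveRoot ζ p)
    {y : F} (hy0 : y ≠ 0) {θ : N} (hθ : θ ^ p = algebraMap F N y) {v : Pl F}
    (hloc : LocPow p ζ v y) {w : Pl N} (hw : Over w v) (σ : N ≃ₐ[F] N) (hσ : σ θ ≠ θ) :
    σ • w.asIdeal ≠ w.asIdeal := by
  intro hfix
  have hp := (Fact.out : p.Prime)
  have hinv := valuation_algEquiv_eq w σ hfix
  obtain ⟨z, hz0, hz⟩ := hloc
  have hlies : w.asIdeal.LiesOver v.asIdeal := ⟨hw.symm⟩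
  have he0 : v.asIdeal.ramificationIdx' w.asIdeal ≠ 0 :=
    Ideal.IsDedekindDomain.ramificationIdx'_ne_zero_of_liesOver w.asIdeal v.ne_bot
  have hval : ∀ x : F, v.valuation F x ^ v.asIdeal.ramificationIdx' w.asIdeal =
      w.valuation N (algebraMap F N x) := HeightOneSpectrum.valuation_liesOver N v w
  have hζ' : IsPrimitiveRoot (algebraMap F N ζ) p := hζ.map_of_injective (algebraMap F N).injective
  have hz' : algebraMap F N z ≠ 0 := by simpa using hz0
  have htp : (θ / algebraMap F N z) ^ p - 1 = algebraMap F N (y / z ^ p - 1) := by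
    rw [div_pow, hθ]
    simp
  have hlt : w.valuation N ((θ / algebraMap F N z) ^ p - 1) <
      w.valuation N (1 - algebraMap F N ζ) ^ p := by
    rw [htp, ← hval, ← map_one (algebraMap F N), ← map_sub, ← hval, ← pow_mul, mul_comm _ p,
      pow_mul]
    refine pow_lt_pow_left₀ ?_ zero_le he0
    rw [valuation_one_sub_zeta p hζ v, ← WithZero.exp_nsmul]
    refine lt_of_le_of_lt hz ?_
    rw [WithZero.exp_lt_exp]
    unfold locExp
    push_cast
    rw [smul_neg, nsmul_eq_mul]
    linarith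
  obtain ⟨i, -, hi⟩ := exists_map_sub_zeta_pow_lt (w.valuation N) hp.pos hζ' _ hlt
  have hθ0 : θ ≠ 0 := by
    rintro rfl
    rw [zero_pow hp.ne_zero] at hθ
    exact hy0 ((map_eq_zero (algebraMap F N)).mp hθ.symm)
  have hpow : (σ θ / θ) ^ p = 1 := by
    rw [div_pow, ← map_pow, hθ, σ.commutes, div_self]
    rw [← hθ]
    exact pow_ne_zero _ hθ0
  have : NeZero p := ⟨hp.ne_zero⟩
  obtain ⟨j, hjp, hj⟩ := hζ'.eq_pow_of_pow_eq_one hpow
  have hσθ : σ θ = algebraMap F N ζ ^ j * θ := by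
    rw [hj]
    field_simp
  have hj0 : 0 < j := by
    rcases Nat.eq_zero_or_pos j with rfl | h
    · exfalso
      apply hσ
      rw [hσθ, pow_zero, one_mul]
    · exact h
  have hσt : σ (θ / algebraMap F N z - algebraMap F N ζ ^ i) =
      algebraMap F N ζ ^ j * (θ / algebraMap F N z) - algebraMap F N ζ ^ i := by
    rw [map_sub, map_div₀, hσθ, map_pow, σ.commutes, σ.commutes]
    ring
  have h1 : w.valuation N (algebraMap F N ζ ^ j * (θ / algebraMap F N z) - algebraMap F N ζ ^ i) <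
      w.valuation N (1 - algebraMap F N ζ) := by
    rw [← hσt, hinv]
    exact hi
  have hζone : w.valuation N (algebraMap F N ζ) = 1 := map_zeta_eq_one _ hp.pos hζ'
  have h2 : w.valuation N (algebraMap F N ζ ^ j *
      (θ / algebraMap F N z - algebraMap F N ζ ^ i)) < w.valuation N (1 - algebraMap F N ζ) := by
    rw [map_mul, map_pow, hζone, one_pow, one_mul]
    exact hi
  have h3 : w.valuation N (algebraMap F N ζ ^ i * (algebraMap F N ζ ^ j - 1)) <
      w.valuation N (1 - algebraMap F N ζ) := by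
    have hrw : algebraMap F N ζ ^ i * (algebraMap F N ζ ^ j - 1) =
        (algebraMap F N ζ ^ j * (θ / algebraMap F N z) - algebraMap F N ζ ^ i) -
          algebraMap F N ζ ^ j * (θ / algebraMap F N z - algebraMap F N ζ ^ i) := by ring
    rw [hrw]
    exact lt_of_le_of_lt (Valuation.map_sub _ _ _) (max_lt h1 h2)
  rw [map_mul, map_pow, hζone, one_pow, one_mul, Valuation.map_sub_swap,
    map_one_sub_zeta_pow_eq _ hp hζ' hj0 hjp] at h3
  exact lt_irrefl _ h3

/-- `θ` is moved by some automorphism (as `y` is not a `p`-th power in `F`). -/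
theorem exists_algEquiv_ne [IsGalois F N] {p : ℕ} {y : F} (hy : ∀ b : F, b ^ p ≠ y) {θ : N}
    (hθ : θ ^ p = algebraMap F N y) : ∃ σ : N ≃ₐ[F] N, σ θ ≠ θ := by
  by_contra hcon
  push Not at hcon
  obtain ⟨b, hb⟩ := (IsGalois.mem_range_algebraMap_iff_fixed θ).mpr hcon
  apply hy b
  apply (algebraMap F N).injective
  rw [map_pow, hb, hθ]

/-- The primes of `N` over `v` as a subtype of `Pl N` versus Mathlib's `primesOver`. -/
noncomputable def overEquiv (v : Pl F) :
    {w : Pl N // Over w v} ≃ (v.asIdeal.primesOver (𝓞 N)) where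
  toFun w := ⟨w.1.asIdeal, w.1.isPrime, ⟨w.2.symm⟩⟩
  invFun Q := ⟨⟨Q.1, Q.2.1, by
    have := Q.2.2
    exact Ideal.ne_bot_of_liesOver_of_ne_bot v.ne_bot Q.1⟩, Q.2.2.over.symm⟩
  left_inv w := rfl
  right_inv Q := rfl

/-- [SI-K-split], core form (no hypothesis `p ≠ 2`): a prime at which `y` is locally a `p`-th
power splits completely in `N = F(y^{1/p})`. -/
theorem wildSplit [IsGalois F N] {p : ℕ} [Fact p.Prime] {ζ : F} (hζ : IsPrimitiveRoot ζ p)
    (hfr : Module.finrank F N = p) {y : F} (hy0 : y ≠ 0) (hy : ∀ b : F, b ^ p ≠ y) {θ : N}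
    (hθ : θ ^ p = algebraMap F N y) {v : Pl F} (hloc : LocPow p ζ v y) :
    Nat.card {w : Pl N // Over w v} = p := by
  have hp := (Fact.out : p.Prime)
  obtain ⟨σ, hσ⟩ := exists_algEquiv_ne hy hθ
  have hcard : Nat.card (N ≃ₐ[F] N) = p := by rw [IsGalois.card_aut_eq_finrank, hfr]
  have hfund := Ideal.ncard_primesOver_mul_ramificationIdxIn_mul_inertiaDegIn v.asIdeal (𝓞 N)
    (N ≃ₐ[F] N)
  rw [hcard] at hfund
  rw [Nat.card_congr (overEquiv v), Nat.card_coe_set_eq]
  have hdvd : (v.asIdeal.primesOver (𝓞 N)).ncard ∣ p := Dvd.intro _ hfund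
  rcases (Nat.dvd_prime hp).mp hdvd with h1 | h
  · exfalso
    obtain ⟨Q, hQ⟩ := Set.ncard_eq_one.mp h1
    have hQmem : Q ∈ v.asIdeal.primesOver (𝓞 N) := by rw [hQ]; exact Set.mem_singleton Q
    have hσQ : σ • Q ∈ v.asIdeal.primesOver (𝓞 N) := by
      have h := Ideal.coe_smul_primesOver (p := v.asIdeal) σ
        (⟨Q, hQmem⟩ : v.asIdeal.primesOver (𝓞 N))
      rw [← h]
      exact Subtype.property _
    have hσQ' : σ • Q = Q := by
      rw [hQ] at hσQ
      exact hσQ
    exact smul_ne_of_locPow hζ hy0 hθ hloc (w := (overEquiv v).symm ⟨Q, hQmem⟩)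
      ((overEquiv v).symm ⟨Q, hQmem⟩).2 σ hσ hσQ'
  · exact h

/-- Leaf [SI-K-split] in the binding form of `ClaimBPlan`. -/
theorem kummerSplit : KummerSplitStatement := by
  intro F _ _ p _ ζ N _ _ _ _ _ hζ hfr y hy0 hy θ hθ v hloc
  exact wildSplit hζ hfr hy0 hy hθ hloc

end NF

end Fermat.Agent.S14C.WildSplit
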