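import Fermat.Agent.S14C.SI.GenBridge
import Fermat.Agent.S14C.SI.GAlg
import Fermat.Agent.S14C.SI.SIGen
import Fermat.Agent.S14C.SI.LocalCount
import Fermat.Agent.S14C.SI.ClaimB
import Fermat.Agent.S14C.SI.GalPl
import Fermat.Agent.S14C.SI.KummerUnr
import Fermat.Agent.S14C.SI.KummerRamB
import Fermat.Agent.S14C.SI.WildSplit
import Fermat.Agent.S14C.SI.SymBasic

/-!
# S14C / SI : final chain for (G-alg)

`genStatement_of_open` : T1's `GenStatement` from the two blocks that are not yet closed at the
time of writing -- the packing form of the S-unit Herbrand quotient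
(`ClaimBPlan.SUnitHerbrandStatement`) and the generating primes (`SITop.GenPrimesStatement`).
Everything else (Galois action on primes, Kummer unramified / ramified / split, Claim B, local
count, the count `siGen`, `gAlg`, the class-group bridge) is plugged in here.
-/

set_option autoImplicit false

namespace Fermat.Agent.S14C.SIFinal

open IsDedekindDomain NumberField Fermat.Agent.S14C.SIDefs

/-- Claim B in `SITop` form, from the packing form of the S-unit Herbrand quotient. -/
theorem claimBStatement {p : ℕ} [Fact p.Prime] (hp2 : p ≠ 2)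
    (hHerb : ClaimBPlan.SUnitHerbrandStatement) : SITop.ClaimBStatement p := by
  intro F _ _ ζ hζ S T hdisj hSp hS hT y hy0 hyST hyloc
  exact ClaimB.claimB_of GalPl.galStatement KummerUnr.kummerUnramified KummerRamB.kummerRamified
    WildSplit.kummerSplit hHerb hp2 hζ S T hdisj hSp hS hT hy0 hyST hyloc

/-- SI' (generation form), from the packing form of the S-unit Herbrand quotient. -/
theorem siGenStatement {p : ℕ} [Fact p.Prime] (hp2 : p ≠ 2)
    (hHerb : ClaimBPlan.SUnitHerbrandStatement) : SITop.SIGenStatement p :=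
  SIGen.siGen hp2 (claimBStatement hp2 hHerb) (LocalCount.localCountStatement hp2)

/-- (G-alg) in `SITop` form. -/
theorem gAlgStatement {p : ℕ} [Fact p.Prime] (hp2 : p ≠ 2)
    (hHerb : ClaimBPlan.SUnitHerbrandStatement) (hGen : SITop.GenPrimesStatement p) :
    SITop.GAlgStatement p :=
  GAlg.gAlg hp2 hGen (siGenStatement hp2 hHerb)

/-- **(G-alg) for T1**: `GenStatement` from the two remaining blocks. -/
theorem genStatement_of_open (hHerb : ClaimBPlan.SUnitHerbrandStatement)
    (hGen : ∀ (p : ℕ) [Fact p.Prime], p ≠ 2 → SITop.GenPrimesStatement p) :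
    Fermat.Agent.S14T.GenStatement := by
  refine GenBridge.genStatement_of_G_alg ?_ ?_
  · intro F _ _ p _ ζ hp2 hζ η hη Z D
    exact gAlgStatement hp2 hHerb (hGen p hp2) F ζ hζ η hη Z D
  · intro F _ _ p _ ζ hζ v hv x hx0 hx hb
    exact (SymBasic.sym_eq_zero_iff hζ v hv hx0 hx).mpr hb

end Fermat.Agent.S14C.SIFinal
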