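import Fermat.Agent.S14C.SI.Defs
import Fermat.Agent.S14T.Plan

/-!
# S14C / SI : bridge from the divisor form `G_alg` to T1's `GenStatement`

`GAlgStatement` is helper29's `G_alg` (board #779) as a `Prop`; `SymZeroStatement` is the
direction "`p`-th power residue ⟹ `sym = 0`" of `sym_eq_zero_iff`.  From these two we derive
`Fermat.Agent.S14T.GenStatement` (classes of good primes generate `Cl / Cl ^ p`).
-/

set_option autoImplicit false

namespace Fermat.Agent.S14C.GenBridge

open IsDedekindDomain NumberField Fermat.Agent.S14C.SIDefs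
open scoped nonZeroDivisors

/-- helper29's `G_alg`, as a `Prop`. -/
def GAlgStatement : Prop :=
  ∀ (F : Type) [Field F] [NumberField F] (p : ℕ) [Fact p.Prime] (ζ : F), p ≠ 2 →
    IsPrimitiveRoot ζ p → ∀ η : F, (∀ b : F, b ^ p ≠ η) →
    ∀ (Z : Finset (Pl F)) (D : Pl F →₀ ℤ),
    ∃ x : F, x ≠ 0 ∧ ∀ v : Pl F,
      ¬ (v ∉ Z ∧ ¬ Above p v ∧ ord v η = 0 ∧ (nrm v).Prime ∧ sym p ζ v η ≠ 0) →
        (p : ℤ) ∣ D v - ord v x

/-- The easy direction of `sym_eq_zero_iff`, as a `Prop`. -/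
def SymZeroStatement : Prop :=
  ∀ (F : Type) [Field F] [NumberField F] (p : ℕ) [Fact p.Prime] (ζ : F), IsPrimitiveRoot ζ p →
  ∀ (v : Pl F), ¬ Above p v → ∀ x : F, x ≠ 0 → ord v x = 0 → (∃ b : F, CongMod v x (b ^ p)) →
    sym p ζ v x = 0

variable {K : Type} [Field K] [NumberField K]

/-- The class of a prime. -/
noncomputable def primeClass (v : Pl K) : ClassGroup (𝓞 K) :=
  ClassGroup.mk0 ⟨v.asIdeal, mem_nonZeroDivisors_of_ne_zero v.ne_bot⟩

theorem ord_algebraMap_eq_count (v : Pl K) {a : 𝓞 K} (ha : a ≠ 0) :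
    ord v (algebraMap (𝓞 K) K a) =
      ((Associates.mk v.asIdeal).count (Associates.mk (Ideal.span {a})).factors : ℤ) := by
  unfold ord
  rw [HeightOneSpectrum.valuation_of_algebraMap, v.intValuation_if_neg ha, WithZero.log_exp,
    neg_neg]

theorem ord_div' (v : Pl K) {x y : K} (hx : x ≠ 0) (hy : y ≠ 0) :
    ord v (x / y) = ord v x - ord v y := by
  unfold ord
  rw [map_div₀, WithZero.log_div ((Valuation.ne_zero_iff _).mpr hx)
    ((Valuation.ne_zero_iff _).mpr hy)]
  ring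

theorem mk0_prod_pow (s : Finset (Pl K)) (e : Pl K → ℕ)
    (h : (∏ v ∈ s, v.asIdeal ^ e v) ∈ (Ideal (𝓞 K))⁰) :
    ClassGroup.mk0 ⟨∏ v ∈ s, v.asIdeal ^ e v, h⟩ = ∏ v ∈ s, primeClass v ^ e v := by
  have h1 : (⟨∏ v ∈ s, v.asIdeal ^ e v, h⟩ : (Ideal (𝓞 K))⁰) =
      ∏ v ∈ s, (⟨v.asIdeal, mem_nonZeroDivisors_of_ne_zero v.ne_bot⟩ : (Ideal (𝓞 K))⁰) ^ e v := by
    apply Subtype.ext
    simp
  rw [h1, map_prod]
  refine Finset.prod_congr rfl fun v _ => ?_
  rw [map_pow]
  rfl

/-- The divisor of a nonzero integer has trivial class. -/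
theorem prod_primeClass_zpow_ord_int {a : 𝓞 K} (ha : a ≠ 0) (s : Finset (Pl K))
    (hs : ∀ v, ord v (algebraMap (𝓞 K) K a) ≠ 0 → v ∈ s) :
    ∏ v ∈ s, primeClass v ^ (ord v (algebraMap (𝓞 K) K a)) = 1 := by
  have hI : (Ideal.span {a} : Ideal (𝓞 K)) ≠ 0 := by
    simpa [Ideal.zero_eq_bot, Ideal.span_singleton_eq_bot] using ha
  have hfact := Ideal.finprod_heightOneSpectrum_factorization hI
  have hsupp : Function.mulSupport (fun v : Pl K => v.maxPowDividing (Ideal.span {a})) ⊆ ↑s := by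
    intro v hv
    apply hs
    rw [ord_algebraMap_eq_count v ha]
    intro h0
    apply hv
    have h0' : (Associates.mk v.asIdeal).count (Associates.mk (Ideal.span {a})).factors = 0 := by
      exact_mod_cast h0
    simp [IsDedekindDomain.HeightOneSpectrum.maxPowDividing, h0']
  rw [finprod_eq_prod_of_mulSupport_subset _ hsupp] at hfact
  have hmem : (Ideal.span {a} : Ideal (𝓞 K)) ∈ (Ideal (𝓞 K))⁰ := mem_nonZeroDivisors_of_ne_zero hI
  have hone : ClassGroup.mk0 ⟨Ideal.span {a}, hmem⟩ = 1 :=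
    (ClassGroup.mk0_eq_one_iff hmem).mpr ⟨⟨a, rfl⟩⟩
  have hmem' : (∏ v ∈ s, v.asIdeal ^
      (Associates.mk v.asIdeal).count (Associates.mk (Ideal.span {a})).factors) ∈
      (Ideal (𝓞 K))⁰ := by
    have : (∏ v ∈ s, v.asIdeal ^
      (Associates.mk v.asIdeal).count (Associates.mk (Ideal.span {a})).factors) =
        Ideal.span {a} := hfact
    rw [this]; exact hmem
  have h2 := mk0_prod_pow s
    (fun v => (Associates.mk v.asIdeal).count (Associates.mk (Ideal.span {a})).factors) hmem'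
  have h3 : ClassGroup.mk0 ⟨∏ v ∈ s, v.asIdeal ^
      (Associates.mk v.asIdeal).count (Associates.mk (Ideal.span {a})).factors, hmem'⟩ =
      ClassGroup.mk0 ⟨Ideal.span {a}, hmem⟩ := by
    congr 1
    exact Subtype.ext hfact
  rw [h3, hone] at h2
  rw [h2]
  refine Finset.prod_congr rfl fun v _ => ?_
  rw [ord_algebraMap_eq_count v ha, zpow_natCast]

/-- The divisor of a nonzero element has trivial class. -/
theorem prod_primeClass_zpow_ord {x : K} (hx : x ≠ 0) (s : Finset (Pl K))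
    (hs : ∀ v, ord v x ≠ 0 → v ∈ s) :
    ∏ v ∈ s, primeClass v ^ (ord v x) = 1 := by
  classical
  obtain ⟨a, b, hb, rfl⟩ := IsFractionRing.div_surjective (A := 𝓞 K) x
  have hb0 : b ≠ 0 := nonZeroDivisors.ne_zero hb
  have ha0 : a ≠ 0 := by
    rintro rfl
    simp at hx
  have hak : algebraMap (𝓞 K) K a ≠ 0 := by simpa using ha0
  have hbk : algebraMap (𝓞 K) K b ≠ 0 := by simpa using hb0
  set s' : Finset (Pl K) := s ∪ (finite_ord_ne_zero (algebraMap (𝓞 K) K a)).toFinset ∪
    (finite_ord_ne_zero (algebraMap (𝓞 K) K b)).toFinset with hs'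
  have hsub : s ⊆ s' := by
    intro v hv
    simp [hs', hv]
  rw [Finset.prod_subset hsub (fun v _ hv => by
    have : ord v (algebraMap (𝓞 K) K a / algebraMap (𝓞 K) K b) = 0 := by
      by_contra h
      exact hv (hs v h)
    rw [this, zpow_zero])]
  have h1 := prod_primeClass_zpow_ord_int ha0 s' (fun v hv => by simp [hs', hv])
  have h2 := prod_primeClass_zpow_ord_int hb0 s' (fun v hv => by simp [hs', hv])
  calc ∏ v ∈ s', primeClass v ^ ord v (algebraMap (𝓞 K) K a / algebraMap (𝓞 K) K b)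
      = ∏ v ∈ s', (primeClass v ^ ord v (algebraMap (𝓞 K) K a) /
          primeClass v ^ ord v (algebraMap (𝓞 K) K b)) := by
        refine Finset.prod_congr rfl fun v _ => ?_
        rw [ord_div' v hak hbk, zpow_sub]
        rfl
    _ = 1 := by rw [Finset.prod_div_distrib, h1, h2, div_one]

/-- Every class is a product of classes of primes: membership form. -/
theorem mem_of_primeClass_mem (H : Subgroup (ClassGroup (𝓞 K)))
    (hH : ∀ v : Pl K, primeClass v ∈ H) (c : ClassGroup (𝓞 K)) : c ∈ H := by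
  obtain ⟨I, rfl⟩ := ClassGroup.mk0_surjective c
  obtain ⟨I, hI⟩ := I
  have key : ∀ J : Ideal (𝓞 K), ∀ hJ : J ∈ (Ideal (𝓞 K))⁰, ClassGroup.mk0 ⟨J, hJ⟩ ∈ H := by
    intro J
    induction J using UniqueFactorizationMonoid.induction_on_prime with
    | h₁ =>
      intro hJ
      exact absurd rfl (nonZeroDivisors.ne_zero hJ)
    | h₂ x hx =>
      intro hJ
      have : ClassGroup.mk0 ⟨x, hJ⟩ = 1 := by
        rw [ClassGroup.mk0_eq_one_iff]
        rw [Ideal.isUnit_iff.mp hx]
        exact ⟨⟨1, by simp⟩⟩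
      rw [this]; exact one_mem _
    | h₃ a P ha hP ih =>
      intro hJ
      have hPne : P ≠ ⊥ := hP.ne_zero
      have hPprime : P.IsPrime := Ideal.isPrime_of_prime hP
      have hPmem : P ∈ (Ideal (𝓞 K))⁰ := mem_nonZeroDivisors_of_ne_zero hPne
      have hamem : a ∈ (Ideal (𝓞 K))⁰ := mem_nonZeroDivisors_of_ne_zero ha
      have h1 : (⟨P * a, hJ⟩ : (Ideal (𝓞 K))⁰) = ⟨P, hPmem⟩ * ⟨a, hamem⟩ := rfl
      rw [h1, map_mul]
      refine mul_mem ?_ (ih hamem)
      exact hH ⟨P, hPprime, hPne⟩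
  exact key I hI

/-- **Bridge**: the divisor form `G_alg` implies T1's `GenStatement`. -/
theorem genStatement_of_G_alg (hG : GAlgStatement) (hsym : SymZeroStatement) :
    Fermat.Agent.S14T.GenStatement := by
  intro K _ _ p hp h3 hζ η hη
  obtain ⟨ζ, hζ⟩ := hζ
  have : Fact p.Prime := ⟨hp⟩
  have hp2 : p ≠ 2 := by omega
  have hη' : ∀ b : K, b ^ p ≠ (η : K) := fun b hb => hη ⟨b, hb⟩
  have hη0 : (η : K) ≠ 0 := by
    intro h0
    exact hη' 0 (by rw [h0, zero_pow hp.ne_zero])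
  set H : Subgroup (ClassGroup (𝓞 K)) :=
    Subgroup.closure (Fermat.Agent.S14T.goodClasses p K η) ⊔
      (powMonoidHom p : ClassGroup (𝓞 K) →* ClassGroup (𝓞 K)).range with hH
  rw [eq_top_iff]
  intro c _
  refine mem_of_primeClass_mem H (fun v0 => ?_) c
  classical
  obtain ⟨x, hx0, hx⟩ := hG K p ζ hp2 hζ (η : K) hη' ∅ (Finsupp.single v0 1)
  set s : Finset (Pl K) := insert v0 (finite_ord_ne_zero x).toFinset with hs
  have h1 : ∏ v ∈ s, primeClass v ^ (ord v x) = 1 :=
    prod_primeClass_zpow_ord hx0 s (fun v hv => by simp [hs, hv])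
  have h2 : ∏ v ∈ s, primeClass v ^ ((Finsupp.single v0 (1 : ℤ)) v) = primeClass v0 := by
    rw [Finset.prod_eq_single v0]
    · simp
    · intro v _ hv
      rw [Finsupp.single_eq_of_ne hv, zpow_zero]
    · intro hv
      exact absurd (by simp [hs]) hv
  have h3' : primeClass v0 = ∏ v ∈ s, primeClass v ^ ((Finsupp.single v0 (1 : ℤ)) v - ord v x) := by
    have : ∏ v ∈ s, primeClass v ^ ((Finsupp.single v0 (1 : ℤ)) v - ord v x) =
        (∏ v ∈ s, primeClass v ^ ((Finsupp.single v0 (1 : ℤ)) v)) /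
          ∏ v ∈ s, primeClass v ^ (ord v x) := by
      rw [← Finset.prod_div_distrib]
      refine Finset.prod_congr rfl fun v _ => ?_
      rw [zpow_sub]
      exact (div_eq_mul_inv _ _).symm
    rw [this, h1, h2, div_one]
  rw [h3']
  refine Subgroup.prod_mem _ fun v _ => ?_
  by_cases hgood : (v ∉ (∅ : Finset (Pl K)) ∧ ¬ Above p v ∧ ord v (η : K) = 0 ∧ (nrm v).Prime ∧
      sym p ζ v (η : K) ≠ 0)
  · obtain ⟨-, hvp, hvη, hvn, hvs⟩ := hgood
    refine Subgroup.zpow_mem _ ?_ _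
    refine Subgroup.mem_sup_left (Subgroup.subset_closure ?_)
    refine ⟨⟨v.asIdeal, mem_nonZeroDivisors_of_ne_zero v.ne_bot⟩, v.isPrime, hvn, ?_, ?_, rfl⟩
    · intro habs
      apply hvp
      have hmem : ((Ideal.absNorm v.asIdeal : ℕ) : 𝓞 K) ∈ v.asIdeal := Ideal.absNorm_mem _
      have habs' : Ideal.absNorm v.asIdeal = p := habs
      rw [habs'] at hmem
      unfold Above
      have hval : v.valuation K (algebraMap (𝓞 K) K (p : 𝓞 K)) < 1 := by
        rw [HeightOneSpectrum.valuation_of_algebraMap]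
        exact (v.intValuation_lt_one_iff_mem _).mpr hmem
      simpa using hval
    · rintro ⟨z, hz⟩
      apply hvs
      refine hsym K p ζ hζ v hvp (η : K) hη0 hvη ⟨(z : K), ?_⟩
      unfold CongMod
      have hmem : η - z ^ p ∈ v.asIdeal := by
        have := v.asIdeal.neg_mem hz
        simpa using this
      have hval : v.valuation K (algebraMap (𝓞 K) K (η - z ^ p)) < 1 := by
        rw [HeightOneSpectrum.valuation_of_algebraMap]
        exact (v.intValuation_lt_one_iff_mem _).mpr hmem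
      simpa using hval
  · obtain ⟨k, hk⟩ := hx v hgood
    rw [hk]
    refine Subgroup.mem_sup_right ⟨primeClass v ^ k, ?_⟩
    simp only [powMonoidHom_apply]
    rw [← zpow_natCast, ← zpow_mul, mul_comm]

end Fermat.Agent.S14C.GenBridge
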