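import Fermat.Agent.S14C.SI.Plan
import Fermat.Agent.S14C.SI.OrdBasic
import Fermat.Agent.S14C.SI.GalPl

/-!
# S14C / SI : [SI-R] the `H^1` bound  `h1 ∣ p ^ |R|`

Proof of `SIPlan.H1Bound` (Hilbert 90 + ambiguous ideals).

Notation: `E` the `S_N`-units, `nm`, `dm : E →* E` the norm and `σ - 1` maps.
Let `φ : Nˣ →* Nˣ`, `x ↦ σ x / x`, `X := φ⁻¹(E)`, `δ := φ|_X : X →* E`.
* `δ.range = nm.ker` (telescoping product, resp. Hilbert 90);
* `κ : X →* (R → ZMod p)`, `x ↦ (ord_{W q} x mod p)_q` (`W q` the prime above `q`);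
* `ker κ ≤ δ⁻¹(dm.range)`: if `p ∣ ord_{W q} x` for all `q ∈ R`, then the divisor of `x` outside
  `S_N` is the lift of a divisor `D` of `F` (the function `w ↦ ord_w x` is constant on the fibres
  of primes outside `S`, as `σ x / x ∈ E` and the Galois group is transitive on each fibre);
  `D = div(c)` outside `S`, so `e := x / c ∈ E` and `dm e = σ x / x = δ x`.
Hence `h1 = [nm.ker : dm.range] = [X : δ⁻¹(dm.range)]` divides `[X : ker κ]`, a divisor of
`p ^ |R|`.
-/

set_option autoImplicit false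
set_option linter.unusedSectionVars false

namespace Fermat.Agent.S14C.H1Bound

open IsDedekindDomain NumberField Fermat.Agent.S14C.SIDefs Fermat.Agent.S14C.ClaimBPlan

variable {F : Type} [Field F] [NumberField F] {N : Type} [Field N] [NumberField N] [Algebra F N]

/-! ### `galPl` is a group action -/

theorem galPl_one (w : Pl N) : galPl (1 : N ≃ₐ[F] N) w = w := by
  apply HeightOneSpectrum.ext
  rw [GalPl.galPl_asIdeal]
  ext x
  simp only [Ideal.mem_comap]
  have : (RingOfIntegers.mapRingEquiv (1 : N ≃ₐ[F] N).toRingEquiv).symm x = x := by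
    apply RingOfIntegers.ext
    rw [RingOfIntegers.mapRingEquiv_symm_apply]
    rfl
  rw [this]

theorem galPl_mul (σ τ : N ≃ₐ[F] N) (w : Pl N) : galPl (σ * τ) w = galPl σ (galPl τ w) := by
  apply HeightOneSpectrum.ext
  rw [GalPl.galPl_asIdeal, GalPl.galPl_asIdeal, GalPl.galPl_asIdeal]
  ext x
  simp only [Ideal.mem_comap]
  have : (RingOfIntegers.mapRingEquiv (σ * τ).toRingEquiv).symm x =
      (RingOfIntegers.mapRingEquiv τ.toRingEquiv).symm
        ((RingOfIntegers.mapRingEquiv σ.toRingEquiv).symm x) := by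
    apply RingOfIntegers.ext
    rw [RingOfIntegers.mapRingEquiv_symm_apply, RingOfIntegers.mapRingEquiv_symm_apply,
      RingOfIntegers.mapRingEquiv_symm_apply]
    rfl
  rw [this]

/-! ### Cyclic Galois group of prime order -/

theorem prod_range_conj_div (σ : N ≃ₐ[F] N) (x : N) (hx : x ≠ 0) (k : ℕ) :
    ∏ j ∈ Finset.range k, (σ ^ j) (σ x / x) = (σ ^ k) x / x := by
  induction k with
  | zero => simp [div_self hx]
  | succ k ih =>
    rw [Finset.prod_range_succ, ih, map_div₀]
    have h1 : (σ ^ k) (σ x) = (σ ^ (k + 1)) x := by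
      rw [pow_succ]
      rfl
    have h2 : (σ ^ k) x ≠ 0 := (map_ne_zero _).mpr hx
    rw [h1]
    field_simp

theorem algebraMap_norm_eq_prod_range [FiniteDimensional F N] [IsGalois F N] {p : ℕ}
    [Fact p.Prime] (hcard : Nat.card (N ≃ₐ[F] N) = p) {σ : N ≃ₐ[F] N} (hσ : σ ≠ 1) (y : N) :
    algebraMap F N (Algebra.norm F y) = ∏ j ∈ Finset.range p, (σ ^ j) y := by
  classical
  have hz : ∀ τ : N ≃ₐ[F] N, τ ∈ Subgroup.zpowers σ := fun τ =>
    mem_zpowers_of_prime_card hcard hσ
  have ho : orderOf σ = p := by rw [orderOf_eq_card_of_forall_mem_zpowers hz, hcard]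
  rw [Algebra.norm_eq_prod_automorphisms, ← IsCyclic.image_range_orderOf hz, Finset.prod_image, ho]
  intro i hi j hj hij
  exact pow_injOn_Iio_orderOf (by simpa using hi) (by simpa using hj) hij

/-- Hilbert 90 for `N / F` cyclic of prime degree, in the form `σ x / x = y`. -/
theorem exists_conj_div_eq [FiniteDimensional F N] [IsGalois F N] {p : ℕ}
    [Fact p.Prime] (hcard : Nat.card (N ≃ₐ[F] N) = p) {σ : N ≃ₐ[F] N} (hσ : σ ≠ 1) (y : N)
    (hy : ∏ j ∈ Finset.range p, (σ ^ j) y = 1) : ∃ x : Nˣ, σ (x : N) / (x : N) = y := by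
  have : IsCyclic (N ≃ₐ[F] N) := isCyclic_of_prime_card hcard
  have hnorm : Algebra.norm F y = 1 := by
    apply (algebraMap F N).injective
    rw [algebraMap_norm_eq_prod_range hcard hσ, hy, map_one]
  obtain ⟨x, hx⟩ := groupCohomology.exists_div_of_norm_eq_one (g := σ)
    (fun τ => mem_zpowers_of_prime_card hcard hσ) hnorm
  refine ⟨x⁻¹, ?_⟩
  rw [Units.val_inv_eq_inv_val, map_inv₀, inv_div_inv]
  exact hx

/-- A function `w ↦ ord w x` which is `σ`-invariant on a `σ`-stable set of primes is invariant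
under the whole Galois group there. -/
theorem ord_galPl_eq_of_invariant {p : ℕ} [Fact p.Prime]
    (hcard : Nat.card (N ≃ₐ[F] N) = p) (σ : N ≃ₐ[F] N) (hσ : σ ≠ 1) (P : Pl N → Prop)
    (hP : ∀ w, P w → P (galPl σ w)) (x : N) (hx : ∀ w, P w → ord w (σ x) = ord w x)
    (τ : N ≃ₐ[F] N) (w : Pl N) (hw : P w) : ord (galPl τ w) x = ord w x ∧ P (galPl τ w) := by
  obtain ⟨j, hj⟩ := mem_powers_of_prime_card hcard hσ (g' := τ)
  have hj' : σ ^ j = τ := hj
  subst hj'
  clear hj
  induction j with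
  | zero =>
    rw [pow_zero, galPl_one]
    exact ⟨rfl, hw⟩
  | succ j ih =>
    rw [pow_succ', galPl_mul]
    refine ⟨?_, hP _ ih.2⟩
    rw [← ih.1, ← hx _ (hP _ ih.2), GalPl.ord_galPl]

/-! ### The bound -/

/-- [SI-R] `h1 ∣ p ^ |R|`. -/
theorem h1Bound : Fermat.Agent.S14C.SIPlan.H1Bound := by
  intro F N _ _ _ _ _ _ p _ hfr σ hσ S R _hdisj SN hSN nm dm hnm hdm hS hunr huniq hram
  classical
  have hpp : p.Prime := Fact.out
  have : FiniteDimensional F N :=
    Module.finite_of_finrank_pos (by rw [hfr]; exact hpp.pos)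
  have hcard : Nat.card (N ≃ₐ[F] N) = p := by rw [IsGalois.card_aut_eq_finrank, hfr]
  have hσp : σ ^ p = 1 := by rw [← hcard]; exact pow_card_eq_one'
  -- chosen primes above
  choose W hW using (fun v : Pl F => GalPl.exists_above (N := N) v)
  have hWinj : Function.Injective W := fun v v' h =>
    GalPl.below_unique (W v) v v' (hW v) (h ▸ hW v')
  -- the map `x ↦ σ x / x` on `Nˣ`
  let φ : Nˣ →* Nˣ := MonoidHom.mk' (fun x => Units.map (σ : N →* N) x / x) (fun a b => by
    simp only [map_mul]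
    exact mul_div_mul_comm _ _ _ _)
  have hφ : ∀ x : Nˣ, ((φ x : Nˣ) : N) = σ (x : N) / (x : N) := fun x => by
    simp [φ, Units.val_div_eq_div_val]
  let δ : ((SN : Set (Pl N)).unit N).comap φ →* (SN : Set (Pl N)).unit N :=
    φ.subgroupComap ((SN : Set (Pl N)).unit N)
  have hδ : ∀ x : ((SN : Set (Pl N)).unit N).comap φ,
      (((δ x : (SN : Set (Pl N)).unit N) : Nˣ) : N) = σ ((x : Nˣ) : N) / ((x : Nˣ) : N) :=
    fun x => hφ x
  -- `δ.range = nm.ker`
  have hrange : δ.range = nm.ker := by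
    ext ε
    constructor
    · rintro ⟨x, rfl⟩
      rw [MonoidHom.mem_ker]
      apply Subtype.ext
      apply Units.ext
      rw [hnm, hδ, prod_range_conj_div σ _ (Units.ne_zero _) p, hσp]
      simp
    · intro hε
      rw [MonoidHom.mem_ker] at hε
      have h1 : ∏ j ∈ Finset.range p, (σ ^ j) ((ε : Nˣ) : N) = 1 := by
        rw [← hnm, hε]
        simp
      obtain ⟨x, hx⟩ := exists_conj_div_eq hcard hσ _ h1
      have hφx : φ x = (ε : Nˣ) := Units.ext (by rw [hφ, hx])
      have hxmem : x ∈ ((SN : Set (Pl N)).unit N).comap φ := by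
        rw [Subgroup.mem_comap, hφx]
        exact ε.2
      exact ⟨⟨x, hxmem⟩, Subtype.ext (Units.ext (by rw [hδ]; exact hx))⟩
  -- `SN` is `σ`-stable
  have hstab : ∀ w : Pl N, w ∉ SN → galPl σ w ∉ SN := by
    intro w hw hmem
    obtain ⟨v, hvS, hv⟩ := (hSN _).mp hmem
    obtain ⟨v', hv'⟩ := GalPl.exists_below (F := F) w
    have h2 : Over (galPl σ w) v' := GalPl.over_galPl σ w v' hv'
    have h3 : v = v' := GalPl.below_unique _ v v' hv h2
    subst h3
    exact hw ((hSN w).mpr ⟨v, hvS, hv'⟩)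
  -- the character `κ`
  let κ0 : Nˣ →* Multiplicative (↥R → ZMod p) :=
    MonoidHom.mk' (fun x => Multiplicative.ofAdd
      (fun q : ↥R => ((ord (W q) (x : N) : ℤ) : ZMod p))) (fun a b => by
        rw [← ofAdd_add]
        congr 1
        funext q
        simp [OrdBasic.ord_mul _ a.ne_zero b.ne_zero])
  let κ : ((SN : Set (Pl N)).unit N).comap φ →* Multiplicative (↥R → ZMod p) :=
    κ0.comp (((SN : Set (Pl N)).unit N).comap φ).subtype
  -- `ker κ ≤ δ⁻¹(dm.range)`
  have hker : κ.ker ≤ dm.range.comap δ := by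
    intro x hx
    rw [MonoidHom.mem_ker] at hx
    have hdiv : ∀ q ∈ R, (p : ℤ) ∣ ord (W q) ((x : Nˣ) : N) := by
      intro q hq
      have h := congrFun (congrArg Multiplicative.toAdd hx) ⟨q, hq⟩
      exact (ZMod.intCast_zmod_eq_zero_iff_dvd _ _).mp h
    have hxE : ∀ w : Pl N, w ∉ SN → ord w (σ ((x : Nˣ) : N)) = ord w ((x : Nˣ) : N) := by
      intro w hw
      have hmem : φ (x : Nˣ) ∈ (SN : Set (Pl N)).unit N := x.2
      have h := (OrdBasic.mem_unit_iff _ _).mp hmem w (by simpa using hw)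
      rw [hφ, OrdBasic.ord_div _ (by simp) (by simp)] at h
      linarith
    have hinv : ∀ (τ : N ≃ₐ[F] N) (w : Pl N), w ∉ SN →
        ord (galPl τ w) ((x : Nˣ) : N) = ord w ((x : Nˣ) : N) := fun τ w hw =>
      (ord_galPl_eq_of_invariant hcard σ hσ (fun w => w ∉ SN) hstab _ hxE τ w hw).1
    -- the divisor of `F` below the divisor of `x`
    let f : Pl F → ℤ := fun v =>
      if v ∈ R then ord (W v) ((x : Nˣ) : N) / p else ord (W v) ((x : Nˣ) : N)
    have hfin : (Function.support f).Finite := by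
      refine ((finite_ord_ne_zero ((x : Nˣ) : N)).preimage hWinj.injOn).subset ?_
      intro v hv
      simp only [Function.mem_support, f] at hv
      simp only [Set.mem_preimage, Set.mem_ofPred_eq]
      intro h0
      apply hv
      rw [h0]
      simp
    obtain ⟨c, hc0, hc⟩ := hS (Finsupp.ofSupportFinite f hfin)
    have hcN : algebraMap F N c ≠ 0 := (map_ne_zero _).mpr hc0
    have hecoe : (((x : Nˣ) / Units.mk0 _ hcN : Nˣ) : N) = ((x : Nˣ) : N) / algebraMap F N c := by
      simp [Units.val_div_eq_div_val]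
    have heE : (x : Nˣ) / Units.mk0 _ hcN ∈ (SN : Set (Pl N)).unit N := by
      rw [OrdBasic.mem_unit_iff]
      intro w hw
      have hw' : w ∉ SN := by simpa using hw
      obtain ⟨v, hv⟩ := GalPl.exists_below (F := F) w
      have hvS : v ∉ S := fun h => hw' ((hSN w).mpr ⟨v, h, hv⟩)
      have hcv : f v = ord v c := hc v hvS
      rw [hecoe, OrdBasic.ord_div _ (Units.ne_zero _) hcN]
      by_cases hvR : v ∈ R
      · have hwW : w = W v := huniq v hvR w (W v) hv (hW v)
        rw [hram v hvR w hv c, ← hcv]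
        simp only [f, if_pos hvR]
        rw [hwW, Int.mul_ediv_cancel' (hdiv v hvR)]
        ring
      · rw [hunr v hvS hvR w hv c, ← hcv]
        simp only [f, if_neg hvR]
        obtain ⟨τ, hτ⟩ := GalPl.exists_galPl_eq (W v) w v (hW v) hv
        have hWv : W v ∉ SN := fun hmem => by
          obtain ⟨v', hv'S, hv'⟩ := (hSN _).mp hmem
          exact hvS (GalPl.below_unique (W v) v v' (hW v) hv' ▸ hv'S)
        rw [← hτ, hinv τ (W v) hWv]
        ring
    refine ⟨⟨_, heE⟩, ?_⟩
    apply Subtype.ext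
    apply Units.ext
    rw [hdm, hδ]
    simp only [hecoe, map_div₀, AlgEquiv.commutes]
    have hx0 : ((x : Nˣ) : N) ≠ 0 := Units.ne_zero _
    field_simp
  -- conclusion
  have h1 : dm.range.relIndex nm.ker = (dm.range.comap δ).index := by
    rw [Subgroup.index_comap, hrange]
  rw [h1]
  refine (Subgroup.index_dvd_of_le hker).trans ?_
  rw [Subgroup.index_ker]
  refine (Subgroup.card_subgroup_dvd_card _).trans ?_
  have h2 : Nat.card (Multiplicative (↥R → ZMod p)) = p ^ R.card := by
    rw [Nat.card_congr Multiplicative.toAdd, Nat.card_fun, Nat.card_zmod,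
      Nat.card_eq_fintype_card, Fintype.card_coe]
  rw [h2]

end Fermat.Agent.S14C.H1Bound
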