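import Fermat.Agent.S14C.SI.Defs

/-!
# S14C / SI : Plan (architect helper65) -- unit-side blocks of Claim B

Companion of `SI/ClaimBPlan.lean` (helper61: `Over`, `galPl`, `GalStatement`,
`KummerUnramifiedStatement`, `KummerRamifiedStatement`, `KummerSplitStatement`), which stays the
single interface for the Kummer-field blocks.  This file adds the blocks that are not there.
Every block is a `Prop`-valued `def`; the owner of a block proves `theorem <name> : <Block>` in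
a NEW file importing this one.  This file has no proof obligations left.

"`w` lies over `v`" is written `w.asIdeal.comap (algebraMap (𝓞 F) (𝓞 N)) = v.asIdeal`
(this is `ClaimBPlan.Over w v` unfolded).

Unit data (helper29's shape, shared by `SUnitHerbrand`, `H1Bound`, `NormResBound`):
  `SN : Finset (Pl N)` = all primes of `N` over `S`;  `E := (SN : Set (Pl N)).unit N`;
  `nm dm : E →* E`,  `nm x = ∏_{j<p} σ^j x`,  `dm x = σ x / x`;
  `h0 := nm.range.relIndex dm.ker = [E^G : N E]`,  `h1 := dm.range.relIndex nm.ker`.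

Chain for Claim B (`ClaimB`, verbatim helper29's `claimB`):
  suppose `y` is not a `p`-th power; `KummerExists` gives `N = F(θ)`, `θ ^ p = y`; pick `σ ≠ 1`;
  `R := {q ∈ T | ¬ p ∣ ord q y}`;
  `KummerSplitStatement`     : every `s ∈ S` has `p` primes above, so `SN.card = p * S.card`;
  `KummerUnramifiedStatement`: primes outside `S ∪ R` are unramified;
  `KummerRamifiedStatement`  : primes in `R` are totally ramified, trivial residue extension;
  `SUnitHerbrand` (`i = 0`)  : `h0 * p = h1`;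
  `H1Bound` : `h1 ∣ p ^ |R|`;   `NormResBound` : `p ^ |R| ≤ h0`;   contradiction.
-/

set_option autoImplicit false

namespace Fermat.Agent.S14C.SIPlan

open IsDedekindDomain NumberField Fermat.Agent.S14C.SIDefs

/-! ## Kummer extensions of degree `p` -/

/-- [SI-K] existence of the Kummer extension `F(y^{1/p})` as a number field, Galois of
degree `p` over `F`. -/
def KummerExists : Prop :=
  ∀ (F : Type) [Field F] [NumberField F] (p : ℕ) [Fact p.Prime] (ζ : F), IsPrimitiveRoot ζ p →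
  ∀ y : F, (∀ b : F, b ^ p ≠ y) →
    ∃ (N : Type) (_ : Field N) (_ : NumberField N) (_ : Algebra F N) (_ : IsGalois F N) (θ : N),
      Module.finrank F N = p ∧ θ ^ p = algebraMap F N y

/-! ## Units of `N`: unit data, Herbrand quotient, `H^1` bound, norm residues -/

/-- [SI-HqU] existence of the unit data `SN`, `nm`, `dm` for a Galois extension `N/F` of
degree `p` and `σ : N ≃ₐ[F] N`. -/
def UnitDataExists : Prop :=
  ∀ (F : Type) [Field F] [NumberField F] (p : ℕ) [Fact p.Prime]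
  (N : Type) [Field N] [NumberField N] [Algebra F N] [IsGalois F N], Module.finrank F N = p →
  ∀ (σ : N ≃ₐ[F] N) (S : Finset (Pl F)),
    ∃ (SN : Finset (Pl N)) (nm dm : (SN : Set (Pl N)).unit N →* (SN : Set (Pl N)).unit N),
      (∀ w : Pl N, w ∈ SN ↔ ∃ v ∈ S, w.asIdeal.comap (algebraMap (𝓞 F) (𝓞 N)) = v.asIdeal) ∧
      (∀ x, ((nm x : Nˣ) : N) = ∏ j ∈ Finset.range p, (σ ^ j) ((x : Nˣ) : N)) ∧
      (∀ x, ((dm x : Nˣ) : N) = σ ((x : Nˣ) : N) / ((x : Nˣ) : N))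

/-- [SI-HqU] (helper29's `sUnit_herbrand`, verbatim): Herbrand quotient of the `S_N`-units for
`N/F` Galois of prime degree `p`, `ζ_p ∈ F`, `p` odd: `h0 * p = p ^ i * h1`, where `i` is the
number of `s ∈ S` with one prime above (`SN.card + (p - 1) * i = p * S.card`); and the
`σ`-invariant `S_N`-units are the `S`-units of `F`. -/
def SUnitHerbrand : Prop :=
  ∀ (F N : Type) [Field F] [NumberField F] [Field N] [NumberField N] [Algebra F N] [IsGalois F N]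
  (p : ℕ) [Fact p.Prime], p ≠ 2 → ∀ ζ : F, IsPrimitiveRoot ζ p → Module.finrank F N = p →
  ∀ σ : N ≃ₐ[F] N, σ ≠ 1 → ∀ (S : Finset (Pl F)) (SN : Finset (Pl N)),
  (∀ w : Pl N, w ∈ SN ↔ ∃ v ∈ S, w.asIdeal.comap (algebraMap (𝓞 F) (𝓞 N)) = v.asIdeal) →
  ∀ i : ℕ, SN.card + (p - 1) * i = p * S.card →
  ∀ nm dm : (SN : Set (Pl N)).unit N →* (SN : Set (Pl N)).unit N,
  (∀ x, ((nm x : Nˣ) : N) = ∏ j ∈ Finset.range p, (σ ^ j) ((x : Nˣ) : N)) →
  (∀ x, ((dm x : Nˣ) : N) = σ ((x : Nˣ) : N) / ((x : Nˣ) : N)) →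
    nm.range.relIndex dm.ker ≠ 0 ∧ dm.range.relIndex nm.ker ≠ 0 ∧
    nm.range.relIndex dm.ker * p = p ^ i * dm.range.relIndex nm.ker ∧
    (∀ x : (SN : Set (Pl N)).unit N, x ∈ dm.ker ↔
      ∃ u : Fˣ, u ∈ (S : Set (Pl F)).unit F ∧ algebraMap F N (u : F) = ((x : Nˣ) : N))

/-- [SI-R] (Hilbert 90 + ambiguous ideals): if `O_{F,S}` is principal (divisor form), the primes
outside `S ∪ R` are unramified and each prime of `R` has a unique prime above it, of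
ramification index `p`, then `h1 ∣ p ^ |R|`. -/
def H1Bound : Prop :=
  ∀ (F N : Type) [Field F] [NumberField F] [Field N] [NumberField N] [Algebra F N] [IsGalois F N]
  (p : ℕ) [Fact p.Prime], Module.finrank F N = p →
  ∀ σ : N ≃ₐ[F] N, σ ≠ 1 → ∀ (S R : Finset (Pl F)), Disjoint S R → ∀ (SN : Finset (Pl N)),
  (∀ w : Pl N, w ∈ SN ↔ ∃ v ∈ S, w.asIdeal.comap (algebraMap (𝓞 F) (𝓞 N)) = v.asIdeal) →
  ∀ nm dm : (SN : Set (Pl N)).unit N →* (SN : Set (Pl N)).unit N,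
  (∀ x, ((nm x : Nˣ) : N) = ∏ j ∈ Finset.range p, (σ ^ j) ((x : Nˣ) : N)) →
  (∀ x, ((dm x : Nˣ) : N) = σ ((x : Nˣ) : N) / ((x : Nˣ) : N)) →
  (∀ D : Pl F →₀ ℤ, ∃ x : F, x ≠ 0 ∧ ∀ v, v ∉ S → D v = ord v x) →
  (∀ v : Pl F, v ∉ S → v ∉ R →
    ∀ w : Pl N, w.asIdeal.comap (algebraMap (𝓞 F) (𝓞 N)) = v.asIdeal →
    ∀ x : F, ord w (algebraMap F N x) = ord v x) →
  (∀ v ∈ R, ∀ w w' : Pl N, w.asIdeal.comap (algebraMap (𝓞 F) (𝓞 N)) = v.asIdeal →
    w'.asIdeal.comap (algebraMap (𝓞 F) (𝓞 N)) = v.asIdeal → w = w') →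
  (∀ v ∈ R, ∀ w : Pl N, w.asIdeal.comap (algebraMap (𝓞 F) (𝓞 N)) = v.asIdeal →
    ∀ x : F, ord w (algebraMap F N x) = p * ord v x) →
    dm.range.relIndex nm.ker ∣ p ^ R.card

/-- [SI-R] norms of `S_N`-units are `p`-th power residues at totally ramified primes; together
with joint surjectivity of the symbols on `E_S` (hypothesis `hT` of Claim B, restricted to
`R`) this gives `p ^ |R| ≤ h0`. -/
def NormResBound : Prop :=
  ∀ (F N : Type) [Field F] [NumberField F] [Field N] [NumberField N] [Algebra F N] [IsGalois F N]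
  (p : ℕ) [Fact p.Prime] (ζ : F), IsPrimitiveRoot ζ p → Module.finrank F N = p →
  ∀ σ : N ≃ₐ[F] N, σ ≠ 1 → ∀ (S R : Finset (Pl F)), Disjoint S R → (∀ v ∈ R, ¬ Above p v) →
  ∀ (SN : Finset (Pl N)),
  (∀ w : Pl N, w ∈ SN ↔ ∃ v ∈ S, w.asIdeal.comap (algebraMap (𝓞 F) (𝓞 N)) = v.asIdeal) →
  ∀ nm dm : (SN : Set (Pl N)).unit N →* (SN : Set (Pl N)).unit N,
  (∀ x, ((nm x : Nˣ) : N) = ∏ j ∈ Finset.range p, (σ ^ j) ((x : Nˣ) : N)) →
  (∀ x, ((dm x : Nˣ) : N) = σ ((x : Nˣ) : N) / ((x : Nˣ) : N)) →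
  (∀ x : (SN : Set (Pl N)).unit N, x ∈ dm.ker ↔
    ∃ u : Fˣ, u ∈ (S : Set (Pl F)).unit F ∧ algebraMap F N (u : F) = ((x : Nˣ) : N)) →
  (∀ c : Pl F → ZMod p, ∃ u : F, u ≠ 0 ∧ (∀ v : Pl F, v ∉ S → ord v u = 0) ∧
    ∀ q ∈ R, sym p ζ q u = c q) →
  (∀ v ∈ R, ∀ w w' : Pl N, w.asIdeal.comap (algebraMap (𝓞 F) (𝓞 N)) = v.asIdeal →
    w'.asIdeal.comap (algebraMap (𝓞 F) (𝓞 N)) = v.asIdeal → w = w') →
  (∀ v ∈ R, ∀ w : Pl N, w.asIdeal.comap (algebraMap (𝓞 F) (𝓞 N)) = v.asIdeal →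
    ∀ ε : N, w.valuation N ε ≤ 1 → ∃ b : F, w.valuation N (ε - algebraMap F N b) < 1) →
  nm.range.relIndex dm.ker ≠ 0 → p ^ R.card ≤ nm.range.relIndex dm.ker

/-! ## Claim B -/

/-- [SI-B] Claim B (verbatim helper29's `claimB`). -/
def ClaimB : Prop :=
  ∀ (F : Type) [Field F] [NumberField F] (p : ℕ) [Fact p.Prime] (ζ : F), p ≠ 2 →
  IsPrimitiveRoot ζ p → ∀ S T : Finset (Pl F), Disjoint S T →
  (∀ v : Pl F, Above p v → v ∈ S) →
  (∀ D : Pl F →₀ ℤ, ∃ x : F, x ≠ 0 ∧ ∀ v, v ∉ S → D v = ord v x) →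
  (∀ c : Pl F → ZMod p, ∃ u : F, u ≠ 0 ∧ (∀ v : Pl F, v ∉ S → ord v u = 0) ∧
    ∀ q ∈ T, sym p ζ q u = c q) →
  ∀ y : F, y ≠ 0 → (∀ v : Pl F, v ∉ S → v ∉ T → ord v y = 0) →
  (∀ s ∈ S, LocPow p ζ s y) → ∃ w : F, w ^ p = y

end Fermat.Agent.S14C.SIPlan
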