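import Fermat.Agent.S14C.SI.Defs

/-!
# S14C / SI : [SI-U] the `S`-unit group is finitely generated of rank `rank(units) + |S|`

Owner: helper10 (A-owner of `sUnit_finite`, `sUnit_finrank`).

Proof: the valuation vector map `E_S → ℤ^S` has kernel the image of `(𝓞 F)ˣ` (Dirichlet: f.g. of rank
`Units.rank F`) and its image contains, for each `v ∈ S`, a nonzero multiple of the basis vector
`e_v` (a generator of `v ^ h`, `h` the class number), so it has rank `|S|`.
-/

set_option autoImplicit false

namespace Fermat.Agent.S14C.SUnit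

open IsDedekindDomain NumberField Fermat.Agent.S14C.SIDefs

variable {F : Type} [Field F] [NumberField F]

/-- `ord` is additive on nonzero elements. -/
theorem ord_mul_aux (v : Pl F) {x y : F} (hx : x ≠ 0) (hy : y ≠ 0) :
    ord v (x * y) = ord v x + ord v y := by
  unfold ord
  rw [map_mul, WithZero.log_mul ((map_ne_zero _).mpr hx) ((map_ne_zero _).mpr hy)]
  ring

/-- `ord v x = 0` iff the valuation is `1` (for `x ≠ 0`). -/
theorem ord_eq_zero_iff_aux (v : Pl F) {x : F} (hx : x ≠ 0) :
    ord v x = 0 ↔ v.valuation F x = 1 := by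
  have hne : v.valuation F x ≠ 0 := (map_ne_zero _).mpr hx
  unfold ord
  constructor
  · intro h
    have h0 : WithZero.log (v.valuation F x) = 0 := by linarith
    have := WithZero.exp_log hne
    rw [h0] at this
    rw [← this]
    rfl
  · intro h
    rw [h]
    simp

/-- The valuation vector of an `S`-unit, as an additive map. -/
noncomputable def valHom (S : Finset (Pl F)) :
    Additive ((S : Set (Pl F)).unit F) →+ (S → ℤ) where
  toFun x := fun v => ord v.1 (((Additive.toMul x : (S : Set (Pl F)).unit F) : Fˣ) : F)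
  map_zero' := by
    funext v
    simp [ord]
  map_add' x y := by
    funext v
    simp only [toMul_add, Subgroup.coe_mul, Units.val_mul, Pi.add_apply]
    exact ord_mul_aux v.1 (Units.ne_zero _) (Units.ne_zero _)

/-- The valuation vector map as a `ℤ`-linear map. -/
noncomputable def valLin (S : Finset (Pl F)) :
    Additive ((S : Set (Pl F)).unit F) →ₗ[ℤ] (S → ℤ) :=
  (valHom S).toIntLinearMap

theorem valLin_apply (S : Finset (Pl F)) (x : Additive ((S : Set (Pl F)).unit F)) (v : S) :
    valLin S x v = ord v.1 (((Additive.toMul x : (S : Set (Pl F)).unit F) : Fˣ) : F) := rfl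

/-- A unit of `𝓞 F` has valuation one everywhere. -/
theorem valuation_unit_eq_one (v : Pl F) (u : (𝓞 F)ˣ) :
    v.valuation F (algebraMap (𝓞 F) F (u : 𝓞 F)) = 1 := by
  have h1 : v.valuation F (algebraMap (𝓞 F) F (u : 𝓞 F)) ≤ 1 := v.valuation_le_one _
  have h2 : v.valuation F (algebraMap (𝓞 F) F ((u⁻¹ : (𝓞 F)ˣ) : 𝓞 F)) ≤ 1 := v.valuation_le_one _
  refine eq_one_of_one_le_mul_left h1 h2 (Eq.ge ?_)
  rw [← map_mul, ← map_mul, Units.mul_inv, map_one, map_one]

/-- The inclusion of the units of `𝓞 F` into the `S`-units. -/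
noncomputable def unitIncl (S : Finset (Pl F)) : (𝓞 F)ˣ →* (S : Set (Pl F)).unit F where
  toFun u := ⟨Units.map (algebraMap (𝓞 F) F).toMonoidHom u, fun v _ => valuation_unit_eq_one v u⟩
  map_one' := by
    apply Subtype.ext
    simp
  map_mul' x y := by
    apply Subtype.ext
    simp

theorem unitIncl_coe (S : Finset (Pl F)) (u : (𝓞 F)ˣ) :
    (((unitIncl S u : (S : Set (Pl F)).unit F) : Fˣ) : F) = algebraMap (𝓞 F) F (u : 𝓞 F) := rfl

theorem unitIncl_injective (S : Finset (Pl F)) : Function.Injective (unitIncl S) := by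
  intro x y h
  have h1 : algebraMap (𝓞 F) F (x : 𝓞 F) = algebraMap (𝓞 F) F (y : 𝓞 F) := by
    rw [← unitIncl_coe S x, ← unitIncl_coe S y, h]
  exact Units.ext (FaithfulSMul.algebraMap_injective (𝓞 F) F h1)

/-- The inclusion of units as a `ℤ`-linear map. -/
noncomputable def unitLin (S : Finset (Pl F)) :
    Additive (𝓞 F)ˣ →ₗ[ℤ] Additive ((S : Set (Pl F)).unit F) :=
  (MonoidHom.toAdditive (unitIncl S)).toIntLinearMap

theorem unitLin_injective (S : Finset (Pl F)) : Function.Injective (unitLin S) := by
  intro x y h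
  exact unitIncl_injective S h

theorem range_unitLin (S : Finset (Pl F)) :
    LinearMap.range (unitLin S) = LinearMap.ker (valLin S) := by
  ext x
  simp only [LinearMap.mem_range, LinearMap.mem_ker]
  constructor
  · rintro ⟨u, rfl⟩
    funext v
    rw [valLin_apply]
    show ord v.1 (algebraMap (𝓞 F) F ((Additive.toMul u : (𝓞 F)ˣ) : 𝓞 F)) = 0
    unfold ord
    rw [valuation_unit_eq_one]
    simp
  · intro hx
    set y : (S : Set (Pl F)).unit F := Additive.toMul x with hy
    have hy0 : ((y : Fˣ) : F) ≠ 0 := Units.ne_zero _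
    have hall : ∀ v : Pl F, v.valuation F ((y : Fˣ) : F) = 1 := by
      intro v
      by_cases hv : v ∈ S
      · have := congrFun hx ⟨v, hv⟩
        rw [valLin_apply] at this
        exact (ord_eq_zero_iff_aux v hy0).mp this
      · exact y.2 v (by simpa using hv)
    have hall' : ∀ v : Pl F, v.valuation F (((y : Fˣ)⁻¹ : Fˣ) : F) = 1 := by
      intro v
      rw [Units.val_inv_eq_inv_val, map_inv₀, hall v, inv_one]
    obtain ⟨a, ha⟩ := HeightOneSpectrum.mem_integers_of_valuation_le_one F ((y : Fˣ) : F)
      (fun v => (hall v).le)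
    obtain ⟨b, hb⟩ := HeightOneSpectrum.mem_integers_of_valuation_le_one F (((y : Fˣ)⁻¹ : Fˣ) : F)
      (fun v => (hall' v).le)
    have hab : a * b = 1 := by
      apply FaithfulSMul.algebraMap_injective (𝓞 F) F
      rw [map_mul, map_one]
      change algebraMap (𝓞 F) F a = _ at ha
      change algebraMap (𝓞 F) F b = _ at hb
      rw [ha, hb, Units.mul_inv]
    have hba : b * a = 1 := by rw [mul_comm]; exact hab
    refine ⟨Additive.ofMul (⟨a, b, hab, hba⟩ : (𝓞 F)ˣ), ?_⟩
    show Additive.ofMul (unitIncl S ⟨a, b, hab, hba⟩) = x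
    have : unitIncl S ⟨a, b, hab, hba⟩ = y := by
      apply Subtype.ext
      apply Units.ext
      exact ha
    rw [this, hy]
    rfl

/-- For a prime `v` there is a nonzero integer `a ∈ v` not lying in any other prime. -/
theorem exists_generator_pow (v : Pl F) :
    ∃ a : 𝓞 F, a ≠ 0 ∧ a ∈ v.asIdeal ∧ ∀ w : Pl F, w ≠ v → a ∉ w.asIdeal := by
  classical
  have hv0 : v.asIdeal ≠ ⊥ := v.ne_bot
  let I0 : nonZeroDivisors (Ideal (𝓞 F)) := ⟨v.asIdeal, mem_nonZeroDivisors_of_ne_zero hv0⟩
  set h := Fintype.card (ClassGroup (𝓞 F)) with hh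
  have hpos : 0 < h := Fintype.card_pos
  have h1 : ClassGroup.mk0 (I0 ^ h) = 1 := by
    rw [map_pow, hh, pow_card_eq_one]
  have hprin : ((I0 ^ h : nonZeroDivisors (Ideal (𝓞 F))) : Ideal (𝓞 F)).IsPrincipal :=
    (ClassGroup.mk0_eq_one_iff (I0 ^ h).2).mp h1
  have hcoe : ((I0 ^ h : nonZeroDivisors (Ideal (𝓞 F))) : Ideal (𝓞 F)) = v.asIdeal ^ h := by
    simp [I0]
  rw [hcoe] at hprin
  obtain ⟨a, ha⟩ := hprin.principal
  have hane : a ≠ 0 := by
    rintro rfl
    have : v.asIdeal ^ h = ⊥ := by simpa using ha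
    exact hv0 (pow_eq_zero_iff (Nat.pos_iff_ne_zero.mp hpos) |>.mp this)
  have hamem : a ∈ v.asIdeal ^ h := by
    rw [ha]
    exact Submodule.mem_span_singleton_self a
  refine ⟨a, hane, Ideal.pow_le_self (Nat.pos_iff_ne_zero.mp hpos) hamem, ?_⟩
  intro w hw haw
  apply hw
  have hle : v.asIdeal ^ h ≤ w.asIdeal := by
    rw [ha]
    exact (Ideal.span_singleton_le_iff_mem _).mpr haw
  have hle' : v.asIdeal ≤ w.asIdeal := w.isPrime.le_of_pow_le hle
  have : v.asIdeal = w.asIdeal := v.isMaximal.eq_of_le w.isPrime.ne_top hle'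
  exact (HeightOneSpectrum.ext this).symm

/-- valuation `1` at primes not containing an integer. -/
theorem valuation_eq_one_of_not_mem (w : Pl F) {a : 𝓞 F} (ha : a ∉ w.asIdeal) :
    w.valuation F (algebraMap (𝓞 F) F a) = 1 := by
  rw [HeightOneSpectrum.valuation_of_algebraMap]
  by_contra h
  have hlt := lt_of_le_of_ne (w.intValuation_le_one a) h
  have hdvd := (w.intValuation_lt_one_iff_dvd a).mp hlt
  exact ha ((Ideal.dvd_span_singleton).mp hdvd)

/-- valuation `< 1` at primes containing an integer. -/
theorem valuation_lt_one_of_mem (w : Pl F) {a : 𝓞 F} (ha : a ∈ w.asIdeal) :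
    w.valuation F (algebraMap (𝓞 F) F a) < 1 := by
  rw [HeightOneSpectrum.valuation_of_algebraMap]
  exact (w.intValuation_lt_one_iff_dvd a).mpr ((Ideal.dvd_span_singleton).mpr ha)

/-- For each `v ∈ S`, some vector supported exactly at `v` lies in the range of the
valuation map. -/
theorem exists_mem_range_single (S : Finset (Pl F)) (v : S) :
    ∃ f : S → ℤ, f ∈ LinearMap.range (valLin S) ∧ f v ≠ 0 ∧ ∀ w : S, w ≠ v → f w = 0 := by
  obtain ⟨a, ha0, hav, haw⟩ := exists_generator_pow v.1
  have ha0' : algebraMap (𝓞 F) F a ≠ 0 := by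
    simpa using ha0
  let y : (S : Set (Pl F)).unit F := ⟨Units.mk0 (algebraMap (𝓞 F) F a) ha0', fun w hw => by
    have hwv : w ≠ v.1 := by
      rintro rfl
      exact hw (by simp)
    exact valuation_eq_one_of_not_mem w (haw w hwv)⟩
  refine ⟨valLin S (Additive.ofMul y), ⟨Additive.ofMul y, rfl⟩, ?_, ?_⟩
  · rw [valLin_apply]
    show ord v.1 (algebraMap (𝓞 F) F a) ≠ 0
    intro h0
    have h1 := (ord_eq_zero_iff_aux v.1 ha0').mp h0
    exact (ne_of_lt (valuation_lt_one_of_mem v.1 hav)) h1
  · intro w hwv
    rw [valLin_apply]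
    show ord w.1 (algebraMap (𝓞 F) F a) = 0
    have hwv' : w.1 ≠ v.1 := fun h => hwv (Subtype.ext h)
    exact (ord_eq_zero_iff_aux w.1 ha0').mpr (valuation_eq_one_of_not_mem w.1 (haw w.1 hwv'))

/-- The range of the valuation map has full rank `|S|`. -/
theorem finrank_range_valLin (S : Finset (Pl F)) :
    Module.finrank ℤ (LinearMap.range (valLin S)) = S.card := by
  classical
  apply le_antisymm
  · have h := Submodule.finrank_le (LinearMap.range (valLin S))
    rw [Module.finrank_fintype_fun_eq_card, Fintype.card_coe] at h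
    exact h
  · choose f hmem hne hzero using exists_mem_range_single S
    let b : S → LinearMap.range (valLin S) := fun v => ⟨f v, hmem v⟩
    have hli : LinearIndependent ℤ b := by
      rw [Fintype.linearIndependent_iff]
      intro g hg w
      have h1 := congrArg (fun z : LinearMap.range (valLin S) => (z : S → ℤ) w) hg
      simp only [b, Submodule.coe_sum, Submodule.coe_smul, Finset.sum_apply, Pi.smul_apply,
        smul_eq_mul, Submodule.coe_zero, Pi.zero_apply] at h1
      rw [Finset.sum_eq_single w] at h1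
      · rcases mul_eq_zero.mp h1 with h | h
        · exact h
        · exact absurd h (hne w)
      · intro v _ hvw
        rw [hzero v w (Ne.symm hvw), mul_zero]
      · intro hw
        exact absurd (Finset.mem_univ w) hw
    have := hli.fintype_card_le_finrank
    rwa [Fintype.card_coe] at this

/-- [SI-U] (a): the group of `S`-units is finitely generated. -/
theorem sUnit_finite (S : Finset (Pl F)) :
    Module.Finite ℤ (Additive ((S : Set (Pl F)).unit F)) := by
  have h1 : Module.Finite ℤ (LinearMap.ker (valLin S)) := by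
    rw [← range_unitLin]
    infer_instance
  have h2 : Module.Finite ℤ (Additive ((S : Set (Pl F)).unit F) ⧸ LinearMap.ker (valLin S)) :=
    Module.Finite.equiv (valLin S).quotKerEquivRange.symm
  exact Module.Finite.of_submodule_quotient (LinearMap.ker (valLin S))

/-- [SI-U] (b): the rank of the group of `S`-units is `rank(units) + |S|`. -/
theorem sUnit_finrank (S : Finset (Pl F)) :
    Module.finrank ℤ (Additive ((S : Set (Pl F)).unit F)) = NumberField.Units.rank F + S.card := by
  have hfin := sUnit_finite S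
  have h := Submodule.finrank_quotient_add_finrank (LinearMap.ker (valLin S))
  rw [LinearEquiv.finrank_eq (valLin S).quotKerEquivRange, finrank_range_valLin,
    ← range_unitLin, LinearMap.finrank_range_of_inj (unitLin_injective S),
    NumberField.Units.finrank_eq] at h
  omega

end Fermat.Agent.S14C.SUnit
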