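import Fermat.Agent.S14C.SI.Defs
import Fermat.Agent.S14C.SI.Plan
import Fermat.Agent.S14C.SI.SUnit
import Fermat.Agent.S14C.HerbrandB

/-!
# S14C / SI : [SI-HqU] the Herbrand quotient of the `S`-units (owner: helper73)

`N/F` Galois of prime degree `p` (`p` odd, `ζ_p ∈ F`), `σ` a generator of the Galois group,
`S` a finite set of primes of `F`, `SN` the set of all primes of `N` above `S`,
`E = (SN : Set (Pl N)).unit N`, `nm x = ∏_{j<p} σ^j x`, `dm x = σ x / x` on `E`.  If
`SN.card + (p - 1) * i = p * S.card` (all primes of `S` have `p` or `1` primes above, `i` of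
them exactly one), then

`[ker dm : nm E] * p = p ^ i * [ker nm : dm E]`, both indices finite,

and `ker dm` is the image of the `S`-units of `F`.

Main exports: `sUnit_herbrand` (helper29's statement, verbatim), `sUnitHerbrand :
SIPlan.SUnitHerbrand`, the `σ`-action `sAct hSN σ` on `E`, the homomorphisms `nmHom`, `dmHom`,
and the transport lemmas `valuation_pb`, `sigma_mem`, `algebraMap_mem_iff`.
-/

set_option autoImplicit false

namespace Fermat.Agent.S14C.SUnitHerbrand

open IsDedekindDomain NumberField Fermat.Agent.S14C.SIDefs WithZero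

section Transport

/-- Order lemma in `ℤᵐ⁰`. -/
theorem le_of_forall_exp {x y : ℤᵐ⁰} (hx : x ≤ 1)
    (h : ∀ n : ℕ, x ≤ exp (-(n : ℤ)) → y ≤ exp (-(n : ℤ))) : y ≤ x := by
  rcases eq_or_ne x 0 with rfl | hx0
  · by_contra hy
    have hy0 : y ≠ 0 := fun h0 => hy (h0 ▸ le_rfl)
    have h1 := h ((- log y).toNat + 1) zero_le
    have h2 : exp (log y) ≤ exp (-(((- log y).toNat + 1 : ℕ) : ℤ)) := by
      rw [exp_log hy0]; exact h1
    rw [exp_le_exp] at h2
    have := Int.self_le_toNat (- log y)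
    push_cast at h2
    omega
  · have hk : log x ≤ 0 := by
      rw [← exp_log hx0, ← exp_zero, exp_le_exp] at hx; exact hx
    have h2 : (((- log x).toNat : ℕ) : ℤ) = - log x := Int.toNat_of_nonneg (by omega)
    have := h (- log x).toNat (by rw [h2, neg_neg, exp_log hx0])
    rwa [h2, neg_neg, exp_log hx0] at this

variable {N : Type} [Field N] [NumberField N]

/-- The pull-back of a prime along a ring automorphism of the ring of integers. -/
noncomputable abbrev pb (e : 𝓞 N ≃+* 𝓞 N) (w : Pl N) : Pl N :=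
  HeightOneSpectrum.comap (e : 𝓞 N →+* 𝓞 N) e.surjective w

theorem intValuation_pb (e : 𝓞 N ≃+* 𝓞 N) (w : Pl N) (a : 𝓞 N) :
    (pb e w).intValuation a = w.intValuation (e a) := by
  have key : ∀ n : ℕ, a ∈ (pb e w).asIdeal ^ n ↔ e a ∈ w.asIdeal ^ n := by
    intro n
    show a ∈ (Ideal.comap (e : 𝓞 N →+* 𝓞 N) w.asIdeal) ^ n ↔ _
    have h1 : Ideal.comap (e : 𝓞 N →+* 𝓞 N) w.asIdeal
        = Ideal.map (e.symm : 𝓞 N →+* 𝓞 N) w.asIdeal :=
      (Ideal.map_comap_of_equiv e.symm).symm
    rw [h1, ← Ideal.map_pow, Ideal.map_comap_of_equiv e.symm, Ideal.mem_comap]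
    rfl
  apply le_antisymm
  · apply le_of_forall_exp (w.intValuation_le_one _)
    intro n hn
    rw [HeightOneSpectrum.intValuation_le_pow_iff_mem] at hn ⊢
    exact (key n).mpr hn
  · apply le_of_forall_exp (HeightOneSpectrum.intValuation_le_one _ _)
    intro n hn
    rw [HeightOneSpectrum.intValuation_le_pow_iff_mem] at hn ⊢
    exact (key n).mp hn

theorem valuation_pb (σ : N ≃+* N) (w : Pl N) (x : N) :
    (pb (RingOfIntegers.mapRingEquiv σ) w).valuation N x = w.valuation N (σ x) := by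
  obtain ⟨a, b, hb, rfl⟩ := IsFractionRing.div_surjective (A := 𝓞 N) x
  have ha' : ∀ c : 𝓞 N, σ (algebraMap (𝓞 N) N c)
      = algebraMap (𝓞 N) N (RingOfIntegers.mapRingEquiv σ c) := fun c => rfl
  rw [map_div₀, map_div₀ σ, map_div₀, ha', ha']
  simp only [HeightOneSpectrum.valuation_of_algebraMap, intValuation_pb]

end Transport

section Galois

variable {F N : Type} [Field F] [NumberField F] [Field N] [NumberField N] [Algebra F N]

omit [NumberField F] [NumberField N] in
theorem mapRingEquiv_algebraMap (σ : N ≃ₐ[F] N) (a : 𝓞 F) :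
    RingOfIntegers.mapRingEquiv (σ : N ≃+* N) (algebraMap (𝓞 F) (𝓞 N) a)
      = algebraMap (𝓞 F) (𝓞 N) a := by
  apply RingOfIntegers.ext
  show σ (algebraMap F N (a : F)) = algebraMap F N (a : F)
  exact σ.commutes _

variable {S : Finset (Pl F)} {SN : Finset (Pl N)}

theorem pb_notMem
    (hSN : ∀ w : Pl N, w ∈ SN ↔
      ∃ v ∈ S, w.asIdeal.comap (algebraMap (𝓞 F) (𝓞 N)) = v.asIdeal)
    (σ : N ≃ₐ[F] N) {w : Pl N} (hw : w ∉ SN) :
    pb (RingOfIntegers.mapRingEquiv (σ : N ≃+* N)) w ∉ SN := by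
  intro h
  obtain ⟨v, hv, hvw⟩ := (hSN _).mp h
  refine hw ((hSN w).mpr ⟨v, hv, ?_⟩)
  rw [← hvw]
  ext a
  show algebraMap (𝓞 F) (𝓞 N) a ∈ w.asIdeal ↔
    RingOfIntegers.mapRingEquiv (σ : N ≃+* N) (algebraMap (𝓞 F) (𝓞 N) a) ∈ w.asIdeal
  rw [mapRingEquiv_algebraMap]

theorem sigma_mem
    (hSN : ∀ w : Pl N, w ∈ SN ↔
      ∃ v ∈ S, w.asIdeal.comap (algebraMap (𝓞 F) (𝓞 N)) = v.asIdeal)
    (σ : N ≃ₐ[F] N) {x : Nˣ} (hx : x ∈ (SN : Set (Pl N)).unit N) :
    Units.map ((σ : N ≃+* N) : N →* N) x ∈ (SN : Set (Pl N)).unit N := by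
  intro w hw
  have hw' : w ∉ SN := fun h => hw (Finset.mem_coe.mpr h)
  have h1 := hx (pb (RingOfIntegers.mapRingEquiv (σ : N ≃+* N)) w)
    (fun h => pb_notMem hSN σ hw' (Finset.mem_coe.mp h))
  rw [valuation_pb] at h1
  exact h1

/-- The action of `σ` on the `SN`-units. -/
noncomputable def sAct
    (hSN : ∀ w : Pl N, w ∈ SN ↔
      ∃ v ∈ S, w.asIdeal.comap (algebraMap (𝓞 F) (𝓞 N)) = v.asIdeal)
    (σ : N ≃ₐ[F] N) : (SN : Set (Pl N)).unit N →* (SN : Set (Pl N)).unit N :=
  MonoidHom.codRestrict ((Units.map ((σ : N ≃+* N) : N →* N)).comp (Subgroup.subtype _)) _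
    (fun x => sigma_mem hSN σ x.2)

theorem sAct_val
    (hSN : ∀ w : Pl N, w ∈ SN ↔
      ∃ v ∈ S, w.asIdeal.comap (algebraMap (𝓞 F) (𝓞 N)) = v.asIdeal)
    (σ : N ≃ₐ[F] N) (x : (SN : Set (Pl N)).unit N) :
    ((sAct hSN σ x : Nˣ) : N) = σ ((x : Nˣ) : N) := rfl

/-- `F`-units which are `S`-units map to `SN`-units, and conversely. -/
theorem algebraMap_mem_iff
    (hSN : ∀ w : Pl N, w ∈ SN ↔
      ∃ v ∈ S, w.asIdeal.comap (algebraMap (𝓞 F) (𝓞 N)) = v.asIdeal)
    (u : Fˣ) :
    Units.map (algebraMap F N : F →* N) u ∈ (SN : Set (Pl N)).unit N ↔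
      u ∈ (S : Set (Pl F)).unit F := by
  constructor
  · intro hu v hv
    have hv' : v ∉ S := fun h => hv (Finset.mem_coe.mpr h)
    obtain ⟨Q, hQ, hQv⟩ := Ideal.exists_ideal_over_prime_of_isIntegral_of_isDomain v.asIdeal
      (S := 𝓞 N) (by
        rw [(RingHom.injective_iff_ker_eq_bot _).mp
          (FaithfulSMul.algebraMap_injective (𝓞 F) (𝓞 N))]
        exact bot_le)
    have hQ0 : Q ≠ ⊥ := by
      rintro rfl
      apply v.ne_bot
      rw [← hQv]
      exact (RingHom.injective_iff_ker_eq_bot _).mp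
          (FaithfulSMul.algebraMap_injective (𝓞 F) (𝓞 N))
    let w : Pl N := ⟨Q, hQ, hQ0⟩
    have hw : w ∉ SN := by
      intro h
      obtain ⟨v', hv'S, hv'w⟩ := (hSN w).mp h
      have : v' = v := HeightOneSpectrum.ext (hv'w.symm.trans hQv)
      exact hv' (this ▸ hv'S)
    have h1 := hu w (fun h => hw (Finset.mem_coe.mp h))
    have : w.asIdeal.LiesOver v.asIdeal := ⟨hQv.symm⟩
    have h2 := HeightOneSpectrum.valuation_liesOver N v w (u : F)
    rw [show w.valuation N (algebraMap F N (u : F)) = 1 from h1] at h2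
    exact (pow_eq_one_iff.mp h2).resolve_right
      (Ideal.IsDedekindDomain.ramificationIdx'_ne_zero_of_liesOver w.asIdeal v.ne_bot)
  · intro hu w hw
    have hw' : w ∉ SN := fun h => hw (Finset.mem_coe.mpr h)
    let v : Pl F := HeightOneSpectrum.under (𝓞 F) w
    have hv : v ∉ S := fun h => hw' ((hSN w).mpr ⟨v, h, rfl⟩)
    have h1 := hu v (fun h => hv (Finset.mem_coe.mp h))
    have : w.asIdeal.LiesOver v.asIdeal := ⟨rfl⟩
    have h2 := HeightOneSpectrum.valuation_liesOver N v w (u : F)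
    rw [h1, one_pow] at h2
    exact h2.symm

end Galois

section Main

variable {F N : Type} [Field F] [NumberField F] [Field N] [NumberField N] [Algebra F N]

/-- `ζ_p ∈ F`, `p` odd: `F` is totally complex. -/
theorem rank_of_zeta {p : ℕ} [Fact p.Prime] (hp2 : p ≠ 2) {ζ : F} (hζ : IsPrimitiveRoot ζ p) :
    2 * (NumberField.Units.rank F + 1) = Module.finrank ℚ F := by
  have h3 : 2 < p := lt_of_le_of_ne (Fact.out : p.Prime).two_le (Ne.symm hp2)
  have h0 := NumberField.InfinitePlace.IsPrimitiveRoot.nrRealPlaces_eq_zero_of_two_lt h3 hζ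
  have h1 := NumberField.InfinitePlace.card_add_two_mul_card_eq_rank F
  have h2 := NumberField.InfinitePlace.card_eq_nrRealPlaces_add_nrComplexPlaces F
  have h4 : 0 < Fintype.card (NumberField.InfinitePlace F) := Fintype.card_pos
  unfold NumberField.Units.rank
  rw [h0] at h1 h2
  omega

variable {S : Finset (Pl F)} {SN : Finset (Pl N)}

/-- The coordinate map `E → N`. -/
noncomputable def valHom : (SN : Set (Pl N)).unit N →* N :=
  (Units.coeHom N).comp (Subgroup.subtype _)

theorem valHom_apply (x : (SN : Set (Pl N)).unit N) : valHom x = ((x : Nˣ) : N) := rfl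

theorem valHom_injective : Function.Injective (valHom (SN := SN)) := by
  intro x y h
  exact Subtype.ext (Units.ext h)

/-- S-unit Herbrand identity, with the two [SI-U] facts as hypotheses. -/
theorem sUnit_herbrand_of [IsGalois F N] {p : ℕ} [Fact p.Prime] (hp2 : p ≠ 2) {ζ : F}
    (hζ : IsPrimitiveRoot ζ p) (hdeg : Module.finrank F N = p) (σ : N ≃ₐ[F] N) (hσ : σ ≠ 1)
    (S : Finset (Pl F)) (SN : Finset (Pl N))
    (hSN : ∀ w : Pl N, w ∈ SN ↔
      ∃ v ∈ S, w.asIdeal.comap (algebraMap (𝓞 F) (𝓞 N)) = v.asIdeal)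
    (hfinN : Module.Finite ℤ (Additive ((SN : Set (Pl N)).unit N)))
    (hrkN : Module.finrank ℤ (Additive ((SN : Set (Pl N)).unit N))
      = NumberField.Units.rank N + SN.card)
    (hrkF : Module.finrank ℤ (Additive ((S : Set (Pl F)).unit F))
      = NumberField.Units.rank F + S.card)
    (i : ℕ) (hi : SN.card + (p - 1) * i = p * S.card)
    (nm dm : (SN : Set (Pl N)).unit N →* (SN : Set (Pl N)).unit N)
    (hnm : ∀ x, ((nm x : Nˣ) : N) = ∏ j ∈ Finset.range p, (σ ^ j) ((x : Nˣ) : N))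
    (hdm : ∀ x, ((dm x : Nˣ) : N) = σ ((x : Nˣ) : N) / ((x : Nˣ) : N)) :
    nm.range.relIndex dm.ker ≠ 0 ∧ dm.range.relIndex nm.ker ≠ 0 ∧
      nm.range.relIndex dm.ker * p = p ^ i * dm.range.relIndex nm.ker ∧
      (∀ x : (SN : Set (Pl N)).unit N, x ∈ dm.ker ↔
        ∃ u : Fˣ, u ∈ (S : Set (Pl F)).unit F ∧ algebraMap F N (u : F) = ((x : Nˣ) : N)) := by
  classical
  have hp : p.Prime := Fact.out
  have : FiniteDimensional F N := Module.finite_of_finrank_pos (by rw [hdeg]; exact hp.pos)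
  have hcard : Nat.card (N ≃ₐ[F] N) = p := by rw [IsGalois.card_aut_eq_finrank, hdeg]
  have hσp : σ ^ p = 1 := by rw [← hcard]; exact pow_card_eq_one'
  have hgen : Subgroup.zpowers σ = ⊤ := zpowers_eq_top_of_prime_card hcard hσ
  -- elements fixed by `σ` lie in `F`
  have hfix : ∀ y : N, σ y = y → ∃ z : F, algebraMap F N z = y := by
    intro y hy
    have hall : ∀ g : N ≃ₐ[F] N, g y = y := by
      intro g
      have hg : g ∈ Subgroup.zpowers σ := by rw [hgen]; trivial
      have hle : Subgroup.zpowers σ ≤ MulAction.stabilizer (N ≃ₐ[F] N) y := by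
        rw [Subgroup.zpowers_le]; exact hy
      exact hle hg
    exact (IsGalois.mem_range_algebraMap_iff_fixed y).mpr hall
  -- the kernel of `dm`
  have hker : ∀ x : (SN : Set (Pl N)).unit N, x ∈ dm.ker ↔
        ∃ u : Fˣ, u ∈ (S : Set (Pl F)).unit F ∧ algebraMap F N (u : F) = ((x : Nˣ) : N) := by
    intro x
    have hx0 : ((x : Nˣ) : N) ≠ 0 := Units.ne_zero _
    rw [MonoidHom.mem_ker]
    constructor
    · intro h
      have h1 : σ ((x : Nˣ) : N) = ((x : Nˣ) : N) := by
        have h2 := hdm x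
        rw [h] at h2
        exact (div_eq_one_iff_eq hx0).mp h2.symm
      obtain ⟨z, hz⟩ := hfix _ h1
      have hz0 : z ≠ 0 := by rintro rfl; rw [map_zero] at hz; exact hx0 hz.symm
      refine ⟨Units.mk0 z hz0, ?_, hz⟩
      rw [← algebraMap_mem_iff hSN]
      have h3 : Units.map (algebraMap F N : F →* N) (Units.mk0 z hz0) = (x : Nˣ) := Units.ext hz
      rw [h3]; exact x.2
    · rintro ⟨u, hu, hux⟩
      apply valHom_injective
      rw [valHom_apply, hdm, ← hux, σ.commutes, div_self (by rw [hux]; exact hx0)]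
      rfl
  -- additive side
  let τ : Additive ((SN : Set (Pl N)).unit N) →ₗ[ℤ] Additive ((SN : Set (Pl N)).unit N) :=
    (MonoidHom.toAdditive (sAct hSN σ)).toIntLinearMap
  have hτ1 : ∀ a : Additive ((SN : Set (Pl N)).unit N),
      valHom (τ a).toMul = σ (valHom a.toMul) := fun a => rfl
  have hτj : ∀ (j : ℕ) (a : Additive ((SN : Set (Pl N)).unit N)),
      valHom ((τ ^ j) a).toMul = (σ ^ j) (valHom a.toMul) := by
    intro j
    induction j with
    | zero => intro a; simp
    | succ j ih =>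
      intro a
      rw [pow_succ', Module.End.mul_apply, hτ1, ih, pow_succ', AlgEquiv.mul_apply]
  have hτp : τ ^ p = 1 := by
    apply LinearMap.ext
    intro a
    apply Additive.toMul.injective
    apply valHom_injective
    rw [hτj, hσp]
    rfl
  have hN : ∀ a : Additive ((SN : Set (Pl N)).unit N),
      (∑ j ∈ Finset.range p, τ ^ j) a = Additive.ofMul (nm a.toMul) := by
    intro a
    apply Additive.toMul.injective
    apply valHom_injective
    rw [LinearMap.sum_apply, toMul_sum, map_prod, toMul_ofMul, valHom_apply (nm _), hnm]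
    exact Finset.prod_congr rfl (fun j _ => hτj j a)
  have hD : ∀ a : Additive ((SN : Set (Pl N)).unit N),
      (τ - 1) a = Additive.ofMul (dm a.toMul) := by
    intro a
    apply Additive.toMul.injective
    apply valHom_injective
    rw [LinearMap.sub_apply, Module.End.one_apply, toMul_sub, map_div, hτ1, toMul_ofMul,
      valHom_apply (dm _), hdm]
    rfl
  have eRN : (LinearMap.range (∑ j ∈ Finset.range p, τ ^ j)).toAddSubgroup
      = Subgroup.toAddSubgroup nm.range := by
    ext a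
    constructor
    · rintro ⟨b, rfl⟩
      exact ⟨b.toMul, congrArg Additive.toMul (hN b).symm⟩
    · rintro ⟨y, hy⟩
      exact ⟨Additive.ofMul y, (hN _).trans (congrArg Additive.ofMul hy)⟩
  have eRD : (LinearMap.range (τ - 1)).toAddSubgroup = Subgroup.toAddSubgroup dm.range := by
    ext a
    constructor
    · rintro ⟨b, rfl⟩
      exact ⟨b.toMul, congrArg Additive.toMul (hD b).symm⟩
    · rintro ⟨y, hy⟩
      exact ⟨Additive.ofMul y, (hD _).trans (congrArg Additive.ofMul hy)⟩
  have eKN : (LinearMap.ker (∑ j ∈ Finset.range p, τ ^ j)).toAddSubgroup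
      = Subgroup.toAddSubgroup nm.ker := by
    ext a
    constructor
    · intro h
      have h1 : (∑ j ∈ Finset.range p, τ ^ j) a = 0 := h
      rw [hN] at h1
      exact congrArg Additive.toMul h1
    · intro h
      have h1 : nm a.toMul = 1 := h
      show (∑ j ∈ Finset.range p, τ ^ j) a = 0
      rw [hN, h1]
      rfl
  have eKD : (LinearMap.ker (τ - 1)).toAddSubgroup = Subgroup.toAddSubgroup dm.ker := by
    ext a
    constructor
    · intro h
      have h1 : (τ - 1) a = 0 := h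
      rw [hD] at h1
      exact congrArg Additive.toMul h1
    · intro h
      have h1 : dm a.toMul = 1 := h
      show (τ - 1) a = 0
      rw [hD, h1]
      rfl
  -- rank of the invariants
  let incl : (S : Set (Pl F)).unit F →* (SN : Set (Pl N)).unit N :=
    MonoidHom.codRestrict ((Units.map (algebraMap F N : F →* N)).comp (Subgroup.subtype _)) _
      (fun u => (algebraMap_mem_iff hSN u.1).mpr u.2)
  let iL : Additive ((S : Set (Pl F)).unit F) →ₗ[ℤ] Additive ((SN : Set (Pl N)).unit N) :=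
    (MonoidHom.toAdditive incl).toIntLinearMap
  have hiLval : ∀ b : Additive ((S : Set (Pl F)).unit F),
      valHom (iL b).toMul = algebraMap F N (((b.toMul : (S : Set (Pl F)).unit F) : Fˣ) : F) :=
    fun b => rfl
  have hiL : Function.Injective iL := by
    intro a b h
    have h1 : valHom (iL a).toMul = valHom (iL b).toMul := by rw [h]
    rw [hiLval, hiLval] at h1
    apply Additive.toMul.injective
    apply Subtype.ext
    apply Units.ext
    exact (algebraMap F N).injective h1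
  have hrange : LinearMap.range iL = LinearMap.ker (τ - 1) := by
    ext a
    rw [LinearMap.mem_ker, hD]
    constructor
    · rintro ⟨b, rfl⟩
      have h1 : (iL b).toMul ∈ dm.ker := (hker _).mpr ⟨b.toMul.1, b.toMul.2, rfl⟩
      rw [MonoidHom.mem_ker] at h1
      rw [h1]
      rfl
    · intro h
      have h1 : a.toMul ∈ dm.ker := by
        rw [MonoidHom.mem_ker]
        exact congrArg Additive.toMul h
      obtain ⟨u, hu, hux⟩ := (hker _).mp h1
      refine ⟨Additive.ofMul ⟨u, hu⟩, ?_⟩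
      apply Additive.toMul.injective
      apply valHom_injective
      exact hux
  have hrk : Module.finrank ℤ (LinearMap.ker (τ - 1)) = NumberField.Units.rank F + S.card := by
    rw [← hrange, LinearMap.finrank_range_of_inj hiL, hrkF]
  -- Herbrand
  obtain ⟨hdvd, hX, hY, hXY⟩ := HerbrandB.herbrand_prime' hp τ hτp
  rw [eRN, eKD, Subgroup.relIndex_toAddSubgroup] at hX
  rw [eRD, eKN, Subgroup.relIndex_toAddSubgroup] at hY
  rw [eRN, eKD, eRD, eKN, Subgroup.relIndex_toAddSubgroup, Subgroup.relIndex_toAddSubgroup,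
    hrk, hrkN] at hXY
  rw [hrk, hrkN] at hdvd
  have hle : Module.finrank ℤ (LinearMap.ker (τ - 1))
      ≤ Module.finrank ℤ (Additive ((SN : Set (Pl N)).unit N)) := Submodule.finrank_le _
  rw [hrk, hrkN] at hle
  have hζN : IsPrimitiveRoot (algebraMap F N ζ) p :=
    hζ.map_of_injective (algebraMap F N).injective
  have hF := rank_of_zeta hp2 hζ
  have hNr := rank_of_zeta hp2 hζN
  have hmul := Module.finrank_mul_finrank ℚ F N
  rw [hdeg] at hmul
  obtain ⟨c, hc⟩ := hdvd
  obtain ⟨q, rfl⟩ : ∃ q, p = q + 1 := ⟨p - 1, by have := hp.two_le; omega⟩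
  have hq : 0 < q := by have := hp.two_le; omega
  rw [Nat.add_sub_cancel] at hc hi hXY
  have hc' : (NumberField.Units.rank N + SN.card - (NumberField.Units.rank F + S.card)) / q = c := by
    rw [hc]; exact Nat.mul_div_cancel_left c hq
  rw [hc'] at hXY
  have key : c + i = NumberField.Units.rank F + S.card + 1 := by
    have h2 : q * (c + i) = q * (NumberField.Units.rank F + S.card + 1) := by
      have e1 : q * c + (NumberField.Units.rank F + S.card)
          = NumberField.Units.rank N + SN.card := by omega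
      have e2 : NumberField.Units.rank N + 1 = (NumberField.Units.rank F + 1) * (q + 1) := by
        have : 2 * (NumberField.Units.rank N + 1)
            = 2 * ((NumberField.Units.rank F + 1) * (q + 1)) := by
          rw [hNr, ← hmul, ← hF]; ring
        omega
      nlinarith
    exact Nat.eq_of_mul_eq_mul_left hq h2
  have hfin : nm.range.relIndex dm.ker * (q + 1) * (q + 1) ^ (NumberField.Units.rank F + S.card)
      = (q + 1) ^ i * dm.range.relIndex nm.ker * (q + 1) ^ (NumberField.Units.rank F + S.card) := by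
    calc nm.range.relIndex dm.ker * (q + 1) * (q + 1) ^ (NumberField.Units.rank F + S.card)
        = nm.range.relIndex dm.ker * (q + 1) ^ (NumberField.Units.rank F + S.card + 1) := by ring
      _ = nm.range.relIndex dm.ker * (q + 1) ^ (c + i) := by rw [key]
      _ = (nm.range.relIndex dm.ker * (q + 1) ^ c) * (q + 1) ^ i := by ring
      _ = (dm.range.relIndex nm.ker * (q + 1) ^ (NumberField.Units.rank F + S.card))
            * (q + 1) ^ i := by rw [hXY]
      _ = (q + 1) ^ i * dm.range.relIndex nm.ker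
            * (q + 1) ^ (NumberField.Units.rank F + S.card) := by ring
  exact ⟨hX, hY, Nat.eq_of_mul_eq_mul_right (pow_pos (Nat.succ_pos q) _) hfin, hker⟩

end Main

/-- [SI-HqU] The Herbrand quotient of the `S_N`-units (helper29's statement). -/
theorem sUnit_herbrand {F N : Type} [Field F] [NumberField F] [Field N] [NumberField N]
    [Algebra F N] [IsGalois F N] {p : ℕ} [Fact p.Prime] (hp2 : p ≠ 2) {ζ : F}
    (hζ : IsPrimitiveRoot ζ p) (hdeg : Module.finrank F N = p) (σ : N ≃ₐ[F] N) (hσ : σ ≠ 1)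
    (S : Finset (Pl F)) (SN : Finset (Pl N))
    (hSN : ∀ w : Pl N, w ∈ SN ↔
      ∃ v ∈ S, w.asIdeal.comap (algebraMap (𝓞 F) (𝓞 N)) = v.asIdeal)
    (i : ℕ) (hi : SN.card + (p - 1) * i = p * S.card)
    (nm dm : (SN : Set (Pl N)).unit N →* (SN : Set (Pl N)).unit N)
    (hnm : ∀ x, ((nm x : Nˣ) : N) = ∏ j ∈ Finset.range p, (σ ^ j) ((x : Nˣ) : N))
    (hdm : ∀ x, ((dm x : Nˣ) : N) = σ ((x : Nˣ) : N) / ((x : Nˣ) : N)) :
    nm.range.relIndex dm.ker ≠ 0 ∧ dm.range.relIndex nm.ker ≠ 0 ∧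
      nm.range.relIndex dm.ker * p = p ^ i * dm.range.relIndex nm.ker ∧
      (∀ x : (SN : Set (Pl N)).unit N, x ∈ dm.ker ↔
        ∃ u : Fˣ, u ∈ (S : Set (Pl F)).unit F ∧ algebraMap F N (u : F) = ((x : Nˣ) : N)) :=
  sUnit_herbrand_of hp2 hζ hdeg σ hσ S SN hSN (Fermat.Agent.S14C.SUnit.sUnit_finite SN)
    (Fermat.Agent.S14C.SUnit.sUnit_finrank SN) (Fermat.Agent.S14C.SUnit.sUnit_finrank S)
    i hi nm dm hnm hdm

/-- The block `SIPlan.SUnitHerbrand`. -/
theorem sUnitHerbrand : Fermat.Agent.S14C.SIPlan.SUnitHerbrand := by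
  intro F N _ _ _ _ _ _ p _ hp2 ζ hζ hdeg σ hσ S SN hSN i hi nm dm hnm hdm
  exact sUnit_herbrand hp2 hζ hdeg σ hσ S SN hSN i hi nm dm hnm hdm

section Homs

variable {F N : Type} [Field F] [NumberField F] [Field N] [NumberField N] [Algebra F N]
variable {S : Finset (Pl F)} {SN : Finset (Pl N)}

/-- The norm homomorphism `x ↦ ∏_{j<p} σ^j x` on the `SN`-units. -/
noncomputable def nmHom
    (hSN : ∀ w : Pl N, w ∈ SN ↔
      ∃ v ∈ S, w.asIdeal.comap (algebraMap (𝓞 F) (𝓞 N)) = v.asIdeal)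
    (σ : N ≃ₐ[F] N) (p : ℕ) : (SN : Set (Pl N)).unit N →* (SN : Set (Pl N)).unit N :=
  ∏ j ∈ Finset.range p, sAct hSN (σ ^ j)

theorem nmHom_val
    (hSN : ∀ w : Pl N, w ∈ SN ↔
      ∃ v ∈ S, w.asIdeal.comap (algebraMap (𝓞 F) (𝓞 N)) = v.asIdeal)
    (σ : N ≃ₐ[F] N) (p : ℕ) (x : (SN : Set (Pl N)).unit N) :
    ((nmHom hSN σ p x : Nˣ) : N) = ∏ j ∈ Finset.range p, (σ ^ j) ((x : Nˣ) : N) := by
  rw [nmHom, MonoidHom.finsetProd_apply, ← valHom_apply, map_prod]
  rfl

/-- The homomorphism `x ↦ σ x / x` on the `SN`-units. -/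
noncomputable def dmHom
    (hSN : ∀ w : Pl N, w ∈ SN ↔
      ∃ v ∈ S, w.asIdeal.comap (algebraMap (𝓞 F) (𝓞 N)) = v.asIdeal)
    (σ : N ≃ₐ[F] N) : (SN : Set (Pl N)).unit N →* (SN : Set (Pl N)).unit N :=
  sAct hSN σ / MonoidHom.id _

theorem dmHom_val
    (hSN : ∀ w : Pl N, w ∈ SN ↔
      ∃ v ∈ S, w.asIdeal.comap (algebraMap (𝓞 F) (𝓞 N)) = v.asIdeal)
    (σ : N ≃ₐ[F] N) (x : (SN : Set (Pl N)).unit N) :
    ((dmHom hSN σ x : Nˣ) : N) = σ ((x : Nˣ) : N) / ((x : Nˣ) : N) := by
  rw [dmHom, MonoidHom.div_apply, ← valHom_apply, map_div]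
  rfl

end Homs

end Fermat.Agent.S14C.SUnitHerbrand
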