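import Fermat.Agent.S14C.SI.SUnitAbove
import Fermat.Agent.S14C.SI.GalPl
import Fermat.Agent.S14C.SI.SUnitHerbrand

/-!
# S14C / SI : Herbrand quotient of `S`-units, packing form

Bridge from the index form `SUnitHerbrand.sUnit_herbrand` (helper73) to the packing form
`ClaimBPlan.SUnitHerbrandStatement` consumed by the Claim B assembly: if every prime of `S`
splits completely in the cyclic extension `N/F` of degree `p`, then `p * |Ĥ⁰| ≤ |H¹|` for the
`S`-units of `N`.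
-/

set_option autoImplicit false
set_option linter.unusedSectionVars false

namespace Fermat.Agent.S14C.HerbrandBridge

open IsDedekindDomain NumberField Fermat.Agent.S14C.SIDefs Fermat.Agent.S14C.ClaimBPlan
open Fermat.Agent.S14C.OrdBasic Fermat.Agent.S14C.SUnitAbove Fermat.Agent.S14C.SUnitHerbrand

variable {F : Type} [Field F] [NumberField F] {N : Type} [Field N] [NumberField N] [Algebra F N]

/-- Membership in the `SN`-units, in terms of `IsSUnitAbove`. -/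
theorem mem_unit_iff_isSUnitAbove (S : Finset (Pl F)) (SN : Finset (Pl N))
    (hSN : ∀ w : Pl N, w ∈ SN ↔
      ∃ v ∈ S, w.asIdeal.comap (algebraMap (𝓞 F) (𝓞 N)) = v.asIdeal) (x : Nˣ) :
    x ∈ (SN : Set (Pl N)).unit N ↔ IsSUnitAbove S (x : N) := by
  obtain ⟨-, -, hG3, -, hG5, -, -⟩ := Fermat.Agent.S14C.GalPl.galStatement F N
  rw [mem_unit_iff]
  constructor
  · intro h
    refine ⟨x.ne_zero, fun w v hwv hv => h w ?_⟩
    intro hw
    obtain ⟨v', hv', hwv'⟩ := (hSN w).mp (Finset.mem_coe.mp hw)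
    exact hv (hG5 w v' v hwv' hwv ▸ hv')
  · intro h w hw
    obtain ⟨v, hwv⟩ := hG3 w
    exact h.2 w v hwv (fun hv => hw (Finset.mem_coe.mpr ((hSN w).mpr ⟨v, hv, hwv⟩)))

/-- For a generator `τ` of the Galois group of prime order `p`: `∏_{j<p} τ^j x = N(x)`. -/
theorem prod_pow_eq_norm [IsGalois F N] {p : ℕ} [Fact p.Prime] (hdeg : Module.finrank F N = p)
    (τ : N ≃ₐ[F] N) (hτ : τ ≠ 1) (x : N) :
    ∏ j ∈ Finset.range p, (τ ^ j) x = algebraMap F N (Algebra.norm F x) := by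
  classical
  have hpp : p.Prime := Fact.out
  have hfd : FiniteDimensional F N := Module.finite_of_finrank_pos (by rw [hdeg]; exact hpp.pos)
  have hcard : Nat.card (N ≃ₐ[F] N) = p := by rw [IsGalois.card_aut_eq_finrank, hdeg]
  have hord : orderOf τ = p := by
    rw [← hcard]
    exact orderOf_eq_card_of_forall_mem_zpowers (fun σ => mem_zpowers_of_prime_card hcard hτ)
  have himg : (Finset.range p).image (fun j => τ ^ j) = Finset.univ := by
    ext σ
    simp only [Finset.mem_image, Finset.mem_range, Finset.mem_univ, iff_true]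
    obtain ⟨k, hk⟩ := (Submonoid.mem_powers_iff σ τ).mp (mem_powers_of_prime_card hcard hτ)
    refine ⟨k % p, Nat.mod_lt _ hpp.pos, ?_⟩
    rw [← hk, ← hord, pow_mod_orderOf]
  rw [Algebra.norm_eq_prod_automorphisms, ← himg, Finset.prod_image]
  intro i hi j hj hij
  have hi' : i ∈ Set.Iio (orderOf τ) := by
    rw [hord]; exact Finset.mem_range.mp hi
  have hj' : j ∈ Set.Iio (orderOf τ) := by
    rw [hord]; exact Finset.mem_range.mp hj
  exact pow_injOn_Iio_orderOf hi' hj' hij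

/-- Part (A): `m ≤ |Ĥ⁰|`. -/
theorem le_relIndex_of_units [IsGalois F N] {p : ℕ} [Fact p.Prime]
    (hdeg : Module.finrank F N = p) (S : Finset (Pl F)) (SN : Finset (Pl N))
    (hSN : ∀ w : Pl N, w ∈ SN ↔
      ∃ v ∈ S, w.asIdeal.comap (algebraMap (𝓞 F) (𝓞 N)) = v.asIdeal)
    (τ : N ≃ₐ[F] N) (hτ : τ ≠ 1)
    (nm dm : (SN : Set (Pl N)).unit N →* (SN : Set (Pl N)).unit N)
    (hnmv : ∀ x, ((nm x : Nˣ) : N) = ∏ j ∈ Finset.range p, (τ ^ j) ((x : Nˣ) : N))
    (h0ne : nm.range.relIndex dm.ker ≠ 0)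
    (hker : ∀ x : (SN : Set (Pl N)).unit N, x ∈ dm.ker ↔
      ∃ y : Fˣ, y ∈ (S : Set (Pl F)).unit F ∧ algebraMap F N (y : F) = ((x : Nˣ) : N))
    (m : ℕ) (u : Fin m → F) (hu0 : ∀ i, u i ≠ 0)
    (huS : ∀ i, ∀ v : Pl F, v ∉ S → ord v (u i) = 0)
    (hu : ∀ i j, i ≠ j → ¬ ∃ x : N, IsSUnitAbove S x ∧ Algebra.norm F x = u i / u j) :
    m ≤ nm.range.relIndex dm.ker := by
  classical
  have huU : ∀ i, Units.mk0 (u i) (hu0 i) ∈ (S : Set (Pl F)).unit F := by
    intro i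
    rw [mem_unit_iff]
    intro v hv
    exact huS i v (fun h => hv (Finset.mem_coe.mpr h))
  let eE : Fin m → (SN : Set (Pl N)).unit N := fun i =>
    ⟨Units.map (algebraMap F N : F →* N) (Units.mk0 (u i) (hu0 i)),
      (algebraMap_mem_iff hSN _).mpr (huU i)⟩
  have heE : ∀ i, ((eE i : Nˣ) : N) = algebraMap F N (u i) := fun i => rfl
  have hmem : ∀ i, eE i ∈ dm.ker := fun i =>
    (hker (eE i)).mpr ⟨Units.mk0 (u i) (hu0 i), huU i, rfl⟩
  let φ : Fin m → dm.ker ⧸ (nm.range.subgroupOf dm.ker) := fun i =>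
    QuotientGroup.mk ⟨eE i, hmem i⟩
  have hφ : Function.Injective φ := by
    intro i j hij
    by_contra hne
    have h1 : (⟨eE i, hmem i⟩ : dm.ker)⁻¹ * ⟨eE j, hmem j⟩ ∈ nm.range.subgroupOf dm.ker :=
      QuotientGroup.eq.mp hij
    rw [Subgroup.mem_subgroupOf] at h1
    obtain ⟨x, hx⟩ := h1
    have hxN : ((nm x : Nˣ) : N) = algebraMap F N (u j / u i) := by
      rw [hx]
      have h2 : ((((⟨eE i, hmem i⟩ : dm.ker)⁻¹ * ⟨eE j, hmem j⟩ : dm.ker) :
          (SN : Set (Pl N)).unit N) : Nˣ) = (eE i : Nˣ)⁻¹ * (eE j : Nˣ) := rfl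
      rw [h2, Units.val_mul, Units.val_inv_eq_inv_val, heE, heE, map_div₀, div_eq_mul_inv,
        mul_comm]
    rw [hnmv, prod_pow_eq_norm hdeg τ hτ] at hxN
    have hxn : Algebra.norm F ((x : Nˣ) : N) = u j / u i :=
      (algebraMap F N).injective hxN
    exact hu j i (fun h => hne h.symm)
      ⟨_, (mem_unit_iff_isSUnitAbove S SN hSN x).mp x.2, hxn⟩
  have hfin : (nm.range.subgroupOf dm.ker).FiniteIndex := ⟨h0ne⟩
  have h3 := Nat.card_le_card_of_injective φ hφ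
  rw [Nat.card_fin] at h3
  exact h3

/-- Part (B): `|H¹| ≤ n`. -/
theorem relIndex_le_of_pigeonhole [IsGalois F N] {p : ℕ} [Fact p.Prime]
    (hdeg : Module.finrank F N = p) (S : Finset (Pl F)) (SN : Finset (Pl N))
    (hSN : ∀ w : Pl N, w ∈ SN ↔
      ∃ v ∈ S, w.asIdeal.comap (algebraMap (𝓞 F) (𝓞 N)) = v.asIdeal)
    (τ : N ≃ₐ[F] N) (hτ : τ ≠ 1)
    (nm dm : (SN : Set (Pl N)).unit N →* (SN : Set (Pl N)).unit N)
    (hnmv : ∀ x, ((nm x : Nˣ) : N) = ∏ j ∈ Finset.range p, (τ ^ j) ((x : Nˣ) : N))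
    (hdmv : ∀ x, ((dm x : Nˣ) : N) = τ ((x : Nˣ) : N) / ((x : Nˣ) : N))
    (h1ne : dm.range.relIndex nm.ker ≠ 0)
    (n : ℕ)
    (hB : ∀ ε : Fin (n + 1) → N, (∀ i, IsSUnitAbove S (ε i)) →
      (∀ i, Algebra.norm F (ε i) = 1) →
      ∃ i j, i ≠ j ∧ ∃ η : N, IsSUnitAbove S η ∧ ε i / ε j = τ η / η) :
    dm.range.relIndex nm.ker ≤ n := by
  classical
  by_contra hlt
  have hlt' : n + 1 ≤ dm.range.relIndex nm.ker := Nat.lt_of_not_ge hlt
  have hfin : (dm.range.subgroupOf nm.ker).FiniteIndex := ⟨h1ne⟩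
  have hQfin : Finite (nm.ker ⧸ (dm.range.subgroupOf nm.ker)) := inferInstance
  have hcardQ : Nat.card (Fin (n + 1)) ≤ Nat.card (nm.ker ⧸ (dm.range.subgroupOf nm.ker)) := by
    rw [Nat.card_fin]
    exact hlt'
  obtain ⟨g, hg⟩ : ∃ g : Fin (n + 1) → nm.ker ⧸ (dm.range.subgroupOf nm.ker),
      Function.Injective g := by
    let _ : Fintype (nm.ker ⧸ (dm.range.subgroupOf nm.ker)) := Fintype.ofFinite _
    have := (Function.Embedding.nonempty_iff_card_le (α := Fin (n + 1))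
      (β := nm.ker ⧸ (dm.range.subgroupOf nm.ker))).mpr
      (by
        rw [← Nat.card_eq_fintype_card, ← Nat.card_eq_fintype_card]
        exact hcardQ)
    obtain ⟨g⟩ := this
    exact ⟨g, g.injective⟩
  let e : Fin (n + 1) → nm.ker := fun i => (g i).out
  have he : ∀ i, (QuotientGroup.mk (e i) : nm.ker ⧸ (dm.range.subgroupOf nm.ker)) = g i :=
    fun i => QuotientGroup.out_eq' (g i)
  let ε : Fin (n + 1) → N := fun i => (((e i : (SN : Set (Pl N)).unit N) : Nˣ) : N)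
  have hεS : ∀ i, IsSUnitAbove S (ε i) := fun i =>
    (mem_unit_iff_isSUnitAbove S SN hSN _).mp (e i).1.2
  have hεn : ∀ i, Algebra.norm F (ε i) = 1 := by
    intro i
    have h1 : nm (e i).1 = 1 := (e i).2
    have h2 : ((nm (e i).1 : Nˣ) : N) = 1 := by rw [h1]; rfl
    rw [hnmv, prod_pow_eq_norm hdeg τ hτ] at h2
    exact (algebraMap F N).injective (by rw [h2, map_one])
  obtain ⟨i, j, hij, η, hηS, hη⟩ := hB ε hεS hεn
  let ηE : (SN : Set (Pl N)).unit N :=
    ⟨Units.mk0 η hηS.1, (mem_unit_iff_isSUnitAbove S SN hSN _).mpr hηS⟩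
  have hdmη : dm ηE = (e i).1 / (e j).1 := by
    apply Subtype.ext
    apply Units.ext
    rw [hdmv]
    show τ η / η = _
    rw [← hη]
    show ε i / ε j = (((((e i).1 : (SN : Set (Pl N)).unit N) : Nˣ) / (((e j).1 :
      (SN : Set (Pl N)).unit N) : Nˣ) : Nˣ) : N)
    rw [Units.val_div_eq_div_val]
  apply hij
  apply hg
  rw [← he i, ← he j]
  apply QuotientGroup.eq.mpr
  rw [Subgroup.mem_subgroupOf]
  refine ⟨ηE⁻¹, ?_⟩
  have h5 : (((e i)⁻¹ * e j : nm.ker) : (SN : Set (Pl N)).unit N) = ((e i).1)⁻¹ * (e j).1 := rfl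
  rw [map_inv, hdmη, inv_div, h5, div_eq_mul_inv, mul_comm]

/-- **[SI-HqU], packing form.** -/
theorem sUnitHerbrandStatement : ClaimBPlan.SUnitHerbrandStatement := by
  intro F _ _ p _ ζ N _ _ _ _ hp2 hζ hdeg S τ hτ hsplit m n u hu0 huS hu hB
  classical
  obtain ⟨-, -, -, -, hG5, hG6, -⟩ := Fermat.Agent.S14C.GalPl.galStatement F N
  -- the primes of `N` over `S`
  let SN : Finset (Pl N) := S.biUnion (fun v => (hG6 v).toFinset)
  have hSN : ∀ w : Pl N, w ∈ SN ↔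
      ∃ v ∈ S, w.asIdeal.comap (algebraMap (𝓞 F) (𝓞 N)) = v.asIdeal := by
    intro w
    simp only [SN, Finset.mem_biUnion, Set.Finite.mem_toFinset]
    rfl
  have hfib : ∀ v ∈ S, (hG6 v).toFinset.card = p := by
    intro v hv
    rw [← hsplit v hv, ← Set.ncard_eq_toFinset_card _ (hG6 v), ← Nat.card_coe_set_eq]
    rfl
  have hSNcard : SN.card + (p - 1) * 0 = p * S.card := by
    rw [mul_zero, add_zero, Finset.card_biUnion, Finset.sum_congr rfl hfib, Finset.sum_const,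
      smul_eq_mul, mul_comm]
    intro v _ v' _ hvv'
    rw [Function.onFun, Finset.disjoint_left]
    intro w hw hw'
    rw [Set.Finite.mem_toFinset] at hw hw'
    exact hvv' (hG5 w v v' hw hw')
  obtain ⟨h0ne, h1ne, heq, hker⟩ := sUnit_herbrand hp2 hζ hdeg τ hτ S SN hSN 0 hSNcard
    (nmHom hSN τ p) (dmHom hSN τ) (nmHom_val hSN τ p) (dmHom_val hSN τ)
  rw [pow_zero, one_mul] at heq
  have hm := le_relIndex_of_units hdeg S SN hSN τ hτ (nmHom hSN τ p) (dmHom hSN τ)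
    (nmHom_val hSN τ p) h0ne hker m u hu0 huS hu
  have hn := relIndex_le_of_pigeonhole hdeg S SN hSN τ hτ (nmHom hSN τ p) (dmHom hSN τ)
    (nmHom_val hSN τ p) (dmHom_val hSN τ) h1ne n hB
  calc p * m ≤ p * (nmHom hSN τ p).range.relIndex (dmHom hSN τ).ker :=
        Nat.mul_le_mul_left _ hm
    _ = (dmHom hSN τ).range.relIndex (nmHom hSN τ p).ker := by rw [mul_comm]; exact heq
    _ ≤ n := hn

end Fermat.Agent.S14C.HerbrandBridge
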