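import Fermat.Agent.S14C.SI.TopPlan

/-!
# S14C / SI : Kummer descent

`F ∋ ζ_p`, `M / F` Galois of degree `p`, `θ ∈ M` with `θ ^ p = c ∈ F`, `c` not a `p`-th power
in `F`.  If `η ∈ F` becomes a `p`-th power in `M`, then `η = c ^ k * f ^ p` with `f ∈ F`.
Pure field theory (Mathlib only).
-/

set_option autoImplicit false

namespace Fermat.Agent.S14C.KummerDesc

variable {F : Type} [Field F] {M : Type} [Field M] [Algebra F M]

/-- An `F`-automorphism multiplies a nonzero `p`-th root of an element of `F` by a power of `ζ`. -/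
theorem exists_smul_eq_zeta_pow {p : ℕ} [Fact p.Prime] {ζ : F} (hζ : IsPrimitiveRoot ζ p)
    (σ : M ≃ₐ[F] M) {x : M} (hx0 : x ≠ 0) {c : F} (hx : x ^ p = algebraMap F M c) :
    ∃ i < p, σ x = algebraMap F M ζ ^ i * x := by
  have hp : p.Prime := Fact.out
  have : NeZero p := ⟨hp.ne_zero⟩
  have hζ' : IsPrimitiveRoot (algebraMap F M ζ) p :=
    hζ.map_of_injective (algebraMap F M).injective
  have h1 : (σ x / x) ^ p = 1 := by
    rw [div_pow, ← map_pow, hx, AlgEquiv.commutes, div_self]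
    rw [← hx]
    exact pow_ne_zero p hx0
  obtain ⟨i, hi, hi'⟩ := hζ'.eq_pow_of_pow_eq_one h1
  refine ⟨i, hi, ?_⟩
  rw [hi', div_mul_cancel₀ _ hx0]

/-- **Kummer descent**: if `η ∈ F` is a `p`-th power in `M = F(c^{1/p})`, then
`η = c ^ k * f ^ p` for some `f ∈ F`. -/
theorem exists_eq_pow_mul_pow {p : ℕ} [Fact p.Prime] {ζ : F} (hζ : IsPrimitiveRoot ζ p)
    [IsGalois F M] (hM : Module.finrank F M = p) {c η : F} (hc : ∀ b : F, b ^ p ≠ c)
    {θ m : M} (hθ : θ ^ p = algebraMap F M c) (hm : m ^ p = algebraMap F M η) :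
    ∃ (k : ℕ) (f : F), η = c ^ k * f ^ p := by
  have hp : p.Prime := Fact.out
  have : NeZero p := ⟨hp.ne_zero⟩
  have hfd : FiniteDimensional F M := Module.finite_of_finrank_pos (by rw [hM]; exact hp.pos)
  have hinj : Function.Injective (algebraMap F M) := (algebraMap F M).injective
  have hζ' : IsPrimitiveRoot (algebraMap F M ζ) p := hζ.map_of_injective hinj
  -- the trivial case `m = 0`
  by_cases hm0 : m = 0
  · refine ⟨0, 0, ?_⟩
    rw [hm0, zero_pow hp.ne_zero] at hm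
    have : η = 0 := hinj (by rw [← hm, map_zero])
    rw [this, zero_pow hp.ne_zero, mul_zero]
  have hc0 : c ≠ 0 := by
    intro h
    exact hc 0 (by rw [zero_pow hp.ne_zero, h])
  have hθ0 : θ ≠ 0 := by
    rintro rfl
    rw [zero_pow hp.ne_zero] at hθ
    exact hc0 (hinj (by rw [← hθ, map_zero]))
  -- a nontrivial automorphism
  have hcard : Nat.card (M ≃ₐ[F] M) = p := by rw [IsGalois.card_aut_eq_finrank, hM]
  have hnt : Nontrivial (M ≃ₐ[F] M) := by
    have : Finite (M ≃ₐ[F] M) := Nat.finite_of_card_ne_zero (by rw [hcard]; exact hp.ne_zero)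
    rw [← Finite.one_lt_card_iff_nontrivial, hcard]
    exact hp.one_lt
  obtain ⟨σ, hσ⟩ := exists_ne (1 : M ≃ₐ[F] M)
  -- every automorphism fixing `x` ... : the stabilizer of `x` contains `σ`, hence everything
  have hfix : ∀ x : M, σ x = x → ∃ f : F, algebraMap F M f = x := by
    intro x hx
    have hall : ∀ τ : M ≃ₐ[F] M, τ x = x := by
      intro τ
      have hτ : τ ∈ Subgroup.zpowers σ := mem_zpowers_of_prime_card hcard hσ
      have hle : Subgroup.zpowers σ ≤ MulAction.stabilizer (M ≃ₐ[F] M) x := by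
        rw [Subgroup.zpowers_le]
        exact hx
      exact hle hτ
    have hbot : x ∈ (⊥ : IntermediateField F M) := (IsGalois.mem_bot_iff_fixed x).mpr hall
    exact IntermediateField.mem_bot.mp hbot
  obtain ⟨a, ha, hσθ⟩ := exists_smul_eq_zeta_pow hζ σ hθ0 hθ
  obtain ⟨b, hb, hσm⟩ := exists_smul_eq_zeta_pow hζ σ hm0 hm
  -- `a ≠ 0`: otherwise `θ ∈ F`
  have ha0 : a ≠ 0 := by
    rintro rfl
    rw [pow_zero, one_mul] at hσθ
    obtain ⟨f, hf⟩ := hfix θ hσθ
    refine hc f (hinj ?_)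
    rw [map_pow, hf, hθ]
  have hcop : Nat.Coprime a p :=
    (Nat.Coprime.symm ((Nat.Prime.coprime_iff_not_dvd hp).mpr
      (Nat.not_dvd_of_pos_of_lt (Nat.pos_of_ne_zero ha0) ha)))
  -- choose `k` with `a * k ≡ b mod p`
  obtain ⟨k, hk⟩ : ∃ k : ℕ, a * k ≡ b [MOD p] := by
    obtain ⟨k, -, hk⟩ := Nat.exists_mul_mod_eq_one_of_coprime hcop hp.one_lt
    refine ⟨k * b, ?_⟩
    have h1 : a * k ≡ 1 [MOD p] := by
      rw [Nat.ModEq, hk, Nat.mod_eq_of_lt hp.one_lt]
    calc a * (k * b) = (a * k) * b := by ring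
      _ ≡ 1 * b [MOD p] := h1.mul_right b
      _ = b := one_mul b
  have hpow : algebraMap F M ζ ^ (a * k) = algebraMap F M ζ ^ b := by
    rw [← pow_mod_orderOf, ← pow_mod_orderOf (algebraMap F M ζ) b, ← hζ'.eq_orderOf]
    exact congrArg _ hk
  -- `g = m / θ ^ k` is fixed by `σ`
  have hg : σ (m / θ ^ k) = m / θ ^ k := by
    rw [map_div₀, map_pow, hσθ, hσm, mul_pow, ← pow_mul, hpow]
    have hz : algebraMap F M ζ ^ b ≠ 0 := pow_ne_zero _ (hζ'.ne_zero hp.ne_zero)
    have ht : θ ^ k ≠ 0 := pow_ne_zero _ hθ0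
    field_simp
  obtain ⟨f, hf⟩ := hfix _ hg
  refine ⟨k, f, hinj ?_⟩
  have ht : θ ^ k ≠ 0 := pow_ne_zero _ hθ0
  have hm' : m = algebraMap F M f * θ ^ k := by
    rw [hf, div_mul_cancel₀ _ ht]
  rw [map_mul, map_pow, map_pow, ← hm, hm', mul_pow, ← hθ, ← pow_mul, ← pow_mul, mul_comm k p,
    mul_comm]

open Polynomial in
/-- **[SI-Kum]** the Kummer field `M = F[X]/(X^p - c)` with its automorphism `θ ↦ ζ θ` and the
Kummer lemma `F ∩ M^p = ⟨c⟩ F^p`. -/
theorem kummerStatement {p : ℕ} [Fact p.Prime] : SITop.KummerStatement p := by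
  intro F _ _ ζ hζ c hc
  have hp : p.Prime := Fact.out
  have : NeZero p := ⟨hp.ne_zero⟩
  have hirr : Irreducible (X ^ p - C c) := X_pow_sub_C_irreducible_of_prime hp hc
  have := Fact.mk hirr
  have : Module.Finite F (AdjoinRoot (X ^ p - C c)) := (AdjoinRoot.powerBasis hirr.ne_zero).finite
  have hnf : NumberField (AdjoinRoot (X ^ p - C c)) := NumberField.of_module_finite F _
  have hne : (primitiveRoots p F).Nonempty := ⟨_, (mem_primitiveRoots hp.pos).mpr hζ⟩
  have := isSplittingField_AdjoinRoot_X_pow_sub_C hne hirr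
  have hgal : IsGalois F (AdjoinRoot (X ^ p - C c)) :=
    isGalois_of_isSplittingField_X_pow_sub_C hne hirr _
  have hfin : Module.finrank F (AdjoinRoot (X ^ p - C c)) = p :=
    finrank_of_isSplittingField_X_pow_sub_C hne hirr _
  have hθ : (AdjoinRoot.root (X ^ p - C c)) ^ p = algebraMap F (AdjoinRoot (X ^ p - C c)) c :=
    root_X_pow_sub_C_pow p c
  refine ⟨AdjoinRoot (X ^ p - C c), inferInstance, hnf, inferInstance, AdjoinRoot.root _,
    autAdjoinRootXPowSubC p c hζ.toRootsOfUnity, hgal, hfin, hθ, ?_, ?_⟩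
  · rw [autAdjoinRootXPowSubC_root, Algebra.smul_def]
    rfl
  · rintro x ⟨m, hm⟩
    exact exists_eq_pow_mul_pow hζ hfin hc hθ hm

end Fermat.Agent.S14C.KummerDesc
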