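import Fermat.Agent.S14C.SI.Defs

/-!
# S14C / SI : base change and Galois transport of the power residue symbol `sym`

Leaf [SI-Sym], B-seat (helper55).  Self-contained over `SI/Defs.lean` (own primed copies of the
basic facts `dvd_nrm_sub_one'`, `sym_spec'`, `sym_unique'`, so that this file does not depend on
`SI/SymBasic.lean`).

Main results (`v ∤ p`, `x` a `v`-unit):
* `sym_baseChange` : for `w | v` in `M/F`, `sym_w(x) = f(w|v) · sym_v(x)`;
* `sym_galois`     : if `w ∘ σ = v` (valuations) and `σ ζ = ζ ^ k`, then `sym_w(σ x) = k · sym_v(x)`;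
* `sym_galois_fix` : the case `σ ζ = ζ`;
* `galPl σ v`      : the prime `σ(v)`, with `valuation_galPl`, `ord_galPl`, `nrm_galPl`,
  `above_galPl_iff`, `mem_galPl_iff`, `galPl_asIdeal`, `galPl_one`, `galPl_mul`, and `sym_galPl`.
-/

set_option autoImplicit false
set_option linter.unusedSectionVars false

namespace Fermat.Agent.S14C.SymExt

open IsDedekindDomain NumberField Fermat.Agent.S14C.SIDefs

variable {F : Type} [Field F] [NumberField F] {p : ℕ} [Fact p.Prime] {ζ : F}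

/-! ### Congruences modulo a prime -/

theorem congMod_refl (v : Pl F) (x : F) : CongMod v x x := by
  simp [CongMod]

theorem congMod_symm (v : Pl F) {x y : F} (h : CongMod v x y) : CongMod v y x := by
  unfold CongMod at *
  rwa [Valuation.map_sub_swap]

theorem congMod_trans (v : Pl F) {x y z : F} (h1 : CongMod v x y) (h2 : CongMod v y z) :
    CongMod v x z := by
  unfold CongMod at *
  have h : x - z = (x - y) + (y - z) := by ring
  rw [h]
  exact lt_of_le_of_lt (Valuation.map_add _ _ _) (max_lt h1 h2)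

theorem congMod_mul (v : Pl F) {x y x' y' : F} (hx : v.valuation F x ≤ 1)
    (hy' : v.valuation F y' ≤ 1) (h1 : CongMod v x y) (h2 : CongMod v x' y') :
    CongMod v (x * x') (y * y') := by
  unfold CongMod at *
  have h : x * x' - y * y' = x * (x' - y') + (x - y) * y' := by ring
  rw [h]
  refine lt_of_le_of_lt (Valuation.map_add _ _ _) (max_lt ?_ ?_)
  · rw [map_mul]
    exact lt_of_le_of_lt (mul_le_of_le_one_left' hx) h2
  · rw [map_mul]
    exact lt_of_le_of_lt (mul_le_of_le_one_right' hy') h1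

theorem valuation_le_one_of_congMod (v : Pl F) {x y : F} (hx : v.valuation F x ≤ 1)
    (h : CongMod v x y) : v.valuation F y ≤ 1 := by
  unfold CongMod at h
  have h' : y = x - (x - y) := by ring
  rw [h']
  exact le_trans (Valuation.map_sub _ _ _) (max_le hx h.le)

theorem congMod_pow (v : Pl F) {x y : F} (hx : v.valuation F x ≤ 1) (h : CongMod v x y) (n : ℕ) :
    CongMod v (x ^ n) (y ^ n) := by
  have hy := valuation_le_one_of_congMod v hx h
  induction n with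
  | zero => simpa using congMod_refl v (1 : F)
  | succ n ih =>
    rw [pow_succ, pow_succ]
    exact congMod_mul v (by rw [map_pow]; exact pow_le_one' hx n) hy ih h

/-- Integral elements are congruent iff their difference lies in the prime. -/
theorem congMod_algebraMap_iff (v : Pl F) (a b : 𝓞 F) :
    CongMod v (algebraMap (𝓞 F) F a) (algebraMap (𝓞 F) F b) ↔
      Ideal.Quotient.mk v.asIdeal a = Ideal.Quotient.mk v.asIdeal b := by
  unfold CongMod
  rw [← map_sub, HeightOneSpectrum.valuation_lt_one_iff_mem, Ideal.Quotient.eq]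

/-- Approximation of a `v`-integral element by an algebraic integer. -/
theorem exists_int_congMod (v : Pl F) {x : F} (hx : v.valuation F x ≤ 1) :
    ∃ a : 𝓞 F, CongMod v x (algebraMap (𝓞 F) F a) := by
  obtain ⟨a, ha⟩ := v.exists_valuation_sub_lt_of_integer (K := F) hx 1
  refine ⟨a, ?_⟩
  unfold CongMod
  rw [Valuation.map_sub_swap]
  simpa using ha

/-! ### The residue field and the image of `ζ` -/

theorem nrm_eq_card (v : Pl F) : nrm v = Nat.card (𝓞 F ⧸ v.asIdeal) := by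
  unfold nrm
  rw [Ideal.absNorm_apply, Submodule.cardQuot_apply]

/-- `ζ` as an algebraic integer. -/
noncomputable def zetaInt (hζ : IsPrimitiveRoot ζ p) : 𝓞 F :=
  ⟨ζ, hζ.isIntegral (Fact.out : p.Prime).pos⟩

theorem coe_zetaInt (hζ : IsPrimitiveRoot ζ p) : algebraMap (𝓞 F) F (zetaInt hζ) = ζ := rfl

theorem zetaInt_pow (hζ : IsPrimitiveRoot ζ p) : (zetaInt hζ) ^ p = 1 := by
  apply RingOfIntegers.ext
  simp [zetaInt, hζ.pow_eq_one]

theorem zetaInt_geom_sum (hζ : IsPrimitiveRoot ζ p) :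
    ∑ i ∈ Finset.range p, (zetaInt hζ) ^ i = 0 := by
  apply RingOfIntegers.ext
  have h := hζ.geom_sum_eq_zero (Fact.out : p.Prime).one_lt
  simpa [zetaInt] using h

theorem not_above_iff_notMem (v : Pl F) : ¬ Above p v ↔ (p : 𝓞 F) ∉ v.asIdeal := by
  unfold Above
  rw [← HeightOneSpectrum.valuation_lt_one_iff_mem (K := F)]
  simp

/-- The image of `ζ` in the residue field at `v ∤ p` is a primitive `p`-th root of unity. -/
theorem isPrimitiveRoot_mk_zetaInt (hζ : IsPrimitiveRoot ζ p) (v : Pl F) (hv : ¬ Above p v) :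
    IsPrimitiveRoot (Ideal.Quotient.mk v.asIdeal (zetaInt hζ)) p := by
  have hp : p.Prime := Fact.out
  have h1 : (Ideal.Quotient.mk v.asIdeal (zetaInt hζ)) ^ p = 1 := by
    rw [← map_pow, zetaInt_pow, map_one]
  have h2 : Ideal.Quotient.mk v.asIdeal (zetaInt hζ) ≠ 1 := by
    intro h
    have h3 := congrArg (Ideal.Quotient.mk v.asIdeal) (zetaInt_geom_sum hζ)
    rw [map_sum] at h3
    simp only [map_pow, h, one_pow, Finset.sum_const, Finset.card_range, nsmul_eq_mul, mul_one,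
      map_zero] at h3
    rw [← map_natCast (Ideal.Quotient.mk v.asIdeal), Ideal.Quotient.eq_zero_iff_mem] at h3
    exact (not_above_iff_notMem v).mp hv h3
  have h4 := orderOf_eq_prime h1 h2
  have h5 := IsPrimitiveRoot.orderOf (Ideal.Quotient.mk v.asIdeal (zetaInt hζ))
  rwa [h4] at h5

theorem dvd_nrm_sub_one' (hζ : IsPrimitiveRoot ζ p) (v : Pl F) (hv : ¬ Above p v) :
    p ∣ nrm v - 1 := by
  have hprim := isPrimitiveRoot_mk_zetaInt hζ v hv
  let : Field (𝓞 F ⧸ v.asIdeal) := Ideal.Quotient.field v.asIdeal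
  let : Fintype (𝓞 F ⧸ v.asIdeal) := Fintype.ofFinite _
  have h0 : Ideal.Quotient.mk v.asIdeal (zetaInt hζ) ≠ 0 := hprim.ne_zero (Fact.out : p.Prime).ne_zero
  have h1 := FiniteField.pow_card_sub_one_eq_one _ h0
  rw [nrm_eq_card, Nat.card_eq_fintype_card]
  exact (hprim.dvd_of_pow_eq_one _ h1)


/-! ### Existence and uniqueness of the symbol exponent -/

theorem zeta_pow_eq_of_modEq {K : Type} [Field K] {ξ : K} (hξ : IsPrimitiveRoot ξ p) {i j : ℕ}
    (h : i ≡ j [MOD p]) : ξ ^ i = ξ ^ j := by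
  rw [← pow_mod_orderOf ξ i, ← pow_mod_orderOf ξ j, ← hξ.eq_orderOf]
  rw [show i % p = j % p from h]

theorem modEq_of_congMod_zeta_pow (hζ : IsPrimitiveRoot ζ p) (v : Pl F) (hv : ¬ Above p v)
    {i j : ℕ} (h : CongMod v (ζ ^ i) (ζ ^ j)) : i ≡ j [MOD p] := by
  have hp : p.Prime := Fact.out
  have hprim := isPrimitiveRoot_mk_zetaInt hζ v hv
  rw [← coe_zetaInt hζ, ← map_pow, ← map_pow, congMod_algebraMap_iff, map_pow, map_pow] at h
  rw [← pow_mod_orderOf _ i, ← pow_mod_orderOf _ j, ← hprim.eq_orderOf] at h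
  exact hprim.pow_inj (Nat.mod_lt _ hp.pos) (Nat.mod_lt _ hp.pos) h

theorem valuation_eq_one_of_ord (v : Pl F) {x : F} (hx0 : x ≠ 0) (hx : ord v x = 0) :
    v.valuation F x = 1 := by
  unfold ord at hx
  have h0 : v.valuation F x ≠ 0 := (Valuation.ne_zero_iff _).mpr hx0
  rw [← WithZero.exp_log h0, neg_eq_zero.mp hx, WithZero.exp_zero]

theorem exists_congMod_zeta_pow (hζ : IsPrimitiveRoot ζ p) (v : Pl F) (hv : ¬ Above p v) {x : F}
    (hx : v.valuation F x = 1) :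
    ∃ k : ZMod p, CongMod v (x ^ ((nrm v - 1) / p)) (ζ ^ k.val) := by
  have hp : p.Prime := Fact.out
  have : NeZero p := ⟨hp.ne_zero⟩
  obtain ⟨a, ha⟩ := exists_int_congMod v hx.le
  have hprim := isPrimitiveRoot_mk_zetaInt hζ v hv
  let : Field (𝓞 F ⧸ v.asIdeal) := Ideal.Quotient.field v.asIdeal
  let : Fintype (𝓞 F ⧸ v.asIdeal) := Fintype.ofFinite _
  have ha0 : Ideal.Quotient.mk v.asIdeal a ≠ 0 := by
    intro h0
    rw [Ideal.Quotient.eq_zero_iff_mem,
      ← HeightOneSpectrum.valuation_lt_one_iff_mem (K := F)] at h0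
    have hlt : v.valuation F x < 1 := by
      have h' : x = (x - algebraMap (𝓞 F) F a) + algebraMap (𝓞 F) F a := by ring
      rw [h']
      exact lt_of_le_of_lt (Valuation.map_add _ _ _) (max_lt ha h0)
    exact absurd hx hlt.ne
  have h1 := FiniteField.pow_card_sub_one_eq_one _ ha0
  have hdvd := dvd_nrm_sub_one' hζ v hv
  rw [← Nat.card_eq_fintype_card, ← nrm_eq_card] at h1
  have h2 : ((Ideal.Quotient.mk v.asIdeal a) ^ ((nrm v - 1) / p)) ^ p = 1 := by
    rw [← pow_mul, Nat.div_mul_cancel hdvd, h1]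
  obtain ⟨i, hi, hi'⟩ := hprim.eq_pow_of_pow_eq_one h2
  refine ⟨(i : ZMod p), ?_⟩
  have h3 : CongMod v (x ^ ((nrm v - 1) / p)) ((algebraMap (𝓞 F) F a) ^ ((nrm v - 1) / p)) :=
    congMod_pow v hx.le ha _
  refine congMod_trans v h3 ?_
  rw [ZMod.val_natCast_of_lt hi, ← coe_zetaInt hζ, ← map_pow, ← map_pow, congMod_algebraMap_iff,
    map_pow, map_pow, hi']

theorem sym_spec' (hζ : IsPrimitiveRoot ζ p) (v : Pl F) (hv : ¬ Above p v) {x : F}
    (hx : ord v x = 0) (hx0 : x ≠ 0) :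
    CongMod v (x ^ ((nrm v - 1) / p)) (ζ ^ (sym p ζ v x).val) := by
  have h := exists_congMod_zeta_pow hζ v hv (valuation_eq_one_of_ord v hx0 hx)
  unfold sym
  rw [dif_pos h]
  exact h.choose_spec

theorem sym_unique' (hζ : IsPrimitiveRoot ζ p) (v : Pl F) (hv : ¬ Above p v) {x : F} {k : ZMod p}
    (h : CongMod v (x ^ ((nrm v - 1) / p)) (ζ ^ k.val)) : sym p ζ v x = k := by
  have hex : ∃ k : ZMod p, CongMod v (x ^ ((nrm v - 1) / p)) (ζ ^ k.val) := ⟨k, h⟩
  have hp : p.Prime := Fact.out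
  have : NeZero p := ⟨hp.ne_zero⟩
  unfold sym
  rw [dif_pos hex]
  have h1 := hex.choose_spec
  have h2 := congMod_trans v (congMod_symm v h1) h
  have h3 := modEq_of_congMod_zeta_pow hζ v hv h2
  have h4 : hex.choose.val = k.val := Nat.ModEq.eq_of_lt_of_lt h3 (ZMod.val_lt _) (ZMod.val_lt _)
  exact ZMod.val_injective p h4

theorem val_mul_modEq (a : ℕ) (s : ZMod p) : a * s.val ≡ ((a : ZMod p) * s).val [MOD p] := by
  have hp : p.Prime := Fact.out
  have : NeZero p := ⟨hp.ne_zero⟩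
  rw [← ZMod.natCast_eq_natCast_iff]
  push_cast
  rw [ZMod.natCast_zmod_val, ZMod.natCast_zmod_val]

theorem pow_sub_one_eq_mul_geom (n f : ℕ) (hn : 1 ≤ n) :
    n ^ f - 1 = (n - 1) * ∑ i ∈ Finset.range f, n ^ i := by
  have h1 : 1 ≤ n ^ f := Nat.one_le_pow _ _ hn
  zify [h1, hn]
  rw [mul_comm]
  exact (geom_sum_mul (n : ℤ) f).symm

theorem geom_modEq (n f : ℕ) (hn : 1 ≤ n) (h : p ∣ n - 1) :
    ∑ i ∈ Finset.range f, n ^ i ≡ f [MOD p] := by
  have h1 : n ≡ 1 [MOD p] := ((Nat.modEq_iff_dvd' hn).mpr h).symm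
  have h2 : ∀ i ∈ Finset.range f, n ^ i ≡ 1 [MOD p] := fun i _ => by
    simpa using h1.pow i
  have h3 := Nat.ModEq.sum (s := Finset.range f) h2
  simpa using h3

theorem one_le_nrm (v : Pl F) : 1 ≤ nrm v := by
  rw [nrm_eq_card]
  exact Nat.one_le_iff_ne_zero.mpr Nat.card_pos.ne'


/-! ### Base change -/

section BaseChange

variable {M : Type} [Field M] [NumberField M] [Algebra F M]

theorem exists_valuation_algebraMap_eq_pow (v : Pl F) (w : Pl M)
    (hwv : w.asIdeal.comap (algebraMap (𝓞 F) (𝓞 M)) = v.asIdeal) :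
    ∃ e : ℕ, e ≠ 0 ∧ ∀ y : F, w.valuation M (algebraMap F M y) = v.valuation F y ^ e := by
  have : w.asIdeal.LiesOver v.asIdeal := ⟨hwv.symm⟩
  refine ⟨v.asIdeal.ramificationIdx' w.asIdeal, ?_,
    fun y => (HeightOneSpectrum.valuation_liesOver M v w y).symm⟩
  exact Ideal.IsDedekindDomain.ramificationIdx'_ne_zero_of_liesOver w.asIdeal v.ne_bot

theorem nrm_baseChange (v : Pl F) (w : Pl M)
    (hwv : w.asIdeal.comap (algebraMap (𝓞 F) (𝓞 M)) = v.asIdeal) :
    nrm w = nrm v ^ (w.asIdeal.inertiaDeg (𝓞 F)) := by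
  have : w.asIdeal.LiesOver v.asIdeal := ⟨hwv.symm⟩
  rw [Ideal.inertiaDeg_eq_of_isMaximal v.asIdeal w.asIdeal, nrm_eq_card, nrm_eq_card]
  let : Field (𝓞 F ⧸ v.asIdeal) := Ideal.Quotient.field v.asIdeal
  let : Fintype (𝓞 F ⧸ v.asIdeal) := Fintype.ofFinite _
  let : Fintype (𝓞 M ⧸ w.asIdeal) := Fintype.ofFinite _
  rw [Nat.card_eq_fintype_card, Nat.card_eq_fintype_card]
  exact Module.card_eq_pow_finrank

theorem not_above_baseChange (v : Pl F) (w : Pl M)
    (hwv : w.asIdeal.comap (algebraMap (𝓞 F) (𝓞 M)) = v.asIdeal) (hv : ¬ Above p v) :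
    ¬ Above p w := by
  obtain ⟨e, he, hval⟩ := exists_valuation_algebraMap_eq_pow v w hwv
  unfold Above at *
  have h1 : ((p : ℕ) : M) = algebraMap F M ((p : ℕ) : F) := (map_natCast _ p).symm
  rw [h1, hval]
  intro h
  exact (not_lt.mpr (one_le_pow₀ (not_lt.mp hv))) h

theorem congMod_baseChange (v : Pl F) (w : Pl M)
    (hwv : w.asIdeal.comap (algebraMap (𝓞 F) (𝓞 M)) = v.asIdeal) {a b : F} (h : CongMod v a b) :
    CongMod w (algebraMap F M a) (algebraMap F M b) := by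
  obtain ⟨e, he, hval⟩ := exists_valuation_algebraMap_eq_pow v w hwv
  unfold CongMod at *
  rw [← map_sub, hval]
  exact pow_lt_one₀ zero_le h he

/-- base change: `w | v` in `M/F` with inertia degree `f` -/
theorem sym_baseChange (hζ : IsPrimitiveRoot ζ p) {M : Type} [Field M] [NumberField M] [Algebra F M]
    (v : Pl F) (w : Pl M) (hwv : w.asIdeal.comap (algebraMap (𝓞 F) (𝓞 M)) = v.asIdeal)
    (hv : ¬ Above p v) {x : F} (hx0 : x ≠ 0) (hx : ord v x = 0) :
    sym p (algebraMap F M ζ) w (algebraMap F M x) =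
      ((w.asIdeal.inertiaDeg (𝓞 F) : ℕ) : ZMod p) * sym p ζ v x := by
  have hζM : IsPrimitiveRoot (algebraMap F M ζ) p :=
    hζ.map_of_injective (algebraMap F M).injective
  have hw : ¬ Above p w := not_above_baseChange v w hwv hv
  have hN : nrm w = nrm v ^ (w.asIdeal.inertiaDeg (𝓞 F)) := nrm_baseChange v w hwv
  have hdvd : p ∣ nrm v - 1 := dvd_nrm_sub_one' hζ v hv
  have hNv : 1 ≤ nrm v := one_le_nrm v
  have h2 : (nrm w - 1) / p =
      (nrm v - 1) / p * ∑ i ∈ Finset.range (w.asIdeal.inertiaDeg (𝓞 F)), nrm v ^ i := by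
    rw [hN, pow_sub_one_eq_mul_geom _ _ hNv, Nat.mul_comm, Nat.mul_div_assoc _ hdvd, Nat.mul_comm]
  have h3 := geom_modEq (p := p) (nrm v) (w.asIdeal.inertiaDeg (𝓞 F)) hNv hdvd
  have hspec := sym_spec' hζ v hv hx hx0
  have hx1 := valuation_eq_one_of_ord v hx0 hx
  have h4 : CongMod v (x ^ ((nrm w - 1) / p))
      (ζ ^ ((sym p ζ v x).val * ∑ i ∈ Finset.range (w.asIdeal.inertiaDeg (𝓞 F)), nrm v ^ i)) := by
    rw [h2, pow_mul, pow_mul]
    exact congMod_pow v (by rw [map_pow, hx1, one_pow]) hspec _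
  have h5 := congMod_baseChange v w hwv h4
  rw [map_pow, map_pow] at h5
  have h6 : (sym p ζ v x).val * ∑ i ∈ Finset.range (w.asIdeal.inertiaDeg (𝓞 F)), nrm v ^ i ≡
      (((w.asIdeal.inertiaDeg (𝓞 F) : ℕ) : ZMod p) * sym p ζ v x).val [MOD p] := by
    refine Nat.ModEq.trans ?_ (val_mul_modEq _ _)
    rw [Nat.mul_comm]
    exact Nat.ModEq.mul_right _ h3
  rw [zeta_pow_eq_of_modEq hζM h6] at h5
  exact sym_unique' hζM w hw h5

end BaseChange

/-! ### Galois transport -/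

theorem mem_iff_of_valuation (σ : F ≃ₐ[ℚ] F) (v w : Pl F)
    (hvw : ∀ y : F, w.valuation F (σ y) = v.valuation F y) (a : 𝓞 F) :
    RingOfIntegers.mapRingEquiv (σ : F ≃+* F) a ∈ w.asIdeal ↔ a ∈ v.asIdeal := by
  rw [← HeightOneSpectrum.valuation_lt_one_iff_mem (K := F),
    ← HeightOneSpectrum.valuation_lt_one_iff_mem (K := F)]
  change w.valuation F (σ (algebraMap (𝓞 F) F a)) < 1 ↔ _
  rw [hvw]

theorem nrm_eq_of_valuation (σ : F ≃ₐ[ℚ] F) (v w : Pl F)
    (hvw : ∀ y : F, w.valuation F (σ y) = v.valuation F y) : nrm w = nrm v := by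
  have hmap : w.asIdeal =
      v.asIdeal.map ((RingOfIntegers.mapRingEquiv (σ : F ≃+* F) : 𝓞 F ≃+* 𝓞 F) : 𝓞 F →+* 𝓞 F) := by
    apply le_antisymm
    · intro b hb
      have hb' : (RingOfIntegers.mapRingEquiv (σ : F ≃+* F)).symm b ∈ v.asIdeal := by
        rw [← mem_iff_of_valuation σ v w hvw]
        simpa using hb
      have h := Ideal.mem_map_of_mem
        ((RingOfIntegers.mapRingEquiv (σ : F ≃+* F) : 𝓞 F ≃+* 𝓞 F) : 𝓞 F →+* 𝓞 F) hb'
      simpa using h
    · rw [Ideal.map_le_iff_le_comap]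
      intro a ha
      exact (mem_iff_of_valuation σ v w hvw a).mpr ha
  rw [nrm_eq_card, nrm_eq_card]
  exact (Nat.card_congr (Ideal.quotientEquiv v.asIdeal w.asIdeal _ hmap).toEquiv).symm

/-- Galois transport of the symbol, valuation form: if `w ∘ σ = v` and `σ ζ = ζ ^ k` then
`sym_w(σ x) = k · sym_v(x)`. -/
theorem sym_galois (hζ : IsPrimitiveRoot ζ p) (σ : F ≃ₐ[ℚ] F) (k : ℕ) (hσ : σ ζ = ζ ^ k)
    (v w : Pl F) (hvw : ∀ y : F, w.valuation F (σ y) = v.valuation F y)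
    (hv : ¬ Above p v) {x : F} (hx0 : x ≠ 0) (hx : ord v x = 0) :
    sym p ζ w (σ x) = (k : ZMod p) * sym p ζ v x := by
  have hw : ¬ Above p w := by
    unfold Above at *
    have h : ((p : ℕ) : F) = σ ((p : ℕ) : F) := (map_natCast σ p).symm
    rw [h, hvw]
    exact hv
  have hN := nrm_eq_of_valuation σ v w hvw
  have hspec := sym_spec' hζ v hv hx hx0
  have h1 : CongMod w (σ x ^ ((nrm w - 1) / p)) (ζ ^ (k * (sym p ζ v x).val)) := by
    unfold CongMod at *
    rw [hN, pow_mul, ← hσ, ← map_pow, ← map_pow, ← map_sub, hvw]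
    exact hspec
  rw [zeta_pow_eq_of_modEq hζ (val_mul_modEq k _)] at h1
  exact sym_unique' hζ w hw h1

/-- Galois transport when `σ` fixes `ζ`. -/
theorem sym_galois_fix (hζ : IsPrimitiveRoot ζ p) (σ : F ≃ₐ[ℚ] F) (hσ : σ ζ = ζ)
    (v w : Pl F) (hvw : ∀ y : F, w.valuation F (σ y) = v.valuation F y)
    (hv : ¬ Above p v) {x : F} (hx0 : x ≠ 0) (hx : ord v x = 0) :
    sym p ζ w (σ x) = sym p ζ v x := by
  have h := sym_galois hζ σ 1 (by simpa using hσ) v w hvw hv hx0 hx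
  simpa using h


/-! ### The prime `σ(v)` -/

/-- The prime `σ(v)` for `σ ∈ Aut(F/ℚ)`. -/
noncomputable def galPl (σ : F ≃ₐ[ℚ] F) (v : Pl F) : Pl F :=
  HeightOneSpectrum.equivOfRingEquiv (RingOfIntegers.mapRingEquiv (σ : F ≃+* F)) v

theorem galPl_asIdeal (σ : F ≃ₐ[ℚ] F) (v : Pl F) :
    (galPl σ v).asIdeal = v.asIdeal.map (RingOfIntegers.mapRingEquiv (σ : F ≃+* F)) := by
  unfold galPl
  simp only [HeightOneSpectrum.equivOfRingEquiv_apply, HeightOneSpectrum.comap_asIdeal]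
  exact Ideal.comap_symm _

theorem mem_galPl_iff (σ : F ≃ₐ[ℚ] F) (v : Pl F) (a : 𝓞 F) :
    RingOfIntegers.mapRingEquiv (σ : F ≃+* F) a ∈ (galPl σ v).asIdeal ↔ a ∈ v.asIdeal := by
  unfold galPl
  simp

theorem mem_galPl_pow_iff (σ : F ≃ₐ[ℚ] F) (v : Pl F) (n : ℕ) (a : 𝓞 F) :
    RingOfIntegers.mapRingEquiv (σ : F ≃+* F) a ∈ (galPl σ v).asIdeal ^ n ↔ a ∈ v.asIdeal ^ n := by
  rw [galPl_asIdeal, ← Ideal.map_pow, ← Ideal.comap_symm]
  simp

theorem withZero_eq_of_forall_le_exp_iff {X Y : WithZero (Multiplicative ℤ)} (hX0 : X ≠ 0)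
    (hY0 : Y ≠ 0) (hX : X ≤ 1) (hY : Y ≤ 1)
    (h : ∀ n : ℕ, X ≤ WithZero.exp (-(n : ℤ)) ↔ Y ≤ WithZero.exp (-(n : ℤ))) : X = Y := by
  have key : ∀ Z : WithZero (Multiplicative ℤ), Z ≠ 0 → Z ≤ 1 →
      ∃ n : ℕ, Z = WithZero.exp (-(n : ℤ)) := by
    intro Z hZ0 hZ
    have h1 : WithZero.log Z ≤ 0 := by
      rw [← WithZero.exp_log hZ0, ← WithZero.exp_zero] at hZ
      exact WithZero.exp_le_exp.mp hZ
    refine ⟨(-WithZero.log Z).toNat, ?_⟩
    rw [Int.toNat_of_nonneg (by omega), neg_neg, WithZero.exp_log hZ0]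
  obtain ⟨m, hm⟩ := key X hX0 hX
  obtain ⟨n, hn⟩ := key Y hY0 hY
  apply le_antisymm
  · rw [hn]
    exact (h n).mpr hn.le
  · rw [hm]
    exact (h m).mp hm.le

theorem intValuation_galPl (σ : F ≃ₐ[ℚ] F) (v : Pl F) (a : 𝓞 F) :
    (galPl σ v).intValuation (RingOfIntegers.mapRingEquiv (σ : F ≃+* F) a) = v.intValuation a := by
  by_cases ha : a = 0
  · subst ha
    simp
  have ha' : RingOfIntegers.mapRingEquiv (σ : F ≃+* F) a ≠ 0 := by
    simpa using ha
  refine withZero_eq_of_forall_le_exp_iff (HeightOneSpectrum.intValuation_ne_zero _ _ ha')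
    (HeightOneSpectrum.intValuation_ne_zero _ _ ha) (HeightOneSpectrum.intValuation_le_one _ _)
    (HeightOneSpectrum.intValuation_le_one _ _) ?_
  intro n
  rw [HeightOneSpectrum.intValuation_le_pow_iff_mem, HeightOneSpectrum.intValuation_le_pow_iff_mem,
    mem_galPl_pow_iff]

theorem valuation_galPl (σ : F ≃ₐ[ℚ] F) (v : Pl F) (y : F) :
    (galPl σ v).valuation F (σ y) = v.valuation F y := by
  obtain ⟨a, b, hb, rfl⟩ := IsFractionRing.div_surjective (A := 𝓞 F) y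
  have h1 : ∀ c : 𝓞 F, σ (algebraMap (𝓞 F) F c) =
      algebraMap (𝓞 F) F (RingOfIntegers.mapRingEquiv (σ : F ≃+* F) c) := fun c => rfl
  rw [map_div₀, h1, h1, map_div₀, map_div₀, HeightOneSpectrum.valuation_of_algebraMap,
    HeightOneSpectrum.valuation_of_algebraMap, HeightOneSpectrum.valuation_of_algebraMap,
    HeightOneSpectrum.valuation_of_algebraMap, intValuation_galPl, intValuation_galPl]

theorem ord_galPl (σ : F ≃ₐ[ℚ] F) (v : Pl F) (y : F) : ord (galPl σ v) (σ y) = ord v y := by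
  unfold ord
  rw [valuation_galPl]

theorem nrm_galPl (σ : F ≃ₐ[ℚ] F) (v : Pl F) : nrm (galPl σ v) = nrm v :=
  nrm_eq_of_valuation σ v (galPl σ v) (valuation_galPl σ v)

theorem above_galPl_iff (σ : F ≃ₐ[ℚ] F) (v : Pl F) : Above p (galPl σ v) ↔ Above p v := by
  unfold Above
  have h : ((p : ℕ) : F) = σ ((p : ℕ) : F) := (map_natCast σ p).symm
  rw [h, valuation_galPl, ← h]

theorem galPl_one (v : Pl F) : galPl (1 : F ≃ₐ[ℚ] F) v = v := by
  apply HeightOneSpectrum.ext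
  ext a
  have h := mem_galPl_iff (1 : F ≃ₐ[ℚ] F) v a
  have h1 : RingOfIntegers.mapRingEquiv (((1 : F ≃ₐ[ℚ] F) : F ≃+* F)) a = a := by
    apply RingOfIntegers.ext
    rfl
  rwa [h1] at h

theorem galPl_mul (σ τ : F ≃ₐ[ℚ] F) (v : Pl F) : galPl (σ * τ) v = galPl σ (galPl τ v) := by
  apply HeightOneSpectrum.ext
  ext b
  obtain ⟨a, rfl⟩ := (RingOfIntegers.mapRingEquiv ((σ * τ : F ≃ₐ[ℚ] F) : F ≃+* F)).surjective b
  rw [mem_galPl_iff]
  have h1 : RingOfIntegers.mapRingEquiv ((σ * τ : F ≃ₐ[ℚ] F) : F ≃+* F) a =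
      RingOfIntegers.mapRingEquiv (σ : F ≃+* F) (RingOfIntegers.mapRingEquiv (τ : F ≃+* F) a) := by
    apply RingOfIntegers.ext
    rfl
  rw [h1, mem_galPl_iff, mem_galPl_iff]

/-- Galois transport of the symbol: `sym_{σ v}(σ x) = k · sym_v(x)` when `σ ζ = ζ ^ k`. -/
theorem sym_galPl (hζ : IsPrimitiveRoot ζ p) (σ : F ≃ₐ[ℚ] F) (k : ℕ) (hσ : σ ζ = ζ ^ k)
    (v : Pl F) (hv : ¬ Above p v) {x : F} (hx0 : x ≠ 0) (hx : ord v x = 0) :
    sym p ζ (galPl σ v) (σ x) = (k : ZMod p) * sym p ζ v x :=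
  sym_galois hζ σ k hσ v (galPl σ v) (valuation_galPl σ v) hv hx0 hx

end Fermat.Agent.S14C.SymExt
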