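import Fermat.Agent.S14C.SI.Plan
import Fermat.Agent.S14C.SI.GalPl
import Fermat.Agent.S14C.SI.OrdBasic
import Fermat.Agent.S14C.SI.SymBasic
import Fermat.Agent.S14C.SI.SymExt

/-!
# S14C / SI : block `NormResBound` of `SI/Plan.lean`

Norms of `S_N`-units are `p`-th power residues at the totally ramified primes `q ∈ R` (unique
prime above, trivial residue field extension); the symbols at `R` are jointly surjective on the
`S`-units of `F`; hence `p ^ |R| ≤ [E^G : N E]`.
-/

set_option autoImplicit false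

namespace Fermat.Agent.S14C.NormRes

open IsDedekindDomain NumberField Fermat.Agent.S14C.SIDefs Fermat.Agent.S14C.ClaimBPlan

variable {F : Type} [Field F] [NumberField F] {N : Type} [Field N] [NumberField N] [Algebra F N]

/-- At a prime `q` with a unique prime `w` above it, `w` is Galois stable. -/
theorem valuation_gal_eq {q : Pl F} {w : Pl N} (hw : Over w q)
    (huniq : ∀ w' : Pl N, Over w' q → w' = w) (τ : N ≃ₐ[F] N) (x : N) :
    w.valuation N (τ x) = w.valuation N x := by
  have h := GalPl.valuation_galPl τ w x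
  rwa [huniq _ (GalPl.over_galPl τ w q hw)] at h

/-- A finite product of elements congruent to `b` is congruent to a power of `b`. -/
theorem congMod_prod {ι : Type*} (w : Pl N) (s : Finset ι) (f : ι → N) {b : N}
    (hb : w.valuation N b ≤ 1) (h : ∀ j ∈ s, CongMod w (f j) b) :
    CongMod w (∏ j ∈ s, f j) (b ^ s.card) := by
  classical
  induction s using Finset.induction_on with
  | empty => simpa using SymBasic.congMod_refl w 1
  | insert a s ha ih =>
    rw [Finset.prod_insert ha, Finset.card_insert_of_notMem ha, pow_succ']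
    have h1 : CongMod w (f a) b := h a (Finset.mem_insert_self a s)
    have h2 : CongMod w (∏ j ∈ s, f j) (b ^ s.card) :=
      ih fun j hj => h j (Finset.mem_insert_of_mem hj)
    refine SymBasic.congMod_mul h1 h2 ?_ ?_
    · exact SymBasic.congMod_val_le_one (SymBasic.congMod_symm h1) hb
    · simpa using pow_le_one₀ (by simp) hb

/-- Congruences descend from `N` to `F`. -/
theorem congMod_of_algebraMap {q : Pl F} {w : Pl N} (hw : Over w q) {a b : F}
    (h : CongMod w (algebraMap F N a) (algebraMap F N b)) : CongMod q a b := by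
  obtain ⟨e, he, hval⟩ := SymExt.exists_valuation_algebraMap_eq_pow q w hw
  unfold CongMod at *
  rw [← map_sub, hval] at h
  by_contra hcon
  exact absurd h (not_lt.mpr (one_le_pow₀ (not_lt.mp hcon)))

/-- A unit of `F` outside `S` is a unit of `N` at the primes not above `S`. -/
theorem valuation_algebraMap_eq_one {v : Pl F} {w : Pl N} (hw : Over w v) {u : F}
    (hu : v.valuation F u = 1) : w.valuation N (algebraMap F N u) = 1 := by
  obtain ⟨e, he, hval⟩ := SymExt.exists_valuation_algebraMap_eq_pow v w hw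
  rw [hval, hu, one_pow]

/-- **Norm residues.** If `q ∤ p` has a unique prime `w` above it with trivial residue field
extension, then the norm of a `w`-integral element is a `p`-th power residue at `q`. -/
theorem sym_norm_eq_zero {p : ℕ} [Fact p.Prime] {ζ : F} (hζ : IsPrimitiveRoot ζ p)
    (σ : N ≃ₐ[F] N) {q : Pl F} (hq : ¬ Above p q)
    {w : Pl N} (hw : Over w q) (huniq : ∀ w' : Pl N, Over w' q → w' = w)
    (hres : ∀ ε : N, w.valuation N ε ≤ 1 → ∃ b : F, w.valuation N (ε - algebraMap F N b) < 1)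
    {ε : N} (hε : w.valuation N ε ≤ 1) {u : F} (hu0 : u ≠ 0) (hu : ord q u = 0)
    (hnorm : algebraMap F N u = ∏ j ∈ Finset.range p, (σ ^ j) ε) :
    sym p ζ q u = 0 := by
  obtain ⟨b, hb⟩ := hres ε hε
  have hcb : CongMod w ε (algebraMap F N b) := hb
  have hbv : w.valuation N (algebraMap F N b) ≤ 1 := SymBasic.congMod_val_le_one hcb hε
  have hj : ∀ j ∈ Finset.range p, CongMod w ((σ ^ j) ε) (algebraMap F N b) := by
    intro j _
    have h1 : (σ ^ j) ε - algebraMap F N b = (σ ^ j) (ε - algebraMap F N b) := by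
      rw [map_sub, AlgEquiv.commutes]
    unfold CongMod
    rw [h1, valuation_gal_eq hw huniq]
    exact hb
  have hprod := congMod_prod w (Finset.range p) (fun j => (σ ^ j) ε) hbv hj
  rw [Finset.card_range, ← hnorm, ← map_pow] at hprod
  exact (SymBasic.sym_eq_zero_iff hζ q hq hu0 hu).mpr ⟨b, congMod_of_algebraMap hw hprod⟩

/-- Block `NormResBound`. -/
theorem normResBound : SIPlan.NormResBound := by
  intro F N _ _ _ _ _ _ p _ ζ hζ _ σ _ S R hSR hRp SN hSN nm dm hnm _ hfix hT huniq hres h0
  classical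
  have hp : p.Prime := Fact.out
  -- representatives in `dm.ker` with prescribed symbols
  have hT' : ∀ c : R → ZMod p, ∃ x : dm.ker, ∃ u : F, u ≠ 0 ∧ (∀ v : Pl F, v ∉ S → ord v u = 0) ∧
      algebraMap F N u = (((x : (SN : Set (Pl N)).unit N) : Nˣ) : N) ∧
      ∀ q : R, sym p ζ q.1 u = c q := by
    intro c
    obtain ⟨u, hu0, huS, hsym⟩ := hT fun q => if h : q ∈ R then c ⟨q, h⟩ else 0
    have hmem : Units.map (algebraMap F N).toMonoidHom (Units.mk0 u hu0) ∈
        (SN : Set (Pl N)).unit N := by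
      intro w hwSN
      obtain ⟨v, hv⟩ := GalPl.exists_below (F := F) w
      have hvS : v ∉ S := fun hvS => hwSN ((hSN w).mpr ⟨v, hvS, hv⟩)
      exact valuation_algebraMap_eq_one hv
        ((OrdBasic.ord_eq_zero_iff v hu0).mp (huS v hvS))
    have hker : (⟨_, hmem⟩ : (SN : Set (Pl N)).unit N) ∈ dm.ker := by
      rw [hfix]
      refine ⟨Units.mk0 u hu0, ?_, rfl⟩
      rw [OrdBasic.mem_unit_iff]
      exact fun v hv => huS v (by simpa using hv)
    refine ⟨⟨_, hker⟩, u, hu0, huS, rfl, fun q => ?_⟩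
    rw [hsym q.1 q.2, dif_pos q.2]
  choose X U hU0 hUS hUX hUsym using hT'
  -- the classes of the `X c` are pairwise distinct modulo norms
  have hinj : Function.Injective
      (fun c : R → ZMod p => (QuotientGroup.mk (X c) : dm.ker ⧸ nm.range.subgroupOf dm.ker)) := by
    intro c c' hcc
    have h1 : (X c)⁻¹ * X c' ∈ nm.range.subgroupOf dm.ker := QuotientGroup.eq.mp hcc
    rw [Subgroup.mem_subgroupOf] at h1
    obtain ⟨ε, hε⟩ := h1
    have hu0 : (U c)⁻¹ * U c' ≠ 0 := mul_ne_zero (inv_ne_zero (hU0 c)) (hU0 c')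
    have hnorm : algebraMap F N ((U c)⁻¹ * U c') =
        ∏ j ∈ Finset.range p, (σ ^ j) (((ε : (SN : Set (Pl N)).unit N) : Nˣ) : N) := by
      rw [← hnm ε, hε, map_mul, map_inv₀, hUX c, hUX c']
      simp
    funext q
    have hqS : q.1 ∉ S := Finset.disjoint_right.mp hSR q.2
    have hq : ¬ Above p q.1 := hRp q.1 q.2
    obtain ⟨w, hw⟩ := GalPl.exists_above (N := N) q.1
    have hwSN : w ∉ SN := by
      intro hwSN
      obtain ⟨v, hvS, hv⟩ := (hSN w).mp hwSN
      exact hqS (GalPl.below_unique w v q.1 hv hw ▸ hvS)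
    have hεw : w.valuation N (((ε : (SN : Set (Pl N)).unit N) : Nˣ) : N) ≤ 1 :=
      (ε.2 w hwSN).le
    have ho : ord q.1 (U c) = 0 := hUS c q.1 hqS
    have ho' : ord q.1 (U c') = 0 := hUS c' q.1 hqS
    have hoi : ord q.1 (U c)⁻¹ = 0 := by rw [OrdBasic.ord_inv, ho, neg_zero]
    have hord : ord q.1 ((U c)⁻¹ * U c') = 0 := by
      rw [OrdBasic.ord_mul q.1 (inv_ne_zero (hU0 c)) (hU0 c'), hoi, ho', add_zero]
    have hz := sym_norm_eq_zero hζ σ hq hw (fun w' hw' => huniq q.1 q.2 w' w hw' hw)
      (hres q.1 q.2 w hw) hεw hu0 hord hnorm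
    rw [SymBasic.sym_mul hζ q.1 hq (inv_ne_zero (hU0 c)) (hU0 c') hoi ho',
      SymBasic.sym_inv hζ q.1 hq (hU0 c) ho, hUsym c q, hUsym c' q] at hz
    exact (neg_add_eq_zero.mp hz)
  have hfin : Finite (dm.ker ⧸ nm.range.subgroupOf dm.ker) :=
    Nat.finite_of_card_ne_zero h0
  have hle := Nat.card_le_card_of_injective _ hinj
  have hcard : Nat.card (R → ZMod p) = p ^ R.card := by
    have : NeZero p := ⟨hp.ne_zero⟩
    rw [Nat.card_eq_fintype_card, Fintype.card_fun, ZMod.card, Fintype.card_coe]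
  rw [hcard] at hle
  exact hle

end Fermat.Agent.S14C.NormRes
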