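/-
S14C / SI : `SIOneStatement` (`|T| + 1 = r + |S|`) from Claim B and the local count.
Owner: helper70.  Uses the counting step `SI/Count.lean` (helper29).

With `|T| + 1 = r + |S|` and `[F : ℚ] = 2 r`, the image of the valuation map
`E_{S ∪ T} → (ZMod p)^S` has index at most `p`; by pigeonhole on the `p²` classes of
`n₁ ^ a * n₂ ^ b` two of them agree, which gives the relation `c₁ D₁ + c₂ D₂ ≡ (x)`.
-/
import Fermat.Agent.S14C.SI.Count
import Fermat.Agent.S14C.SI.SUnitCard

set_option autoImplicit false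

namespace Fermat.Agent.S14C.SIOne

open IsDedekindDomain NumberField Fermat.Agent.S14C.SIDefs Fermat.Agent.S14C.SITop

/-- If `p ∣ a' + (p - a)` with `a, a' < p` then `a' = a`. -/
theorem eq_of_dvd_add_sub {p a a' : ℕ} (ha : a < p) (ha' : a' < p) (h : p ∣ a' + (p - a)) :
    a' = a := by
  obtain ⟨k, hk⟩ := h
  rcases k with _ | _ | k
  · omega
  · omega
  · exfalso
    have : p * 2 ≤ p * (k + 1 + 1) := Nat.mul_le_mul_left _ (by omega)
    omega

variable {p : ℕ} [Fact p.Prime]

theorem siOne (hp2 : p ≠ 2) (hL : LocalCountStatement p) (hB : ClaimBStatement p) :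
    SIOneStatement p := by
  classical
  intro F _ _ ζ hζ S T hdisj hSp hS hT hcard D₁ D₂
  have hp : p.Prime := Fact.out
  have : NeZero p := ⟨hp.ne_zero⟩
  -- the counting inequality
  have hUcard : (S ∪ T).card = S.card + T.card := Finset.card_union_of_disjoint hdisj
  have hU : Nat.card (Count.UST S T ⧸
      (powMonoidHom p : Count.UST S T →* Count.UST S T).range) =
      p ^ (NumberField.InfinitePlace.nrComplexPlaces F + S.card + T.card) := by
    have h := SUnitCard.card_sUnit_mod_pow hp2 hζ (S ∪ T)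
    rw [hUcard, ← add_assoc] at h
    exact h
  have hfin := (SUnitCard.units_rank_of_zeta (F := F) hp2 hζ).2
  have hrange := Count.card_range_ge (ζ := ζ) S T (NumberField.InfinitePlace.nrComplexPlaces F) hU
    (fun {ι} _ y hy0 hy hc => hL F ζ hζ S ι y hy0 hy hc)
    (fun y hy0 hyST hyloc => hB F ζ hζ S T hdisj hSp hS hT y hy0 hyST hyloc)
  -- the index of the range is at most `p`
  have htarget : Nat.card (Multiplicative (S → ZMod p)) = p ^ S.card := by
    rw [Nat.card_eq_fintype_card]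
    simp [Fintype.card_multiplicative, ZMod.card]
  have hmul := Subgroup.card_mul_index (Count.valSbar p S T).range
  rw [htarget] at hmul
  have hcpos : 0 < Nat.card (Count.valSbar p S T).range := Nat.card_pos
  have hidx : (Count.valSbar p S T).range.index ≤ p := by
    have h1 : p ^ (S.card + Module.finrank ℚ F) * p ^ S.card =
        p ^ (NumberField.InfinitePlace.nrComplexPlaces F + S.card + T.card) * p := by
      rw [← pow_add, ← pow_succ]
      congr 1
      omega
    have h2 : p ^ (S.card + Module.finrank ℚ F) * p ^ S.card ≤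
        p ^ (S.card + Module.finrank ℚ F) * (Nat.card (Count.valSbar p S T).range * p) := by
      rw [h1]
      calc p ^ (NumberField.InfinitePlace.nrComplexPlaces F + S.card + T.card) * p
          ≤ (Nat.card (Count.valSbar p S T).range * p ^ (S.card + Module.finrank ℚ F)) * p :=
            Nat.mul_le_mul_right _ hrange
        _ = p ^ (S.card + Module.finrank ℚ F) * (Nat.card (Count.valSbar p S T).range * p) := by
            ring
    have h3 : p ^ S.card ≤ Nat.card (Count.valSbar p S T).range * p :=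
      Nat.le_of_mul_le_mul_left h2 (pow_pos hp.pos _)
    rw [← hmul] at h3
    exact Nat.le_of_mul_le_mul_left h3 hcpos
  -- representatives
  obtain ⟨x₁, hx₁0, hx₁⟩ := hS D₁
  obtain ⟨x₂, hx₂0, hx₂⟩ := hS D₂
  set n₁ : Multiplicative (S → ZMod p) :=
    Multiplicative.ofAdd (fun s : S => (((D₁ s.1 - ord s.1 x₁ : ℤ)) : ZMod p)) with hn₁
  set n₂ : Multiplicative (S → ZMod p) :=
    Multiplicative.ofAdd (fun s : S => (((D₂ s.1 - ord s.1 x₂ : ℤ)) : ZMod p)) with hn₂
  have hpow : ∀ n : Multiplicative (S → ZMod p), n ^ p = 1 := by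
    intro n
    apply Multiplicative.toAdd.injective
    funext s
    simp
  -- pigeonhole
  have hfinQ : Finite (Multiplicative (S → ZMod p) ⧸ (Count.valSbar p S T).range) :=
    inferInstance
  let _ : Fintype (Multiplicative (S → ZMod p) ⧸ (Count.valSbar p S T).range) :=
    Fintype.ofFinite _
  have hcardQ : Fintype.card (Multiplicative (S → ZMod p) ⧸ (Count.valSbar p S T).range) ≤ p := by
    rw [← Nat.card_eq_fintype_card]
    exact hidx
  let f : Fin p × Fin p → Multiplicative (S → ZMod p) ⧸ (Count.valSbar p S T).range :=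
    fun ab => QuotientGroup.mk (n₁ ^ ab.1.val * n₂ ^ ab.2.val)
  have hlt : Fintype.card (Multiplicative (S → ZMod p) ⧸ (Count.valSbar p S T).range) <
      Fintype.card (Fin p × Fin p) := by
    rw [Fintype.card_prod, Fintype.card_fin]
    have : p < p * p := by nlinarith [hp.two_le]
    omega
  obtain ⟨⟨a, b⟩, ⟨a', b'⟩, hne, heq⟩ := Fintype.exists_ne_map_eq_of_card_lt f hlt
  have hmem : (n₁ ^ a.val * n₂ ^ b.val)⁻¹ * (n₁ ^ a'.val * n₂ ^ b'.val) ∈
      (Count.valSbar p S T).range := QuotientGroup.eq.mp heq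
  have hinv₁ : n₁ ^ (p - a.val) = (n₁ ^ a.val)⁻¹ := by
    apply eq_inv_of_mul_eq_one_left
    rw [← pow_add, Nat.sub_add_cancel a.isLt.le, hpow]
  have hinv₂ : n₂ ^ (p - b.val) = (n₂ ^ b.val)⁻¹ := by
    apply eq_inv_of_mul_eq_one_left
    rw [← pow_add, Nat.sub_add_cancel b.isLt.le, hpow]
  have hmem' : n₁ ^ (a'.val + (p - a.val)) * n₂ ^ (b'.val + (p - b.val)) ∈
      (Count.valSbar p S T).range := by
    have : n₁ ^ (a'.val + (p - a.val)) * n₂ ^ (b'.val + (p - b.val)) =
        (n₁ ^ a.val * n₂ ^ b.val)⁻¹ * (n₁ ^ a'.val * n₂ ^ b'.val) := by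
      rw [pow_add, pow_add, hinv₁, hinv₂, mul_inv]
      exact mul_mul_mul_comm _ _ _ _ |>.trans (mul_comm _ _)
    rw [this]
    exact hmem
  obtain ⟨u, hu0, huST, hu⟩ := Count.exists_of_mem_range S T hmem'
  refine ⟨((a'.val + (p - a.val) : ℕ) : ℤ), ((b'.val + (p - b.val) : ℕ) : ℤ), ?_, ?_⟩
  · by_contra hcon
    push Not at hcon
    obtain ⟨h1, h2⟩ := hcon
    have e1 := eq_of_dvd_add_sub a.isLt a'.isLt (Int.natCast_dvd_natCast.mp h1)
    have e2 := eq_of_dvd_add_sub b.isLt b'.isLt (Int.natCast_dvd_natCast.mp h2)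
    apply hne
    rw [Prod.mk.injEq]
    exact ⟨(Fin.ext e1).symm, (Fin.ext e2).symm⟩
  · refine ⟨x₁ ^ (a'.val + (p - a.val)) * x₂ ^ (b'.val + (p - b.val)) * u,
      mul_ne_zero (mul_ne_zero (pow_ne_zero _ hx₁0) (pow_ne_zero _ hx₂0)) hu0, ?_⟩
    intro v hvT
    rw [OrdBasic.ord_mul v (mul_ne_zero (pow_ne_zero _ hx₁0) (pow_ne_zero _ hx₂0)) hu0,
      OrdBasic.ord_mul v (pow_ne_zero _ hx₁0) (pow_ne_zero _ hx₂0), OrdBasic.ord_pow,
      OrdBasic.ord_pow]
    by_cases hvS : v ∈ S
    · have h := hu ⟨v, hvS⟩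
      rw [← ZMod.intCast_zmod_eq_zero_iff_dvd]
      simp only [hn₁, hn₂, toAdd_mul, toAdd_pow, toAdd_ofAdd, Pi.add_apply, Pi.smul_apply] at h
      simp only [nsmul_eq_mul] at h
      push_cast
      push_cast at h
      rw [h]
      ring
    · rw [hx₁ v hvS, hx₂ v hvS, huST v hvS hvT]
      simp

end Fermat.Agent.S14C.SIOne
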