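import Fermat.Agent.S14C.SI.ClaimBPlan
import Fermat.Agent.S14C.SI.OrdBasic
import Fermat.Agent.S14C.SI.SymExt

/-!
# S14C / SI : elements of `N` which are units outside the primes over `S`

Closure properties of `ClaimBPlan.IsSUnitAbove` (products, inverses, Galois conjugates, images of
`S`-units of `F`), shared by the Claim B assembly and the Herbrand bridge.
-/

set_option autoImplicit false
set_option linter.unusedSectionVars false

namespace Fermat.Agent.S14C.SUnitAbove

open IsDedekindDomain NumberField Fermat.Agent.S14C.SIDefs Fermat.Agent.S14C.ClaimBPlan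
open Fermat.Agent.S14C.OrdBasic

variable {F : Type} [Field F] [NumberField F] {p : ℕ} [Fact p.Prime] {ζ : F}
variable {N : Type} [Field N] [NumberField N] [Algebra F N]

/-! ### `S`-units above -/

theorem isSUnitAbove_one (S : Finset (Pl F)) : IsSUnitAbove (N := N) S 1 :=
  ⟨one_ne_zero, fun w _ _ _ => ord_one w⟩

theorem isSUnitAbove_mul {S : Finset (Pl F)} {x y : N} (hx : IsSUnitAbove S x)
    (hy : IsSUnitAbove S y) : IsSUnitAbove S (x * y) :=
  ⟨mul_ne_zero hx.1 hy.1, fun w v hwv hv => by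
    rw [ord_mul w hx.1 hy.1, hx.2 w v hwv hv, hy.2 w v hwv hv, add_zero]⟩

theorem isSUnitAbove_inv {S : Finset (Pl F)} {x : N} (hx : IsSUnitAbove S x) :
    IsSUnitAbove S x⁻¹ :=
  ⟨inv_ne_zero hx.1, fun w v hwv hv => by rw [ord_inv, hx.2 w v hwv hv, neg_zero]⟩

theorem isSUnitAbove_div {S : Finset (Pl F)} {x y : N} (hx : IsSUnitAbove S x)
    (hy : IsSUnitAbove S y) : IsSUnitAbove S (x / y) := by
  rw [div_eq_mul_inv]
  exact isSUnitAbove_mul hx (isSUnitAbove_inv hy)

theorem isSUnitAbove_gal (hGal : GalStatement) {S : Finset (Pl F)} {x : N}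
    (hx : IsSUnitAbove S x) (σ : N ≃ₐ[F] N) : IsSUnitAbove S (σ x) := by
  obtain ⟨hG1, hG2, hG3, -, hG5, -, -⟩ := hGal F N
  refine ⟨by simpa using hx.1, fun w v hwv hv => ?_⟩
  obtain ⟨w', rfl⟩ : ∃ w', galPl σ w' = w :=
    (HeightOneSpectrum.equivOfRingEquiv (RingOfIntegers.mapRingEquiv σ.toRingEquiv)).surjective w
  obtain ⟨v', hv'⟩ := hG3 w'
  have : v' = v := hG5 _ _ _ (hG2 σ w' v' hv') hwv
  subst this
  rw [hG1, hx.2 w' v' hv' hv]

theorem isSUnitAbove_pow_div (hGal : GalStatement) {S : Finset (Pl F)} {x : N}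
    (τ : N ≃ₐ[F] N) (hx0 : x ≠ 0) (h : IsSUnitAbove S (τ x / x)) (k : ℕ) :
    IsSUnitAbove S ((τ ^ k) x / x) := by
  induction k with
  | zero =>
    simp only [pow_zero, AlgEquiv.one_apply, div_self hx0]
    exact isSUnitAbove_one S
  | succ k ih =>
    have hτx : τ x ≠ 0 := by simpa using hx0
    have : (τ ^ (k + 1)) x / x = τ ((τ ^ k) x / x) * (τ x / x) := by
      rw [pow_succ', AlgEquiv.mul_apply, map_div₀]
      field_simp
    rw [this]
    exact isSUnitAbove_mul (isSUnitAbove_gal hGal ih τ) h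

/-- A unit at `v` stays a unit at every prime `w` over `v`. -/
theorem ord_algebraMap_eq_zero (w : Pl N) (v : Pl F) (hwv : Over w v) {c : F} (hc0 : c ≠ 0)
    (hc : ord v c = 0) : ord w (algebraMap F N c) = 0 := by
  obtain ⟨e, -, hval⟩ := Fermat.Agent.S14C.SymExt.exists_valuation_algebraMap_eq_pow v w hwv
  have hc0' : algebraMap F N c ≠ 0 := by simpa using hc0
  rw [ord_eq_zero_iff w hc0', hval, (ord_eq_zero_iff v hc0).mp hc, one_pow]

/-- The image in `N` of an `S`-unit of `F` is a unit outside the primes over `S`. -/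
theorem isSUnitAbove_algebraMap {S : Finset (Pl F)} {c : F} (hc0 : c ≠ 0)
    (hc : ∀ v : Pl F, v ∉ S → ord v c = 0) : IsSUnitAbove S (algebraMap F N c) :=
  ⟨by simpa using hc0, fun w v hwv hv => ord_algebraMap_eq_zero w v hwv hc0 (hc v hv)⟩

end Fermat.Agent.S14C.SUnitAbove
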