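import Fermat.Agent.S14C.SI.Plan
import Fermat.Agent.S14C.SI.GalPl

/-!
# S14C / SI : [SI-HqU] unit data (helper10)

Proof of `SIPlan.UnitDataExists`: for `N/F` Galois of degree `p`, `σ : N ≃ₐ[F] N` and a finite
set `S` of primes of `F`, the set `SN` of primes of `N` over `S` is finite, stable under the
Galois group, so every `τ : N ≃ₐ[F] N` acts on the `SN`-units `E`; `nm := ∏_{j<p} σ^j` and
`dm := σ / 1` are the required endomorphisms of `E`.
-/

set_option autoImplicit false
set_option linter.unusedSectionVars false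

namespace Fermat.Agent.S14C.UnitData

open IsDedekindDomain NumberField Fermat.Agent.S14C.SIDefs Fermat.Agent.S14C.ClaimBPlan

variable {F : Type} [Field F] [NumberField F] {N : Type} [Field N] [NumberField N] [Algebra F N]

/-- The set of primes of `N` lying over a finite set `S` of primes of `F` is finite. -/
theorem finite_over (S : Finset (Pl F)) : {w : Pl N | ∃ v ∈ S, Over w v}.Finite := by
  have h : {w : Pl N | ∃ v ∈ S, Over w v} = ⋃ v ∈ S, {w : Pl N | Over w v} := by
    ext w
    simp
  rw [h]
  exact S.finite_toSet.biUnion fun v _ => GalPl.finite_above v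

/-- The primes of `N` over `S`, as a finset. -/
noncomputable def overSet (S : Finset (Pl F)) : Finset (Pl N) :=
  (finite_over (N := N) S).toFinset

theorem mem_overSet (S : Finset (Pl F)) (w : Pl N) :
    w ∈ overSet (N := N) S ↔ ∃ v ∈ S, Over w v := by
  simp [overSet]

/-- Every prime is the Galois image of a prime. -/
theorem galPl_symm_apply (τ : N ≃ₐ[F] N) (w : Pl N) :
    galPl τ ((HeightOneSpectrum.equivOfRingEquiv
      (RingOfIntegers.mapRingEquiv τ.toRingEquiv)).symm w) = w := by
  unfold galPl
  exact Equiv.apply_symm_apply _ w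

/-- The set of primes over `S` is Galois stable. -/
theorem galPl_mem_overSet (S : Finset (Pl F)) (τ : N ≃ₐ[F] N) (w : Pl N)
    (hw : w ∈ overSet (N := N) S) : galPl τ w ∈ overSet (N := N) S := by
  rw [mem_overSet] at hw ⊢
  obtain ⟨v, hv, h⟩ := hw
  exact ⟨v, hv, GalPl.over_galPl τ w v h⟩

/-- Galois conjugates of `S_N`-units are `S_N`-units. -/
theorem map_mem_unit (S : Finset (Pl F)) (τ : N ≃ₐ[F] N) (x : Nˣ)
    (hx : x ∈ ((overSet (N := N) S : Finset (Pl N)) : Set (Pl N)).unit N) :
    Units.map (τ : N →* N) x ∈ ((overSet (N := N) S : Finset (Pl N)) : Set (Pl N)).unit N := by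
  intro w hw
  set w₀ := (HeightOneSpectrum.equivOfRingEquiv
      (RingOfIntegers.mapRingEquiv τ.toRingEquiv)).symm w with hw₀
  have hw₀' : w₀ ∉ ((overSet (N := N) S : Finset (Pl N)) : Set (Pl N)) := by
    intro h
    apply hw
    have := galPl_mem_overSet S τ w₀ (by simpa using h)
    rw [hw₀, galPl_symm_apply] at this
    simpa using this
  have h1 : w₀.valuation N (x : N) = 1 := hx w₀ hw₀'
  have h2 := GalPl.valuation_galPl τ w₀ (x : N)
  rw [hw₀, galPl_symm_apply] at h2
  change w.valuation N (τ (x : N)) = 1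
  rw [h2]
  exact h1

/-- The action of `τ : N ≃ₐ[F] N` on the `S_N`-units. -/
noncomputable def act (S : Finset (Pl F)) (τ : N ≃ₐ[F] N) :
    ((overSet (N := N) S : Finset (Pl N)) : Set (Pl N)).unit N →*
      ((overSet (N := N) S : Finset (Pl N)) : Set (Pl N)).unit N :=
  ((Units.map (τ : N →* N)).comp (Subgroup.subtype _)).codRestrict _
    (fun x => map_mem_unit S τ x x.2)

theorem act_apply (S : Finset (Pl F)) (τ : N ≃ₐ[F] N)
    (x : ((overSet (N := N) S : Finset (Pl N)) : Set (Pl N)).unit N) :
    ((act S τ x : Nˣ) : N) = τ ((x : Nˣ) : N) := rfl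

/-- [SI-HqU] existence of the unit data. -/
theorem unitDataExists : SIPlan.UnitDataExists := by
  intro F _ _ p _ N _ _ _ _ _ σ S
  refine ⟨overSet (N := N) S, ∏ j ∈ Finset.range p, act S (σ ^ j),
    act S σ / MonoidHom.id _, ?_, ?_, ?_⟩
  · intro w
    exact mem_overSet S w
  · intro x
    rw [MonoidHom.finsetProd_apply, Subgroup.val_finsetProd, Units.coe_prod]
    rfl
  · intro x
    rw [MonoidHom.div_apply, Subgroup.coe_div, Units.val_div_eq_div_val]
    rfl

end Fermat.Agent.S14C.UnitData
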