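import Fermat.Agent.S14C.ZSymF
import Fermat.Agent.S14C.SI.TopPlan
import Fermat.Agent.S14C.SI.SymBasic
import Fermat.Agent.S14C.SI.SymExt
import Fermat.Agent.S14C.SI.OrdBasic
import Fermat.Agent.S14C.SI.GalPl
import Fermat.Agent.S14C.SI.KummerUnr

/-!
# S14C / SI : the (Z)-steps [SI-Z], [SI-Z2a], [SI-Z2b]

* `zStatement : SITop.ZStatement p` is `ZSymF.exists_prime_sym_ne_zero` verbatim.
* `zStepA : SITop.KummerStatement p → SITop.ZStepAStatement p` : for `a ∉ F^p` and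
  `u ∉ ⟨a⟩ F^p`, apply (Z) over the Kummer field `M = F(a^{1/p})` to `u` (not a `p`-th power of
  `M` by the Kummer lemma) and descend the degree-one prime `Q` of `M` to `q = Q ∩ F`:
  `f(Q|q) = 1`, so `sym_q(u) = sym_Q(u) ≠ 0` and `sym_q(a) = sym_Q(θ^p) = 0`.
* `zStepB : SITop.KummerStatement p → SITop.ZStepBStatement p` : if `η, u` are independent
  modulo `p`-th powers, apply `zStepA` to `(u η^(p-1), η)`; otherwise apply (Z) to `η`.
-/

set_option autoImplicit false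

namespace Fermat.Agent.S14C.ZStep

open IsDedekindDomain NumberField Fermat.Agent.S14C.SIDefs Fermat.Agent.S14C.ClaimBPlan

/-- **[SI-Z]** -/
theorem zStatement {p : ℕ} [Fact p.Prime] (hp2 : p ≠ 2) : SITop.ZStatement p :=
  fun _ _ _ _ hζ _ hu Z => ZSymF.exists_prime_sym_ne_zero hp2 hζ hu Z

section Descent

variable {F : Type} [Field F] [NumberField F] {M : Type} [Field M] [NumberField M] [Algebra F M]
  {p : ℕ} [Fact p.Prime] {ζ : F}

omit [Fact p.Prime] in
/-- If `Q | q` and `Q ∤ p` then `q ∤ p`. -/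
theorem not_above_of_over (Q : Pl M) (q : Pl F) (hQq : Over Q q) (hQp : ¬ Above p Q) :
    ¬ Above p q := by
  intro h
  apply hQp
  obtain ⟨e, he, hval⟩ := SymExt.exists_valuation_algebraMap_eq_pow q Q hQq
  unfold Above at *
  have h1 : ((p : ℕ) : M) = algebraMap F M ((p : ℕ) : F) := (map_natCast _ p).symm
  rw [h1, hval]
  exact pow_lt_one₀ zero_le h he

/-- Descent of a prime of prime norm: `Q | q`, `N Q` prime, `Q ∤ p`. Then `q ∤ p`, `N q` is
prime, and the symbols of elements of `F` at `q` and at `Q` agree. -/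
theorem descend (hζ : IsPrimitiveRoot ζ p) (Q : Pl M) (q : Pl F) (hQq : Over Q q)
    (hQp : ¬ Above p Q) (hQ : (nrm Q).Prime) :
    ¬ Above p q ∧ (nrm q).Prime ∧ ∀ x : F, x ≠ 0 → ord q x = 0 →
      sym p (algebraMap F M ζ) Q (algebraMap F M x) = sym p ζ q x := by
  have hq : ¬ Above p q := not_above_of_over Q q hQq hQp
  have hN : nrm Q = nrm q ^ (Q.asIdeal.inertiaDeg (𝓞 F)) := SymExt.nrm_baseChange q Q hQq
  have hf : nrm q = nrm Q ∧ Q.asIdeal.inertiaDeg (𝓞 F) = 1 := (hQ.pow_eq_iff).mp hN.symm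
  refine ⟨hq, hf.1 ▸ hQ, fun x hx0 hx => ?_⟩
  rw [SymExt.sym_baseChange hζ q Q hQq hq hx0 hx, hf.2, Nat.cast_one, one_mul]

end Descent

/-- **[SI-Z2a]** -/
theorem zStepA {p : ℕ} [Fact p.Prime] (hp2 : p ≠ 2) (hK : SITop.KummerStatement p) :
    SITop.ZStepAStatement p := by
  intro F _ _ ζ hζ a u ha hu Z
  obtain ⟨M, _, _, _, θ, -, -, -, hθ, -, hKum⟩ := hK F ζ hζ a ha
  have hp0 : p ≠ 0 := (Fact.out : p.Prime).ne_zero
  have ha0 : a ≠ 0 := by
    rintro rfl
    exact ha 0 (zero_pow hp0)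
  have hu0 : u ≠ 0 := by
    rintro rfl
    exact hu 0 0 (by rw [zero_pow hp0, mul_zero])
  have hζM : IsPrimitiveRoot (algebraMap F M ζ) p :=
    hζ.map_of_injective (algebraMap F M).injective
  have huM : ∀ b : M, b ^ p ≠ algebraMap F M u := by
    intro b hb
    obtain ⟨k, f, hkf⟩ := hKum u ⟨b, hb⟩
    exact hu k f hkf.symm
  -- the primes of `F` to avoid, and the primes of `M` above them
  have hS0 : ((Z : Set (Pl F)) ∪ {v | ord v a ≠ 0} ∪ {v | ord v u ≠ 0}).Finite :=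
    (Z.finite_toSet.union (finite_ord_ne_zero a)).union (finite_ord_ne_zero u)
  have hZM : (⋃ v ∈ ((Z : Set (Pl F)) ∪ {v | ord v a ≠ 0} ∪ {v | ord v u ≠ 0}),
      {w : Pl M | Over w v}).Finite :=
    hS0.biUnion fun v _ => GalPl.finite_above v
  obtain ⟨Q, hQZ, hQp, -, hQN, hQsym⟩ :=
    ZSymF.exists_prime_sym_ne_zero hp2 hζM huM hZM.toFinset
  obtain ⟨q, hQq⟩ := GalPl.exists_below (F := F) Q
  have hqS : q ∉ ((Z : Set (Pl F)) ∪ {v | ord v a ≠ 0} ∪ {v | ord v u ≠ 0}) := fun hq =>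
    hQZ (hZM.mem_toFinset.mpr (Set.mem_biUnion hq hQq))
  have hqZ : q ∉ Z := fun h => hqS (Or.inl (Or.inl h))
  have hqa : ord q a = 0 := by
    by_contra h
    exact hqS (Or.inl (Or.inr h))
  have hqu : ord q u = 0 := by
    by_contra h
    exact hqS (Or.inr h)
  obtain ⟨hqp, hqN, hsym⟩ := descend hζ Q q hQq hQp hQN
  refine ⟨q, hqZ, hqp, hqa, hqu, hqN, ?_, ?_⟩
  · -- `sym_q(a) = sym_Q(θ^p) = p * sym_Q(θ) = 0`
    have hθ0 : θ ≠ 0 := by
      rintro rfl
      rw [zero_pow hp0] at hθ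
      exact ha0 ((map_eq_zero (algebraMap F M)).mp hθ.symm)
    have hordθ : ord Q θ = 0 := by
      have h1 : ord Q (θ ^ p) = 0 := by
        rw [hθ, KummerUnr.ord_algebraMap_eq_mul q Q hQq a, hqa, mul_zero]
      rw [OrdBasic.ord_pow] at h1
      rcases mul_eq_zero.mp h1 with h | h
      · exact absurd (by exact_mod_cast h) hp0
      · exact h
    rw [← hsym a ha0 hqa, ← hθ, SymBasic.sym_pow hζM Q hQp hθ0 hordθ, ZMod.natCast_self, zero_mul]
  · rw [← hsym u hu0 hqu]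
    exact hQsym

section Rel

variable {F : Type} [Field F] [NumberField F] {p : ℕ} [Fact p.Prime] {ζ : F}

/-- A multiplicative relation `η ^ i * u ^ j = b ^ p` between units at `q` gives the linear
relation `i * sym_q(η) + j * sym_q(u) = 0`. -/
theorem sym_rel (hζ : IsPrimitiveRoot ζ p) (q : Pl F) (hq : ¬ Above p q) {η u b : F} {i j : ℕ}
    (hη0 : η ≠ 0) (hu0 : u ≠ 0) (hη : ord q η = 0) (hu : ord q u = 0)
    (h : η ^ i * u ^ j = b ^ p) :
    (i : ZMod p) * sym p ζ q η + (j : ZMod p) * sym p ζ q u = 0 := by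
  have hp0 : p ≠ 0 := (Fact.out : p.Prime).ne_zero
  have hb0 : b ≠ 0 := by
    rintro rfl
    rw [zero_pow hp0] at h
    exact mul_ne_zero (pow_ne_zero i hη0) (pow_ne_zero j hu0) h
  have hηi : ord q (η ^ i) = 0 := by rw [OrdBasic.ord_pow, hη, mul_zero]
  have huj : ord q (u ^ j) = 0 := by rw [OrdBasic.ord_pow, hu, mul_zero]
  have hb : ord q b = 0 := by
    have h1 : ord q (b ^ p) = 0 := by
      rw [← h, OrdBasic.ord_mul q (pow_ne_zero i hη0) (pow_ne_zero j hu0), hηi, huj, add_zero]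
    rw [OrdBasic.ord_pow] at h1
    rcases mul_eq_zero.mp h1 with h2 | h2
    · exact absurd (by exact_mod_cast h2) hp0
    · exact h2
  have h2 : sym p ζ q (η ^ i * u ^ j) = 0 := by
    rw [h, SymBasic.sym_pow hζ q hq hb0 hb, ZMod.natCast_self, zero_mul]
  rw [SymBasic.sym_mul hζ q hq (pow_ne_zero i hη0) (pow_ne_zero j hu0) hηi huj,
    SymBasic.sym_pow hζ q hq hη0 hη, SymBasic.sym_pow hζ q hq hu0 hu] at h2
  exact h2

end Rel

/-- **[SI-Z2b]** -/
theorem zStepB {p : ℕ} [Fact p.Prime] (hp2 : p ≠ 2) (hK : SITop.KummerStatement p) :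
    SITop.ZStepBStatement p := by
  intro F _ _ ζ hζ η u hη hu Z
  have hp : p.Prime := Fact.out
  have hp0 : p ≠ 0 := hp.ne_zero
  have hη0 : η ≠ 0 := by
    rintro rfl
    exact hη 0 (zero_pow hp0)
  have hu0 : u ≠ 0 := by
    rintro rfl
    exact hu 0 (zero_pow hp0)
  have hpred : ¬ p ∣ p - 1 := fun h => by
    have h1 := Nat.le_of_dvd (Nat.sub_pos_of_lt hp.one_lt) h
    have h2 := hp.one_lt
    omega
  by_cases hind : ∀ (i j : ℕ) (b : F), η ^ i * u ^ j = b ^ p → p ∣ i ∧ p ∣ j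
  · -- `η, u` independent modulo `p`-th powers: `zStepA` for `(u η^(p-1), η)`
    have h1 : ∀ b : F, b ^ p ≠ u * η ^ (p - 1) := by
      intro b hb
      have h := (hind (p - 1) 1 b (by rw [pow_one, hb, mul_comm])).2
      exact hp.one_lt.ne' (Nat.dvd_one.mp h)
    have h2 : ∀ (k : ℕ) (b : F), (u * η ^ (p - 1)) ^ k * b ^ p ≠ η := by
      intro k b hkb
      have hb0 : b ≠ 0 := by
        rintro rfl
        rw [zero_pow hp0, mul_zero] at hkb
        exact hη0 hkb.symm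
      have hrel : η ^ ((p - 1) * k + (p - 1)) * u ^ k = (η / b) ^ p := by
        rw [div_pow, eq_div_iff (pow_ne_zero p hb0)]
        calc η ^ ((p - 1) * k + (p - 1)) * u ^ k * b ^ p
            = η ^ (p - 1) * ((u * η ^ (p - 1)) ^ k * b ^ p) := by ring
          _ = η ^ (p - 1) * η := by rw [hkb]
          _ = η ^ p := by rw [← pow_succ, Nat.sub_add_cancel hp.one_lt.le]
      obtain ⟨h3, h4⟩ := hind _ _ _ hrel
      exact hpred ((Nat.dvd_add_right (Dvd.dvd.mul_left h4 (p - 1))).mp h3)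
    obtain ⟨q, hqZ, hqp, hqa, hqη, hqN, hsa, hsη⟩ :=
      zStepA hp2 hK F ζ hζ (u * η ^ (p - 1)) η h1 h2 Z
    have hqu : ord q u = 0 := by
      rw [OrdBasic.ord_mul q hu0 (pow_ne_zero _ hη0), OrdBasic.ord_pow, hqη, mul_zero,
        add_zero] at hqa
      exact hqa
    refine ⟨q, hqZ, hqp, hqη, hqu, hqN, hsη, ?_⟩
    intro hsu
    have hηp : ord q (η ^ (p - 1)) = 0 := by rw [OrdBasic.ord_pow, hqη, mul_zero]
    rw [SymBasic.sym_mul hζ q hqp hu0 (pow_ne_zero _ hη0) hqu hηp, hsu, zero_add,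
      SymBasic.sym_pow hζ q hqp hη0 hqη] at hsa
    rcases mul_eq_zero.mp hsa with h | h
    · exact hpred ((ZMod.natCast_eq_zero_iff _ _).mp h)
    · exact hsη h
  · -- a relation `η^i u^j = b^p` with `(i, j) ≠ (0, 0)` modulo `p`: (Z) for `η`
    push Not at hind
    obtain ⟨i, j, b, hrel, hij⟩ := hind
    classical
    obtain ⟨q, hqZ, hqp, hqη, hqN, hsη⟩ := ZSymF.exists_prime_sym_ne_zero hp2 hζ hη
      (Z ∪ (finite_ord_ne_zero u).toFinset)
    have hqZ' : q ∉ Z := fun h => hqZ (Finset.mem_union_left _ h)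
    have hqu : ord q u = 0 := by
      by_contra h
      exact hqZ (Finset.mem_union_right _ ((finite_ord_ne_zero u).mem_toFinset.mpr h))
    refine ⟨q, hqZ', hqp, hqη, hqu, hqN, hsη, ?_⟩
    intro hsu
    have hr := sym_rel hζ q hqp hη0 hu0 hqη hqu hrel
    rw [hsu, mul_zero, add_zero] at hr
    have hi : (i : ZMod p) = 0 := (mul_eq_zero.mp hr).resolve_right hsη
    have hj : ¬ p ∣ j := hij ((ZMod.natCast_eq_zero_iff _ _).mp hi)
    -- then `u^j` is a `p`-th power with `p ∤ j`: contradiction with (Z) for `u`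
    obtain ⟨q', hq'Z, hq'p, hq'u, -, hsu'⟩ := ZSymF.exists_prime_sym_ne_zero hp2 hζ hu
      (finite_ord_ne_zero η).toFinset
    have hq'η : ord q' η = 0 := by
      by_contra h
      exact hq'Z ((finite_ord_ne_zero η).mem_toFinset.mpr h)
    have hr' := sym_rel hζ q' hq'p hη0 hu0 hq'η hq'u hrel
    rw [hi, zero_mul, zero_add] at hr'
    rcases mul_eq_zero.mp hr' with h | h
    · exact hj ((ZMod.natCast_eq_zero_iff _ _).mp h)
    · exact hsu' h

end Fermat.Agent.S14C.ZStep
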