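import Mathlib
import Fermat.Agent.S14C.SI.TopPlan
import Fermat.Agent.S14C.SI.ClaimBPlan
import Fermat.Agent.S14C.SI.GalPl
import Fermat.Agent.S14C.SI.SymBasic
import Fermat.Agent.S14C.SI.SymExt
import Fermat.Agent.S14C.SI.OrdBasic

/-!
# S14C / SI : the two-element (Z)-steps `ZStepAStatement`, `ZStepBStatement` (B-copy, helper7)

* `zStepA`: for `u ∉ ⟨a⟩ F^p` there is a degree-one prime at which `a` is a `p`-th power residue
  and `u` is not: apply (Z) to `u` over `M = F(a^{1/p})` (Kummer lemma: `u ∉ M^p`) and descend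
  from a prime `Q` of `M` of prime norm to the prime `q` of `F` below (`f(Q|q) = 1`).
* `zStepB`: for `η, u ∉ F^p` there is a degree-one prime at which neither is a residue: if
  `η, u` are dependent modulo `p`-th powers use (Z) for `η` over `F`; otherwise (Z) for `η` over
  `M = F((u/η)^{1/p})`, where `u = η θ^p`.
-/

set_option autoImplicit false

namespace Fermat.Agent.S14C.ZStepB

open IsDedekindDomain NumberField Fermat.Agent.S14C.SIDefs Fermat.Agent.S14C.ClaimBPlan
  Fermat.Agent.S14C.SITop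

variable {F : Type} [Field F] [NumberField F] {p : ℕ} [Fact p.Prime] {ζ : F}
variable {M : Type} [Field M] [NumberField M] [Algebra F M]

/-- `ord_Q` of an element of `F` which is a unit at the prime `q` below `Q`. -/
theorem ord_algebraMap_eq_zero (Q : Pl M) (q : Pl F) (hQq : Over Q q) {x : F} (hx0 : x ≠ 0)
    (hx : ord q x = 0) : ord Q (algebraMap F M x) = 0 := by
  obtain ⟨e, -, hval⟩ := SymExt.exists_valuation_algebraMap_eq_pow q Q hQq
  apply SymBasic.ord_eq_zero_of_val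
  rw [hval, SymBasic.val_eq_one_of_ord hx0 hx, one_pow]

/-- Descent from a prime `Q` of `M` of prime norm to the prime `q` of `F` below it. -/
theorem descend (hζ : IsPrimitiveRoot ζ p) (Q : Pl M) (q : Pl F) (hQq : Over Q q)
    (hQp : ¬ Above p Q) (hQN : (nrm Q).Prime) :
    ¬ Above p q ∧ (nrm q).Prime ∧ ∀ x : F, x ≠ 0 → ord q x = 0 →
      sym p (algebraMap F M ζ) Q (algebraMap F M x) = sym p ζ q x := by
  have hq : ¬ Above p q := by
    intro h
    apply hQp
    obtain ⟨e, he, hval⟩ := SymExt.exists_valuation_algebraMap_eq_pow q Q hQq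
    unfold Above at *
    have h1 : ((p : ℕ) : M) = algebraMap F M ((p : ℕ) : F) := (map_natCast _ p).symm
    rw [h1, hval]
    exact pow_lt_one₀ zero_le h he
  have hN := SymExt.nrm_baseChange q Q hQq
  have hf : Q.asIdeal.inertiaDeg (𝓞 F) = 1 := by
    have h := hQN
    rw [hN] at h
    exact ((Nat.Prime.pow_eq_iff h).mp rfl).2
  refine ⟨hq, ?_, fun x hx0 hx => ?_⟩
  · rw [hN, hf, pow_one] at hQN
    exact hQN
  · rw [SymExt.sym_baseChange hζ q Q hQq hq hx0 hx, hf, Nat.cast_one, one_mul]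

/-- The primes of `M` above a finite set of primes of `F` form a finite set. -/
theorem exists_finset_above (Z : Finset (Pl F)) :
    ∃ ZM : Finset (Pl M), ∀ (Q : Pl M) (q : Pl F), Over Q q → q ∈ Z → Q ∈ ZM := by
  classical
  have hfin : {Q : Pl M | ∃ q ∈ Z, Over Q q}.Finite := by
    have : {Q : Pl M | ∃ q ∈ Z, Over Q q} = ⋃ q ∈ Z, {Q : Pl M | Over Q q} := by
      ext Q
      simp
    rw [this]
    exact Set.Finite.biUnion Z.finite_toSet (fun q _ => GalPl.finite_above q)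
  refine ⟨hfin.toFinset, fun Q q h hq => ?_⟩
  rw [Set.Finite.mem_toFinset]
  exact ⟨q, hq, h⟩

/-- If `η ^ m = u ^ k * f ^ p` with `p ∤ m`, a prime at which `η` is a non-residue is also one
for `u`. -/
theorem sym_ne_zero_of_rel (hζ : IsPrimitiveRoot ζ p) (q : Pl F) (hq : ¬ Above p q)
    {η u f : F} {m k : ℕ} (hrel : η ^ m = u ^ k * f ^ p) (hm : ¬ p ∣ m) (hη0 : η ≠ 0)
    (hu0 : u ≠ 0) (hf0 : f ≠ 0) (hη : ord q η = 0) (hu : ord q u = 0)
    (hs : sym p ζ q η ≠ 0) : sym p ζ q u ≠ 0 := by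
  have hpP : p.Prime := Fact.out
  have hf : ord q f = 0 := by
    have h := congrArg (ord q) hrel
    rw [OrdBasic.ord_pow, OrdBasic.ord_mul q (pow_ne_zero k hu0) (pow_ne_zero p hf0),
      OrdBasic.ord_pow, OrdBasic.ord_pow, hη, hu, mul_zero, mul_zero, zero_add] at h
    have hp0 : (p : ℤ) ≠ 0 := by exact_mod_cast hpP.ne_zero
    rcases mul_eq_zero.mp h.symm with h' | h'
    · exact absurd h' hp0
    · exact h'
  have huk : ord q (u ^ k) = 0 := by rw [OrdBasic.ord_pow, hu, mul_zero]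
  have hfp : ord q (f ^ p) = 0 := by rw [OrdBasic.ord_pow, hf, mul_zero]
  have h1 := congrArg (sym p ζ q) hrel
  rw [SymBasic.sym_pow hζ q hq hη0 hη,
    SymBasic.sym_mul hζ q hq (pow_ne_zero k hu0) (pow_ne_zero p hf0) huk hfp,
    SymBasic.sym_pow hζ q hq hu0 hu, SymBasic.sym_pow hζ q hq hf0 hf] at h1
  intro h0
  rw [h0, mul_zero, zero_add, ZMod.natCast_self, zero_mul] at h1
  rcases mul_eq_zero.mp h1 with h | h
  · exact hm ((ZMod.natCast_eq_zero_iff m p).mp h)
  · exact hs h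

/-- [SI-Z2a] two-element (Z)-step, split form. -/
theorem zStepA (_hp2 : p ≠ 2) (hZ : ZStatement p) (hK : KummerStatement p) :
    ZStepAStatement p := by
  intro F _ _ ζ hζ a u ha hu Z
  classical
  have hpP : p.Prime := Fact.out
  have ha0 : a ≠ 0 := by
    rintro rfl
    exact ha 0 (zero_pow hpP.ne_zero)
  have hu0 : u ≠ 0 := by
    rintro rfl
    exact hu 0 0 (by rw [zero_pow hpP.ne_zero, mul_zero])
  obtain ⟨M, _, _, _, θ, σ, hGal, hdeg, hθ, hσ, hKum⟩ := hK F ζ hζ a ha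
  have hζM : IsPrimitiveRoot (algebraMap F M ζ) p :=
    hζ.map_of_injective (algebraMap F M).injective
  have huM : ∀ b : M, b ^ p ≠ algebraMap F M u := by
    intro b hb
    obtain ⟨k, f, hkf⟩ := hKum u ⟨b, hb⟩
    exact hu k f hkf.symm
  obtain ⟨ZM, hZM⟩ := exists_finset_above (M := M)
    (Z ∪ (finite_ord_ne_zero a).toFinset ∪ (finite_ord_ne_zero u).toFinset)
  obtain ⟨Q, hQZ, hQp, hQu, hQN, hQs⟩ :=
    hZ M (algebraMap F M ζ) hζM (algebraMap F M u) huM ZM
  obtain ⟨q, hQq⟩ := GalPl.exists_below (F := F) Q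
  have hqZ' : q ∉ Z ∪ (finite_ord_ne_zero a).toFinset ∪ (finite_ord_ne_zero u).toFinset :=
    fun h => hQZ (hZM Q q hQq h)
  simp only [Finset.mem_union, Set.Finite.mem_toFinset, Set.mem_ofPred_eq, not_or, not_not]
    at hqZ'
  obtain ⟨⟨hqZ, hqa⟩, hqu⟩ := hqZ'
  obtain ⟨hqp, hqN, hsym⟩ := descend hζ Q q hQq hQp hQN
  refine ⟨q, hqZ, hqp, hqa, hqu, hqN, ?_, ?_⟩
  · rw [← hsym a ha0 hqa]
    have ha0M : algebraMap F M a ≠ 0 := (map_ne_zero _).mpr ha0
    rw [SymBasic.sym_eq_zero_iff hζM Q hQp ha0M (ord_algebraMap_eq_zero Q q hQq ha0 hqa)]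
    exact ⟨θ, by rw [hθ]; exact SymBasic.congMod_refl Q _⟩
  · rw [← hsym u hu0 hqu]
    exact hQs

/-- [SI-Z2b] two-element (Z)-step, non-split form. -/
theorem zStepB (_hp2 : p ≠ 2) (hZ : ZStatement p) (hK : KummerStatement p) :
    ZStepBStatement p := by
  intro F _ _ ζ hζ η u hη hu Z
  classical
  have hpP : p.Prime := Fact.out
  have hη0 : η ≠ 0 := by
    rintro rfl
    exact hη 0 (zero_pow hpP.ne_zero)
  have hu0 : u ≠ 0 := by
    rintro rfl
    exact hu 0 (zero_pow hpP.ne_zero)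
  -- the dependent case
  have dep : ∀ (m k : ℕ) (f : F), η ^ m = u ^ k * f ^ p → ¬ p ∣ m → f ≠ 0 →
      ∃ q : Pl F, q ∉ Z ∧ ¬ Above p q ∧ ord q η = 0 ∧ ord q u = 0 ∧ (nrm q).Prime ∧
        sym p ζ q η ≠ 0 ∧ sym p ζ q u ≠ 0 := by
    intro m k f hrel hm hf0
    obtain ⟨q, hqZ', hqp, hqη, hqN, hqs⟩ :=
      hZ F ζ hζ η hη (Z ∪ (finite_ord_ne_zero u).toFinset)
    simp only [Finset.mem_union, Set.Finite.mem_toFinset, Set.mem_ofPred_eq, not_or, not_not]
      at hqZ'
    obtain ⟨hqZ, hqu⟩ := hqZ'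
    exact ⟨q, hqZ, hqp, hqη, hqu, hqN, hqs,
      sym_ne_zero_of_rel hζ q hqp hrel hm hη0 hu0 hf0 hqη hqu hqs⟩
  by_cases hc : ∃ b : F, b ^ p = u / η
  · obtain ⟨b, hb⟩ := hc
    have hb0 : b ≠ 0 := by
      rintro rfl
      rw [zero_pow hpP.ne_zero] at hb
      exact (div_ne_zero hu0 hη0) hb.symm
    refine dep 1 1 b⁻¹ ?_ ?_ (inv_ne_zero hb0)
    · rw [pow_one, pow_one, inv_pow, hb]
      field_simp
    · intro h
      exact hpP.one_lt.ne' (Nat.dvd_one.mp h)
  · have hc' : ∀ b : F, b ^ p ≠ u / η := fun b hb => hc ⟨b, hb⟩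
    obtain ⟨M, _, _, _, θ, σ, hGal, hdeg, hθ, hσ, hKum⟩ := hK F ζ hζ (u / η) hc'
    by_cases hηM : ∃ m : M, m ^ p = algebraMap F M η
    · obtain ⟨k, f, hkf⟩ := hKum η hηM
      have hf0 : f ≠ 0 := by
        rintro rfl
        rw [zero_pow hpP.ne_zero, mul_zero] at hkf
        exact hη0 hkf
      have hrel : η ^ (k + 1) = u ^ k * f ^ p := by
        have h1 : η ^ (k + 1) = η ^ k * ((u / η) ^ k * f ^ p) := by
          rw [pow_succ, ← hkf]
        rw [h1, div_pow]
        field_simp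
      refine dep (k + 1) k f hrel ?_ hf0
      rintro ⟨t, ht⟩
      apply hu ((u / η) ^ t * f)
      have h2 : u = η * (u / η) := by field_simp
      rw [mul_pow, ← pow_mul, mul_comm t p, ← ht, pow_succ, mul_right_comm, ← hkf]
      exact h2.symm
    · have hηM' : ∀ b : M, b ^ p ≠ algebraMap F M η := fun b hb => hηM ⟨b, hb⟩
      have hζM : IsPrimitiveRoot (algebraMap F M ζ) p :=
        hζ.map_of_injective (algebraMap F M).injective
      obtain ⟨ZM, hZM⟩ := exists_finset_above (M := M)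
        (Z ∪ (finite_ord_ne_zero η).toFinset ∪ (finite_ord_ne_zero u).toFinset)
      obtain ⟨Q, hQZ, hQp, hQη, hQN, hQs⟩ :=
        hZ M (algebraMap F M ζ) hζM (algebraMap F M η) hηM' ZM
      obtain ⟨q, hQq⟩ := GalPl.exists_below (F := F) Q
      have hqZ' : q ∉ Z ∪ (finite_ord_ne_zero η).toFinset ∪ (finite_ord_ne_zero u).toFinset :=
        fun h => hQZ (hZM Q q hQq h)
      simp only [Finset.mem_union, Set.Finite.mem_toFinset, Set.mem_ofPred_eq, not_or, not_not]
        at hqZ'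
      obtain ⟨⟨hqZ, hqη⟩, hqu⟩ := hqZ'
      obtain ⟨hqp, hqN, hsym⟩ := descend hζ Q q hQq hQp hQN
      refine ⟨q, hqZ, hqp, hqη, hqu, hqN, ?_, ?_⟩
      · rw [← hsym η hη0 hqη]
        exact hQs
      · rw [← hsym u hu0 hqu]
        have hcu : ord q (u / η) = 0 := by
          rw [OrdBasic.ord_div q hu0 hη0, hqu, hqη, sub_zero]
        have hc0 : u / η ≠ 0 := div_ne_zero hu0 hη0
        have hθp0 : θ ^ p ≠ 0 := by
          rw [hθ]
          exact (map_ne_zero _).mpr hc0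
        have hθpord : ord Q (θ ^ p) = 0 := by
          rw [hθ]
          exact ord_algebraMap_eq_zero Q q hQq hc0 hcu
        have hη0M : algebraMap F M η ≠ 0 := (map_ne_zero _).mpr hη0
        have hsθ : sym p (algebraMap F M ζ) Q (θ ^ p) = 0 := by
          rw [SymBasic.sym_eq_zero_iff hζM Q hQp hθp0 hθpord]
          exact ⟨θ, SymBasic.congMod_refl Q _⟩
        have hu' : algebraMap F M u = algebraMap F M η * θ ^ p := by
          rw [hθ, ← map_mul]
          congr 1
          field_simp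
        rw [hu', SymBasic.sym_mul hζM Q hQp hη0M hθp0
          (ord_algebraMap_eq_zero Q q hQq hη0 hqη) hθpord, hsθ, add_zero]
        exact hQs

end Fermat.Agent.S14C.ZStepB
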